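/-
Program F (S55, Poitou–Tate), chapter FG, block "Tate infrastructure" (helper3), file T0.

Concrete description of Mathlib's Tate cohomology (`tateCohomology M n`, `M : Rep R G`, `G` finite)
in the two degrees that Mathlib leaves out (`n = 0` and `n = -1`):

* `zeroπ M : M.ρ.invariants →ₗ[R] tateCohomology M 0` is surjective with kernel the norms
  (`zeroπ_surjective`, `zeroπ_eq_zero_iff`, `ker_zeroπ`), natural in `M` (`map_zeroπ`), hence
  `zeroEquiv M : (M.ρ.invariants ⧸ range (normInv M)) ≃ₗ[R] tateCohomology M 0` and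
  `isZero_tate_zero_iff : IsZero (tateCohomology M 0) ↔ ∀ m ∈ M.ρ.invariants, ∃ x, M.ρ.norm x = m`.
* `negOneπ M : LinearMap.ker M.ρ.norm →ₗ[R] tateCohomology M (-1)` is surjective with kernel the
  augmentation part `Representation.Coinvariants.ker M.ρ` (`negOneπ_surjective`,
  `negOneπ_eq_zero_iff`, `ker_negOneπ`), natural in `M` (`map_negOneπ`), hence `negOneEquiv` and
  `isZero_tate_neg_one_iff :
    IsZero (tateCohomology M (-1)) ↔ ∀ m, M.ρ.norm m = 0 → m ∈ Representation.Coinvariants.ker M.ρ`.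

The natural isomorphisms with the homology of the concrete three-term complexes
`M --N--> M --d₀₁--> (G → M)` and `(G →₀ M) --d₁₀--> M --N--> M` are `tateZeroNatIso`,
`tateNegOneNatIso`.  The general lemmas `homologyMk…` describe the homology of a short complex of
modules by elements.
-/
import Mathlib

set_option autoImplicit false

namespace Fermat.Agent.PT.FG.TateLow3

open CategoryTheory groupCohomology groupHomology

universe u v

/-! ### Homology of a short complex of modules, by elements -/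

section General

variable {R : Type u} [Ring R] (S : ShortComplex (ModuleCat.{v} R))

/-- The class in `S.homology` of an element of `ker S.g`. -/
noncomputable def homologyMk : LinearMap.ker S.g.hom →ₗ[R] S.homology :=
  S.moduleCatHomologyIso.inv.hom ∘ₗ (LinearMap.range S.moduleCatToCycles).mkQ

lemma homologyMk_surjective : Function.Surjective (homologyMk S) := by
  intro y
  obtain ⟨x, hx⟩ := Submodule.mkQ_surjective _ (S.moduleCatHomologyIso.hom.hom y)
  refine ⟨x, ?_⟩
  change S.moduleCatHomologyIso.inv.hom ((LinearMap.range S.moduleCatToCycles).mkQ x) = y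
  rw [hx]
  exact S.moduleCatHomologyIso.hom_inv_id_apply y

lemma homologyMk_eq_zero_iff (x : LinearMap.ker S.g.hom) :
    homologyMk S x = 0 ↔ ∃ y : S.X₁, S.f.hom y = x.1 := by
  have hinj : Function.Injective S.moduleCatHomologyIso.inv.hom :=
    (ModuleCat.mono_iff_injective _).1 inferInstance
  have key : homologyMk S x = 0 ↔ (LinearMap.range S.moduleCatToCycles).mkQ x = 0 := by
    constructor
    · intro h
      exact hinj (h.trans (map_zero S.moduleCatHomologyIso.inv.hom).symm)
    · intro h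
      change S.moduleCatHomologyIso.inv.hom ((LinearMap.range S.moduleCatToCycles).mkQ x) = 0
      exact (congrArg S.moduleCatHomologyIso.inv.hom h).trans
        (map_zero S.moduleCatHomologyIso.inv.hom)
  rw [key, Submodule.mkQ_apply, Submodule.Quotient.mk_eq_zero, LinearMap.mem_range]
  constructor
  · rintro ⟨y, hy⟩
    exact ⟨y, congrArg Subtype.val hy⟩
  · rintro ⟨y, hy⟩
    exact ⟨y, Subtype.ext hy⟩

lemma homologyMk_eq_π (x : LinearMap.ker S.g.hom) :
    homologyMk S x = S.homologyπ.hom (S.moduleCatCyclesIso.inv.hom x) := by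
  have := congr(($(S.moduleCatCyclesIso_inv_π)).hom x)
  exact this.symm

variable {S} {S' : ShortComplex (ModuleCat.{v} R)} (φ : S ⟶ S')

lemma map_mem_ker (x : LinearMap.ker S.g.hom) : φ.τ₂.hom x.1 ∈ LinearMap.ker S'.g.hom := by
  have h := congr(($(φ.comm₂₃)).hom x.1)
  rw [LinearMap.mem_ker]
  change (φ.τ₂ ≫ S'.g).hom x.1 = 0
  rw [h]
  change φ.τ₃.hom (S.g.hom x.1) = 0
  rw [x.2, map_zero]

/-- `homologyMap` on classes of cycles. -/
lemma homologyMap_homologyMk (x : LinearMap.ker S.g.hom) :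
    (ShortComplex.homologyMap φ).hom (homologyMk S x) =
      homologyMk S' ⟨φ.τ₂.hom x.1, map_mem_ker φ x⟩ := by
  rw [homologyMk_eq_π, homologyMk_eq_π]
  have h1 := congr(($(ShortComplex.homologyπ_naturality φ)).hom (S.moduleCatCyclesIso.inv.hom x))
  change (ShortComplex.homologyMap φ).hom (S.homologyπ.hom _) = S'.homologyπ.hom
    ((ShortComplex.cyclesMap φ).hom _) at h1
  rw [h1]
  congr 1
  have hinj : Function.Injective S'.iCycles.hom :=
    (ModuleCat.mono_iff_injective _).1 inferInstance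
  apply hinj
  have h2 := congr(($(ShortComplex.cyclesMap_i φ)).hom (S.moduleCatCyclesIso.inv.hom x))
  change S'.iCycles.hom ((ShortComplex.cyclesMap φ).hom _) = φ.τ₂.hom (S.iCycles.hom _) at h2
  rw [h2]
  have h3 := congr(($(S.moduleCatCyclesIso_inv_iCycles)).hom x)
  have h4 := congr(($(S'.moduleCatCyclesIso_inv_iCycles)).hom ⟨φ.τ₂.hom x.1, map_mem_ker φ x⟩)
  change S.iCycles.hom (S.moduleCatCyclesIso.inv.hom x) = x.1 at h3
  change S'.iCycles.hom (S'.moduleCatCyclesIso.inv.hom _) = φ.τ₂.hom x.1 at h4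
  rw [h3, h4]

end General

/-! ### The two concrete three-term complexes -/

variable {R G : Type u} [CommRing R] [Group G] [Fintype G] (M : Rep.{u} R G) {X Y : Rep.{u} R G}

/-- The concrete short complex `M --N--> M --d₀₁--> (G → M)` computing `Ĥ⁰`. -/
noncomputable def scZero : ShortComplex (ModuleCat R) :=
  ShortComplex.mk M.norm.toModuleCatHom (d₀₁ M) (Rep.norm_comp_d_eq_zero M)

/-- The concrete short complex `(G →₀ M) --d₁₀--> M --N--> M` computing `Ĥ⁻¹`. -/
noncomputable def scNegOne : ShortComplex (ModuleCat R) :=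
  ShortComplex.mk (d₁₀ M) M.norm.toModuleCatHom (Rep.comp_eq_zero M)

/-- Degrees `-1, 0, 1` of the Tate complex are the concrete complex `scZero`. -/
noncomputable def isoScZero : (tateComplex M).sc' (-1) 0 1 ≅ scZero M :=
  ShortComplex.isoMk (chainsIso₀ M) (cochainsIso₀ M) (cochainsIso₁ M)
    (by
      change _ = M.tateNorm ≫ _
      simp [scZero, Rep.tateNorm]
      rfl)
    (by
      change _ = (inhomogeneousCochains M).d 0 1 ≫ _
      exact comp_d₀₁_eq M)

/-- Degrees `-2, -1, 0` of the Tate complex are the concrete complex `scNegOne`. -/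
noncomputable def isoScNegOne : (tateComplex M).sc' (-2) (-1) 0 ≅ scNegOne M :=
  ShortComplex.isoMk (chainsIso₁ M) (chainsIso₀ M) (cochainsIso₀ M)
    (by
      change _ = (inhomogeneousChains M).d 1 0 ≫ _
      exact comp_d₁₀_eq M)
    (by
      change _ = M.tateNorm ≫ _
      simp [scNegOne, Rep.tateNorm]
      rfl)

lemma toModuleCatHom_norm_comm (f : X ⟶ Y) :
    f.toModuleCatHom ≫ Y.norm.toModuleCatHom = X.norm.toModuleCatHom ≫ f.toModuleCatHom := by
  ext x
  exact congr(($(Rep.norm_comm f)).hom x)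

/-- Functoriality of `scZero`. -/
noncomputable def scZeroMap (f : X ⟶ Y) : scZero X ⟶ scZero Y where
  τ₁ := f.toModuleCatHom
  τ₂ := f.toModuleCatHom
  τ₃ := cochainsMap₁ (MonoidHom.id G) f
  comm₁₂ := toModuleCatHom_norm_comm f
  comm₂₃ := by
    refine ModuleCat.hom_ext (LinearMap.ext fun (x : X.V) => funext fun g => ?_)
    change Y.ρ g (f.hom x) - f.hom x = f.hom (X.ρ g x - x)
    rw [map_sub, Rep.hom_comm_apply]

/-- Functoriality of `scNegOne`. -/
noncomputable def scNegOneMap (f : X ⟶ Y) : scNegOne X ⟶ scNegOne Y where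
  τ₁ := chainsMap₁ (MonoidHom.id G) f
  τ₂ := f.toModuleCatHom
  τ₃ := f.toModuleCatHom
  comm₁₂ := by
    simp only [scNegOne]
    ext : 3
    simpa [d₁₀] using (Rep.hom_comm_apply f _ _).symm
  comm₂₃ := toModuleCatHom_norm_comm f

lemma isoScZero_naturality (f : X ⟶ Y) :
    (HomologicalComplex.shortComplexFunctor' (ModuleCat R) (ComplexShape.up ℤ) (-1) 0 1).map
        (tateComplex.map f) ≫ (isoScZero Y).hom = (isoScZero X).hom ≫ scZeroMap f := by
  refine ShortComplex.hom_ext _ _ ?_ ?_ ?_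
  · exact chainsMap_f_0_comp_chainsIso₀ (MonoidHom.id G) f
  · exact cochainsMap_f_0_comp_cochainsIso₀ (MonoidHom.id G) f
  · exact cochainsMap_f_1_comp_cochainsIso₁ (MonoidHom.id G) f

lemma isoScNegOne_naturality (f : X ⟶ Y) :
    (HomologicalComplex.shortComplexFunctor' (ModuleCat R) (ComplexShape.up ℤ) (-2) (-1) 0).map
        (tateComplex.map f) ≫ (isoScNegOne Y).hom = (isoScNegOne X).hom ≫ scNegOneMap f := by
  refine ShortComplex.hom_ext _ _ ?_ ?_ ?_
  · exact chainsMap_f_1_comp_chainsIso₁ (MonoidHom.id G) f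
  · exact chainsMap_f_0_comp_chainsIso₀ (MonoidHom.id G) f
  · exact cochainsMap_f_0_comp_cochainsIso₀ (MonoidHom.id G) f

variable (R G) in
/-- `M ↦ (M --N--> M --d₀₁--> (G → M))` as a functor. -/
noncomputable def scZeroFunctor : Rep.{u} R G ⥤ ShortComplex (ModuleCat.{u} R) where
  obj := scZero
  map := scZeroMap
  map_id _ := rfl
  map_comp _ _ := rfl

variable (R G) in
/-- `M ↦ ((G →₀ M) --d₁₀--> M --N--> M)` as a functor. -/
noncomputable def scNegOneFunctor : Rep.{u} R G ⥤ ShortComplex (ModuleCat.{u} R) where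
  obj := scNegOne
  map := scNegOneMap
  map_id X := by
    refine ShortComplex.hom_ext _ _ ?_ rfl rfl
    simp only [scNegOne, scNegOneMap]
    ext
    simp
  map_comp f g := by
    refine ShortComplex.hom_ext _ _ ?_ rfl rfl
    simp only [scNegOne, scNegOneMap]
    ext
    simp

variable (R G) in
/-- `Ĥ⁰(G, -)` is naturally the homology of `M --N--> M --d₀₁--> (G → M)`. -/
noncomputable def tateZeroNatIso :
    tateCohomologyFunctor (R := R) (G := G) 0 ≅
      scZeroFunctor R G ⋙ ShortComplex.homologyFunctor (ModuleCat.{u} R) :=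
  Functor.isoWhiskerLeft (tateComplexFunctor R G)
    (HomologicalComplex.homologyFunctorIso' (ModuleCat R) (ComplexShape.up ℤ) (-1) 0 1
      (by simp) (by simp)) ≪≫ (Functor.associator _ _ _).symm ≪≫
    Functor.isoWhiskerRight
      (NatIso.ofComponents (fun M => isoScZero M) (fun f => isoScZero_naturality f)) _

variable (R G) in
/-- `Ĥ⁻¹(G, -)` is naturally the homology of `(G →₀ M) --d₁₀--> M --N--> M`. -/
noncomputable def tateNegOneNatIso :
    tateCohomologyFunctor (R := R) (G := G) (-1) ≅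
      scNegOneFunctor R G ⋙ ShortComplex.homologyFunctor (ModuleCat.{u} R) :=
  Functor.isoWhiskerLeft (tateComplexFunctor R G)
    (HomologicalComplex.homologyFunctorIso' (ModuleCat R) (ComplexShape.up ℤ) (-2) (-1) 0
      (by simp) (by simp)) ≪≫ (Functor.associator _ _ _).symm ≪≫
    Functor.isoWhiskerRight
      (NatIso.ofComponents (fun M => isoScNegOne M) (fun f => isoScNegOne_naturality f)) _

/-! ### Degree `0`: `Ĥ⁰(G, M) = M^G / N M` -/

/-- The isomorphism `Ĥ⁰(G, M) ≅ H(M --N--> M --d₀₁--> (G → M))`. -/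
noncomputable def tateZeroIso : tateCohomology M 0 ≅ (scZero M).homology :=
  (tateZeroNatIso R G).app M

lemma tateZeroIso_naturality (f : X ⟶ Y) :
    (tateCohomologyFunctor 0).map f ≫ (tateZeroIso Y).hom =
      (tateZeroIso X).hom ≫ ShortComplex.homologyMap (scZeroMap f) :=
  (tateZeroNatIso R G).hom.naturality f

lemma mem_ker_scZero_g_iff (m : M.V) :
    m ∈ LinearMap.ker (scZero M).g.hom ↔ m ∈ M.ρ.invariants := by
  change m ∈ LinearMap.ker (d₀₁ M).hom ↔ _
  rw [d₀₁_ker_eq_invariants]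

/-- The canonical map `M^G → Ĥ⁰(G, M)`. -/
noncomputable def zeroπ : M.ρ.invariants →ₗ[R] tateCohomology M 0 :=
  (tateZeroIso M).inv.hom ∘ₗ homologyMk (scZero M) ∘ₗ
    (LinearMap.id.restrict (p := M.ρ.invariants) (q := LinearMap.ker (scZero M).g.hom)
      (fun m hm => (mem_ker_scZero_g_iff M m).2 hm))

lemma zeroπ_apply (m : M.ρ.invariants) :
    zeroπ M m = (tateZeroIso M).inv.hom
      (homologyMk (scZero M) ⟨m.1, (mem_ker_scZero_g_iff M m.1).2 m.2⟩) := rfl

lemma zeroπ_surjective : Function.Surjective (zeroπ M) := by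
  intro y
  obtain ⟨x, hx⟩ := homologyMk_surjective (scZero M) ((tateZeroIso M).hom.hom y)
  refine ⟨⟨x.1, (mem_ker_scZero_g_iff M x.1).1 x.2⟩, ?_⟩
  rw [zeroπ_apply]
  change (tateZeroIso M).inv.hom (homologyMk (scZero M) x) = y
  rw [hx]
  exact (tateZeroIso M).hom_inv_id_apply y

lemma zeroπ_eq_zero_iff (m : M.ρ.invariants) :
    zeroπ M m = 0 ↔ ∃ x : M.V, M.ρ.norm x = m.1 := by
  have hinj : Function.Injective (tateZeroIso M).inv.hom :=
    (ModuleCat.mono_iff_injective _).1 inferInstance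
  rw [zeroπ_apply, ← map_zero (tateZeroIso M).inv.hom, hinj.eq_iff, homologyMk_eq_zero_iff]
  rfl

/-- The norm, as a linear map into the invariants. -/
noncomputable def normInv : M.V →ₗ[R] M.ρ.invariants :=
  M.ρ.norm.codRestrict _ (fun x g => M.ρ.self_norm_apply g x)

@[simp] lemma normInv_coe (x : M.V) : (normInv M x : M.V) = M.ρ.norm x := rfl

lemma ker_zeroπ : LinearMap.ker (zeroπ M) = LinearMap.range (normInv M) := by
  ext m
  rw [LinearMap.mem_ker, zeroπ_eq_zero_iff, LinearMap.mem_range]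
  constructor
  · rintro ⟨x, hx⟩
    exact ⟨x, Subtype.ext hx⟩
  · rintro ⟨x, hx⟩
    exact ⟨x, congrArg Subtype.val hx⟩

/-- `Ĥ⁰(G, M) = M^G / N M`. -/
noncomputable def zeroEquiv :
    (M.ρ.invariants ⧸ LinearMap.range (normInv M)) ≃ₗ[R] tateCohomology M 0 :=
  (Submodule.quotEquivOfEq _ _ (ker_zeroπ M).symm).trans
    ((zeroπ M).quotKerEquivOfSurjective (zeroπ_surjective M))

@[simp] lemma zeroEquiv_mk (m : M.ρ.invariants) :
    zeroEquiv M (Submodule.Quotient.mk m) = zeroπ M m := rfl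

/-- Naturality of `zeroπ`. -/
lemma map_zeroπ (f : X ⟶ Y) (m : X.ρ.invariants) (h : f.hom m.1 ∈ Y.ρ.invariants) :
    ((tateCohomologyFunctor 0).map f).hom (zeroπ X m) = zeroπ Y ⟨f.hom m.1, h⟩ := by
  rw [zeroπ_apply, zeroπ_apply]
  have h1 := congr(($(tateZeroIso_naturality f)).hom ((tateZeroIso X).inv.hom
    (homologyMk (scZero X) ⟨m.1, (mem_ker_scZero_g_iff X m.1).2 m.2⟩)))
  have hinj : Function.Injective (tateZeroIso Y).hom.hom :=
    (ModuleCat.mono_iff_injective _).1 inferInstance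
  apply hinj
  refine h1.trans ?_
  change (ShortComplex.homologyMap (scZeroMap f)).hom ((tateZeroIso X).hom.hom
    ((tateZeroIso X).inv.hom _)) = (tateZeroIso Y).hom.hom ((tateZeroIso Y).inv.hom _)
  rw [(tateZeroIso X).inv_hom_id_apply, (tateZeroIso Y).inv_hom_id_apply, homologyMap_homologyMk]
  rfl

/-- `Ĥ⁰(G, M) = 0` iff every invariant is a norm. -/
theorem isZero_tate_zero_iff :
    Limits.IsZero (tateCohomology M 0) ↔ ∀ m ∈ M.ρ.invariants, ∃ x : M.V, M.ρ.norm x = m := by
  rw [ModuleCat.isZero_iff_subsingleton]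
  constructor
  · intro h m hm
    exact (zeroπ_eq_zero_iff M ⟨m, hm⟩).1 (Subsingleton.elim _ _)
  · intro h
    refine ⟨fun a b => ?_⟩
    obtain ⟨x, rfl⟩ := zeroπ_surjective M a
    obtain ⟨y, rfl⟩ := zeroπ_surjective M b
    rw [(zeroπ_eq_zero_iff M x).2 (h x.1 x.2), (zeroπ_eq_zero_iff M y).2 (h y.1 y.2)]

/-! ### Degree `-1`: `Ĥ⁻¹(G, M) = ker N / I_G M` -/

/-- The isomorphism `Ĥ⁻¹(G, M) ≅ H((G →₀ M) --d₁₀--> M --N--> M)`. -/
noncomputable def tateNegOneIso : tateCohomology M (-1) ≅ (scNegOne M).homology :=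
  (tateNegOneNatIso R G).app M

lemma tateNegOneIso_naturality (f : X ⟶ Y) :
    (tateCohomologyFunctor (-1)).map f ≫ (tateNegOneIso Y).hom =
      (tateNegOneIso X).hom ≫ ShortComplex.homologyMap (scNegOneMap f) :=
  (tateNegOneNatIso R G).hom.naturality f

lemma mem_ker_scNegOne_g_iff (m : M.V) :
    m ∈ LinearMap.ker (scNegOne M).g.hom ↔ m ∈ LinearMap.ker M.ρ.norm := Iff.rfl

/-- The canonical map `ker N → Ĥ⁻¹(G, M)`. -/
noncomputable def negOneπ : LinearMap.ker M.ρ.norm →ₗ[R] tateCohomology M (-1) :=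
  (tateNegOneIso M).inv.hom ∘ₗ homologyMk (scNegOne M) ∘ₗ
    (LinearMap.id.restrict (p := LinearMap.ker M.ρ.norm)
      (q := LinearMap.ker (scNegOne M).g.hom)
      (fun m hm => (mem_ker_scNegOne_g_iff M m).2 hm))

lemma negOneπ_apply (m : LinearMap.ker M.ρ.norm) :
    negOneπ M m = (tateNegOneIso M).inv.hom
      (homologyMk (scNegOne M) ⟨m.1, (mem_ker_scNegOne_g_iff M m.1).2 m.2⟩) := rfl

lemma negOneπ_surjective : Function.Surjective (negOneπ M) := by
  intro y
  obtain ⟨x, hx⟩ := homologyMk_surjective (scNegOne M) ((tateNegOneIso M).hom.hom y)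
  refine ⟨⟨x.1, (mem_ker_scNegOne_g_iff M x.1).1 x.2⟩, ?_⟩
  rw [negOneπ_apply]
  change (tateNegOneIso M).inv.hom (homologyMk (scNegOne M) x) = y
  rw [hx]
  exact (tateNegOneIso M).hom_inv_id_apply y

lemma negOneπ_eq_zero_iff (m : LinearMap.ker M.ρ.norm) :
    negOneπ M m = 0 ↔ m.1 ∈ Representation.Coinvariants.ker M.ρ := by
  have hinj : Function.Injective (tateNegOneIso M).inv.hom :=
    (ModuleCat.mono_iff_injective _).1 inferInstance
  rw [negOneπ_apply, ← map_zero (tateNegOneIso M).inv.hom, hinj.eq_iff, homologyMk_eq_zero_iff,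
    ← range_d₁₀_eq_coinvariantsKer, LinearMap.mem_range]
  rfl

lemma ker_negOneπ :
    LinearMap.ker (negOneπ M) =
      (Representation.Coinvariants.ker M.ρ).comap (LinearMap.ker M.ρ.norm).subtype := by
  ext m
  rw [LinearMap.mem_ker, negOneπ_eq_zero_iff, Submodule.mem_comap]
  rfl

/-- `Ĥ⁻¹(G, M) = ker N / I_G M`. -/
noncomputable def negOneEquiv :
    (LinearMap.ker M.ρ.norm ⧸
      (Representation.Coinvariants.ker M.ρ).comap (LinearMap.ker M.ρ.norm).subtype) ≃ₗ[R]
      tateCohomology M (-1) :=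
  (Submodule.quotEquivOfEq _ _ (ker_negOneπ M).symm).trans
    ((negOneπ M).quotKerEquivOfSurjective (negOneπ_surjective M))

@[simp] lemma negOneEquiv_mk (m : LinearMap.ker M.ρ.norm) :
    negOneEquiv M (Submodule.Quotient.mk m) = negOneπ M m := rfl

/-- Naturality of `negOneπ`. -/
lemma map_negOneπ (f : X ⟶ Y) (m : LinearMap.ker X.ρ.norm)
    (h : f.hom m.1 ∈ LinearMap.ker Y.ρ.norm) :
    ((tateCohomologyFunctor (-1)).map f).hom (negOneπ X m) = negOneπ Y ⟨f.hom m.1, h⟩ := by
  rw [negOneπ_apply, negOneπ_apply]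
  have h1 := congr(($(tateNegOneIso_naturality f)).hom ((tateNegOneIso X).inv.hom
    (homologyMk (scNegOne X) ⟨m.1, (mem_ker_scNegOne_g_iff X m.1).2 m.2⟩)))
  have hinj : Function.Injective (tateNegOneIso Y).hom.hom :=
    (ModuleCat.mono_iff_injective _).1 inferInstance
  apply hinj
  refine h1.trans ?_
  change (ShortComplex.homologyMap (scNegOneMap f)).hom ((tateNegOneIso X).hom.hom
    ((tateNegOneIso X).inv.hom _)) = (tateNegOneIso Y).hom.hom ((tateNegOneIso Y).inv.hom _)
  rw [(tateNegOneIso X).inv_hom_id_apply, (tateNegOneIso Y).inv_hom_id_apply,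
    homologyMap_homologyMk]
  rfl

/-- A morphism of representations maps `ker N` to `ker N`. -/
lemma map_mem_ker_norm (f : X ⟶ Y) {m : X.V} (hm : m ∈ LinearMap.ker X.ρ.norm) :
    f.hom m ∈ LinearMap.ker Y.ρ.norm := by
  have h := congr(($(Rep.norm_comm f)).hom m)
  rw [LinearMap.mem_ker] at hm ⊢
  change Y.ρ.norm (f.hom m) = f.hom (X.ρ.norm m) at h
  rw [h, hm, map_zero]

omit [Fintype G] in
/-- A morphism of representations maps invariants to invariants. -/
lemma map_mem_invariants (f : X ⟶ Y) {m : X.V} (hm : m ∈ X.ρ.invariants) :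
    f.hom m ∈ Y.ρ.invariants := by
  intro g
  rw [← Rep.hom_comm_apply, hm g]

/-- `Ĥ⁻¹(G, M) = 0` iff every element of norm `0` lies in the augmentation part `I_G M`. -/
theorem isZero_tate_neg_one_iff :
    Limits.IsZero (tateCohomology M (-1)) ↔
      ∀ m : M.V, M.ρ.norm m = 0 → m ∈ Representation.Coinvariants.ker M.ρ := by
  rw [ModuleCat.isZero_iff_subsingleton]
  constructor
  · intro h m hm
    exact (negOneπ_eq_zero_iff M ⟨m, hm⟩).1 (Subsingleton.elim _ _)
  · intro h
    refine ⟨fun a b => ?_⟩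
    obtain ⟨x, rfl⟩ := negOneπ_surjective M a
    obtain ⟨y, rfl⟩ := negOneπ_surjective M b
    rw [(negOneπ_eq_zero_iff M x).2 (h x.1 x.2), (negOneπ_eq_zero_iff M y).2 (h y.1 y.2)]

end Fermat.Agent.PT.FG.TateLow3
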