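/-
Program F (S55, Poitou–Tate), chapter FG, block "Tate infrastructure" (helper3), file T1.

Modules (co)induced from the trivial subgroup are Tate-acyclic in every degree, for every subgroup.

* `coind₁Rep G A : Representation R G (G → A)`, `(g • f) x = f (x * g)`, and
  `coind₁ R G A : Rep R G`; functorial in `A` (`coind₁Map`).
* `coind₁IsoCoind : coind₁ R G A ≅ Rep.coind (⊥ : Subgroup G).subtype (Rep.trivial R ⊥ A)`.
* `resCoind₁Iso H : Rep.res H.subtype (coind₁ R G A) ≅ coind₁ R H ((G ⧸ H) → A)`.
* `isZero_tate_coind₁ (n : ℤ) : IsZero (tateCohomology (coind₁ R G A) n)` (`G` finite).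
* `isZero_tate_res_coind₁ (H : Subgroup G) [Fintype H] (n : ℤ) :
    IsZero (tateCohomology (Rep.res H.subtype (coind₁ R G A)) n)`.
* `isZero_tate_of_iso`, `isZero_tate_res_of_iso`: transport along isomorphisms.

Degrees `n ≥ 1` use Mathlib's Shapiro lemma `groupCohomology.coindIso`, degrees `n ≤ -2` use
`groupHomology.indIso` and `Rep.indCoindIso`, degrees `0, -1` are done by hand with the criteria of
`TateLow3`.
-/
import Mathlib
import Fermat.Agent.PT.FG.TateLow3

set_option autoImplicit false

namespace Fermat.Agent.PT.FG.TateInduced3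

open CategoryTheory Limits Fermat.Agent.PT.FG.TateLow3

universe u

/-! ### Transport of vanishing along isomorphisms -/

section Transport

variable {R : Type u} [CommRing R] {G : Type u} [Group G] [Fintype G]

lemma isZero_tate_of_iso {M N : Rep.{u} R G} (e : M ≅ N) (n : ℤ)
    (h : IsZero (tateCohomology N n)) : IsZero (tateCohomology M n) :=
  h.of_iso ((tateCohomologyFunctor n).mapIso e)

omit [Fintype G] in
lemma isZero_tate_res_of_iso {M N : Rep.{u} R G} (e : M ≅ N) (H : Subgroup G) [Fintype H] (n : ℤ)
    (h : IsZero (tateCohomology (Rep.res H.subtype N) n)) :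
    IsZero (tateCohomology (Rep.res H.subtype M) n) :=
  h.of_iso ((tateCohomologyFunctor n).mapIso ((Rep.resFunctor H.subtype).mapIso e))

end Transport

/-! ### Mathlib's coinduction from the trivial subgroup: degrees `≥ 1` and `≤ -2` -/

section Shapiro

variable {R : Type u} [CommRing R] {G : Type u} [Group G] [Fintype G]

/-- Positive degrees: Shapiro's lemma. -/
lemma isZero_tate_coind_bot_pos (B : Rep.{u} R (⊥ : Subgroup G)) (n : ℕ) :
    IsZero (tateCohomology (Rep.coind (⊥ : Subgroup G).subtype B) ((n + 1 : ℕ) : ℤ)) := by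
  have h1 : IsZero (groupCohomology B (n + 1)) :=
    isZero_groupCohomology_succ_of_subsingleton B n
  have h2 : IsZero (groupCohomology (Rep.coind (⊥ : Subgroup G).subtype B) (n + 1)) :=
    h1.of_iso (groupCohomology.coindIso B (n + 1))
  exact h2.of_iso ((TateCohomology.isoGroupCohomology (n + 1)).app _)

/-- Degrees `≤ -2`: Shapiro's lemma for homology and `ind ≅ coind`. -/
lemma isZero_tate_coind_bot_neg (B : Rep.{u} R (⊥ : Subgroup G)) (n : ℕ) :
    IsZero (tateCohomology (Rep.coind (⊥ : Subgroup G).subtype B)
      (-((n + 1 : ℕ) + 1 : ℤ))) := by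
  classical
  have h1 : IsZero (groupHomology B (n + 1)) :=
    isZero_groupHomology_succ_of_subsingleton B n
  have h2 : IsZero (groupHomology (Rep.ind (⊥ : Subgroup G).subtype B) (n + 1)) :=
    h1.of_iso (groupHomology.indIso (⊥ : Subgroup G) B (n + 1))
  have h3 : IsZero (groupHomology (Rep.coind (⊥ : Subgroup G).subtype B) (n + 1)) :=
    h2.of_iso ((groupHomology.functor R G (n + 1)).mapIso (Rep.indCoindIso B).symm)
  exact h3.of_iso
    ((TateCohomology.isoGroupHomology (-((n + 1 : ℕ) + 1 : ℤ)) (n + 1) rfl).app _)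

end Shapiro

/-! ### The model `coind₁` -/

variable {R : Type u} [CommRing R] (G : Type u) [Group G]
  (A : Type u) [AddCommGroup A] [Module R A]

/-- The right-translation representation of `G` on functions `G → A`:
`(g • f) x = f (x * g)`. -/
def coind₁Rep : Representation R G (G → A) where
  toFun g := LinearMap.funLeft R A (· * g)
  map_one' := by
    ext f x
    simp
  map_mul' g h := by
    ext f x
    simp [mul_assoc]

@[simp] lemma coind₁Rep_apply (g : G) (f : G → A) (x : G) :
    coind₁Rep (R := R) G A g f x = f (x * g) := rfl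

variable (R) in
/-- The module coinduced from the trivial subgroup: functions `G → A`, `(g • f) x = f (x * g)`. -/
noncomputable def coind₁ : Rep.{u} R G := Rep.of (coind₁Rep (R := R) G A)

lemma coind₁_ρ_apply (g : G) (f : G → A) (x : G) :
    (coind₁ R G A).ρ g f x = f (x * g) := rfl

variable {A} in
/-- Functoriality of `coind₁` in the coefficient module. -/
noncomputable def coind₁Map {B : Type u} [AddCommGroup B] [Module R B] (φ : A →ₗ[R] B) :
    coind₁ R G A ⟶ coind₁ R G B :=
  Rep.ofHom ⟨φ.compLeft G, fun g => by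
    ext f x
    rfl⟩

variable {A} in
lemma coind₁Map_apply {B : Type u} [AddCommGroup B] [Module R B] (φ : A →ₗ[R] B)
    (f : G → A) (x : G) : (coind₁Map G φ).hom f x = φ (f x) := rfl

/-- `coind₁` agrees with Mathlib's coinduction from the trivial subgroup. -/
noncomputable def coind₁IsoCoind :
    coind₁ R G A ≅ Rep.coind (⊥ : Subgroup G).subtype (Rep.trivial R (⊥ : Subgroup G) A) :=
  Rep.mkIso (Representation.Equiv.mk
    { toFun := fun f => ⟨f, fun s h => by
        have hs : (s : G) = 1 := Subgroup.mem_bot.1 s.2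
        simp [hs]⟩
      map_add' := fun _ _ => rfl
      map_smul' := fun _ _ => rfl
      invFun := fun f => f.1
      left_inv := fun _ => rfl
      right_inv := fun _ => rfl }
    (fun g => by
      ext f x
      rfl))

/-! ### Restriction to a subgroup -/

variable {G}

lemma out_inv_mul_mem (H : Subgroup G) (x : G) :
    ((QuotientGroup.mk x : G ⧸ H).out)⁻¹ * x ∈ H := by
  rw [← QuotientGroup.eq]
  exact QuotientGroup.out_eq' _

/-- `G → A` as functions on `H` with values in functions on `G ⧸ H`. -/
noncomputable def resLinearEquiv (H : Subgroup G) : (G → A) ≃ₗ[R] (H → (G ⧸ H) → A) where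
  toFun f h q := f (q.out * h)
  map_add' _ _ := rfl
  map_smul' _ _ := rfl
  invFun F x := F ⟨((QuotientGroup.mk x : G ⧸ H).out)⁻¹ * x, out_inv_mul_mem H x⟩
    (QuotientGroup.mk x)
  left_inv f := by
    funext x
    simp
  right_inv F := by
    funext h q
    have hq : (QuotientGroup.mk (q.out * (h : G)) : G ⧸ H) = q := by
      rw [QuotientGroup.mk_mul_of_mem _ h.2]
      exact QuotientGroup.out_eq' q
    have : ∀ (q' : G ⧸ H) (hq' : q' = q) (hmem : q'.out⁻¹ * (q.out * (h : G)) ∈ H),
        F ⟨q'.out⁻¹ * (q.out * (h : G)), hmem⟩ q' = F h q := by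
      intro q' hq' hmem
      subst hq'
      congr 1
      exact Subtype.ext (by simp)
    exact this _ hq _

/-- Restriction of a coinduced module to a subgroup is coinduced. -/
noncomputable def resCoind₁Iso (H : Subgroup G) :
    Rep.res H.subtype (coind₁ R G A) ≅ coind₁ R H ((G ⧸ H) → A) :=
  Rep.mkIso (Representation.Equiv.mk (resLinearEquiv A H)
    (fun g => by
      ext f h q
      change f (q.out * h * g) = f (q.out * (h * g))
      rw [mul_assoc]))

/-! ### Degrees `0` and `-1` by hand -/

variable (G) [Fintype G]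

lemma coind₁Rep_norm_apply (f : G → A) (x : G) :
    (coind₁Rep (R := R) G A).norm f x = ∑ z : G, f z := by
  rw [Representation.norm, LinearMap.sum_apply, Finset.sum_apply]
  simp only [coind₁Rep_apply]
  exact Fintype.sum_bijective (x * ·) (Group.mulLeft_bijective x) _ _ (fun _ => rfl)

lemma coind₁Rep_exists_norm_eq (m : G → A) (hm : m ∈ (coind₁Rep (R := R) G A).invariants) :
    ∃ x : G → A, (coind₁Rep (R := R) G A).norm x = m := by
  classical
  refine ⟨Pi.single 1 (m 1), funext fun y => ?_⟩
  rw [coind₁Rep_norm_apply, Finset.sum_eq_single 1 (fun b _ hb => Pi.single_eq_of_ne hb _)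
    (fun h => (h (Finset.mem_univ _)).elim), Pi.single_eq_same]
  have := congrFun (hm y) 1
  simpa using this.symm

lemma coind₁Rep_mem_coinvariantsKer (m : G → A) (hm : (coind₁Rep (R := R) G A).norm m = 0) :
    m ∈ Representation.Coinvariants.ker (coind₁Rep (R := R) G A) := by
  classical
  have hsum : ∑ z : G, m z = 0 := by
    have := congrFun hm 1
    rwa [coind₁Rep_norm_apply] at this
  have key : m = ∑ z : G,
      (coind₁Rep (R := R) G A z⁻¹ (Pi.single 1 (m z)) - Pi.single 1 (m z)) := by
    funext y
    rw [Finset.sum_apply]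
    simp only [Pi.sub_apply, coind₁Rep_apply, Finset.sum_sub_distrib]
    have h2 : ∑ z : G, (Pi.single (1 : G) (m z) : G → A) y = 0 := by
      by_cases hy : y = 1
      · subst hy
        simpa using hsum
      · exact Finset.sum_eq_zero fun z _ => Pi.single_eq_of_ne hy _
    rw [h2, sub_zero, Finset.sum_eq_single y]
    · simp
    · intro b _ hb
      apply Pi.single_eq_of_ne
      intro h
      exact hb (mul_inv_eq_one.1 h).symm
    · intro h
      exact (h (Finset.mem_univ _)).elim
  rw [key]
  exact Submodule.sum_mem _ fun z _ =>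
    Representation.Coinvariants.mem_ker_of_eq z⁻¹ (Pi.single 1 (m z)) _ rfl

/-! ### Acyclicity -/

/-- `coind₁ R G A` has vanishing Tate cohomology in every degree. -/
theorem isZero_tate_coind₁ (n : ℤ) : IsZero (tateCohomology (coind₁ R G A) n) := by
  obtain (_ | k) | (_ | k) := n
  · exact (isZero_tate_zero_iff (coind₁ R G A)).2 (coind₁Rep_exists_norm_eq G A)
  · exact isZero_tate_of_iso (coind₁IsoCoind G A) _ (isZero_tate_coind_bot_pos _ k)
  · exact (isZero_tate_neg_one_iff (coind₁ R G A)).2 (coind₁Rep_mem_coinvariantsKer G A)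
  · exact isZero_tate_of_iso (coind₁IsoCoind G A) _ (isZero_tate_coind_bot_neg _ k)

variable {G}

omit [Fintype G] in
/-- The restriction of `coind₁ R G A` to any subgroup has vanishing Tate cohomology in every
degree. -/
theorem isZero_tate_res_coind₁ (H : Subgroup G) [Fintype H] (n : ℤ) :
    IsZero (tateCohomology (Rep.res H.subtype (coind₁ R G A)) n) :=
  isZero_tate_of_iso (resCoind₁Iso A H) n (isZero_tate_coind₁ H ((G ⧸ H) → A) n)

end Fermat.Agent.PT.FG.TateInduced3
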