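/-
Program F (S55, Poitou–Tate), chapter FG, block "Tate infrastructure" (helper3), file T2.

Dimension shifting for Mathlib's Tate cohomology, simultaneously for all subgroups.

* LES generalities: `exact₂`, `mono_δ_of_isZero`, `epi_δ_of_isZero`, `isIso_δ_of_isZero`,
  `isIso_map_f_of_isZero`, `isIso_map_g_of_isZero`, `isZero_X₁_of_isZero`, `isZero_X₂_of_isZero`,
  `isZero_X₃_of_isZero`.
* `coind₁ι M : M ⟶ coind₁ R G M.V` (`m ↦ x ↦ ρ(x) m`, mono, natural) and, for `G` finite,
  `coind₁π M : coind₁ R G M.V ⟶ M` (`f ↦ ∑ x, ρ(x⁻¹) (f x)`, epi, natural).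
* `up M := cokernel (coind₁ι M)`, `down M := kernel (coind₁π M)`, the short exact sequences
  `upSC M : 0 → M → coind₁ M → up M → 0`, `downSC M : 0 → down M → coind₁ M → M → 0`
  (`upSC_shortExact`, `downSC_shortExact`), functorial in `M` (`upMap`, `downMap`, `upSCMap`,
  `downSCMap`).
* For `G` finite: `upδIso M n : Ĥⁿ(G, up M) ≅ Ĥⁿ⁺¹(G, M)`, `downδIso M n : Ĥⁿ(G, M) ≅ Ĥⁿ⁺¹(G, down M)`.
* For every subgroup `H` with any `Fintype H`:
  `upδIsoRes M H n : Ĥⁿ(H, up M) ≅ Ĥⁿ⁺¹(H, M)`, `downδIsoRes M H n : Ĥⁿ(H, M) ≅ Ĥⁿ⁺¹(H, down M)`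
  (restrictions of the `G`-modules `up M`, `down M`), with naturality in `M`.
-/
import Mathlib
import Fermat.Agent.PT.FG.TateInduced3

set_option autoImplicit false

namespace Fermat.Agent.PT.FG.DimShift3

open CategoryTheory Limits Fermat.Agent.PT.FG.TateLow3 Fermat.Agent.PT.FG.TateInduced3

universe u

/-! ### Generalities on the long exact sequence -/

section LES

variable {R G : Type u} [CommRing R] [Group G] [Fintype G]

instance tateCohomologyFunctor_additive (n : ℤ) :
    (tateCohomologyFunctor (R := R) (G := G) n).Additive := by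
  unfold tateCohomologyFunctor
  infer_instance

/-- The third exactness statement of the long exact sequence. -/
lemma exact₂ {S : ShortComplex (Rep.{u} R G)} (hS : S.ShortExact) (n : ℤ) :
    (S.map (tateCohomologyFunctor n)).Exact :=
  (TateCohomology.map_tateComplexFunctor_shortExact hS).homology_exact₂ n

lemma mono_δ_of_isZero {S : ShortComplex (Rep.{u} R G)} (hS : S.ShortExact) (n : ℤ)
    (h : IsZero (tateCohomology S.X₂ n)) : Mono (TateCohomology.δ hS n) :=
  (TateCohomology.exact₃ hS n).mono_g (h.eq_of_src _ _)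

lemma epi_δ_of_isZero {S : ShortComplex (Rep.{u} R G)} (hS : S.ShortExact) (n : ℤ)
    (h : IsZero (tateCohomology S.X₂ (n + 1))) : Epi (TateCohomology.δ hS n) :=
  (TateCohomology.exact₁ hS n).epi_f (h.eq_of_tgt _ _)

/-- If the middle term is acyclic in degrees `n` and `n + 1`, then `δ` is an isomorphism. -/
lemma isIso_δ_of_isZero {S : ShortComplex (Rep.{u} R G)} (hS : S.ShortExact) (n : ℤ)
    (h0 : IsZero (tateCohomology S.X₂ n)) (h1 : IsZero (tateCohomology S.X₂ (n + 1))) :
    IsIso (TateCohomology.δ hS n) :=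
  have := mono_δ_of_isZero hS n h0
  have := epi_δ_of_isZero hS n h1
  isIso_of_mono_of_epi _

/-- If `X₃` is acyclic in degrees `n`, `n + 1`, then `Ĥⁿ⁺¹(X₁) → Ĥⁿ⁺¹(X₂)` is an isomorphism. -/
lemma isIso_map_f_of_isZero {S : ShortComplex (Rep.{u} R G)} (hS : S.ShortExact) (n : ℤ)
    (h0 : IsZero (tateCohomology S.X₃ n)) (h1 : IsZero (tateCohomology S.X₃ (n + 1))) :
    IsIso ((tateCohomologyFunctor (n + 1)).map S.f) :=
  have : Mono ((tateCohomologyFunctor (n + 1)).map S.f) :=
    (TateCohomology.exact₁ hS n).mono_g (h0.eq_of_src _ _)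
  have : Epi ((tateCohomologyFunctor (n + 1)).map S.f) :=
    (exact₂ hS (n + 1)).epi_f (h1.eq_of_tgt _ _)
  isIso_of_mono_of_epi _

/-- If `X₁` is acyclic in degrees `n`, `n + 1`, then `Ĥⁿ(X₂) → Ĥⁿ(X₃)` is an isomorphism. -/
lemma isIso_map_g_of_isZero {S : ShortComplex (Rep.{u} R G)} (hS : S.ShortExact) (n : ℤ)
    (h0 : IsZero (tateCohomology S.X₁ n)) (h1 : IsZero (tateCohomology S.X₁ (n + 1))) :
    IsIso ((tateCohomologyFunctor n).map S.g) :=
  have : Mono ((tateCohomologyFunctor n).map S.g) :=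
    (exact₂ hS n).mono_g (h0.eq_of_src _ _)
  have : Epi ((tateCohomologyFunctor n).map S.g) :=
    (TateCohomology.exact₃ hS n).epi_f (h1.eq_of_tgt _ _)
  isIso_of_mono_of_epi _

lemma isZero_X₃_of_isZero {S : ShortComplex (Rep.{u} R G)} (hS : S.ShortExact) (n : ℤ)
    (h2 : IsZero (tateCohomology S.X₂ n)) (h1 : IsZero (tateCohomology S.X₁ (n + 1))) :
    IsZero (tateCohomology S.X₃ n) :=
  (TateCohomology.exact₃ hS n).isZero_of_both_zeros (h2.eq_of_src _ _) (h1.eq_of_tgt _ _)

lemma isZero_X₁_of_isZero {S : ShortComplex (Rep.{u} R G)} (hS : S.ShortExact) (n : ℤ)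
    (h3 : IsZero (tateCohomology S.X₃ n)) (h2 : IsZero (tateCohomology S.X₂ (n + 1))) :
    IsZero (tateCohomology S.X₁ (n + 1)) :=
  (TateCohomology.exact₁ hS n).isZero_of_both_zeros (h3.eq_of_src _ _) (h2.eq_of_tgt _ _)

lemma isZero_X₂_of_isZero {S : ShortComplex (Rep.{u} R G)} (hS : S.ShortExact) (n : ℤ)
    (h1 : IsZero (tateCohomology S.X₁ n)) (h3 : IsZero (tateCohomology S.X₃ n)) :
    IsZero (tateCohomology S.X₂ n) :=
  (exact₂ hS n).isZero_of_both_zeros (h1.eq_of_src _ _) (h3.eq_of_tgt _ _)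

end LES

/-! ### The embedding into and the projection from the coinduced module -/

variable {R G : Type u} [CommRing R] [Group G] (M : Rep.{u} R G) {X Y : Rep.{u} R G}

/-- The canonical embedding `M ↪ coind₁ M`, `m ↦ (x ↦ ρ(x) m)`. -/
noncomputable def coind₁ι : M ⟶ coind₁ R G M.V :=
  Rep.ofHom (σ := coind₁Rep (R := R) G M.V) (ρ := M.ρ) ⟨LinearMap.pi (fun x => M.ρ x), fun g => by
    ext m x
    change M.ρ x (M.ρ g m) = M.ρ (x * g) m
    rw [map_mul]
    rfl⟩

lemma coind₁ι_apply (m : M.V) (x : G) : (coind₁ι M).hom m x = M.ρ x m := rfl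

instance mono_coind₁ι : Mono (coind₁ι M) := by
  rw [Rep.mono_iff_injective]
  intro a b h
  have := congrFun h 1
  simpa [coind₁ι_apply] using this

lemma coind₁ι_naturality (f : X ⟶ Y) :
    coind₁ι X ≫ coind₁Map G f.hom.toLinearMap = f ≫ coind₁ι Y := by
  ext m
  funext x
  change f.hom (X.ρ x m) = Y.ρ x (f.hom m)
  exact Rep.hom_comm_apply f x m

/-- `up M = coind₁ M / M`. -/
noncomputable def up : Rep.{u} R G := cokernel (coind₁ι M)

/-- The short complex `M ⟶ coind₁ M ⟶ up M`. -/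
noncomputable def upSC : ShortComplex (Rep.{u} R G) :=
  ShortComplex.mk (coind₁ι M) (cokernel.π (coind₁ι M)) (cokernel.condition _)

lemma upSC_shortExact : (upSC M).ShortExact where
  exact := ShortComplex.exact_cokernel (coind₁ι M)
  mono_f := mono_coind₁ι M
  epi_g := inferInstanceAs (Epi (cokernel.π (coind₁ι M)))

/-- Functoriality of `up`. -/
noncomputable def upMap (f : X ⟶ Y) : up X ⟶ up Y :=
  cokernel.map (coind₁ι X) (coind₁ι Y) f (coind₁Map G f.hom.toLinearMap) (coind₁ι_naturality f)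

/-- Functoriality of `upSC`. -/
noncomputable def upSCMap (f : X ⟶ Y) : upSC X ⟶ upSC Y where
  τ₁ := f
  τ₂ := coind₁Map G f.hom.toLinearMap
  τ₃ := upMap f
  comm₁₂ := (coind₁ι_naturality f).symm
  comm₂₃ := by
    simp [upSC, upMap]

section Fin

variable [Fintype G]

/-- The canonical projection `coind₁ M ↠ M`, `f ↦ ∑ x, ρ(x⁻¹) (f x)`. -/
noncomputable def coind₁π : coind₁ R G M.V ⟶ M :=
  Rep.ofHom (σ := M.ρ) (ρ := coind₁Rep (R := R) G M.V)
    ⟨∑ x : G, (M.ρ x⁻¹) ∘ₗ LinearMap.proj x, fun g => by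
    ext f
    simp only [LinearMap.coe_comp, Function.comp_apply, LinearMap.sum_apply, LinearMap.proj_apply,
      coind₁Rep_apply, map_sum]
    refine Fintype.sum_bijective (· * g) (Group.mulRight_bijective g) _ _ (fun x => ?_)
    rw [← Module.End.mul_apply, ← map_mul, mul_inv_rev, mul_inv_cancel_left]⟩

lemma coind₁π_apply (f : G → M.V) : (coind₁π M).hom f = ∑ x : G, M.ρ x⁻¹ (f x) := by
  change (∑ x : G, (M.ρ x⁻¹) ∘ₗ LinearMap.proj x) f = _
  simp

instance epi_coind₁π : Epi (coind₁π M) := by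
  classical
  rw [Rep.epi_iff_surjective]
  intro m
  refine ⟨Pi.single 1 m, ?_⟩
  rw [coind₁π_apply, Finset.sum_eq_single 1]
  · simp
  · intro b _ hb
    rw [Pi.single_eq_of_ne hb, map_zero]
  · intro h
    exact (h (Finset.mem_univ _)).elim

lemma coind₁π_naturality (f : X ⟶ Y) :
    coind₁Map G f.hom.toLinearMap ≫ coind₁π Y = coind₁π X ≫ f := by
  ext φ
  change (coind₁π Y).hom ((coind₁Map G f.hom.toLinearMap).hom φ) = f.hom ((coind₁π X).hom φ)
  refine (coind₁π_apply Y _).trans ?_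
  refine Eq.trans ?_ (congrArg f.hom (coind₁π_apply X φ)).symm
  rw [map_sum]
  refine Finset.sum_congr rfl fun x _ => ?_
  exact (Rep.hom_comm_apply f x⁻¹ (φ x)).symm

/-- `down M = ker (coind₁ M ↠ M)`. -/
noncomputable def down : Rep.{u} R G := kernel (coind₁π M)

/-- The short complex `down M ⟶ coind₁ M ⟶ M`. -/
noncomputable def downSC : ShortComplex (Rep.{u} R G) :=
  ShortComplex.mk (kernel.ι (coind₁π M)) (coind₁π M) (kernel.condition _)

lemma downSC_shortExact : (downSC M).ShortExact where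
  exact := ShortComplex.exact_kernel (coind₁π M)
  mono_f := inferInstanceAs (Mono (kernel.ι (coind₁π M)))
  epi_g := epi_coind₁π M

/-- Functoriality of `down`. -/
noncomputable def downMap (f : X ⟶ Y) : down X ⟶ down Y :=
  kernel.map (coind₁π X) (coind₁π Y) (coind₁Map G f.hom.toLinearMap) f
    (coind₁π_naturality f).symm

/-- Functoriality of `downSC`. -/
noncomputable def downSCMap (f : X ⟶ Y) : downSC X ⟶ downSC Y where
  τ₁ := downMap f
  τ₂ := coind₁Map G f.hom.toLinearMap
  τ₃ := f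
  comm₁₂ := by
    simp [downSC, downMap]
  comm₂₃ := coind₁π_naturality f

/-! ### The shifting isomorphisms for `G` itself -/

instance isIso_δ_upSC (n : ℤ) : IsIso (TateCohomology.δ (upSC_shortExact M) n) :=
  isIso_δ_of_isZero _ n (isZero_tate_coind₁ G M.V n) (isZero_tate_coind₁ G M.V (n + 1))

instance isIso_δ_downSC (n : ℤ) : IsIso (TateCohomology.δ (downSC_shortExact M) n) :=
  isIso_δ_of_isZero _ n (isZero_tate_coind₁ G M.V n) (isZero_tate_coind₁ G M.V (n + 1))

/-- `Ĥⁿ(G, up M) ≅ Ĥⁿ⁺¹(G, M)`. -/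
noncomputable def upδIso (n : ℤ) : tateCohomology (up M) n ≅ tateCohomology M (n + 1) :=
  @asIso _ _ _ _ (TateCohomology.δ (upSC_shortExact M) n) (isIso_δ_upSC M n)

/-- `Ĥⁿ(G, M) ≅ Ĥⁿ⁺¹(G, down M)`. -/
noncomputable def downδIso (n : ℤ) : tateCohomology M n ≅ tateCohomology (down M) (n + 1) :=
  @asIso _ _ _ _ (TateCohomology.δ (downSC_shortExact M) n) (isIso_δ_downSC M n)

lemma upδIso_naturality (f : X ⟶ Y) (n : ℤ) :
    (upδIso X n).hom ≫ (tateCohomologyFunctor (n + 1)).map f =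
      (tateCohomologyFunctor n).map (upMap f) ≫ (upδIso Y n).hom :=
  TateCohomology.δ_naturality (upSC_shortExact X) (upSC_shortExact Y) (upSCMap f) n

lemma downδIso_naturality (f : X ⟶ Y) (n : ℤ) :
    (downδIso X n).hom ≫ (tateCohomologyFunctor (n + 1)).map (downMap f) =
      (tateCohomologyFunctor n).map f ≫ (downδIso Y n).hom :=
  TateCohomology.δ_naturality (downSC_shortExact X) (downSC_shortExact Y) (downSCMap f) n

end Fin

/-! ### The shifting isomorphisms for subgroups -/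

section Sub

variable (H : Subgroup G) [Fintype H]

omit [Fintype H] in
lemma upSC_res_shortExact : ((upSC M).map (Rep.resFunctor H.subtype)).ShortExact :=
  (Rep.shortExact_res H.subtype).2 (upSC_shortExact M)

instance isIso_δ_upSC_res (n : ℤ) : IsIso (TateCohomology.δ (upSC_res_shortExact M H) n) :=
  isIso_δ_of_isZero _ n (isZero_tate_res_coind₁ M.V H n) (isZero_tate_res_coind₁ M.V H (n + 1))

/-- `Ĥⁿ(H, up M) ≅ Ĥⁿ⁺¹(H, M)` for every subgroup `H`. -/
noncomputable def upδIsoRes (n : ℤ) :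
    tateCohomology (Rep.res H.subtype (up M)) n ≅ tateCohomology (Rep.res H.subtype M) (n + 1) :=
  @asIso _ _ _ _ (TateCohomology.δ (upSC_res_shortExact M H) n) (isIso_δ_upSC_res M H n)

lemma upδIsoRes_naturality (f : X ⟶ Y) (n : ℤ) :
    (upδIsoRes X H n).hom ≫
        (tateCohomologyFunctor (n + 1)).map ((Rep.resFunctor H.subtype).map f) =
      (tateCohomologyFunctor n).map ((Rep.resFunctor H.subtype).map (upMap f)) ≫
        (upδIsoRes Y H n).hom :=
  TateCohomology.δ_naturality (upSC_res_shortExact X H) (upSC_res_shortExact Y H)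
    ((Rep.resFunctor H.subtype).mapShortComplex.map (upSCMap f)) n

variable [Fintype G]

omit [Fintype H] in
lemma downSC_res_shortExact : ((downSC M).map (Rep.resFunctor H.subtype)).ShortExact :=
  (Rep.shortExact_res H.subtype).2 (downSC_shortExact M)

instance isIso_δ_downSC_res (n : ℤ) : IsIso (TateCohomology.δ (downSC_res_shortExact M H) n) :=
  isIso_δ_of_isZero _ n (isZero_tate_res_coind₁ M.V H n) (isZero_tate_res_coind₁ M.V H (n + 1))

/-- `Ĥⁿ(H, M) ≅ Ĥⁿ⁺¹(H, down M)` for every subgroup `H`. -/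
noncomputable def downδIsoRes (n : ℤ) :
    tateCohomology (Rep.res H.subtype M) n ≅
      tateCohomology (Rep.res H.subtype (down M)) (n + 1) :=
  @asIso _ _ _ _ (TateCohomology.δ (downSC_res_shortExact M H) n) (isIso_δ_downSC_res M H n)

lemma downδIsoRes_naturality (f : X ⟶ Y) (n : ℤ) :
    (downδIsoRes X H n).hom ≫
        (tateCohomologyFunctor (n + 1)).map ((Rep.resFunctor H.subtype).map (downMap f)) =
      (tateCohomologyFunctor n).map ((Rep.resFunctor H.subtype).map f) ≫
        (downδIsoRes Y H n).hom :=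
  TateCohomology.δ_naturality (downSC_res_shortExact X H) (downSC_res_shortExact Y H)
    ((Rep.resFunctor H.subtype).mapShortComplex.map (downSCMap f)) n

end Sub

end Fermat.Agent.PT.FG.DimShift3
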