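/-
Program F (S55, Poitou–Tate), chapter FG (finite-group cohomology toolbox), chapter lead helper8.

INTERFACE of the chapter: conventions, definitions and the statements (as `Prop`s) which the other
chapters (LOC, GLOB, PRO) may assume and which the leaves of FG prove.

CONVENTIONS (answers helper21 Q2, helper18, helper9):
* groups: `G : Type`, `[Group G] [Finite G]`; modules: Mathlib `Rep ℤ G` (universe 0, like LOC);
* cohomology in degrees `n ≥ 1`: Mathlib `groupCohomology M n`, with the low-degree API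
  `H1 M`, `H2 M`, `cocycles₁`, `cocycles₂`, `H1π`, `H2π`, `groupCohomology.map`, `δ`;
* degree `0` Tate group: the CONCRETE quotient `M^G / N M` (`tate0` below), degree `-1`:
  `ker N / I_G M`; the all-degree object (FG-internal: cohomological triviality, dimension
  shifting) is Mathlib's `tateCohomology M n`, always with the instance `Fintype.ofFinite`;
* `p`-primary statements: `IsPPrimary p x : ∃ k, p ^ k • x = 0`; class-formation hypotheses are
  only required on `p`-subgroups (`IsFundClass p C u`); the full version is `IsFundClassFull`.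
* tensor product / internal Hom of `G`-modules: Mathlib `X ⊗ C`, `(Rep.ihom X).obj C`.
-/
import Mathlib

set_option autoImplicit false

open CategoryTheory groupCohomology MonoidalCategory

namespace Fermat.Agent.PT.FG.Interface8

noncomputable section

/-! ### 1. Definitions -/

section Defs

variable {G : Type} [Group G]

/-- Restriction of a `G`-module to a subgroup. -/
abbrev resSub (H : Subgroup G) (M : Rep ℤ G) : Rep ℤ H := Rep.res H.subtype M

/-- Restriction `Hⁿ(G, M) → Hⁿ(H, M)`. -/
abbrev resMap (H : Subgroup G) (M : Rep ℤ G) (n : ℕ) :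
    groupCohomology M n ⟶ groupCohomology (resSub H M) n :=
  groupCohomology.map H.subtype (𝟙 (resSub H M)) n

/-- An element of an abelian group is `p`-primary. -/
def IsPPrimary (p : ℕ) {A : Type*} [AddCommGroup A] (x : A) : Prop := ∃ k : ℕ, p ^ k • x = 0

/-- **Class-formation hypotheses at the prime `p`** (finite level) on a `G`-module `C` with a class
`u ∈ H²(G, C)`: for every `p`-subgroup `H ≤ G`: `H¹(H, C) = 0`, `#H²(H, C) = #H` and `Res u` has
order `#H` (so it generates `H²(H, C)`). -/
structure IsFundClass (p : ℕ) (C : Rep ℤ G) (u : H2 C) : Prop where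
  h1 : ∀ H : Subgroup G, IsPGroup p H → Subsingleton (H1 (resSub H C))
  card : ∀ H : Subgroup G, IsPGroup p H → Nat.card (H2 (resSub H C)) = Nat.card H
  order : ∀ H : Subgroup G, IsPGroup p H → addOrderOf (resMap H C 2 u) = Nat.card H

/-- The full class-formation hypotheses (all subgroups); this is what LOC's
`IsClassFormationCore` + Hilbert 90 give for `C = E'ˣ`. -/
structure IsFundClassFull (C : Rep ℤ G) (u : H2 C) : Prop where
  h1 : ∀ H : Subgroup G, Subsingleton (H1 (resSub H C))
  card : ∀ H : Subgroup G, Nat.card (H2 (resSub H C)) = Nat.card H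
  order : ∀ H : Subgroup G, addOrderOf (resMap H C 2 u) = Nat.card H

theorem IsFundClassFull.isFundClass {C : Rep ℤ G} {u : H2 C} (h : IsFundClassFull C u) (p : ℕ) :
    IsFundClass p C u :=
  ⟨fun H _ => h.h1 H, fun H _ => h.card H, fun H _ => h.order H⟩

variable [Finite G]

/-- The norm `N = ∑ g` of a `G`-module (instance-free: uses `Fintype.ofFinite`). -/
def normMap (M : Rep ℤ G) : M.V → M.V :=
  letI := Fintype.ofFinite G
  fun x => ∑ g : G, M.ρ g x

/-- `x` is a norm. -/
def IsNorm (M : Rep ℤ G) (x : M.V) : Prop := ∃ y : M.V, normMap M y = x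

/-- The class of the invariant element `x` in `Ĥ⁰(G, M) = M^G / N M` is `p`-primary. -/
def IsPPrimaryModNorm (p : ℕ) (M : Rep ℤ G) (x : M.V) : Prop :=
  ∃ k : ℕ, IsNorm M (p ^ k • x)

/-- Tate cohomology of the restriction to a subgroup, all degrees (FG-internal object). -/
def tateSub (H : Subgroup G) (M : Rep ℤ G) (n : ℤ) : ModuleCat ℤ :=
  letI : Fintype H := Fintype.ofFinite H
  tateCohomology (resSub H M) n

/-- `M` is cohomologically trivial. -/
def IsCohTrivial (M : Rep ℤ G) : Prop :=
  ∀ (H : Subgroup G) (n : ℤ), Subsingleton (tateSub H M n)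

/-- `M` is `p`-cohomologically trivial: all `Ĥⁿ(H, M)` have trivial `p`-primary part. -/
def IsPCohTrivial (p : ℕ) (M : Rep ℤ G) : Prop :=
  ∀ (H : Subgroup G) (n : ℤ) (x : tateSub H M n), IsPPrimary p x → x = 0

end Defs

section PolyDefs

/-! The next two definitions are stated over an arbitrary commutative ring `k` (use `k = ℤ`): for an
abstract `M : Rep ℤ G` the instance `M.hV2 : Module ℤ M.V` is not *definitionally* the canonical
`ℤ`-module structure, and elaborating the linear maps polymorphically avoids that diamond. -/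

variable {k : Type} [CommRing k] {G : Type} [Group G]

/-- For an invariant element `m` of `M`, evaluation `Hom(M, C) → C` as a morphism of `G`-modules. -/
def evalHom (M C : Rep k G) (m : M.V) (hm : ∀ g : G, M.ρ g m = m) : (Rep.ihom M).obj C ⟶ C :=
  Rep.ofHom ⟨LinearMap.applyₗ m, fun g => by
    ext f
    simp [hm]⟩

/-- For an invariant element `x` of `X`, the morphism `C → X ⊗ C`, `c ↦ x ⊗ c`. -/
def tensorLeftHom (X C : Rep k G) (x : X.V) (hx : ∀ g : G, X.ρ g x = x) : C ⟶ X ⊗ C :=
  Rep.ofHom ⟨TensorProduct.mk k X.V C.V x, fun g => by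
    ext c
    simp [hx]⟩

end PolyDefs

section PolyDefs2

variable {k : Type} [CommRing k] {G : Type} [Group G]

/-- The cup product of a `1`-cochain with values in `Hom(M, C)` and a `1`-cochain with values in
`M`: `(f ∪ x)(g, h) = f(g)(g • x(h))`, a `2`-cochain with values in `C`. -/
def cup11 (M C : Rep k G) (f : G → ((Rep.ihom M).obj C).V) (x : G → M.V) : G × G → C.V :=
  fun gh => (show M.V →ₗ[k] C.V from f gh.1) (M.ρ gh.1 (x gh.2))

/-- Inflation `Hⁿ(G/N, M^N) → Hⁿ(G, M)` (Mathlib's `H1InfRes.f` in degree `n`). -/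
abbrev infMap (M : Rep k G) (N : Subgroup G) [N.Normal] (n : ℕ) :
    groupCohomology (M.quotientToInvariants N) n ⟶ groupCohomology M n :=
  groupCohomology.map (QuotientGroup.mk' N) (Rep.ofHom <| M.ρ.quotientToInvariants_lift N) n

/-- Push-forward of cohomology classes along a morphism of `G`-modules. -/
abbrev pushH (n : ℕ) {A B : Rep k G} (φ : A ⟶ B) : groupCohomology A n ⟶ groupCohomology B n :=
  groupCohomology.map (MonoidHom.id G) φ n

end PolyDefs2

/-! ### 2. Statements

Every statement quantifies over all finite groups `G : Type`.  `X`, `M` denote `ℤ`-free finitely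
generated `G`-modules; `(C, u)` satisfies `IsFundClass p C u`.  LEAVES: see the `subtasks` board,
team `F-FG`. -/

section Statements

/-- **(CT1) Nakayama–Tate criterion**, `p`-primary form (Serre LF IX Thm 8): if two consecutive Tate
groups of a Sylow `p`-subgroup vanish, then `M` is `p`-cohomologically trivial. -/
def NakayamaTate : Prop :=
  ∀ (G : Type) [Group G] [Finite G] (p : ℕ) [Fact p.Prime] (M : Rep ℤ G) (P : Sylow p G) (n : ℤ),
    Subsingleton (tateSub (P : Subgroup G) M n) →
    Subsingleton (tateSub (P : Subgroup G) M (n + 1)) → IsPCohTrivial p M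

/-- **(CT2)** (Serre LF IX Thm 9): `M` `p`-cohomologically trivial, `X` `ℤ`-free finitely generated
⇒ `X ⊗ M` and `Hom(X, M)` are `p`-cohomologically trivial. -/
def TensorCohTrivial : Prop :=
  ∀ (G : Type) [Group G] [Finite G] (p : ℕ) [Fact p.Prime] (M X : Rep ℤ G),
    Module.Free ℤ X.V → Module.Finite ℤ X.V → IsPCohTrivial p M →
      IsPCohTrivial p (X ⊗ M) ∧ IsPCohTrivial p ((Rep.ihom X).obj M)

/-- **(SYL)** restriction to a Sylow `p`-subgroup is injective on `p`-primary classes, `n ≥ 1`. -/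
def ResSylowInjective : Prop :=
  ∀ (G : Type) [Group G] [Finite G] (p : ℕ) [Fact p.Prime] (M : Rep ℤ G) (P : Sylow p G) (n : ℕ)
    (x : groupCohomology M (n + 1)), IsPPrimary p x → resMap (P : Subgroup G) M (n + 1) x = 0 → x = 0

/-- **(COR)** `cores ∘ res = index`: a class killed by restriction to `H` is killed by `[G : H]`,
`n ≥ 1`. -/
def ResKernelIndex : Prop :=
  ∀ (G : Type) [Group G] [Finite G] (M : Rep ℤ G) (H : Subgroup G) (n : ℕ)
    (x : groupCohomology M (n + 1)), resMap H M (n + 1) x = 0 → H.index • x = 0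

/-- **(CYC2)** `H²` of a cyclic group `G = ⟨s⟩` of order `n`: every invariant `a` defines the class
of the cocycle `(sⁱ, sʲ) ↦ [i + j ≥ n] a` (`0 ≤ i, j < n`); this class vanishes iff `a` is a norm,
and every class of `H²(G, M)` is of this form (`H²(G, M) ≅ M^G / N M`). -/
def CyclicH2 : Prop :=
  ∀ (G : Type) [Group G] [Finite G] (M : Rep ℤ G) (s : G), (∀ g : G, g ∈ Subgroup.zpowers s) →
    (∀ a : M.V, (∀ g : G, M.ρ g a = a) → ∃ c : cocycles₂ M,
      (∀ i j : ℕ, i < Nat.card G → j < Nat.card G →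
        (c : G × G → M.V) (s ^ i, s ^ j) = if i + j < Nat.card G then 0 else a) ∧
      (H2π M c = 0 ↔ IsNorm M a)) ∧
    (∀ x : H2 M, ∃ (a : M.V) (c : cocycles₂ M), (∀ g : G, M.ρ g a = a) ∧ H2π M c = x ∧
      ∀ i j : ℕ, i < Nat.card G → j < Nat.card G →
        (c : G × G → M.V) (s ^ i, s ^ j) = if i + j < Nat.card G then 0 else a)

/-- **(H3)** `H³(G, C)` has no `p`-torsion (`≅ Ĥ¹(G, ℤ)(p) = 0` by Tate's theorem). -/
def H3Vanishing : Prop :=
  ∀ (G : Type) [Group G] [Finite G] (p : ℕ) [Fact p.Prime] (C : Rep ℤ G) (u : H2 C),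
    IsFundClass p C u → ∀ x : groupCohomology C 3, IsPPrimary p x → x = 0

/-- **(T0) Tate's theorem in degrees `0 → 2`, explicit map** `Ĥ⁰(G, X) → H²(G, X ⊗ C)`,
`x ↦ (x ⊗ -)_* u`: bijective on `p`-primary parts. -/
def TateZero : Prop :=
  ∀ (G : Type) [Group G] [Finite G] (p : ℕ) [Fact p.Prime] (C : Rep ℤ G) (u : H2 C),
    IsFundClass p C u → ∀ X : Rep ℤ G, Module.Free ℤ X.V → Module.Finite ℤ X.V →
      (∀ (x : X.V) (hx : ∀ g : G, X.ρ g x = x), IsPPrimaryModNorm p X x →
        pushH 2 (tensorLeftHom X C x hx) u = 0 → IsNorm X x) ∧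
      (∀ y : H2 (X ⊗ C), IsPPrimary p y → ∃ (x : X.V) (hx : ∀ g : G, X.ρ g x = x),
        pushH 2 (tensorLeftHom X C x hx) u = y)

/-- **(T−2) reciprocity / Nakayama map**: for a cocycle `σ` representing `u`, the map
`g ↦ ∑ₕ σ(h, g)` induces a bijection `G^ab(p) ≅ (C^G / N C)(p)`. -/
def TateMinusTwo : Prop :=
  ∀ (G : Type) [Group G] [Fintype G] (p : ℕ) [Fact p.Prime] (C : Rep ℤ G) (σ : cocycles₂ C),
    IsFundClass p C (H2π C σ) →
      (∀ g : G, (∃ k : ℕ, g ^ p ^ k ∈ commutator G) →
        IsNorm C (∑ h : G, (σ : G × G → C.V) (h, g)) → g ∈ commutator G) ∧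
      (∀ c : C.V, (∀ g : G, C.ρ g c = c) → IsPPrimaryModNorm p C c →
        ∃ g : G, IsNorm C (c - ∑ h : G, (σ : G × G → C.V) (h, g)))

/-- **(TN20) Tate–Nakayama duality, degrees (2,0)**: the pairing
`H²(G, Hom(M, C)) × Ĥ⁰(G, M) → H²(G, C)`, `(F, m) ↦ (ev_m)_* F`, is nondegenerate on both sides
(`p`-primary parts). -/
def TN20 : Prop :=
  ∀ (G : Type) [Group G] [Finite G] (p : ℕ) [Fact p.Prime] (C : Rep ℤ G) (u : H2 C),
    IsFundClass p C u → ∀ M : Rep ℤ G, Module.Free ℤ M.V → Module.Finite ℤ M.V →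
      (∀ F : H2 ((Rep.ihom M).obj C), IsPPrimary p F →
        (∀ (m : M.V) (hm : ∀ g : G, M.ρ g m = m), pushH 2 (evalHom M C m hm) F = 0) → F = 0) ∧
      (∀ (m : M.V) (hm : ∀ g : G, M.ρ g m = m), IsPPrimaryModNorm p M m →
        (∀ F : H2 ((Rep.ihom M).obj C), pushH 2 (evalHom M C m hm) F = 0) → IsNorm M m)

/-- **(TN11) Tate–Nakayama duality, degrees (1,1)**: the cup product
`H¹(G, Hom(M, C)) × H¹(G, M) → H²(G, C)` (given on cocycles by `cup11`) is nondegenerate on both
sides (`p`-primary parts). -/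
def TN11 : Prop :=
  ∀ (G : Type) [Group G] [Finite G] (p : ℕ) [Fact p.Prime] (C : Rep ℤ G) (u : H2 C),
    IsFundClass p C u → ∀ M : Rep ℤ G, Module.Free ℤ M.V → Module.Finite ℤ M.V →
      ∃ B : H1 ((Rep.ihom M).obj C) →+ H1 M →+ H2 C,
        (∀ (f : cocycles₁ ((Rep.ihom M).obj C)) (x : cocycles₁ M) (c : cocycles₂ C),
          (c : G × G → C.V) = cup11 M C f x →
            B (H1π ((Rep.ihom M).obj C) f) (H1π M x) = H2π C c) ∧
        (∀ ξ : H1 ((Rep.ihom M).obj C), IsPPrimary p ξ → (∀ η : H1 M, B ξ η = 0) → ξ = 0) ∧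
        (∀ η : H1 M, IsPPrimary p η → (∀ ξ : H1 ((Rep.ihom M).obj C), B ξ η = 0) → η = 0)

/-- **(IR2) inflation–restriction in degree 2** (Mathlib has degree 1: `H1InfRes_exact`): if
`H¹(N, M) = 0` for a normal subgroup `N`, then `0 → H²(G/N, M^N) → H²(G, M) → H²(N, M)` is exact. -/
def InfRes2 : Prop :=
  ∀ (G : Type) [Group G] [Finite G] (M : Rep ℤ G) (N : Subgroup G) [N.Normal],
    Subsingleton (H1 (resSub N M)) →
      Function.Injective (infMap M N 2) ∧
      ∀ x : H2 M, resMap N M 2 x = 0 → ∃ y : H2 (M.quotientToInvariants N), infMap M N 2 y = x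

/-- **(UGLY) one step of the "ugly lemma"** (CF VII.11.2): if `H¹(N, M) = 0` then
`#H²(G, M) ∣ #H²(G/N, M^N) · #H²(N, M)`.  (Consumers run the induction over their towers of
fields, where `M^N` is identified with the module of the intermediate field.) -/
def UglyStep : Prop :=
  ∀ (G : Type) [Group G] [Finite G] (M : Rep ℤ G) (N : Subgroup G) [N.Normal],
    Subsingleton (H1 (resSub N M)) → Finite (H2 (M.quotientToInvariants N)) →
    Finite (H2 (resSub N M)) →
      Finite (H2 M) ∧
        Nat.card (H2 M) ∣ Nat.card (H2 (M.quotientToInvariants N)) * Nat.card (H2 (resSub N M))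

/-- **(IR1') vanishing of `H¹` by dévissage**: if `H¹(N, M) = 0` and `H¹(G/N, M^N) = 0` then
`H¹(G, M) = 0` (immediate from Mathlib's `H1InfRes_exact`; listed for completeness). -/
def H1Devissage : Prop :=
  ∀ (G : Type) [Group G] [Finite G] (M : Rep ℤ G) (N : Subgroup G) [N.Normal],
    Subsingleton (H1 (resSub N M)) → Subsingleton (H1 (M.quotientToInvariants N)) →
      Subsingleton (H1 M)

end Statements



end

end Fermat.Agent.PT.FG.Interface8
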