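import Mathlib

/-
Program F (S55), chapter FG, helper lemma for (FG-D): the norm `N(f) = ∑ g, ρ_B(g) ∘ f ∘ ρ_A(g⁻¹)`
of an arbitrary `k`-linear map `f : A → B` between representations of a finite group is a morphism
of representations inducing `0` on `H¹` and `H²` (explicit contracting cochains).  Owner: helper1.

Exports (ns `Fermat.Agent.PT.FG.NormKills1`; `k G : Type u`, `[Fintype G]`):
`normLin`, `normLin_apply`, `normHom f : A ⟶ B`, `normHom_hom_apply`,
`map_normHom_one : map (MonoidHom.id G) (normHom f) 1 = 0`,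
`map_normHom_two : map (MonoidHom.id G) (normHom f) 2 = 0`.
-/

set_option autoImplicit false

open CategoryTheory groupCohomology Rep

universe u

namespace Fermat.Agent.PT.FG.NormKills1

variable {k G : Type u} [CommRing k] [Group G] [Fintype G] {A B : Rep.{u} k G}

/-- The norm `N(f) = ∑ g, ρ_B(g) ∘ f ∘ ρ_A(g⁻¹)` of a `k`-linear map, as a linear map. -/
noncomputable def normLin (f : A.V →ₗ[k] B.V) : A.V →ₗ[k] B.V :=
  ∑ g : G, (B.ρ g) ∘ₗ f ∘ₗ (A.ρ g⁻¹)

lemma normLin_apply (f : A.V →ₗ[k] B.V) (a : A.V) :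
    normLin f a = ∑ g : G, B.ρ g (f (A.ρ g⁻¹ a)) := by
  simp [normLin, LinearMap.sum_apply]

lemma normLin_comm (f : A.V →ₗ[k] B.V) (h : G) (a : A.V) :
    normLin f (A.ρ h a) = B.ρ h (normLin f a) := by
  rw [normLin_apply, normLin_apply, map_sum]
  refine Fintype.sum_equiv (Equiv.mulLeft h⁻¹) _ _ fun g => ?_
  simp only [Equiv.coe_mulLeft, mul_inv_rev, inv_inv, map_mul, Module.End.mul_apply]
  simp [← Module.End.mul_apply, ← map_mul]

/-- The norm of a `k`-linear map as a morphism of representations. -/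
noncomputable def normHom (f : A.V →ₗ[k] B.V) : A ⟶ B :=
  Rep.ofHom ⟨normLin f, fun h => by ext a; exact normLin_comm f h a⟩


@[simp] lemma normHom_hom_apply (f : A.V →ₗ[k] B.V) (a : A.V) :
    (normHom f).hom a = ∑ g : G, B.ρ g (f (A.ρ g⁻¹ a)) := normLin_apply f a

/-- The norm of a linear map induces `0` on `H²`. -/
theorem map_normHom_two (f : A.V →ₗ[k] B.V) : map (MonoidHom.id G) (normHom f) 2 = 0 := by
  rw [← cancel_epi (H2π A)]
  ext x
  rw [H2π_comp_map, Limits.comp_zero]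
  simp only [ModuleCat.hom_comp, LinearMap.coe_comp, Function.comp_apply, ModuleCat.hom_zero,
    LinearMap.zero_apply]
  rw [H2π_eq_zero_iff]
  refine ⟨fun h => ∑ g : G, B.ρ g (f (x (g⁻¹, h))), ?_⟩
  funext ⟨h₁, h₂⟩
  rw [d₁₂_hom_apply]
  show B.ρ h₁ (∑ g : G, B.ρ g (f (x (g⁻¹, h₂)))) - ∑ g : G, B.ρ g (f (x (g⁻¹, h₁ * h₂)))
    + ∑ g : G, B.ρ g (f (x (g⁻¹, h₁))) = (normHom f).hom (x (h₁, h₂))
  rw [normHom_hom_apply, map_sum]
  have e1 : ∑ g : G, B.ρ h₁ (B.ρ g (f (x (g⁻¹, h₂)))) = ∑ g : G, B.ρ g (f (x (g⁻¹ * h₁, h₂))) := by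
    refine Fintype.sum_equiv (Equiv.mulLeft h₁) _ _ fun g => ?_
    simp only [Equiv.coe_mulLeft, mul_inv_rev, inv_mul_cancel_right, map_mul, Module.End.mul_apply]
  rw [e1, ← Finset.sum_sub_distrib, ← Finset.sum_add_distrib]
  refine Finset.sum_congr rfl fun g _ => ?_
  have := (mem_cocycles₂_iff (A := A) x).1 x.2 g⁻¹ h₁ h₂
  rw [← map_sub, ← map_add, ← map_sub, ← map_add]
  congr 2
  rw [sub_add_eq_add_sub, this]; abel

/-- The norm of a linear map induces `0` on `H¹`. -/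
theorem map_normHom_one (f : A.V →ₗ[k] B.V) : map (MonoidHom.id G) (normHom f) 1 = 0 := by
  rw [← cancel_epi (H1π A)]
  ext x
  rw [H1π_comp_map, Limits.comp_zero]
  simp only [ModuleCat.hom_comp, LinearMap.coe_comp, Function.comp_apply, ModuleCat.hom_zero,
    LinearMap.zero_apply]
  rw [H1π_eq_zero_iff]
  refine ⟨∑ g : G, B.ρ g (f (x g⁻¹)), ?_⟩
  funext h
  rw [d₀₁_hom_apply]
  show B.ρ h (∑ g : G, B.ρ g (f (x g⁻¹))) - ∑ g : G, B.ρ g (f (x g⁻¹))
    = (normHom f).hom (x h)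
  rw [normHom_hom_apply, map_sum]
  have e1 : ∑ g : G, B.ρ h (B.ρ g (f (x g⁻¹))) = ∑ g : G, B.ρ g (f (x (g⁻¹ * h))) := by
    refine Fintype.sum_equiv (Equiv.mulLeft h) _ _ fun g => ?_
    simp only [Equiv.coe_mulLeft, mul_inv_rev, inv_mul_cancel_right, map_mul, Module.End.mul_apply]
  rw [e1, ← Finset.sum_sub_distrib]
  refine Finset.sum_congr rfl fun g _ => ?_
  have := (mem_cocycles₁_iff (A := A) x).1 x.2 g⁻¹ h
  rw [← map_sub, ← map_sub]
  congr 2
  rw [this]; abel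

end Fermat.Agent.PT.FG.NormKills1
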