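import Fermat.Agent.PT.FG.Interface8
import Fermat.Agent.PT.FG.NormKills1

/-
Program F (S55), chapter FG, row 361 (FG-D), part 1: Tate–Nakayama duality in degrees (2,0).
Owner: helper1.

`tn20_of : Interface8.TateZero → D0a → D0b → Interface8.TN20`, where `D0a`, `D0b` are the two halves
of `Ĥ⁰`-duality for `ℤ`-free finitely generated `G`-modules (leaf (D0), helper18).

Everything is first proved for a general commutative ring `k` (to avoid the `ℤ`-module diamond on
`M.V` for abstract `M : Rep ℤ G`) and specialised at the end.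

Main exports (ns `Fermat.Agent.PT.FG.TNDual1`):
* `dualRep M = Hom(M, k)`, `scalHom M C φ hφ : C ⟶ Hom(M, C)` (`c ↦ (m ↦ φ m • c)`, `φ` invariant),
  `thetaIso M C : Hom(M,k) ⊗ C ≅ Hom(M, C)` (`M` finite free),
  `tensorLeftHom_comp_thetaIso`, `pushH_eval_scal : (ev_m)_* (s_φ)_* x = φ m • x`,
  `pushH_scal_smul`, `scalHom_eq_normHom`;
* `normMapK`, `IsNormK` (generic-`k` versions of `Interface8.normMap`, `IsNorm`; equal by `rfl` for `k = ℤ`),
  `D0aFor cardG M`, `D0bFor cardG M`, `D0a`, `D0b`;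
* `tn20_right_poly`, `tn20_left_poly` (generic `k`), `tn20_of`.
-/

set_option autoImplicit false

open CategoryTheory groupCohomology MonoidalCategory

namespace Fermat.Agent.PT.FG.TNDual1

open Fermat.Agent.PT.FG.Interface8 Fermat.Agent.PT.FG.NormKills1

noncomputable section

section poly

variable {k : Type} [CommRing k] {G : Type} [Group G]

/-- The dual representation `Hom(M, k)`. -/
abbrev dualRep (M : Rep k G) : Rep k G := (Rep.ihom M).obj (Rep.trivial k G k)

lemma dualRep_ρ_apply (M : Rep k G) (g : G) (φ : M.V →ₗ[k] k) (m : M.V) :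
    (show M.V →ₗ[k] k from (dualRep M).ρ g φ) m = φ (M.ρ g⁻¹ m) := rfl

/-- `c ↦ (m ↦ φ m • c)` as a linear map `C → Hom(M, C)`. -/
def scalLin (M C : Rep k G) (φ : M.V →ₗ[k] k) : C.V →ₗ[k] (M.V →ₗ[k] C.V) :=
  LinearMap.smulRightₗ φ

@[simp] lemma scalLin_apply (M C : Rep k G) (φ : M.V →ₗ[k] k) (c : C.V) (m : M.V) :
    scalLin M C φ c m = φ m • c := rfl

/-- For an invariant functional `φ`, `c ↦ (m ↦ φ m • c)` is a morphism `C ⟶ Hom(M, C)`. -/
def scalHom (M C : Rep k G) (φ : M.V →ₗ[k] k) (hφ : ∀ g : G, φ ∘ₗ M.ρ g = φ) :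
    C ⟶ (Rep.ihom M).obj C :=
  Rep.ofHom ⟨scalLin M C φ, fun g => by
    ext c m
    have := LinearMap.congr_fun (hφ g⁻¹) m
    simp only [LinearMap.comp_apply] at this
    simp [this]⟩


/-- `pushH 2` on a class represented by a cocycle. -/
lemma pushH_two_H2π {A B : Rep k G} (f : A ⟶ B) (x : cocycles₂ A) :
    pushH 2 f (H2π A x) = H2π B (mapCocycles₂ (MonoidHom.id G) f x) :=
  H2π_comp_map_apply (MonoidHom.id G) f x

lemma coe_mapCocycles₂_id {A B : Rep k G} (f : A ⟶ B) (x : cocycles₂ A) (p : G × G) :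
    (mapCocycles₂ (MonoidHom.id G) f x : G × G → B.V) p = f.hom (x p) := rfl

/-- `(ev_m)_* ∘ (s_φ)_* = φ(m) •`. -/
lemma pushH_eval_scal (M C : Rep k G) (φ : M.V →ₗ[k] k) (hφ : ∀ g : G, φ ∘ₗ M.ρ g = φ)
    (m : M.V) (hm : ∀ g : G, M.ρ g m = m) (x : H2 C) :
    pushH 2 (evalHom M C m hm) (pushH 2 (scalHom M C φ hφ) x) = φ m • x := by
  induction x using H2_induction_on with | @h x =>
  rw [pushH_two_H2π, pushH_two_H2π, ← map_smul]
  congr 1


/-- The natural map `Hom(M, k) ⊗ C → Hom(M, C)` as an isomorphism of representations, for `M`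
finite free. -/
def thetaIso (M C : Rep k G) [Module.Free k M.V] [Module.Finite k M.V] :
    dualRep M ⊗ C ≅ (Rep.ihom M).obj C :=
  Rep.mkIso (Representation.Equiv.mk (dualTensorHomEquiv k M.V C.V) (fun g => by
    apply TensorProduct.ext'
    intro φ c
    ext m
    show (show M.V →ₗ[k] k from φ) (M.ρ g⁻¹ m) • C.ρ g c
      = C.ρ g ((show M.V →ₗ[k] k from φ) (M.ρ g⁻¹ m) • c)
    rw [map_smul]))

lemma tensorLeftHom_comp_thetaIso (M C : Rep k G) [Module.Free k M.V] [Module.Finite k M.V]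
    (φ : M.V →ₗ[k] k) (hφ : ∀ g : G, φ ∘ₗ M.ρ g = φ) (hφ' : ∀ g : G, (dualRep M).ρ g φ = φ) :
    tensorLeftHom (dualRep M) C φ hφ' ≫ (thetaIso M C).hom = scalHom M C φ hφ := by
  ext c
  rfl


lemma pushH_scal_smul (M C : Rep k G) (φ : M.V →ₗ[k] k) (hφ : ∀ g : G, φ ∘ₗ M.ρ g = φ)
    (r : k) (hrφ : ∀ g : G, (r • φ) ∘ₗ M.ρ g = r • φ) (x : H2 C) :
    pushH 2 (scalHom M C (r • φ) hrφ) x = r • pushH 2 (scalHom M C φ hφ) x := by
  induction x using H2_induction_on with | @h x =>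
  rw [pushH_two_H2π, pushH_two_H2π, ← map_smul]
  congr 1
  apply cocycles₂_ext
  intro g h
  show (scalLin M C (r • φ) (x (g, h)) : M.V →ₗ[k] C.V) = r • scalLin M C φ (x (g, h))
  ext m
  simp [mul_smul]


section polyFinite

variable [Finite G]

/-- The norm of a `G`-module (generic `k`; for `k = ℤ` this is `Interface8.normMap` by `rfl`). -/
def normMapK (M : Rep k G) : M.V → M.V :=
  letI := Fintype.ofFinite G
  fun x => ∑ g : G, M.ρ g x

/-- `x` is a norm (generic `k`). -/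
def IsNormK (M : Rep k G) (x : M.V) : Prop := ∃ y : M.V, normMapK M y = x

/-- The norm as an additive map. -/
def normAddHom (M : Rep k G) : M.V →+ M.V where
  toFun := normMapK M
  map_zero' := by simp [normMapK]
  map_add' x y := by simp [normMapK, Finset.sum_add_distrib]

lemma isNormK_iff (M : Rep k G) (x : M.V) : IsNormK M x ↔ x ∈ (normAddHom M).range := Iff.rfl

/-- Bezout: if `a • x` and `b • x` are norms with `a`, `b` coprime then `x` is a norm. -/
lemma isNormK_of_coprime (M : Rep k G) (x : M.V) (a b : ℕ) (hab : Nat.Coprime a b)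
    (ha : IsNormK M (a • x)) (hb : IsNormK M (b • x)) : IsNormK M x := by
  rw [isNormK_iff] at ha hb ⊢
  have h1 : ((a : ℤ) * Nat.gcdA a b + (b : ℤ) * Nat.gcdB a b) = 1 := by
    have := Nat.gcd_eq_gcd_ab a b
    rw [hab] at this
    exact_mod_cast this.symm
  have : x = Nat.gcdA a b • (a • x) + Nat.gcdB a b • (b • x) := by
    rw [← natCast_zsmul x a, ← natCast_zsmul x b, smul_smul, smul_smul, ← add_smul,
      mul_comm _ (a : ℤ), mul_comm _ (b : ℤ), h1, one_smul]
  rw [this]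
  exact add_mem (zsmul_mem ha _) (zsmul_mem hb _)

/-- **(D0a)** for one module, generic `k`: an invariant element on which every invariant
functional takes values divisible by `cardG` is a norm. -/
def D0aFor (cardG : k) (M : Rep k G) : Prop :=
  ∀ m : M.V, (∀ g : G, M.ρ g m = m) →
    (∀ φ : M.V →ₗ[k] k, (∀ g : G, φ ∘ₗ M.ρ g = φ) → cardG ∣ φ m) → IsNormK M m

/-- **(D0b)** for one module, generic `k`: an invariant functional taking values divisible by
`cardG` on all invariant elements is the norm of a functional. -/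
def D0bFor (cardG : k) (M : Rep k G) : Prop :=
  ∀ φ : M.V →ₗ[k] k, (∀ g : G, φ ∘ₗ M.ρ g = φ) →
    (∀ m : M.V, (∀ g : G, M.ρ g m = m) → cardG ∣ φ m) →
      ∃ ψ : M.V →ₗ[k] k, ∀ m : M.V, φ m = (letI := Fintype.ofFinite G; ∑ g : G, ψ (M.ρ g⁻¹ m))

lemma eq_zero_of_coprime_nsmul {A : Type*} [AddCommGroup A] (x : A) (a b : ℕ)
    (hab : Nat.Coprime a b) (ha : a • x = 0) (hb : b • x = 0) : x = 0 := by
  have h1 : addOrderOf x ∣ a := addOrderOf_dvd_of_nsmul_eq_zero ha
  have h2 : addOrderOf x ∣ b := addOrderOf_dvd_of_nsmul_eq_zero hb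
  have h3 : addOrderOf x ∣ 1 := by
    have := Nat.dvd_gcd h1 h2
    rwa [hab] at this
  exact AddMonoid.addOrderOf_eq_one_iff.1 (Nat.dvd_one.1 h3)

/-- **TN20, right nondegeneracy**, generic form.  `d` plays the role of the order of a Sylow
`p`-subgroup, `n'` of its index. -/
theorem tn20_right_poly (p : ℕ) (M C : Rep k G) (u : H2 C) (d cardG : k) (n' : ℕ)
    (hcard : (n' : k) * d = cardG) (hord : ∀ z : k, z • u = 0 → d ∣ z)
    (hcop : ∀ j : ℕ, Nat.Coprime n' (p ^ j)) (hD : D0aFor cardG M)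
    (m : M.V) (hm : ∀ g : G, M.ρ g m = m) (hpm : ∃ j : ℕ, IsNormK M (p ^ j • m))
    (hF : ∀ F : H2 ((Rep.ihom M).obj C), pushH 2 (evalHom M C m hm) F = 0) : IsNormK M m := by
  have key : ∀ φ : M.V →ₗ[k] k, (∀ g : G, φ ∘ₗ M.ρ g = φ) → d ∣ φ m := fun φ hφ => by
    have h0 := hF (pushH 2 (scalHom M C φ hφ) u)
    rw [pushH_eval_scal] at h0
    exact hord _ h0
  have h1 : IsNormK M (n' • m) := by
    refine hD _ (fun g => by rw [map_nsmul, hm]) fun φ hφ => ?_
    obtain ⟨c, hc⟩ := key φ hφ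
    refine ⟨c, ?_⟩
    rw [map_nsmul, hc, ← hcard, nsmul_eq_mul, mul_assoc]
  obtain ⟨j, hj⟩ := hpm
  exact isNormK_of_coprime M m _ _ (hcop j) h1 hj


/-- `scalLin` with codomain written as the carrier of `Hom(M, C)`. -/
def scalLinI (M C : Rep k G) (ψ : M.V →ₗ[k] k) : C.V →ₗ[k] ((Rep.ihom M).obj C).V :=
  scalLin M C ψ

omit [Finite G] in
/-- For `φ = ∑ g, ψ ∘ ρ(g⁻¹)` the morphism `s_φ` is the norm of the linear map `s_ψ`. -/
lemma scalHom_eq_normHom [Fintype G] (M C : Rep k G) (φ ψ : M.V →ₗ[k] k)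
    (hφ : ∀ g : G, φ ∘ₗ M.ρ g = φ) (hψ : ∀ m : M.V, φ m = ∑ g : G, ψ (M.ρ g⁻¹ m)) :
    scalHom M C φ hφ = normHom (scalLinI M C ψ) := by
  ext c
  show scalLin M C φ c = (normHom (scalLinI M C ψ)).hom c
  rw [normHom_hom_apply]
  apply LinearMap.ext
  intro m
  rw [scalLin_apply, hψ, Finset.sum_smul]
  have : ∀ g : G, (show M.V →ₗ[k] C.V from
      ((Rep.ihom M).obj C).ρ g (scalLinI M C ψ (C.ρ g⁻¹ c))) m = ψ (M.ρ g⁻¹ m) • c := by
    intro g
    show C.ρ g (ψ (M.ρ g⁻¹ m) • C.ρ g⁻¹ c) = _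
    rw [map_smul, ← Module.End.mul_apply, ← map_mul, mul_inv_cancel, map_one, Module.End.one_apply]
  have e : (show M.V →ₗ[k] C.V from
      ∑ g : G, ((Rep.ihom M).obj C).ρ g (scalLinI M C ψ (C.ρ g⁻¹ c))) m
      = ∑ g : G, (show M.V →ₗ[k] C.V from
        ((Rep.ihom M).obj C).ρ g (scalLinI M C ψ (C.ρ g⁻¹ c))) m :=
    LinearMap.sum_apply _ _ _
  refine Eq.trans ?_ e.symm
  exact Finset.sum_congr rfl fun g _ => (this g).symm

/-- **TN20, left nondegeneracy**, generic form. -/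
theorem tn20_left_poly (p : ℕ) (M C : Rep k G) [Module.Free k M.V] [Module.Finite k M.V]
    (u : H2 C) (d cardG : k) (n' : ℕ)
    (hcard : (n' : k) * d = cardG) (hord : ∀ z : k, z • u = 0 → d ∣ z)
    (hcop : ∀ j : ℕ, Nat.Coprime n' (p ^ j)) (hD : D0bFor cardG M)
    (hT0 : ∀ y : H2 (dualRep M ⊗ C), IsPPrimary p y →
      ∃ (x : (dualRep M).V) (hx : ∀ g : G, (dualRep M).ρ g x = x),
        pushH 2 (tensorLeftHom (dualRep M) C x hx) u = y)
    (F : H2 ((Rep.ihom M).obj C)) (hFp : IsPPrimary p F)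
    (hF : ∀ (m : M.V) (hm : ∀ g : G, M.ρ g m = m), pushH 2 (evalHom M C m hm) F = 0) :
    F = 0 := by
  obtain ⟨j, hj⟩ := hFp
  have hy : IsPPrimary p (pushH 2 (thetaIso M C).inv F) := ⟨j, by rw [← map_nsmul, hj, map_zero]⟩
  obtain ⟨x, hx, hxy⟩ := hT0 _ hy
  let φ : M.V →ₗ[k] k := x
  have hφ : ∀ g : G, φ ∘ₗ M.ρ g = φ := fun g => by
    apply LinearMap.ext
    intro m
    have : φ (M.ρ (g⁻¹)⁻¹ m) = φ m := LinearMap.congr_fun (hx g⁻¹) m
    rw [inv_inv] at this
    exact this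
  have hFφ : F = pushH 2 (scalHom M C φ hφ) u := by
    have e : pushH 2 (thetaIso M C).inv ≫ pushH 2 (thetaIso M C).hom = 𝟙 _ := by
      rw [← groupCohomology.map_id_comp, Iso.inv_hom_id]
      exact groupCohomology.map_id (n := 2)
    have h1 : pushH 2 (thetaIso M C).hom (pushH 2 (thetaIso M C).inv F) = F :=
      calc pushH 2 (thetaIso M C).hom (pushH 2 (thetaIso M C).inv F)
          = (pushH 2 (thetaIso M C).inv ≫ pushH 2 (thetaIso M C).hom) F := rfl
        _ = F := by rw [e]; rfl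
    have e2 : pushH 2 (tensorLeftHom (dualRep M) C x hx) ≫ pushH 2 (thetaIso M C).hom
        = pushH 2 (scalHom M C φ hφ) := by
      rw [← groupCohomology.map_id_comp, tensorLeftHom_comp_thetaIso M C φ hφ hx]
    rw [← h1, ← hxy, ← e2]
    rfl
  have key : ∀ m : M.V, (∀ g : G, M.ρ g m = m) → d ∣ φ m := fun m hm => by
    have h0 := hF m hm
    rw [hFφ, pushH_eval_scal] at h0
    exact hord _ h0
  have hinv' : ∀ g : G, ((n' : k) • φ) ∘ₗ M.ρ g = (n' : k) • φ := fun g => by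
    rw [LinearMap.smul_comp, hφ]
  obtain ⟨ψ, hψ⟩ := hD ((n' : k) • φ) hinv' fun m hm => by
    obtain ⟨c, hc⟩ := key m hm
    exact ⟨c, by rw [LinearMap.smul_apply, hc, ← hcard, smul_eq_mul, mul_assoc]⟩
  let _ := Fintype.ofFinite G
  have h2 : (n' : k) • F = 0 := by
    rw [hFφ, ← pushH_scal_smul M C φ hφ (n' : k) hinv',
      scalHom_eq_normHom M C ((n' : k) • φ) ψ hinv' hψ]
    show (map (MonoidHom.id G) (normHom (scalLinI M C ψ)) 2) u = 0
    rw [map_normHom_two]
    rfl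
  rw [Nat.cast_smul_eq_nsmul] at h2
  exact eq_zero_of_coprime_nsmul F _ _ (hcop j) h2 hj


end polyFinite

lemma dualRep_free (M : Rep k G) [Module.Free k M.V] [Module.Finite k M.V] :
    Module.Free k (dualRep M).V :=
  inferInstanceAs (Module.Free k (M.V →ₗ[k] k))

lemma dualRep_finite (M : Rep k G) [Module.Free k M.V] [Module.Finite k M.V] :
    Module.Finite k (dualRep M).V :=
  inferInstanceAs (Module.Finite k (M.V →ₗ[k] k))

end poly

section int

/-- **(D0a)** `Ĥ⁰`-duality, first half (hypothesis; proved by the `H0Dual` leaf). -/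
def D0a : Prop :=
  ∀ (G : Type) [Group G] [Finite G] (M : Rep.{0} ℤ G), Module.Free ℤ M.V → Module.Finite ℤ M.V →
    D0aFor (k := ℤ) (Nat.card G : ℤ) M

/-- **(D0b)** `Ĥ⁰`-duality, second half (hypothesis; proved by the `H0Dual` leaf). -/
def D0b : Prop :=
  ∀ (G : Type) [Group G] [Finite G] (M : Rep.{0} ℤ G), Module.Free ℤ M.V → Module.Finite ℤ M.V →
    D0bFor (k := ℤ) (Nat.card G : ℤ) M

lemma free_int_congr {A : Type*} [AddCommGroup A] (i₁ i₂ : Module ℤ A)
    (h : @Module.Free ℤ A _ _ i₁) : @Module.Free ℤ A _ _ i₂ := by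
  have : i₁ = i₂ := Subsingleton.elim _ _
  subst this; exact h

lemma finite_int_congr {A : Type*} [AddCommGroup A] (i₁ i₂ : Module ℤ A)
    (h : @Module.Finite ℤ A _ _ i₁) : @Module.Finite ℤ A _ _ i₂ := by
  have : i₁ = i₂ := Subsingleton.elim _ _
  subst this; exact h

variable {G : Type} [Group G]

/-- Order input: `z • u = 0` forces `#P ∣ z` for a Sylow `p`-subgroup `P`. -/
lemma card_sylow_dvd_of_smul_eq_zero {p : ℕ} [Fact p.Prime] {C : Rep ℤ G} {u : H2 C}
    (hu : IsFundClass p C u) (P : Sylow p G) (z : ℤ) (hz : z • u = 0) : (Nat.card P : ℤ) ∣ z := by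
  have h1 : z • (resMap (P : Subgroup G) C 2).hom u = 0 := by
    rw [← map_zsmul, hz, map_zero]
  rw [← hu.order P P.isPGroup']
  exact addOrderOf_dvd_iff_zsmul_eq_zero.2 h1

/-- **TN20** from Tate's theorem in degree `0 → 2` and `Ĥ⁰`-duality. -/
theorem tn20_of (hT0 : TateZero) (hD0a : D0a) (hD0b : D0b) : TN20 := by
  intro G _ _ p _ C u hu M hfree hfin
  obtain ⟨P⟩ : Nonempty (Sylow p G) := inferInstance
  have hcard : ((P : Subgroup G).index : ℤ) * (Nat.card P : ℤ) = (Nat.card G : ℤ) := by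
    have := Subgroup.card_mul_index (P : Subgroup G)
    rw [mul_comm] at this
    exact_mod_cast this
  have hord : ∀ z : ℤ, (H2 C).isModule.smul z u = 0 → (Nat.card P : ℤ) ∣ z := fun z hz =>
    card_sylow_dvd_of_smul_eq_zero hu P z (by rw [← int_smul_eq_zsmul (H2 C).isModule]; exact hz)
  have hcop : ∀ j : ℕ, Nat.Coprime (P : Subgroup G).index (p ^ j) := fun j =>
    Nat.Coprime.pow_right j
      ((Nat.Coprime.symm ((Nat.Prime.coprime_iff_not_dvd Fact.out).2 P.not_dvd_index)))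
  have hfree' : @Module.Free ℤ M.V _ _ M.hV2 := free_int_congr _ _ hfree
  have hfin' : @Module.Finite ℤ M.V _ _ M.hV2 := finite_int_congr _ _ hfin
  refine ⟨fun F hFp hF => ?_, fun m hm hpm hF => ?_⟩
  · have hXfree : Module.Free ℤ (dualRep M).V := free_int_congr _ _ (dualRep_free (k := ℤ) M)
    have hXfin : Module.Finite ℤ (dualRep M).V :=
      finite_int_congr _ _ (dualRep_finite (k := ℤ) M)
    exact tn20_left_poly p M C u _ _ _ hcard hord hcop (hD0b G M hfree hfin)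
      (hT0 G p C u hu (dualRep M) hXfree hXfin).2 F hFp hF
  · exact tn20_right_poly p M C u _ _ _ hcard hord hcop (hD0a G M hfree hfin) m hm hpm hF

end int

end

end Fermat.Agent.PT.FG.TNDual1
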