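/-
Program F (S55, Poitou–Tate), chapter FG, row (FG-TN02), owner helper3.

**TN02 ⇐ TN11**: the Tate–Nakayama pairing in degrees (0,2)
`Ĥ⁰(G, Hom(M, C)) × H²(G, M) → H²(G, C)`, `(f, x) ↦ f_* x`, is nondegenerate on `p`-primary parts
(for `M` `ℤ`-free finitely generated, `(C, u)` a class module at `p`), GIVEN `Interface8.TN11`.

Method (ordinary cohomology only): for a `k`-split short exact sequence `0 → M → A → M' → 0` with
`A` relatively projective (`id_A = N(π)`, e.g. `A = coind₁ M`):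
* `δ : H¹(M') → H²(M)` is bijective (Mathlib LES + `NormKills1`),
* every `1`-cocycle of `Hom(M', C)` is `zOf Φ : g ↦ (g • Φ - Φ)` descended to `M'`, for a linear
  `Φ : A → C` whose restriction to `M` is equivariant (`δ₀` onto); `zOf Φ` is a coboundary iff
  `Φ|M` extends to an equivariant map `A → C` iff `Φ|M` is a norm,
* cochain identity `cup11 (zOf Φ) η + Φ|M ∘ (δη) = d (Φ ∘ η̃)` (`Splitting.cup11_zOf`), whence
  `B (δ₀ f) η = - f_* (δ η)` (`Splitting.pairing_formula`).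

Main exports (ns `Fermat.Agent.PT.FG.TN02_3`):
* `Splitting S`, `exists_section`, `dHom`, `Splitting.zOf`, `Splitting.zCocycle`,
  `Splitting.exists_lift_of_cocycle`, `Splitting.exists_equivariant_of_coboundary`,
  `Splitting.zOf_sub_zOf`, `Splitting.eq_norm_of_equivariant`, `Splitting.exists_equivariant_of_norm`,
  `Splitting.δ_H1π`, `Splitting.cup11_zOf`, `Splitting.pairing_formula`;
* `isZero_H1_of_normHom_eq_id`, `isZero_H2_of_normHom_eq_id`, `normHom_lcomp_eq_id`;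
* `tn02_of_tn11_ses` (generic `k`, generic split sequence);
* `evOne`, `piOne`, `normHom_piOne` (the sequence `0 → M → coind₁ M → up M → 0` of `DimShift3`);
* `TN02For p M C`, `TN02 : Prop`, `tn02_of_tn11 : Interface8.TN11 → TN02`.
-/
import Mathlib
import Fermat.Agent.PT.FG.Interface8
import Fermat.Agent.PT.FG.NormKills1
import Fermat.Agent.PT.FG.TNDual1
import Fermat.Agent.PT.FG.DimShift3

set_option autoImplicit false

open CategoryTheory CategoryTheory.Limits groupCohomology MonoidalCategory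

namespace Fermat.Agent.PT.FG.TN02_3

open Fermat.Agent.PT.FG.Interface8 Fermat.Agent.PT.FG.NormKills1 Fermat.Agent.PT.FG.TNDual1
open Fermat.Agent.PT.FG.DimShift3 Fermat.Agent.PT.FG.TateInduced3

noncomputable section

section Part0

variable {k : Type} [CommRing k] {G : Type} [Group G]

/-- A `k`-linear section of the epimorphism of a `k`-split short exact sequence. -/
lemma exists_section {S : ShortComplex (Rep.{0} k G)} (hS : S.ShortExact)
    (s : S.X₂.V →ₗ[k] S.X₁.V) (hs : ∀ m, s (S.f.hom m) = m) :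
    ∃ t : S.X₃.V →ₗ[k] S.X₂.V, (∀ m', S.g.hom (t m') = m') ∧
      ∀ a, t (S.g.hom a) = a - S.f.hom (s a) := by
  have hq : Function.Surjective S.g.hom.toLinearMap := (Rep.epi_iff_surjective S.g).1 hS.epi_g
  have hex : LinearMap.range S.f.hom.toLinearMap = LinearMap.ker S.g.hom.toLinearMap :=
    (hS.exact.map (forget₂ (Rep k G) (ModuleCat k))).moduleCat_range_eq_ker
  let e : S.X₂.V →ₗ[k] S.X₂.V := LinearMap.id - S.f.hom.toLinearMap ∘ₗ s
  have he : LinearMap.ker S.g.hom.toLinearMap ≤ LinearMap.ker e := by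
    intro a ha
    rw [← hex] at ha
    obtain ⟨m, rfl⟩ := ha
    show e (S.f.hom m) = 0
    simp only [e, LinearMap.sub_apply, LinearMap.id_apply, LinearMap.comp_apply]
    show S.f.hom m - S.f.hom (s (S.f.hom m)) = 0
    rw [hs, sub_self]
  let t : S.X₃.V →ₗ[k] S.X₂.V :=
    (LinearMap.ker S.g.hom.toLinearMap).liftQ e he ∘ₗ
      (S.g.hom.toLinearMap.quotKerEquivOfSurjective hq).symm.toLinearMap
  have ht : ∀ a, t (S.g.hom a) = a - S.f.hom (s a) := by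
    intro a
    have h1 : (S.g.hom.toLinearMap.quotKerEquivOfSurjective hq).symm (S.g.hom a) =
        Submodule.Quotient.mk a := by
      rw [LinearEquiv.symm_apply_eq]
      rfl
    show (LinearMap.ker S.g.hom.toLinearMap).liftQ e he
      ((S.g.hom.toLinearMap.quotKerEquivOfSurjective hq).symm (S.g.hom a)) = _
    rw [h1]
    rfl
  refine ⟨t, ?_, ht⟩
  intro m'
  obtain ⟨a, rfl⟩ := hq m'
  show S.g.hom (t (S.g.hom a)) = S.g.hom a
  rw [ht, map_sub]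
  have : S.g.hom (S.f.hom (s a)) = 0 := by
    have := congr(($(S.zero)).hom (s a))
    exact this
  rw [this, sub_zero]

end Part0

section Part1

variable {k : Type} [CommRing k] {G : Type} [Group G]

/-- A `k`-linear splitting of a short complex of representations. -/
structure Splitting (S : ShortComplex (Rep.{0} k G)) where
  s : S.X₂.V →ₗ[k] S.X₁.V
  t : S.X₃.V →ₗ[k] S.X₂.V
  s_f : ∀ m, s (S.f.hom m) = m
  g_t : ∀ m', S.g.hom (t m') = m'
  t_g : ∀ a, t (S.g.hom a) = a - S.f.hom (s a)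

/-- The coboundary `g ↦ g • Φ - Φ` of a linear map. -/
def dHom (A C : Rep.{0} k G) (Φ : A.V →ₗ[k] C.V) (g : G) : A.V →ₗ[k] C.V :=
  C.ρ g ∘ₗ Φ ∘ₗ A.ρ g⁻¹ - Φ

@[simp] lemma dHom_apply (A C : Rep.{0} k G) (Φ : A.V →ₗ[k] C.V) (g : G) (a : A.V) :
    dHom A C Φ g a = C.ρ g (Φ (A.ρ g⁻¹ a)) - Φ a := rfl

namespace Splitting

variable {S : ShortComplex (Rep.{0} k G)} (σ : Splitting S) (C : Rep.{0} k G)

lemma g_f (m : S.X₁.V) : S.g.hom (S.f.hom m) = 0 := congr(($(S.zero)).hom m)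

lemma f_s_of_g_eq_zero (a : S.X₂.V) (h : S.g.hom a = 0) : S.f.hom (σ.s a) = a := by
  have h1 := σ.t_g a
  rw [h, map_zero] at h1
  exact (sub_eq_zero.1 h1.symm).symm

include σ in
lemma g_surjective : Function.Surjective S.g.hom := fun m' => ⟨σ.t m', σ.g_t m'⟩

include σ in
lemma ext_g {φ ψ : S.X₃.V →ₗ[k] C.V} (h : ∀ a, φ (S.g.hom a) = ψ (S.g.hom a)) : φ = ψ := by
  ext m'
  obtain ⟨a, rfl⟩ := σ.g_surjective m'
  exact h a

/-- The restriction of `Φ` to `X₁` is equivariant. -/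
def IsEquivOnSub (Φ : S.X₂.V →ₗ[k] C.V) : Prop :=
  ∀ (g : G) (m : S.X₁.V), Φ (S.f.hom (S.X₁.ρ g m)) = C.ρ g (Φ (S.f.hom m))

/-- The `1`-cochain of `Hom(X₃, C)` attached to a linear map `Φ : X₂ → C`. -/
def zOf (Φ : S.X₂.V →ₗ[k] C.V) (g : G) : S.X₃.V →ₗ[k] C.V := dHom S.X₂ C Φ g ∘ₗ σ.t

variable {C}

lemma dHom_f {Φ : S.X₂.V →ₗ[k] C.V} (hΦ : IsEquivOnSub C Φ) (g : G) (m : S.X₁.V) :
    dHom S.X₂ C Φ g (S.f.hom m) = 0 := by
  rw [dHom_apply, ← Rep.hom_comm_apply, hΦ, ← Module.End.mul_apply, ← map_mul, mul_inv_cancel,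
    map_one, Module.End.one_apply, sub_self]

lemma zOf_g {Φ : S.X₂.V →ₗ[k] C.V} (hΦ : IsEquivOnSub C Φ) (g : G) (a : S.X₂.V) :
    σ.zOf C Φ g (S.g.hom a) = dHom S.X₂ C Φ g a := by
  show dHom S.X₂ C Φ g (σ.t (S.g.hom a)) = _
  rw [σ.t_g, map_sub, dHom_f hΦ, sub_zero]

lemma zOf_cocycle {Φ : S.X₂.V →ₗ[k] C.V} (hΦ : IsEquivOnSub C Φ) (g h : G) :
    σ.zOf C Φ (g * h) = C.ρ g ∘ₗ σ.zOf C Φ h ∘ₗ S.X₃.ρ g⁻¹ + σ.zOf C Φ g := by
  refine σ.ext_g C fun a => ?_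
  rw [LinearMap.add_apply, LinearMap.comp_apply, LinearMap.comp_apply, ← Rep.hom_comm_apply,
    σ.zOf_g hΦ, σ.zOf_g hΦ, σ.zOf_g hΦ]
  simp only [dHom_apply, mul_inv_rev, map_mul, Module.End.mul_apply, map_sub]
  abel

end Splitting

end Part1

section Part2

variable {k : Type} [CommRing k] {G : Type} [Group G]

/-- A `1`-cocycle of `Hom(X, C)` from a function satisfying the cocycle identity. -/
def mkCocycle₁ (X C : Rep.{0} k G) (w : G → (X.V →ₗ[k] C.V))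
    (hw : ∀ g h, w (g * h) = C.ρ g ∘ₗ w h ∘ₗ X.ρ g⁻¹ + w g) :
    cocycles₁ ((Rep.ihom X).obj C) :=
  ⟨w, (mem_cocycles₁_iff (A := (Rep.ihom X).obj C) w).2 hw⟩

lemma cocycle₁_ihom_apply (X C : Rep.{0} k G) (z : cocycles₁ ((Rep.ihom X).obj C)) (g h : G) :
    (show X.V →ₗ[k] C.V from z (g * h)) =
      C.ρ g ∘ₗ (show X.V →ₗ[k] C.V from z h) ∘ₗ X.ρ g⁻¹ + (show X.V →ₗ[k] C.V from z g) :=
  (mem_cocycles₁_iff (A := (Rep.ihom X).obj C) z).1 z.2 g h

lemma exists_dHom_of_isZero (X C : Rep.{0} k G) (h : IsZero (H1 ((Rep.ihom X).obj C)))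
    (w : G → (X.V →ₗ[k] C.V)) (hw : ∀ g h, w (g * h) = C.ρ g ∘ₗ w h ∘ₗ X.ρ g⁻¹ + w g) :
    ∃ Φ : X.V →ₗ[k] C.V, ∀ g, w g = dHom X C Φ g := by
  have h0 : H1π _ (mkCocycle₁ X C w hw) = 0 := (ModuleCat.subsingleton_of_isZero h).elim _ _
  rw [H1π_eq_zero_iff] at h0
  obtain ⟨Φ, hΦ⟩ := h0
  refine ⟨Φ, fun g => ?_⟩
  have := congrFun hΦ g
  rw [d₀₁_hom_apply] at this
  exact this.symm

lemma isCoboundary_iff (X C : Rep.{0} k G) (z : cocycles₁ ((Rep.ihom X).obj C)) :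
    H1π _ z = 0 ↔ ∃ E : X.V →ₗ[k] C.V, ∀ g, (show X.V →ₗ[k] C.V from z g) = dHom X C E g := by
  rw [H1π_eq_zero_iff]
  constructor
  · rintro ⟨E, hE⟩
    refine ⟨E, fun g => ?_⟩
    have := congrFun hE g
    rw [d₀₁_hom_apply] at this
    exact this.symm
  · rintro ⟨E, hE⟩
    refine ⟨(show ((Rep.ihom X).obj C).V from E), ?_⟩
    funext g
    exact (hE g).symm

end Part2

section Part3

variable {k : Type} [CommRing k] {G : Type} [Group G]

namespace Splitting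

variable {S : ShortComplex (Rep.{0} k G)} (σ : Splitting S) {C : Rep.{0} k G}

/-- Every `1`-cocycle of `Hom(X₃, C)` is of the form `zOf Φ` if `H¹(Hom(X₂, C)) = 0`. -/
lemma exists_lift_of_cocycle (hA1 : IsZero (H1 ((Rep.ihom S.X₂).obj C)))
    (z : cocycles₁ ((Rep.ihom S.X₃).obj C)) :
    ∃ Φ : S.X₂.V →ₗ[k] C.V, IsEquivOnSub C Φ ∧
      ∀ g, (show S.X₃.V →ₗ[k] C.V from z g) = σ.zOf C Φ g := by
  let w : G → (S.X₂.V →ₗ[k] C.V) := fun g =>
    (show S.X₃.V →ₗ[k] C.V from z g) ∘ₗ S.g.hom.toLinearMap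
  have hw : ∀ g h, w (g * h) = C.ρ g ∘ₗ w h ∘ₗ S.X₂.ρ g⁻¹ + w g := by
    intro g h
    ext a
    have h1 := LinearMap.congr_fun (cocycle₁_ihom_apply S.X₃ C z g h) (S.g.hom a)
    show (show S.X₃.V →ₗ[k] C.V from z (g * h)) (S.g.hom a) =
      C.ρ g ((show S.X₃.V →ₗ[k] C.V from z h) (S.g.hom (S.X₂.ρ g⁻¹ a))) +
        (show S.X₃.V →ₗ[k] C.V from z g) (S.g.hom a)
    rw [h1, Rep.hom_comm_apply]
    rfl
  obtain ⟨Φ, hΦ⟩ := exists_dHom_of_isZero S.X₂ C hA1 w hw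
  have hΦ0 : ∀ g m, dHom S.X₂ C Φ g (S.f.hom m) = 0 := by
    intro g m
    rw [← hΦ g]
    show (show S.X₃.V →ₗ[k] C.V from z g) (S.g.hom (S.f.hom m)) = 0
    rw [g_f, map_zero]
  have hΦ1 : IsEquivOnSub C Φ := by
    intro g m
    have := hΦ0 g (S.X₁.ρ g m)
    rw [dHom_apply, ← Rep.hom_comm_apply, ← Module.End.mul_apply, ← map_mul, inv_mul_cancel,
      map_one, Module.End.one_apply, sub_eq_zero] at this
    exact this.symm
  refine ⟨Φ, hΦ1, fun g => σ.ext_g C fun a => ?_⟩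
  rw [σ.zOf_g hΦ1, ← hΦ g]
  rfl

/-- If `zOf Φ` is a coboundary then the restriction of `Φ` to `X₁` extends to an equivariant map. -/
lemma exists_equivariant_of_coboundary {Φ : S.X₂.V →ₗ[k] C.V} (hΦ : IsEquivOnSub C Φ)
    (E : S.X₃.V →ₗ[k] C.V) (hE : ∀ g, σ.zOf C Φ g = dHom S.X₃ C E g) :
    ∃ Ψ : S.X₂.V →ₗ[k] C.V, (∀ g a, Ψ (S.X₂.ρ g a) = C.ρ g (Ψ a)) ∧
      ∀ m, Ψ (S.f.hom m) = Φ (S.f.hom m) := by
  let Ψ : S.X₂.V →ₗ[k] C.V := Φ - E ∘ₗ S.g.hom.toLinearMap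
  have hΨ : ∀ a, Ψ a = Φ a - E (S.g.hom a) := fun a => rfl
  have h0 : ∀ g a, dHom S.X₂ C Ψ g a = 0 := by
    intro g a
    have h1 := LinearMap.congr_fun (hE g) (S.g.hom a)
    rw [σ.zOf_g hΦ, dHom_apply, dHom_apply, ← Rep.hom_comm_apply] at h1
    rw [dHom_apply, hΨ, hΨ, map_sub, sub_sub_sub_comm, h1, sub_self]
  refine ⟨Ψ, fun g a => ?_, fun m => ?_⟩
  · have := h0 g (S.X₂.ρ g a)
    rw [dHom_apply, ← Module.End.mul_apply, ← map_mul, inv_mul_cancel,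
      map_one, Module.End.one_apply, sub_eq_zero] at this
    exact this.symm
  · rw [hΨ, g_f, map_zero, sub_zero]

lemma apply_t_g (L : S.X₂.V →ₗ[k] C.V) (hL : ∀ m, L (S.f.hom m) = 0) (a : S.X₂.V) :
    L (σ.t (S.g.hom a)) = L a := by
  rw [σ.t_g, map_sub, hL, sub_zero]

/-- Two lifts of the same map on `X₁` give cohomologous cocycles. -/
lemma zOf_sub_zOf {Φ₁ Φ₂ : S.X₂.V →ₗ[k] C.V} (h : ∀ m, Φ₁ (S.f.hom m) = Φ₂ (S.f.hom m)) (g : G) :
    σ.zOf C Φ₁ g - σ.zOf C Φ₂ g = dHom S.X₃ C ((Φ₁ - Φ₂) ∘ₗ σ.t) g := by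
  have hEι : ∀ m, (Φ₁ - Φ₂) (S.f.hom m) = 0 := by
    intro m
    rw [LinearMap.sub_apply, h, sub_self]
  have hL : ∀ m, (C.ρ g ∘ₗ (Φ₁ - Φ₂) ∘ₗ S.X₂.ρ g⁻¹) (S.f.hom m) = 0 := by
    intro m
    rw [LinearMap.comp_apply, LinearMap.comp_apply, ← Rep.hom_comm_apply, hEι, map_zero]
  refine σ.ext_g C fun a => ?_
  rw [dHom_apply, LinearMap.comp_apply, LinearMap.comp_apply, ← Rep.hom_comm_apply,
    σ.apply_t_g _ hEι, σ.apply_t_g _ hEι]
  have h1 := σ.apply_t_g _ hL a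
  have h2 := σ.apply_t_g _ hEι a
  simp only [LinearMap.comp_apply, LinearMap.sub_apply, map_sub] at h1 h2 ⊢
  show dHom S.X₂ C Φ₁ g (σ.t (S.g.hom a)) - dHom S.X₂ C Φ₂ g (σ.t (S.g.hom a)) = _
  simp only [dHom_apply]
  rw [sub_sub_sub_comm, h1, h2]

end Splitting

end Part3

section Part4

variable {k : Type} [CommRing k] {G : Type} [Group G]

section Norm

variable [Fintype G]

/-- `id = N(π)` kills `H¹`. -/
lemma isZero_H1_of_normHom_eq_id (A : Rep.{0} k G) (π : A.V →ₗ[k] A.V) (h : normHom π = 𝟙 A) :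
    IsZero (H1 A) := by
  rw [IsZero.iff_id_eq_zero, ← groupCohomology.map_id, ← h]
  exact map_normHom_one π

/-- `id = N(π)` kills `H²`. -/
lemma isZero_H2_of_normHom_eq_id (A : Rep.{0} k G) (π : A.V →ₗ[k] A.V) (h : normHom π = 𝟙 A) :
    IsZero (H2 A) := by
  rw [IsZero.iff_id_eq_zero, ← groupCohomology.map_id, ← h]
  exact map_normHom_two π

lemma normHom_id_apply {A : Rep.{0} k G} {π : A.V →ₗ[k] A.V} (h : normHom π = 𝟙 A) (a : A.V) :
    ∑ g : G, A.ρ g (π (A.ρ g⁻¹ a)) = a := by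
  rw [← normHom_hom_apply, h]
  rfl

/-- If `id_A = N(π)` then `id_{Hom(A, C)} = N(- ∘ π)`. -/
lemma normHom_lcomp_eq_id (A C : Rep.{0} k G) (π : A.V →ₗ[k] A.V) (h : normHom π = 𝟙 A) :
    normHom (A := (Rep.ihom A).obj C) (B := (Rep.ihom A).obj C) (LinearMap.lcomp k C.V π) =
      𝟙 _ := by
  refine Rep.hom_ext ?_
  refine Representation.IntertwiningMap.ext (LinearMap.ext fun (F : A.V →ₗ[k] C.V) => ?_)
  show (normHom (A := (Rep.ihom A).obj C) (B := (Rep.ihom A).obj C)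
    (LinearMap.lcomp k C.V π)).hom F = F
  refine (normHom_hom_apply (A := (Rep.ihom A).obj C) (B := (Rep.ihom A).obj C)
    (LinearMap.lcomp k C.V π) F).trans ?_
  refine LinearMap.ext fun a => ?_
  have h1 : ∀ g : G, (show A.V →ₗ[k] C.V from ((Rep.ihom A).obj C).ρ g
      (LinearMap.lcomp k C.V π (((Rep.ihom A).obj C).ρ g⁻¹ F))) a =
      F (A.ρ g (π (A.ρ g⁻¹ a))) := by
    intro g
    show C.ρ g (C.ρ g⁻¹ (F (A.ρ g⁻¹⁻¹ (π (A.ρ g⁻¹ a))))) = _
    rw [← Module.End.mul_apply, ← map_mul, mul_inv_cancel, map_one, Module.End.one_apply, inv_inv]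
  have h2 : (show A.V →ₗ[k] C.V from ∑ g : G, ((Rep.ihom A).obj C).ρ g
      (LinearMap.lcomp k C.V π (((Rep.ihom A).obj C).ρ g⁻¹ F))) a =
      ∑ g : G, (show A.V →ₗ[k] C.V from ((Rep.ihom A).obj C).ρ g
      (LinearMap.lcomp k C.V π (((Rep.ihom A).obj C).ρ g⁻¹ F))) a :=
    LinearMap.sum_apply _ _ _
  refine h2.trans ?_
  rw [Finset.sum_congr rfl fun g _ => h1 g, ← map_sum, normHom_id_apply h]

end Norm

end Part4

section Part5

variable {k : Type} [CommRing k] {G : Type} [Group G]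

namespace Splitting

variable {S : ShortComplex (Rep.{0} k G)} (σ : Splitting S) {C : Rep.{0} k G}

section Norm

variable [Fintype G]

/-- A map on `X₁` with an equivariant extension to the relatively projective `X₂` is a norm. -/
lemma eq_norm_of_equivariant {π : S.X₂.V →ₗ[k] S.X₂.V} (hπ : normHom π = 𝟙 S.X₂)
    (Ψ : S.X₂.V →ₗ[k] C.V) (hΨ : ∀ g a, Ψ (S.X₂.ρ g a) = C.ρ g (Ψ a)) (m : S.X₁.V) :
    Ψ (S.f.hom m) = ∑ g : G, C.ρ g ((Ψ ∘ₗ π ∘ₗ S.f.hom.toLinearMap) (S.X₁.ρ g⁻¹ m)) := by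
  have h1 : ∀ g : G, C.ρ g ((Ψ ∘ₗ π ∘ₗ S.f.hom.toLinearMap) (S.X₁.ρ g⁻¹ m)) =
      Ψ (S.X₂.ρ g (π (S.X₂.ρ g⁻¹ (S.f.hom m)))) := by
    intro g
    rw [hΨ, ← Rep.hom_comm_apply]
    rfl
  rw [Finset.sum_congr rfl fun g _ => h1 g, ← map_sum, normHom_id_apply hπ]

include σ in
/-- The norm of a linear map on `X₁` has an equivariant extension to `X₂`. -/
lemma exists_equivariant_of_norm (φ : S.X₁.V →ₗ[k] C.V) :
    ∃ Ψ : S.X₂.V →ₗ[k] C.V, (∀ g a, Ψ (S.X₂.ρ g a) = C.ρ g (Ψ a)) ∧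
      ∀ m, Ψ (S.f.hom m) = ∑ g : G, C.ρ g (φ (S.X₁.ρ g⁻¹ m)) := by
  refine ⟨normLin (A := S.X₂) (B := C) (φ ∘ₗ σ.s), fun g a => normLin_comm _ g a, fun m => ?_⟩
  rw [normLin_apply]
  refine Finset.sum_congr rfl fun g _ => ?_
  rw [← Rep.hom_comm_apply, LinearMap.comp_apply, σ.s_f]

end Norm

/-! ### The connecting map on the `X₁`-side -/

/-- The lift of a `1`-cocycle of `X₃` to a `1`-cochain of `X₂`. -/
def yOf (η : cocycles₁ S.X₃) : G → S.X₂.V := fun g => σ.t (η g)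

/-- The `2`-cocycle of `X₁` representing `δ [η]`. -/
def xOf (η : cocycles₁ S.X₃) : G × G → S.X₁.V := fun gh =>
  σ.s (S.X₂.ρ gh.1 (σ.yOf η gh.2) - σ.yOf η (gh.1 * gh.2) + σ.yOf η gh.1)

lemma g_yOf (η : cocycles₁ S.X₃) (g : G) : S.g.hom (σ.yOf η g) = η g := σ.g_t _

lemma f_xOf (η : cocycles₁ S.X₃) (g h : G) :
    S.f.hom (σ.xOf η (g, h)) = S.X₂.ρ g (σ.yOf η h) - σ.yOf η (g * h) + σ.yOf η g := by
  refine σ.f_s_of_g_eq_zero _ ?_
  rw [map_add, map_sub, Rep.hom_comm_apply, g_yOf, g_yOf, g_yOf,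
    (mem_cocycles₁_iff (A := S.X₃) η).1 η.2 g h]
  abel

lemma f_comp_xOf (η : cocycles₁ S.X₃) :
    S.f.hom ∘ σ.xOf η = d₁₂ S.X₂ (σ.yOf η) := by
  funext ⟨g, h⟩
  exact σ.f_xOf η g h

/-- The explicit representative of `δ [η]`. -/
def xCocycle (hS : S.ShortExact) (η : cocycles₁ S.X₃) : cocycles₂ S.X₁ :=
  ⟨σ.xOf η, mem_cocycles₂_of_comp_eq_d₁₂ hS (σ.f_comp_xOf η)⟩

lemma δ_H1π (hS : S.ShortExact) (η : cocycles₁ S.X₃) :
    δ hS 1 2 rfl (H1π S.X₃ η) = H2π S.X₁ (σ.xCocycle hS η) :=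
  δ₁_apply hS η (σ.yOf η) (funext fun g => σ.g_yOf η g) (σ.xOf η) (σ.f_comp_xOf η)

/-- The cocycle `zOf Φ`. -/
def zCocycle {Φ : S.X₂.V →ₗ[k] C.V} (hΦ : IsEquivOnSub C Φ) :
    cocycles₁ ((Rep.ihom S.X₃).obj C) :=
  mkCocycle₁ S.X₃ C (σ.zOf C Φ) (σ.zOf_cocycle hΦ)

lemma zCocycle_apply {Φ : S.X₂.V →ₗ[k] C.V} (hΦ : IsEquivOnSub C Φ) (g : G) :
    (show S.X₃.V →ₗ[k] C.V from σ.zCocycle hΦ g) = σ.zOf C Φ g := rfl

/-- The cochain identity `(δ₀ f ∪ η) + f ∘ (δ η) = d (Φ ∘ η̃)`. -/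
lemma cup11_zOf {Φ : S.X₂.V →ₗ[k] C.V} (hΦ : IsEquivOnSub C Φ) (η : cocycles₁ S.X₃) (g h : G) :
    cup11 S.X₃ C (σ.zCocycle hΦ) η (g, h) + Φ (S.f.hom (σ.xOf η (g, h))) =
      C.ρ g (Φ (σ.yOf η h)) - Φ (σ.yOf η (g * h)) + Φ (σ.yOf η g) := by
  have h1 : cup11 S.X₃ C (σ.zCocycle hΦ) η (g, h) = σ.zOf C Φ g (S.X₃.ρ g (η h)) := rfl
  rw [h1, ← σ.g_yOf η h, ← Rep.hom_comm_apply, σ.zOf_g hΦ, dHom_apply, σ.f_xOf, map_add, map_sub,
    ← Module.End.mul_apply, ← map_mul, inv_mul_cancel, map_one, Module.End.one_apply]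
  abel

end Splitting

end Part5

section Part6

variable {k : Type} [CommRing k] {G : Type} [Group G]

namespace Splitting

variable {S : ShortComplex (Rep.{0} k G)} (σ : Splitting S) {C : Rep.{0} k G}

lemma zOf_nsmul (Φ : S.X₂.V →ₗ[k] C.V) (n : ℕ) (g : G) :
    σ.zOf C (n • Φ) g = n • σ.zOf C Φ g := by
  ext m'
  simp only [zOf, LinearMap.comp_apply, dHom_apply, LinearMap.smul_apply, map_nsmul, smul_sub]

lemma zOf_eq_zero_of_equivariant {Ψ : S.X₂.V →ₗ[k] C.V}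
    (hΨ : ∀ g a, Ψ (S.X₂.ρ g a) = C.ρ g (Ψ a)) (g : G) : σ.zOf C Ψ g = 0 := by
  ext m'
  simp only [zOf, LinearMap.comp_apply, dHom_apply, LinearMap.zero_apply]
  rw [← hΨ, ← Module.End.mul_apply, ← map_mul, mul_inv_cancel, map_one, Module.End.one_apply,
    sub_self]

/-- The pairing formula `⟨δ₀ f, η⟩ = - f_* (δ η)`. -/
lemma pairing_formula (hS : S.ShortExact)
    (B : H1 ((Rep.ihom S.X₃).obj C) →+ H1 S.X₃ →+ H2 C)
    (hB : ∀ (f : cocycles₁ ((Rep.ihom S.X₃).obj C)) (x : cocycles₁ S.X₃) (c : cocycles₂ C),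
      (c : G × G → C.V) = cup11 S.X₃ C f x → B (H1π _ f) (H1π _ x) = H2π C c)
    {Φ : S.X₂.V →ₗ[k] C.V} (hΦ : IsEquivOnSub C Φ) (f : S.X₁ ⟶ C)
    (hf : ∀ m, f.hom m = Φ (S.f.hom m)) (η : cocycles₁ S.X₃) :
    B (H1π _ (σ.zCocycle hΦ)) (H1π _ η) = - pushH 2 f (δ hS 1 2 rfl (H1π _ η)) := by
  let u : G → C.V := fun g => Φ (σ.yOf η g)
  let fx : cocycles₂ C := mapCocycles₂ (MonoidHom.id G) f (σ.xCocycle hS η)
  have hfx : ∀ p : G × G, (fx : G × G → C.V) p = Φ (S.f.hom (σ.xOf η p)) := fun p =>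
    (coe_mapCocycles₂_id f (σ.xCocycle hS η) p).trans (hf _)
  have hcup : cup11 S.X₃ C (σ.zCocycle hΦ) η + (fx : G × G → C.V) = d₁₂ C u := by
    funext ⟨g, h⟩
    rw [Pi.add_apply, hfx, σ.cup11_zOf hΦ η g h]
    rfl
  have hmem : cup11 S.X₃ C (σ.zCocycle hΦ) η ∈ cocycles₂ C := by
    have h1 : cup11 S.X₃ C (σ.zCocycle hΦ) η = d₁₂ C u - (fx : G × G → C.V) := by
      rw [← hcup, add_sub_cancel_right]
    rw [h1]
    exact sub_mem (coboundaries₂_le_cocycles₂ C ⟨u, rfl⟩) fx.2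
  rw [hB (σ.zCocycle hΦ) η ⟨_, hmem⟩ rfl, σ.δ_H1π hS η, pushH_two_H2π, ← map_neg, H2π_eq_iff]
  refine ⟨u, ?_⟩
  rw [← hcup]
  funext p
  show _ = cup11 S.X₃ C (σ.zCocycle hΦ) η p - (-(fx : G × G → C.V) p)
  rw [sub_neg_eq_add]
  rfl

end Splitting

end Part6

section Part7

variable {k : Type} [CommRing k] {G : Type} [Group G] [Fintype G]

/-- **TN02 ⇐ TN11, generic form**: for a `k`-split short exact sequence `0 → M → A → M' → 0` with
`A` relatively projective (`id_A = N(π)`), a pairing `B` on `H¹(Hom(M', C)) × H¹(M')` given by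
`cup11` on cocycles and nondegenerate on `p`-primary parts yields the nondegeneracy of
`Hom_G(M, C) × H²(M) → H²(C)`, `(f, x) ↦ f_* x`, on `p`-primary parts (modulo norms on the left). -/
theorem tn02_of_tn11_ses {S : ShortComplex (Rep.{0} k G)} (hS : S.ShortExact) (σ : Splitting S)
    (π : S.X₂.V →ₗ[k] S.X₂.V) (hπ : normHom π = 𝟙 S.X₂) (C : Rep.{0} k G) (p : ℕ)
    (B : H1 ((Rep.ihom S.X₃).obj C) →+ H1 S.X₃ →+ H2 C)
    (hB : ∀ (f : cocycles₁ ((Rep.ihom S.X₃).obj C)) (x : cocycles₁ S.X₃) (c : cocycles₂ C),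
      (c : G × G → C.V) = cup11 S.X₃ C f x → B (H1π _ f) (H1π _ x) = H2π C c)
    (hBl : ∀ ξ : H1 ((Rep.ihom S.X₃).obj C), IsPPrimary p ξ → (∀ η : H1 S.X₃, B ξ η = 0) → ξ = 0)
    (hBr : ∀ η : H1 S.X₃, IsPPrimary p η →
      (∀ ξ : H1 ((Rep.ihom S.X₃).obj C), B ξ η = 0) → η = 0) :
    (∀ x : H2 S.X₁, IsPPrimary p x → (∀ f : S.X₁ ⟶ C, pushH 2 f x = 0) → x = 0) ∧
    (∀ f : S.X₁ ⟶ C,
      (∃ (n : ℕ) (φ : S.X₁.V →ₗ[k] C.V), ∀ m : S.X₁.V,
        p ^ n • f.hom m = ∑ g : G, C.ρ g (φ (S.X₁.ρ g⁻¹ m))) →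
      (∀ x : H2 S.X₁, pushH 2 f x = 0) →
      ∃ φ : S.X₁.V →ₗ[k] C.V, ∀ m : S.X₁.V, f.hom m = ∑ g : G, C.ρ g (φ (S.X₁.ρ g⁻¹ m))) := by
  have hA1 : IsZero (groupCohomology S.X₂ 1) := isZero_H1_of_normHom_eq_id S.X₂ π hπ
  have hA2 : IsZero (groupCohomology S.X₂ (1 + 1)) := isZero_H2_of_normHom_eq_id S.X₂ π hπ
  have hHA1 : IsZero (H1 ((Rep.ihom S.X₂).obj C)) :=
    isZero_H1_of_normHom_eq_id _ _ (normHom_lcomp_eq_id S.X₂ C π hπ)
  have hδinj : Function.Injective (δ hS 1 2 rfl) :=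
    (ModuleCat.mono_iff_injective _).1 (mono_δ_of_isZero hS 1 hA1)
  have hδsurj : Function.Surjective (δ hS 1 2 rfl) :=
    (ModuleCat.epi_iff_surjective _).1 (epi_δ_of_isZero hS 1 hA2)
  constructor
  · intro x hx hf
    obtain ⟨η', rfl⟩ := hδsurj x
    have hη' : IsPPrimary p η' := by
      obtain ⟨n, hn⟩ := hx
      refine ⟨n, hδinj ?_⟩
      rw [map_nsmul, hn, map_zero]
    have h0 : η' = 0 := by
      refine hBr η' hη' fun ξ => ?_
      induction ξ using H1_induction_on with | @h z =>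
      induction η' using H1_induction_on with | @h η =>
      obtain ⟨Φ, hΦ, hz⟩ := σ.exists_lift_of_cocycle hHA1 z
      have hz' : z = σ.zCocycle hΦ := Subtype.ext (funext hz)
      let f : S.X₁ ⟶ C := Rep.ofHom ⟨Φ ∘ₗ S.f.hom.toLinearMap, fun g => by
        ext m
        exact hΦ g m⟩
      rw [hz', σ.pairing_formula hS B hB hΦ f (fun m => rfl) η, hf f, neg_zero]
    rw [h0, map_zero]
  · rintro f ⟨n, φ, hφ⟩ hx
    let Φ : S.X₂.V →ₗ[k] C.V := f.hom.toLinearMap ∘ₗ σ.s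
    have hΦι : ∀ m, Φ (S.f.hom m) = f.hom m := fun m => by
      show f.hom (σ.s (S.f.hom m)) = f.hom m
      rw [σ.s_f]
    have hΦ : Splitting.IsEquivOnSub C Φ := by
      intro g m
      rw [hΦι, hΦι, Rep.hom_comm_apply]
    have hξp : IsPPrimary p (H1π _ (σ.zCocycle hΦ)) := by
      refine ⟨n, ?_⟩
      rw [← map_nsmul, isCoboundary_iff]
      obtain ⟨Ψ, hΨ, hΨι⟩ := σ.exists_equivariant_of_norm (C := C) φ
      have h1 : ∀ m, (p ^ n • Φ) (S.f.hom m) = Ψ (S.f.hom m) := by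
        intro m
        rw [LinearMap.smul_apply, hΦι, hΨι, hφ]
      refine ⟨(p ^ n • Φ - Ψ) ∘ₗ σ.t, fun g => ?_⟩
      rw [← σ.zOf_sub_zOf h1 g, σ.zOf_eq_zero_of_equivariant hΨ, sub_zero, σ.zOf_nsmul]
      rfl
    have hξ0 : H1π _ (σ.zCocycle hΦ) = 0 := by
      refine hBl _ hξp fun η' => ?_
      induction η' using H1_induction_on with | @h η =>
      rw [σ.pairing_formula hS B hB hΦ f (fun m => (hΦι m).symm) η, hx, neg_zero]
    obtain ⟨E, hE⟩ := (isCoboundary_iff _ _ _).1 hξ0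
    obtain ⟨Ψ, hΨ, hΨι⟩ := σ.exists_equivariant_of_coboundary hΦ E hE
    refine ⟨Ψ ∘ₗ π ∘ₗ S.f.hom.toLinearMap, fun m => ?_⟩
    rw [← Splitting.eq_norm_of_equivariant hπ Ψ hΨ m, hΨι, hΦι]

end Part7

section Part8

section Up

variable {k : Type} [CommRing k] {G : Type} [Group G] (M : Rep.{0} k G)

/-- Evaluation at `1`, a `k`-linear retraction of `M ↪ coind₁ M`. -/
def evOne : (upSC M).X₂.V →ₗ[k] (upSC M).X₁.V :=
  (LinearMap.proj 1 : (G → M.V) →ₗ[k] M.V)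

lemma evOne_f (m : M.V) : evOne M ((upSC M).f.hom m) = m := by
  show (coind₁ι M).hom m 1 = m
  rw [coind₁ι_apply, map_one]
  rfl

open Classical in
/-- The projection onto the component at `1`, as a linear endomorphism of `G → M`. -/
def piOneLin : (G → M.V) →ₗ[k] (G → M.V) where
  toFun f x := if x = 1 then f 1 else 0
  map_add' f f' := by
    funext x
    by_cases h : x = 1 <;> simp [h]
  map_smul' r f := by
    funext x
    by_cases h : x = 1 <;> simp [h]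

open Classical in
lemma piOneLin_apply (f : G → M.V) (x : G) : piOneLin M f x = if x = 1 then f 1 else 0 := rfl

/-- The projection onto the component at `1`. -/
def piOne : (upSC M).X₂.V →ₗ[k] (upSC M).X₂.V := piOneLin M

open Classical in
lemma sum_piOne [Fintype G] (f : G → M.V) (x : G) :
    ∑ g : G, (if x * g = 1 then f (1 * g⁻¹) else 0) = f x := by
  rw [Finset.sum_eq_single x⁻¹]
  · simp
  · intro g _ hg
    rw [if_neg]
    intro h
    exact hg (eq_inv_of_mul_eq_one_right h)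
  · intro h
    exact absurd (Finset.mem_univ _) h

lemma normHom_piOne [Fintype G] : normHom (A := (upSC M).X₂) (B := (upSC M).X₂) (piOne M) =
    𝟙 (upSC M).X₂ := by
  classical
  refine Rep.hom_ext ?_
  refine Representation.IntertwiningMap.ext (LinearMap.ext fun (f : G → M.V) => ?_)
  refine (normHom_hom_apply (A := (upSC M).X₂) (B := (upSC M).X₂) (piOne M) f).trans ?_
  funext x
  refine Eq.trans ?_ (sum_piOne M f x)
  exact Finset.sum_apply x Finset.univ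
    (fun g : G => (fun y => if y * g = 1 then f (1 * g⁻¹) else 0 : G → M.V))

end Up

end Part8

section Part9

lemma free_finite_of_split {k : Type} [CommRing k] [IsDomain k] [IsPrincipalIdealRing k]
    {A M' : Type} [AddCommGroup A] [Module k A] [AddCommGroup M'] [Module k M']
    (hA1 : Module.Free k A) (hA2 : Module.Finite k A) (t : M' →ₗ[k] A) (q : A →ₗ[k] M')
    (h : ∀ m', q (t m') = m') : Module.Free k M' ∧ Module.Finite k M' := by
  have hfin : Module.Finite k M' := Module.Finite.of_surjective q (fun m' => ⟨t m', h m'⟩)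
  have htf : Module.IsTorsionFree k A := inferInstance
  have ht : Function.Injective t := Function.LeftInverse.injective h
  have : Module.IsTorsionFree k M' := Function.Injective.moduleIsTorsionFree t ht (map_smul t)
  exact ⟨Module.free_of_finite_type_torsion_free', hfin⟩

/-- **(TN02) for one pair of modules**, generic `k`: the pairing
`Hom_G(M, C) × H²(G, M) → H²(G, C)`, `(f, x) ↦ f_* x`, is nondegenerate on the right on
`p`-primary classes, and on the left on `p`-primary classes modulo norms `N_G Hom_k(M, C)`. -/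
def TN02For {k : Type} [CommRing k] {G : Type} [Group G] [Finite G] (p : ℕ) (M C : Rep k G) :
    Prop :=
  (∀ x : H2 M, IsPPrimary p x → (∀ f : M ⟶ C, pushH 2 f x = 0) → x = 0) ∧
  (∀ f : M ⟶ C,
    (∃ (n : ℕ) (φ : M.V →ₗ[k] C.V), ∀ m : M.V,
      p ^ n • f.hom m = (letI := Fintype.ofFinite G; ∑ g : G, C.ρ g (φ (M.ρ g⁻¹ m)))) →
    (∀ x : H2 M, pushH 2 f x = 0) →
    ∃ φ : M.V →ₗ[k] C.V, ∀ m : M.V,
      f.hom m = (letI := Fintype.ofFinite G; ∑ g : G, C.ρ g (φ (M.ρ g⁻¹ m))))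

/-- **(TN02) Tate–Nakayama duality, degrees (0,2)**. -/
def TN02 : Prop :=
  ∀ (G : Type) [Group G] [Finite G] (p : ℕ) [Fact p.Prime] (C : Rep ℤ G) (u : H2 C),
    IsFundClass p C u → ∀ M : Rep ℤ G, Module.Free ℤ M.V → Module.Finite ℤ M.V →
      TN02For (k := ℤ) p M C

/-- The cokernel of a `k`-split sequence with finite free middle term is finite free (`k` a PID). -/
lemma Splitting.free_finite_X₃ {k : Type} [CommRing k] [IsDomain k] [IsPrincipalIdealRing k]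
    {G : Type} [Group G] {S : ShortComplex (Rep.{0} k G)} (σ : Splitting S)
    (h1 : Module.Free k S.X₂.V) (h2 : Module.Finite k S.X₂.V) :
    Module.Free k S.X₃.V ∧ Module.Finite k S.X₃.V :=
  free_finite_of_split h1 h2 σ.t S.g.hom.toLinearMap σ.g_t

lemma free_finite_upSC_X₂ {k : Type} [CommRing k] {G : Type} [Group G] [Finite G]
    (M : Rep.{0} k G) (h1 : Module.Free k M.V) (h2 : Module.Finite k M.V) :
    Module.Free k (upSC M).X₂.V ∧ Module.Finite k (upSC M).X₂.V :=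
  ⟨(inferInstance : Module.Free k (G → M.V)), (inferInstance : Module.Finite k (G → M.V))⟩

/-- A `k`-linear splitting of `0 → M → coind₁ M → up M → 0`. -/
lemma nonempty_splitting_upSC {k : Type} [CommRing k] {G : Type} [Group G] (M : Rep.{0} k G) :
    Nonempty (Splitting (upSC M)) := by
  obtain ⟨t, ht1, ht2⟩ := exists_section (upSC_shortExact M) (evOne M) (evOne_f M)
  exact ⟨⟨evOne M, t, evOne_f M, ht1, ht2⟩⟩

/-- `up M` is finite free if `M` is (`k` a PID, `G` finite). -/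
lemma free_finite_up {k : Type} [CommRing k] [IsDomain k] [IsPrincipalIdealRing k]
    {G : Type} [Group G] [Finite G] (M : Rep.{0} k G) (h1 : Module.Free k M.V)
    (h2 : Module.Finite k M.V) : Module.Free k (up M).V ∧ Module.Finite k (up M).V := by
  obtain ⟨σ⟩ := nonempty_splitting_upSC M
  obtain ⟨h3, h4⟩ := free_finite_upSC_X₂ M h1 h2
  exact σ.free_finite_X₃ h3 h4

/-- **TN02 from TN11** by one dimension shift `0 → M → coind₁ M → M⁺ → 0`. -/
theorem tn02_of_tn11 (h11 : Interface8.TN11) : TN02 := by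
  intro G _ _ p _ C u hu M hfree hfin
  let _ : Fintype G := Fintype.ofFinite G
  obtain ⟨σ⟩ := nonempty_splitting_upSC M
  have hfree' : @Module.Free ℤ M.V _ _ M.hV2 := free_int_congr _ _ hfree
  have hfin' : @Module.Finite ℤ M.V _ _ M.hV2 := finite_int_congr _ _ hfin
  obtain ⟨hU1, hU2⟩ := free_finite_up (k := ℤ) M hfree' hfin'
  obtain ⟨B, hB, hBl, hBr⟩ := h11 G p C u hu (up M) (free_int_congr _ _ hU1)
    (finite_int_congr _ _ hU2)
  exact tn02_of_tn11_ses (upSC_shortExact M) σ (piOne M) (normHom_piOne M) C p B hB hBl hBr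

end Part9

end

end Fermat.Agent.PT.FG.TN02_3
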