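/-
Program F (S55, Poitou–Tate), chapter FG, leaf (D) "Tate–Nakayama duality", dimension shift (helper1).

Explicit dimension shifting `0 → M → I → M⁺ → 0` for a `G`-module `M` (generic coefficient ring `k`,
to avoid the `ℤ`-module diamond):

* `ind M`  : functions `G → M`, `(g • φ) h = φ (h * g)` (coinduced module `I`);
* `up M`   : functions `φ : G → M` with `φ 1 = 0`, `(g ⋆ φ) h = φ (h * g) - h • φ g` (this is `I / M`);
* `upι M : M ⟶ ind M`, `upπ M : ind M ⟶ up M` (morphisms), `ev₁`, `upIncl` (linear splittings).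

Facts: invariants of `up M` = `1`-cocycles of `M`; norms of `up M` = `1`-coboundaries of `M`.
-/
import Mathlib
import Fermat.Agent.PT.FG.TNDual1

set_option autoImplicit false

open CategoryTheory groupCohomology

namespace Fermat.Agent.PT.FG.ShiftUp1

open Fermat.Agent.PT.FG.Interface8 Fermat.Agent.PT.FG.TNDual1

noncomputable section

variable {k : Type} [CommRing k] {G : Type} [Group G]

/-! ### The coinduced module `I` -/

/-- Right translation on functions `G → A`. -/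
def indRho (A : Type) [AddCommGroup A] [Module k A] : Representation k G (G → A) where
  toFun g := LinearMap.funLeft k A (· * g)
  map_one' := by
    ext f x
    simp
  map_mul' g h := by
    ext f x
    simp [mul_assoc]

@[simp] lemma indRho_apply (A : Type) [AddCommGroup A] [Module k A] (g : G) (f : G → A) (x : G) :
    indRho (k := k) A g f x = f (x * g) := rfl

/-- The coinduced module `I = Fun(G, M)`, `(g • φ) h = φ (h * g)`. -/
abbrev ind (M : Rep.{0} k G) : Rep k G := Rep.of (indRho (k := k) (G := G) M.V)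

lemma ind_ρ_apply (M : Rep.{0} k G) (g : G) (φ : G → M.V) (h : G) :
    (ind M).ρ g φ h = φ (h * g) := rfl

/-! ### The shifted module `M⁺` -/

/-- Functions vanishing at `1`. -/
def upSub (M : Rep.{0} k G) : Submodule k (G → M.V) where
  carrier := {φ | φ 1 = 0}
  zero_mem' := rfl
  add_mem' := by
    intro a b ha hb
    show a 1 + b 1 = 0
    rw [show a 1 = 0 from ha, show b 1 = 0 from hb, add_zero]
  smul_mem' := by
    intro c a ha
    show c • a 1 = 0
    rw [show a 1 = 0 from ha, smul_zero]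

lemma mem_upSub (M : Rep.{0} k G) (φ : G → M.V) : φ ∈ upSub M ↔ φ 1 = 0 := Iff.rfl

/-- `(g ⋆ φ) h = φ (h * g) - h • φ g` on all functions. -/
def starLin (M : Rep.{0} k G) (g : G) : (G → M.V) →ₗ[k] (G → M.V) where
  toFun φ := fun h => φ (h * g) - M.ρ h (φ g)
  map_add' a b := by
    funext h
    simp only [Pi.add_apply, map_add]
    abel
  map_smul' c a := by
    funext h
    simp only [Pi.smul_apply, map_smul, RingHom.id_apply, smul_sub]

@[simp] lemma starLin_apply (M : Rep.{0} k G) (g : G) (φ : G → M.V) (h : G) :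
    starLin M g φ h = φ (h * g) - M.ρ h (φ g) := rfl

lemma starLin_mem (M : Rep.{0} k G) (g : G) (φ : G → M.V) : starLin M g φ ∈ upSub M := by
  show φ (1 * g) - M.ρ 1 (φ g) = 0
  simp

/-- The action of `G` on `M⁺`. -/
def upRho (M : Rep.{0} k G) : Representation k G (upSub M) where
  toFun g := ((starLin M g).comp (upSub M).subtype).codRestrict (upSub M)
    (fun φ => starLin_mem M g φ)
  map_one' := by
    ext φ h
    show (φ : G → M.V) (h * 1) - M.ρ h ((φ : G → M.V) 1) = (φ : G → M.V) h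
    rw [mul_one, φ.2, map_zero, sub_zero]
  map_mul' g₁ g₂ := by
    ext φ h
    show (φ : G → M.V) (h * (g₁ * g₂)) - M.ρ h ((φ : G → M.V) (g₁ * g₂))
      = ((φ : G → M.V) (h * g₁ * g₂) - M.ρ (h * g₁) ((φ : G → M.V) g₂))
        - M.ρ h ((φ : G → M.V) (g₁ * g₂) - M.ρ g₁ ((φ : G → M.V) g₂))
    simp only [map_sub, map_mul, mul_assoc, Module.End.mul_apply]
    abel

/-- The shifted module `M⁺ = I / M`, realised on functions vanishing at `1`. -/
abbrev up (M : Rep.{0} k G) : Rep k G := Rep.of (upRho M)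

/-- The underlying function of an element of `M⁺`. -/
def upVal (M : Rep.{0} k G) (φ : (up M).V) : G → M.V := (show upSub M from φ).1

lemma upVal_one (M : Rep.{0} k G) (φ : (up M).V) : upVal M φ 1 = 0 := (show upSub M from φ).2

lemma upVal_injective (M : Rep.{0} k G) : Function.Injective (upVal M) := Subtype.val_injective

@[simp] lemma upVal_add (M : Rep.{0} k G) (φ ψ : (up M).V) : upVal M (φ + ψ) = upVal M φ + upVal M ψ :=
  rfl

@[simp] lemma upVal_smul (M : Rep.{0} k G) (c : k) (φ : (up M).V) :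
    upVal M (c • φ) = c • upVal M φ := rfl

@[simp] lemma upVal_zero (M : Rep.{0} k G) : upVal M 0 = 0 := rfl

/-- An element of `M⁺` from a function vanishing at `1`. -/
def upMk (M : Rep.{0} k G) (φ : G → M.V) (h : φ 1 = 0) : (up M).V := (⟨φ, h⟩ : upSub M)

@[simp] lemma upVal_upMk (M : Rep.{0} k G) (φ : G → M.V) (h : φ 1 = 0) : upVal M (upMk M φ h) = φ := rfl

lemma up_ρ_apply (M : Rep.{0} k G) (g : G) (φ : (up M).V) (h : G) :
    upVal M ((up M).ρ g φ) h = upVal M φ (h * g) - M.ρ h (upVal M φ g) := rfl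

/-! ### Linear maps between `M`, `I`, `M⁺` -/

/-- The inclusion `M⁺ → I` (linear, not equivariant). -/
def upIncl (M : Rep.{0} k G) : (up M).V →ₗ[k] (ind M).V := (upSub M).subtype

@[simp] lemma upIncl_apply (M : Rep.{0} k G) (φ : (up M).V) : upIncl M φ = upVal M φ := rfl

/-- The embedding `M → I`, `m ↦ (h ↦ h • m)` (equivariant). -/
def upι (M : Rep.{0} k G) : M.V →ₗ[k] (ind M).V := LinearMap.pi (fun x => M.ρ x)

@[simp] lemma upι_apply (M : Rep.{0} k G) (m : M.V) (h : G) : upι M m h = M.ρ h m := rfl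

lemma upι_equivariant (M : Rep.{0} k G) (g : G) (m : M.V) :
    upι M (M.ρ g m) = (ind M).ρ g (upι M m) := by
  funext h
  show M.ρ h (M.ρ g m) = M.ρ (h * g) m
  rw [map_mul]
  rfl

/-- The projection `I → M⁺`, `φ ↦ (h ↦ φ h - h • φ 1)` (equivariant). -/
def upπ (M : Rep.{0} k G) : (ind M).V →ₗ[k] (up M).V :=
  (starLin M 1).codRestrict (upSub M) (fun φ => starLin_mem M 1 φ)

@[simp] lemma upVal_upπ (M : Rep.{0} k G) (φ : G → M.V) (h : G) :
    upVal M (upπ M φ) h = φ h - M.ρ h (φ 1) := by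
  show φ (h * 1) - M.ρ h (φ 1) = _
  rw [mul_one]

lemma upπ_equivariant (M : Rep.{0} k G) (g : G) (φ : G → M.V) :
    upπ M ((ind M).ρ g φ) = (up M).ρ g (upπ M φ) := by
  apply upVal_injective
  funext h
  rw [up_ρ_apply, upVal_upπ, upVal_upπ, upVal_upπ, ind_ρ_apply, ind_ρ_apply, one_mul]
  simp only [map_sub, map_mul, Module.End.mul_apply]
  abel

/-- Evaluation at `1`, `I → M` (linear, not equivariant). -/
def ev₁ (M : Rep.{0} k G) : (ind M).V →ₗ[k] M.V := LinearMap.proj 1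

@[simp] lemma ev₁_apply (M : Rep.{0} k G) (φ : G → M.V) : ev₁ M φ = φ 1 := rfl

lemma ev₁_upι (M : Rep.{0} k G) (m : M.V) : ev₁ M (upι M m) = m := by
  show M.ρ 1 m = m
  simp

lemma upπ_upι (M : Rep.{0} k G) (m : M.V) : upπ M (upι M m) = 0 := by
  apply upVal_injective
  funext h
  rw [upVal_upπ]
  show M.ρ h m - M.ρ h (M.ρ 1 m) = 0
  simp

lemma upπ_upIncl (M : Rep.{0} k G) (φ : (up M).V) : upπ M (upIncl M φ) = φ := by
  apply upVal_injective
  funext h
  rw [upVal_upπ, upIncl_apply, upVal_one, map_zero, sub_zero]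

lemma ev₁_upIncl (M : Rep.{0} k G) (φ : (up M).V) : ev₁ M (upIncl M φ) = 0 := upVal_one M φ

lemma upι_ev₁_add (M : Rep.{0} k G) (φ : G → M.V) :
    upι M (ev₁ M φ) + upIncl M (upπ M φ) = φ := by
  funext h
  show M.ρ h (φ 1) + upVal M (upπ M φ) h = φ h
  rw [upVal_upπ]
  abel

lemma upπ_surjective (M : Rep.{0} k G) : Function.Surjective (upπ M) :=
  fun φ => ⟨upIncl M φ, upπ_upIncl M φ⟩

/-! ### Internal Hom: notation -/

/-- `Hom(X, C)` as a `G`-module. -/
abbrev Hm (X C : Rep.{0} k G) : Rep.{0} k G := (Rep.ihom X).obj C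

/-- View an element of `Hom(X, C)` as a linear map. -/
def toLin {X C : Rep.{0} k G} (F : (Hm X C).V) : X.V →ₗ[k] C.V := F

/-- View a linear map as an element of `Hom(X, C)`. -/
def ofLin {X C : Rep.{0} k G} (F : X.V →ₗ[k] C.V) : (Hm X C).V := F

@[simp] lemma toLin_ofLin {X C : Rep.{0} k G} (F : X.V →ₗ[k] C.V) :
    toLin (ofLin (X := X) (C := C) F) = F := rfl

@[simp] lemma ofLin_toLin {X C : Rep.{0} k G} (F : (Hm X C).V) : ofLin (toLin F) = F := rfl

@[simp] lemma toLin_add {X C : Rep.{0} k G} (F F' : (Hm X C).V) :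
    toLin (F + F') = toLin F + toLin F' := rfl

@[simp] lemma toLin_sub {X C : Rep.{0} k G} (F F' : (Hm X C).V) :
    toLin (F - F') = toLin F - toLin F' := rfl

@[simp] lemma toLin_neg {X C : Rep.{0} k G} (F : (Hm X C).V) : toLin (-F) = -toLin F := rfl

@[simp] lemma toLin_zero {X C : Rep.{0} k G} : toLin (0 : (Hm X C).V) = 0 := rfl

@[simp] lemma toLin_smul {X C : Rep.{0} k G} (c : k) (F : (Hm X C).V) :
    toLin (c • F) = c • toLin F := rfl

@[simp] lemma toLin_nsmul {X C : Rep.{0} k G} (n : ℕ) (F : (Hm X C).V) :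
    toLin (n • F) = n • toLin F := rfl

lemma toLin_ρ {X C : Rep.{0} k G} (g : G) (F : (Hm X C).V) (x : X.V) :
    toLin ((Hm X C).ρ g F) x = C.ρ g (toLin F (X.ρ g⁻¹ x)) := rfl

lemma Hm_ext {X C : Rep.{0} k G} {F F' : (Hm X C).V} (h : ∀ x, toLin F x = toLin F' x) :
    F = F' := LinearMap.ext h

/-- `1`-cocycles with values in `Hom(X, C)`, pointwise. -/
lemma coc₁_apply {X C : Rep.{0} k G} {f : G → (Hm X C).V} (hf : f ∈ cocycles₁ (Hm X C))
    (g h : G) (x : X.V) :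
    toLin (f (g * h)) x = C.ρ g (toLin (f h) (X.ρ g⁻¹ x)) + toLin (f g) x := by
  have := (mem_cocycles₁_iff (A := Hm X C) f).1 hf g h
  rw [this]
  rfl

/-- `2`-cocycles with values in `Hom(X, C)`, pointwise. -/
lemma coc₂_apply {X C : Rep.{0} k G} {F : G × G → (Hm X C).V} (hF : F ∈ cocycles₂ (Hm X C))
    (g h j : G) (x : X.V) :
    toLin (F (g * h, j)) x + toLin (F (g, h)) x
      = C.ρ g (toLin (F (h, j)) (X.ρ g⁻¹ x)) + toLin (F (g, h * j)) x := by
  have := (mem_cocycles₂_iff (A := Hm X C) F).1 hF g h j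
  have h2 := congrArg (fun F => toLin F x) this
  exact h2

/-! ### The connecting cocycle `F_f` -/

/-- For a `1`-cochain `f` with values in `Hom(M, C)`, the `2`-cochain
`F_f (g, h) φ = g • f h (φ g⁻¹)` with values in `Hom(M⁺, C)`. -/
def Fcoc (M C : Rep.{0} k G) (f : G → (Hm M C).V) : G × G → (Hm (up M) C).V :=
  fun p => ofLin (C.ρ p.1 ∘ₗ toLin (f p.2) ∘ₗ LinearMap.proj p.1⁻¹ ∘ₗ upIncl M)

@[simp] lemma Fcoc_apply (M C : Rep.{0} k G) (f : G → (Hm M C).V) (g h : G) (φ : (up M).V) :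
    toLin (Fcoc M C f (g, h)) φ = C.ρ g (toLin (f h) (upVal M φ g⁻¹)) := rfl

lemma Fcoc_add (M C : Rep.{0} k G) (f f' : G → (Hm M C).V) :
    Fcoc M C (f + f') = Fcoc M C f + Fcoc M C f' := by
  funext ⟨g, h⟩
  apply Hm_ext
  intro φ
  show C.ρ g (toLin ((f + f') h) (upVal M φ g⁻¹))
    = C.ρ g (toLin (f h) (upVal M φ g⁻¹)) + C.ρ g (toLin (f' h) (upVal M φ g⁻¹))
  rw [Pi.add_apply, toLin_add, LinearMap.add_apply, map_add]

lemma Fcoc_smul (M C : Rep.{0} k G) (c : k) (f : G → (Hm M C).V) :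
    Fcoc M C (c • f) = c • Fcoc M C f := by
  funext ⟨g, h⟩
  apply Hm_ext
  intro φ
  show C.ρ g (toLin ((c • f) h) (upVal M φ g⁻¹)) = c • C.ρ g (toLin (f h) (upVal M φ g⁻¹))
  rw [Pi.smul_apply, toLin_smul, LinearMap.smul_apply, map_smul]

lemma Fcoc_nsmul (M C : Rep.{0} k G) (n : ℕ) (f : G → (Hm M C).V) :
    Fcoc M C (n • f) = n • Fcoc M C f := by
  funext ⟨g, h⟩
  apply Hm_ext
  intro φ
  show C.ρ g (toLin ((n • f) h) (upVal M φ g⁻¹)) = n • C.ρ g (toLin (f h) (upVal M φ g⁻¹))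
  rw [Pi.smul_apply, toLin_nsmul, LinearMap.smul_apply, map_nsmul]

/-- `F_f` is a `2`-cocycle when `f` is a `1`-cocycle. -/
lemma Fcoc_mem_cocycles₂ (M C : Rep.{0} k G) {f : G → (Hm M C).V}
    (hf : f ∈ cocycles₁ (Hm M C)) : Fcoc M C f ∈ cocycles₂ (Hm (up M) C) := by
  rw [mem_cocycles₂_iff]
  intro g h j
  apply Hm_ext
  intro φ
  rw [toLin_add, toLin_add, LinearMap.add_apply, LinearMap.add_apply, toLin_ρ, Fcoc_apply,
    Fcoc_apply, Fcoc_apply, Fcoc_apply, up_ρ_apply, coc₁_apply hf h j]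
  simp only [map_sub, map_add, map_mul, mul_inv_rev, Module.End.mul_apply]
  abel

/-- The `1`-cochain `Λ_λ (g) φ = g • λ (φ g⁻¹)` with values in `Hom(M⁺, C)`. -/
def Lam (M C : Rep.{0} k G) (l : (Hm M C).V) : G → (Hm (up M) C).V :=
  fun g => ofLin (C.ρ g ∘ₗ toLin l ∘ₗ LinearMap.proj g⁻¹ ∘ₗ upIncl M)

@[simp] lemma Lam_apply (M C : Rep.{0} k G) (l : (Hm M C).V) (g : G) (φ : (up M).V) :
    toLin (Lam M C l g) φ = C.ρ g (toLin l (upVal M φ g⁻¹)) := rfl

/-- `F` of a coboundary is a coboundary: `F_{dλ} = d(-Λ_λ)`. -/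
lemma Fcoc_d₀₁ (M C : Rep.{0} k G) (l : (Hm M C).V) :
    Fcoc M C ((d₀₁ (Hm M C)).hom l) = (d₁₂ (Hm (up M) C)).hom (-Lam M C l) := by
  funext ⟨g, h⟩
  apply Hm_ext
  intro φ
  show C.ρ g (C.ρ h (toLin l (M.ρ h⁻¹ (upVal M φ g⁻¹))) - toLin l (upVal M φ g⁻¹))
    = C.ρ g (-(C.ρ h (toLin l (upVal M ((up M).ρ g⁻¹ φ) h⁻¹))))
      - -(C.ρ (g * h) (toLin l (upVal M φ (g * h)⁻¹))) + -(C.ρ g (toLin l (upVal M φ g⁻¹)))
  rw [up_ρ_apply]
  simp only [map_sub, map_neg, map_mul, mul_inv_rev, Module.End.mul_apply]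
  abel

/-- `F` maps coboundaries to coboundaries. -/
lemma Fcoc_mem_coboundaries₂ (M C : Rep.{0} k G) {f : G → (Hm M C).V}
    (hf : f ∈ coboundaries₁ (Hm M C)) : Fcoc M C f ∈ coboundaries₂ (Hm (up M) C) := by
  obtain ⟨l, rfl⟩ := hf
  exact ⟨-Lam M C l, (Fcoc_d₀₁ M C l).symm⟩

/-! ### Invariants of `M⁺` are `1`-cocycles of `M` -/

lemma up_invariant_iff (M : Rep.{0} k G) (φ : (up M).V) :
    (∀ g : G, (up M).ρ g φ = φ) ↔ upVal M φ ∈ cocycles₁ M := by
  rw [mem_cocycles₁_iff]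
  constructor
  · intro h a b
    have := congrFun (congrArg (upVal M) (h b)) a
    rw [up_ρ_apply] at this
    rw [← this]
    abel
  · intro h g
    apply upVal_injective
    funext a
    rw [up_ρ_apply, h a g]
    abel

/-- A `1`-cocycle of `M` as an (invariant) element of `M⁺`. -/
def upOfCoc (M : Rep.{0} k G) (x : cocycles₁ M) : (up M).V := upMk M x (cocycles₁_map_one x)

@[simp] lemma upVal_upOfCoc (M : Rep.{0} k G) (x : cocycles₁ M) : upVal M (upOfCoc M x) = x := rfl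

lemma upOfCoc_invariant (M : Rep.{0} k G) (x : cocycles₁ M) (g : G) :
    (up M).ρ g (upOfCoc M x) = upOfCoc M x :=
  (up_invariant_iff M (upOfCoc M x)).2 x.2 g

/-! ### Compatibility of the pairings -/

/-- `(f ∪ x)(g,h) - F_f (g,h) x = d(-b)(g,h)` with `b g = f g (x g)`. -/
lemma cup11_sub_Fcoc (M C : Rep.{0} k G) {f : G → (Hm M C).V} (hf : f ∈ cocycles₁ (Hm M C))
    (x : cocycles₁ M) :
    cup11 M C f x - (fun p : G × G => toLin (Fcoc M C f p) (upOfCoc M x))
      = (d₁₂ C).hom (-(fun g : G => toLin (f g) (x g))) := by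
  funext ⟨g, h⟩
  have hx : ∀ a b : G, x (a * b) = M.ρ a (x b) + x a := (mem_cocycles₁_iff x).1 x.2
  have hinv : (x : G → M.V) g⁻¹ = -M.ρ g⁻¹ (x g) := by
    have := hx g⁻¹ g
    rw [inv_mul_cancel, cocycles₁_map_one] at this
    rw [eq_neg_iff_add_eq_zero, add_comm]
    exact this.symm
  rw [d₁₂_hom_apply]
  show toLin (f g) (M.ρ g (x h)) - C.ρ g (toLin (f h) ((x : G → M.V) g⁻¹))
    = C.ρ g (-(toLin (f h) (x h))) - -(toLin (f (g * h)) (x (g * h))) + -(toLin (f g) (x g))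
  rw [coc₁_apply hf g h, hx g h, hinv]
  simp only [map_add, map_neg]
  have h1 : M.ρ g⁻¹ (M.ρ g (x h)) = x h := by
    rw [← Module.End.mul_apply, ← map_mul, inv_mul_cancel, map_one, Module.End.one_apply]
  rw [h1]
  abel

/-! ### The key identity `d(f ∘ ev₁) = F_f ∘ π` -/

/-- Precomposition with a linear map. -/
def pre {X Y : Rep.{0} k G} (C : Rep.{0} k G) (u : X.V →ₗ[k] Y.V) (F : (Hm Y C).V) : (Hm X C).V :=
  ofLin (toLin F ∘ₗ u)

@[simp] lemma pre_apply {X Y : Rep.{0} k G} (C : Rep.{0} k G) (u : X.V →ₗ[k] Y.V) (F : (Hm Y C).V)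
    (x : X.V) : toLin (pre C u F) x = toLin F (u x) := rfl

lemma pre_add {X Y : Rep.{0} k G} (C : Rep.{0} k G) (u : X.V →ₗ[k] Y.V) (F F' : (Hm Y C).V) :
    pre C u (F + F') = pre C u F + pre C u F' := rfl

lemma pre_sub {X Y : Rep.{0} k G} (C : Rep.{0} k G) (u : X.V →ₗ[k] Y.V) (F F' : (Hm Y C).V) :
    pre C u (F - F') = pre C u F - pre C u F' := rfl

lemma pre_ρ {X Y : Rep.{0} k G} (C : Rep.{0} k G) (u : X.V →ₗ[k] Y.V)
    (hu : ∀ g x, u (X.ρ g x) = Y.ρ g (u x)) (g : G) (F : (Hm Y C).V) :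
    pre C u ((Hm Y C).ρ g F) = (Hm X C).ρ g (pre C u F) := by
  apply Hm_ext
  intro x
  rw [pre_apply, toLin_ρ, toLin_ρ, pre_apply, hu]

/-- `d₀₁` commutes with precomposition by an equivariant map. -/
lemma pre_d₀₁ {X Y : Rep.{0} k G} (C : Rep.{0} k G) (u : X.V →ₗ[k] Y.V)
    (hu : ∀ g x, u (X.ρ g x) = Y.ρ g (u x)) (l : (Hm Y C).V) (g : G) :
    pre C u ((d₀₁ (Hm Y C)).hom l g) = (d₀₁ (Hm X C)).hom (pre C u l) g := by
  rw [d₀₁_hom_apply, d₀₁_hom_apply, pre_sub, pre_ρ C u hu]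

/-- `d₁₂` commutes with precomposition by an equivariant map. -/
lemma pre_d₁₂ {X Y : Rep.{0} k G} (C : Rep.{0} k G) (u : X.V →ₗ[k] Y.V)
    (hu : ∀ g x, u (X.ρ g x) = Y.ρ g (u x)) (t : G → (Hm Y C).V) (p : G × G) :
    pre C u ((d₁₂ (Hm Y C)).hom t p) = (d₁₂ (Hm X C)).hom (fun g => pre C u (t g)) p := by
  rw [d₁₂_hom_apply, d₁₂_hom_apply, pre_add, pre_sub, pre_ρ C u hu]

/-- **Key identity**: `d(f ∘ ev₁) = F_f ∘ π` for a `1`-cocycle `f`. -/
lemma d₁₂_pre_ev₁ (M C : Rep.{0} k G) {f : G → (Hm M C).V} (hf : f ∈ cocycles₁ (Hm M C))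
    (p : G × G) :
    (d₁₂ (Hm (ind M) C)).hom (fun g => pre C (ev₁ M) (f g)) p = pre C (upπ M) (Fcoc M C f p) := by
  obtain ⟨g, h⟩ := p
  apply Hm_ext
  intro φ
  show C.ρ g (toLin (f h) (φ (1 * g⁻¹))) - toLin (f (g * h)) (φ 1) + toLin (f g) (φ 1)
    = C.ρ g (toLin (f h) (upVal M (upπ M φ) g⁻¹))
  rw [upVal_upπ, coc₁_apply hf g h, one_mul]
  simp only [map_sub]
  abel

/-! ### `Hom(I, C)` is acyclic: an explicit contracting homotopy -/

section Acyclic

variable [Fintype G]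

open Classical in
/-- The contracting operator: `(hmt b) φ = ∑ₛ s⁻¹ • b s (δ₁ (φ s))`. -/
def hmt (M C : Rep.{0} k G) (b : G → (Hm (ind M) C).V) : (Hm (ind M) C).V :=
  ofLin (∑ s : G, C.ρ s⁻¹ ∘ₗ toLin (b s) ∘ₗ
    (LinearMap.single k (fun _ : G => M.V) 1) ∘ₗ (LinearMap.proj s : (G → M.V) →ₗ[k] M.V))

open Classical in
lemma hmt_apply (M C : Rep.{0} k G) (b : G → (Hm (ind M) C).V) (φ : G → M.V) :
    toLin (hmt M C b) φ = ∑ s : G, C.ρ s⁻¹ (toLin (b s) (Pi.single 1 (φ s))) := by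
  show (∑ s : G, C.ρ s⁻¹ ∘ₗ toLin (b s) ∘ₗ
    (LinearMap.single k (fun _ : G => M.V) 1) ∘ₗ (LinearMap.proj s : (G → M.V) →ₗ[k] M.V)) φ = _
  rw [LinearMap.sum_apply]
  rfl

lemma hmt_add (M C : Rep.{0} k G) (b b' : G → (Hm (ind M) C).V) :
    hmt M C (b + b') = hmt M C b + hmt M C b' := by
  apply Hm_ext
  intro φ
  rw [toLin_add, LinearMap.add_apply, hmt_apply, hmt_apply, hmt_apply, ← Finset.sum_add_distrib]
  refine Finset.sum_congr rfl fun s _ => ?_
  rw [Pi.add_apply, toLin_add, LinearMap.add_apply, map_add]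

lemma hmt_sub (M C : Rep.{0} k G) (b b' : G → (Hm (ind M) C).V) :
    hmt M C (b - b') = hmt M C b - hmt M C b' := by
  apply Hm_ext
  intro φ
  rw [toLin_sub, LinearMap.sub_apply, hmt_apply, hmt_apply, hmt_apply, ← Finset.sum_sub_distrib]
  refine Finset.sum_congr rfl fun s _ => ?_
  rw [Pi.sub_apply, toLin_sub, LinearMap.sub_apply, map_sub]

/-- `g • hmt b = hmt (b (· * g))`. -/
lemma ρ_hmt (M C : Rep.{0} k G) (b : G → (Hm (ind M) C).V) (g : G) :
    (Hm (ind M) C).ρ g (hmt M C b) = hmt M C (fun t => b (t * g)) := by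
  classical
  apply Hm_ext
  intro φ
  rw [toLin_ρ, hmt_apply, hmt_apply, map_sum]
  rw [← Equiv.sum_comp (Equiv.mulRight g)]
  refine Finset.sum_congr rfl fun t _ => ?_
  show C.ρ g (C.ρ (t * g)⁻¹ (toLin (b (t * g)) (Pi.single 1 (φ (t * g * g⁻¹)))))
    = C.ρ t⁻¹ (toLin (b (t * g)) (Pi.single 1 (φ t)))
  rw [mul_inv_cancel_right, ← Module.End.mul_apply, ← map_mul, mul_inv_rev, mul_inv_cancel_left]

/-- `hmt (t ↦ t • F) = F`. -/
lemma hmt_ρ (M C : Rep.{0} k G) (F : (Hm (ind M) C).V) :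
    hmt M C (fun t => (Hm (ind M) C).ρ t F) = F := by
  classical
  apply Hm_ext
  intro φ
  rw [hmt_apply]
  have h1 : ∀ t : G, C.ρ t⁻¹ (toLin ((Hm (ind M) C).ρ t F) (Pi.single 1 (φ t)))
      = toLin F (Pi.single t (φ t)) := by
    intro t
    rw [toLin_ρ, ← Module.End.mul_apply, ← map_mul, inv_mul_cancel, map_one, Module.End.one_apply]
    congr 1
    funext h
    rw [ind_ρ_apply]
    by_cases hh : h = t
    · subst hh
      rw [mul_inv_cancel, Pi.single_eq_same, Pi.single_eq_same]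
    · rw [Pi.single_eq_of_ne hh, Pi.single_eq_of_ne]
      intro h2
      exact hh (mul_inv_eq_one.1 h2)
  rw [Finset.sum_congr rfl fun t _ => h1 t, ← map_sum, Finset.univ_sum_single]

/-- **`H¹(G, Hom(I, C)) = 0`**, explicitly. -/
lemma Hm_ind_coc₁ (M C : Rep.{0} k G) {c : G → (Hm (ind M) C).V}
    (hc : c ∈ cocycles₁ (Hm (ind M) C)) : c = (d₀₁ (Hm (ind M) C)).hom (hmt M C c) := by
  funext g
  rw [d₀₁_hom_apply, ρ_hmt]
  have : (fun t => c (t * g)) = (fun t => (Hm (ind M) C).ρ t (c g)) + c := by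
    funext t
    exact (mem_cocycles₁_iff c).1 hc t g
  rw [this, hmt_add, hmt_ρ, add_sub_cancel_right]

/-- **`H²(G, Hom(I, C)) = 0`**, explicitly. -/
lemma Hm_ind_coc₂ (M C : Rep.{0} k G) {c : G × G → (Hm (ind M) C).V}
    (hc : c ∈ cocycles₂ (Hm (ind M) C)) :
    c = (d₁₂ (Hm (ind M) C)).hom (fun g => hmt M C (fun s => c (s, g))) := by
  funext ⟨g, h⟩
  rw [d₁₂_hom_apply, ρ_hmt]
  have : (fun t => c (t * g, h))
      = (fun t => (Hm (ind M) C).ρ t (c (g, h))) + (fun t => c (t, g * h)) - (fun t => c (t, g)) := by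
    funext t
    have := (mem_cocycles₂_iff c).1 hc t g h
    show c (t * g, h) = (Hm (ind M) C).ρ t (c (g, h)) + c (t, g * h) - c (t, g)
    rw [← this, add_sub_cancel_right]
  show c (g, h) = hmt M C (fun t => c (t * g, h)) - hmt M C (fun s => c (s, g * h))
    + hmt M C (fun s => c (s, g))
  rw [this, hmt_sub, hmt_add, hmt_ρ]
  abel

end Acyclic

/-! ### The connecting map `f ↦ F_f` is injective and surjective on cohomology -/

section Connecting

lemma pre_upι_pre_ev₁ (M C : Rep.{0} k G) (F : (Hm M C).V) :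
    pre C (upι M) (pre C (ev₁ M) F) = F := by
  apply Hm_ext
  intro m
  rw [pre_apply, pre_apply, ev₁_upι]

lemma pre_upι_pre_upπ (M C : Rep.{0} k G) (F : (Hm (up M) C).V) :
    pre C (upι M) (pre C (upπ M) F) = 0 := by
  apply Hm_ext
  intro m
  rw [pre_apply, pre_apply, upπ_upι, map_zero]
  rfl

lemma pre_upπ_injective (M C : Rep.{0} k G) : Function.Injective (pre C (upπ M)) := by
  intro F F' h
  apply Hm_ext
  intro φ
  obtain ⟨ψ, rfl⟩ := upπ_surjective M φ
  have := congrArg (fun T => toLin T ψ) h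
  exact this

lemma pre_ev₁_add_pre_upπ (M C : Rep.{0} k G) (T : (Hm (ind M) C).V) :
    pre C (ev₁ M) (pre C (upι M) T) + pre C (upπ M) (pre C (upIncl M) T) = T := by
  apply Hm_ext
  intro φ
  rw [toLin_add, LinearMap.add_apply, pre_apply, pre_apply, pre_apply, pre_apply, ← map_add,
    upι_ev₁_add]

variable [Finite G]

/-- **Injectivity of the connecting map**: if `F_f` is a coboundary then so is the cocycle `f`. -/
theorem mem_coboundaries₁_of_Fcoc (M C : Rep.{0} k G) {f : G → (Hm M C).V}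
    (hf : f ∈ cocycles₁ (Hm M C)) (hF : Fcoc M C f ∈ coboundaries₂ (Hm (up M) C)) :
    f ∈ coboundaries₁ (Hm M C) := by
  cases nonempty_fintype G
  obtain ⟨L, hL⟩ := hF
  -- the `1`-cocycle `c = f ∘ ev₁ - Λ ∘ π` with values in `Hom(I, C)`
  set c : G → (Hm (ind M) C).V := fun g => pre C (ev₁ M) (f g) - pre C (upπ M) (L g) with hc
  have hc_coc : c ∈ cocycles₁ (Hm (ind M) C) := by
    show (d₁₂ (Hm (ind M) C)).hom c = 0
    have : c = (fun g => pre C (ev₁ M) (f g)) - (fun g => pre C (upπ M) (L g)) := rfl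
    rw [this, map_sub]
    funext p
    rw [Pi.sub_apply, d₁₂_pre_ev₁ M C hf, ← pre_d₁₂ C (upπ M) (upπ_equivariant M), hL, sub_self]
    rfl
  have h1 := Hm_ind_coc₁ M C hc_coc
  refine ⟨pre C (upι M) (hmt M C c), ?_⟩
  funext g
  rw [← pre_d₀₁ C (upι M) (upι_equivariant M), ← h1]
  show pre C (upι M) (pre C (ev₁ M) (f g) - pre C (upπ M) (L g)) = f g
  rw [pre_sub, pre_upι_pre_ev₁, pre_upι_pre_upπ, sub_zero]

/-- **Surjectivity of the connecting map**: every `2`-cocycle with values in `Hom(M⁺, C)` is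
cohomologous to some `F_f`. -/
theorem exists_Fcoc_sub_mem_coboundaries₂ (M C : Rep.{0} k G) {F : G × G → (Hm (up M) C).V}
    (hF : F ∈ cocycles₂ (Hm (up M) C)) :
    ∃ f : G → (Hm M C).V, f ∈ cocycles₁ (Hm M C) ∧
      F - Fcoc M C f ∈ coboundaries₂ (Hm (up M) C) := by
  cases nonempty_fintype G
  -- `F ∘ π` is a `2`-cocycle with values in `Hom(I, C)`
  set c : G × G → (Hm (ind M) C).V := fun p => pre C (upπ M) (F p) with hc
  have hc_coc : c ∈ cocycles₂ (Hm (ind M) C) := by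
    rw [mem_cocycles₂_iff]
    intro g h j
    show pre C (upπ M) (F (g * h, j)) + pre C (upπ M) (F (g, h))
      = (Hm (ind M) C).ρ g (pre C (upπ M) (F (h, j))) + pre C (upπ M) (F (g, h * j))
    rw [← pre_ρ C (upπ M) (upπ_equivariant M), ← pre_add, ← pre_add,
      (mem_cocycles₂_iff F).1 hF g h j]
  have h1 := Hm_ind_coc₂ M C hc_coc
  set T : G → (Hm (ind M) C).V := fun g => hmt M C (fun s => c (s, g)) with hT
  set f : G → (Hm M C).V := fun g => pre C (upι M) (T g) with hf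
  set L : G → (Hm (up M) C).V := fun g => pre C (upIncl M) (T g) with hL
  have hf_coc : f ∈ cocycles₁ (Hm M C) := by
    show (d₁₂ (Hm M C)).hom f = 0
    funext p
    rw [hf, ← pre_d₁₂ C (upι M) (upι_equivariant M), ← h1]
    exact pre_upι_pre_upπ M C (F p)
  refine ⟨f, hf_coc, L, ?_⟩
  funext p
  apply pre_upπ_injective M C
  rw [pre_d₁₂ C (upπ M) (upπ_equivariant M), Pi.sub_apply, pre_sub, ← d₁₂_pre_ev₁ M C hf_coc]
  have hTdec : T = (fun g => pre C (ev₁ M) (f g)) + (fun g => pre C (upπ M) (L g)) := by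
    funext g
    exact (pre_ev₁_add_pre_upπ M C (T g)).symm
  have h2 : c p = (d₁₂ (Hm (ind M) C)).hom T p := congrFun h1 p
  rw [hTdec, map_add] at h2
  show _ = c p - _
  rw [h2, Pi.add_apply, add_sub_cancel_left]

end Connecting

/-! ### Norms of `M⁺` are `1`-coboundaries of `M` -/

section Norms

variable [Finite G]

omit [Finite G] in
lemma upVal_sum (M : Rep.{0} k G) {ι : Type*} (s : Finset ι) (F : ι → (up M).V) :
    upVal M (∑ i ∈ s, F i) = ∑ i ∈ s, upVal M (F i) :=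
  map_sum (upIncl M) F s

/-- The norm of `ψ ∈ M⁺` is the coboundary of `-∑ₛ ψ s`. -/
lemma upVal_normMapK (M : Rep.{0} k G) (ψ : (up M).V) :
    upVal M (normMapK (up M) ψ)
      = (d₀₁ M).hom (-(letI := Fintype.ofFinite G; ∑ s : G, upVal M ψ s)) := by
  let _ := Fintype.ofFinite G
  funext h
  show upVal M (∑ g : G, (up M).ρ g ψ) h = M.ρ h (-∑ s : G, upVal M ψ s) - -∑ s : G, upVal M ψ s
  rw [upVal_sum, Finset.sum_apply]
  have h1 : ∀ g ∈ (Finset.univ : Finset G),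
      upVal M ((up M).ρ g ψ) h = upVal M ψ (h * g) - M.ρ h (upVal M ψ g) :=
    fun g _ => up_ρ_apply M g ψ h
  have h2 : ∑ g : G, upVal M ψ (h * g) = ∑ g : G, upVal M ψ g :=
    Equiv.sum_comp (Equiv.mulLeft h) (fun g => upVal M ψ g)
  rw [Finset.sum_congr rfl h1, Finset.sum_sub_distrib, ← map_sum, map_neg, h2]
  abel

/-- Norms in `M⁺` are exactly the `1`-coboundaries of `M`. -/
theorem isNormK_up_iff (M : Rep.{0} k G) (φ : (up M).V) :
    IsNormK (up M) φ ↔ upVal M φ ∈ coboundaries₁ M := by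
  classical
  let _ := Fintype.ofFinite G
  constructor
  · rintro ⟨ψ, rfl⟩
    exact ⟨_, (upVal_normMapK M ψ).symm⟩
  · rintro ⟨m, hm⟩
    by_cases hG : ∃ g₀ : G, g₀ ≠ 1
    · obtain ⟨g₀, hg₀⟩ := hG
      refine ⟨upMk M (Pi.single g₀ (-m)) (Pi.single_eq_of_ne hg₀.symm _), ?_⟩
      apply upVal_injective
      rw [upVal_normMapK, ← hm, upVal_upMk]
      congr 1
      rw [Finset.sum_pi_single' g₀ (-m) Finset.univ, if_pos (Finset.mem_univ _), neg_neg]
    · have hG' : ∀ g : G, g = 1 := fun g => by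
        by_contra hg
        exact hG ⟨g, hg⟩
      refine ⟨0, ?_⟩
      apply upVal_injective
      rw [upVal_normMapK, ← hm]
      funext h
      rw [hG' h]
      simp

end Norms

end

end Fermat.Agent.PT.FG.ShiftUp1
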