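/-
Program F (S55, Poitou–Tate), chapter FG, leaf (D) "Tate–Nakayama duality" (helper1).

The cup product pairing `H¹(G, Hom(M, C)) × H¹(G, M) → H²(G, C)` induced by `Interface8.cup11`
(generic coefficient ring `k`, any group `G`):

* `cup11_mem_cocycles₂`, `cup11_d₀₁_left`, `cup11_d₀₁_right` (cochain level);
* `cupCoc M C f x : cocycles₂ C` for cocycles `f`, `x`;
* `cupH M C : H1 (Hm M C) →+ H1 M →+ H2 C` with `cupH_π : cupH (H1π f) (H1π x) = H2π (cupCoc f x)`.
-/
import Mathlib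
import Fermat.Agent.PT.FG.ShiftUp1

set_option autoImplicit false

open CategoryTheory groupCohomology

namespace Fermat.Agent.PT.FG.CupPair1

open Fermat.Agent.PT.FG.Interface8 Fermat.Agent.PT.FG.ShiftUp1

noncomputable section

variable {k : Type} [CommRing k] {G : Type} [Group G]

lemma cup11_apply (M C : Rep.{0} k G) (f : G → (Hm M C).V) (x : G → M.V) (g h : G) :
    cup11 M C f x (g, h) = toLin (f g) (M.ρ g (x h)) := rfl

/-- The cup product of two `1`-cocycles is a `2`-cocycle. -/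
lemma cup11_mem_cocycles₂ (M C : Rep.{0} k G) {f : G → (Hm M C).V}
    (hf : f ∈ cocycles₁ (Hm M C)) {x : G → M.V} (hx : x ∈ cocycles₁ M) :
    cup11 M C f x ∈ cocycles₂ C := by
  rw [mem_cocycles₂_iff]
  intro g h j
  rw [cup11_apply, cup11_apply, cup11_apply, cup11_apply, coc₁_apply hf g h,
    (mem_cocycles₁_iff x).1 hx h j]
  have h1 : M.ρ g⁻¹ (M.ρ (g * h) (x j)) = M.ρ h (x j) := by
    rw [← Module.End.mul_apply, ← map_mul, inv_mul_cancel_left]
  rw [h1]
  simp only [map_add, map_mul, Module.End.mul_apply]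
  abel

lemma cup11_add_left (M C : Rep.{0} k G) (f f' : G → (Hm M C).V) (x : G → M.V) :
    cup11 M C (f + f') x = cup11 M C f x + cup11 M C f' x := by
  funext ⟨g, h⟩
  rfl

lemma cup11_add_right (M C : Rep.{0} k G) (f : G → (Hm M C).V) (x x' : G → M.V) :
    cup11 M C f (x + x') = cup11 M C f x + cup11 M C f x' := by
  funext ⟨g, h⟩
  show toLin (f g) (M.ρ g (x h + x' h)) = toLin (f g) (M.ρ g (x h)) + toLin (f g) (M.ρ g (x' h))
  rw [map_add, map_add]

/-- `dλ ∪ x = d(g ↦ λ (x g))` for a cocycle `x`. -/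
lemma cup11_d₀₁_left (M C : Rep.{0} k G) (l : (Hm M C).V) {x : G → M.V} (hx : x ∈ cocycles₁ M) :
    cup11 M C ((d₀₁ (Hm M C)).hom l) x = (d₁₂ C).hom (fun g => toLin l (x g)) := by
  funext ⟨g, h⟩
  show C.ρ g (toLin l (M.ρ g⁻¹ (M.ρ g (x h)))) - toLin l (M.ρ g (x h))
    = C.ρ g (toLin l (x h)) - toLin l (x (g * h)) + toLin l (x g)
  have h1 : M.ρ g⁻¹ (M.ρ g (x h)) = x h := by
    rw [← Module.End.mul_apply, ← map_mul, inv_mul_cancel, map_one, Module.End.one_apply]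
  rw [h1, (mem_cocycles₁_iff x).1 hx g h, map_add]
  abel

/-- `f ∪ dm = d(-(g ↦ f g (g • m)))` for a cocycle `f`. -/
lemma cup11_d₀₁_right (M C : Rep.{0} k G) {f : G → (Hm M C).V} (hf : f ∈ cocycles₁ (Hm M C))
    (m : M.V) :
    cup11 M C f ((d₀₁ M).hom m) = (d₁₂ C).hom (-(fun g => toLin (f g) (M.ρ g m))) := by
  funext ⟨g, h⟩
  show toLin (f g) (M.ρ g (M.ρ h m - m))
    = C.ρ g (-(toLin (f h) (M.ρ h m))) - -(toLin (f (g * h)) (M.ρ (g * h) m))
      + -(toLin (f g) (M.ρ g m))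
  rw [coc₁_apply hf g h]
  have h1 : M.ρ g⁻¹ (M.ρ (g * h) m) = M.ρ h m := by
    rw [← Module.End.mul_apply, ← map_mul, inv_mul_cancel_left]
  rw [h1]
  simp only [map_sub, map_neg, map_mul, Module.End.mul_apply]
  abel

/-- The cup product on cocycles. -/
def cupCoc (M C : Rep.{0} k G) (f : cocycles₁ (Hm M C)) (x : cocycles₁ M) : cocycles₂ C :=
  ⟨cup11 M C f x, cup11_mem_cocycles₂ M C f.2 x.2⟩

@[simp] lemma coe_cupCoc (M C : Rep.{0} k G) (f : cocycles₁ (Hm M C)) (x : cocycles₁ M) :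
    (cupCoc M C f x : G × G → C.V) = cup11 M C f x := rfl

lemma cupCoc_add_left (M C : Rep.{0} k G) (f f' : cocycles₁ (Hm M C)) (x : cocycles₁ M) :
    cupCoc M C (f + f') x = cupCoc M C f x + cupCoc M C f' x :=
  Subtype.ext (cup11_add_left M C f f' x)

lemma cupCoc_add_right (M C : Rep.{0} k G) (f : cocycles₁ (Hm M C)) (x x' : cocycles₁ M) :
    cupCoc M C f (x + x') = cupCoc M C f x + cupCoc M C f x' :=
  Subtype.ext (cup11_add_right M C f x x')

lemma H1π_surjective (A : Rep.{0} k G) : Function.Surjective (H1π A) := by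
  intro y
  induction y using H1_induction_on with | h x => exact ⟨x, rfl⟩

/-- `H1π` as an additive map. -/
def H1πAdd (A : Rep.{0} k G) : cocycles₁ A →+ H1 A := (H1π A).hom.toAddMonoidHom

@[simp] lemma H1πAdd_apply (A : Rep.{0} k G) (x : cocycles₁ A) : H1πAdd A x = H1π A x := rfl

lemma H1πAdd_surjective (A : Rep.{0} k G) : Function.Surjective (H1πAdd A) := H1π_surjective A

/-- Stage 1: `x ↦ [f ∪ x]` on cocycles. -/
def cupAux₁ (M C : Rep.{0} k G) (f : cocycles₁ (Hm M C)) : cocycles₁ M →+ H2 C where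
  toFun x := H2π C (cupCoc M C f x)
  map_zero' := by
    have : cupCoc M C f 0 = 0 := by
      have := cupCoc_add_right M C f 0 0
      rw [add_zero] at this
      exact left_eq_add.1 this
    rw [this, map_zero]
  map_add' x x' := by rw [cupCoc_add_right, map_add]

lemma cupAux₁_ker (M C : Rep.{0} k G) (f : cocycles₁ (Hm M C)) :
    (H1πAdd M).ker ≤ (cupAux₁ M C f).ker := by
  intro x hx
  rw [AddMonoidHom.mem_ker, H1πAdd_apply, H1π_eq_zero_iff] at hx
  obtain ⟨m, hm⟩ := hx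
  rw [AddMonoidHom.mem_ker]
  show H2π C (cupCoc M C f x) = 0
  rw [H2π_eq_zero_iff]
  refine ⟨-(fun g => toLin (f g) (M.ρ g m)), ?_⟩
  have h1 := cup11_d₀₁_right M C f.2 m
  rw [hm] at h1
  exact h1.symm

/-- Stage 2: `[x] ↦ [f ∪ x]`. -/
def cupAux₂ (M C : Rep.{0} k G) (f : cocycles₁ (Hm M C)) : H1 M →+ H2 C :=
  (H1πAdd M).liftOfSurjective (H1πAdd_surjective M) ⟨cupAux₁ M C f, cupAux₁_ker M C f⟩

lemma cupAux₂_π (M C : Rep.{0} k G) (f : cocycles₁ (Hm M C)) (x : cocycles₁ M) :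
    cupAux₂ M C f (H1π M x) = H2π C (cupCoc M C f x) :=
  AddMonoidHom.liftOfRightInverse_comp_apply _ _ _ ⟨cupAux₁ M C f, cupAux₁_ker M C f⟩ x

/-- Stage 3: `f ↦ ([x] ↦ [f ∪ x])` on cocycles. -/
def cupAux₃ (M C : Rep.{0} k G) : cocycles₁ (Hm M C) →+ (H1 M →+ H2 C) where
  toFun f := cupAux₂ M C f
  map_zero' := by
    ext y
    induction y using H1_induction_on with | h x =>
    rw [cupAux₂_π]
    have : cupCoc M C 0 x = 0 := by
      have := cupCoc_add_left M C 0 0 x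
      rw [add_zero] at this
      exact left_eq_add.1 this
    rw [this, map_zero]
    rfl
  map_add' f f' := by
    ext y
    induction y using H1_induction_on with | h x =>
    rw [AddMonoidHom.add_apply, cupAux₂_π, cupAux₂_π, cupAux₂_π, cupCoc_add_left, map_add]

lemma cupAux₃_ker (M C : Rep.{0} k G) : (H1πAdd (Hm M C)).ker ≤ (cupAux₃ M C).ker := by
  intro f hf
  rw [AddMonoidHom.mem_ker, H1πAdd_apply, H1π_eq_zero_iff] at hf
  obtain ⟨l, hl⟩ := hf
  rw [AddMonoidHom.mem_ker]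
  ext y
  induction y using H1_induction_on with | h x =>
  show cupAux₂ M C f (H1π M x) = 0
  rw [cupAux₂_π, H2π_eq_zero_iff]
  refine ⟨fun g => toLin l (x g), ?_⟩
  have h1 := cup11_d₀₁_left M C l x.2
  rw [hl] at h1
  exact h1.symm

/-- **The cup product** `H¹(G, Hom(M, C)) × H¹(G, M) → H²(G, C)`. -/
def cupH (M C : Rep.{0} k G) : H1 (Hm M C) →+ H1 M →+ H2 C :=
  (H1πAdd (Hm M C)).liftOfSurjective (H1πAdd_surjective (Hm M C)) ⟨cupAux₃ M C, cupAux₃_ker M C⟩

theorem cupH_π (M C : Rep.{0} k G) (f : cocycles₁ (Hm M C)) (x : cocycles₁ M) :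
    cupH M C (H1π (Hm M C) f) (H1π M x) = H2π C (cupCoc M C f x) := by
  have : cupH M C (H1π (Hm M C) f) = cupAux₂ M C f :=
    AddMonoidHom.liftOfRightInverse_comp_apply _ _ _ ⟨cupAux₃ M C, cupAux₃_ker M C⟩ f
  rw [this, cupAux₂_π]

end

end Fermat.Agent.PT.FG.CupPair1
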