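/-
Program F (S55, Poitou–Tate), chapter FG, leaf (D) "Tate–Nakayama duality", degrees (1,1) (helper1).

`tn11_of : Interface8.TN20 → Interface8.TN11`: the cup product
`H¹(G, Hom(M, C)) × H¹(G, M) → H²(G, C)` is nondegenerate on `p`-parts, by one explicit dimension
shift (`ShiftUp1`) from the `(2,0)` duality applied to `M⁺ = up M`.
-/
import Mathlib
import Fermat.Agent.PT.FG.CupPair1

set_option autoImplicit false

open CategoryTheory groupCohomology

namespace Fermat.Agent.PT.FG.TNOneOne1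

open Fermat.Agent.PT.FG.Interface8 Fermat.Agent.PT.FG.TNDual1 Fermat.Agent.PT.FG.ShiftUp1
  Fermat.Agent.PT.FG.CupPair1

noncomputable section

section poly

variable {k : Type} [CommRing k] {G : Type} [Group G]

/-- `M⁺` is free when `M` is (over a PID). -/
lemma up_free [IsDomain k] [IsPrincipalIdealRing k] [Finite G] (M : Rep.{0} k G)
    [Module.Free k M.V] [Module.Finite k M.V] : Module.Free k (up M).V :=
  inferInstanceAs (Module.Free k (upSub M))

/-- `M⁺` is finitely generated when `M` is (over a PID). -/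
lemma up_finite [IsDomain k] [IsPrincipalIdealRing k] [Finite G] (M : Rep.{0} k G)
    [Module.Free k M.V] [Module.Finite k M.V] : Module.Finite k (up M).V :=
  inferInstanceAs (Module.Finite k (upSub M))

/-- The cocycle `F_f` as an element of `cocycles₂`. -/
def FcocZ (M C : Rep.{0} k G) (f : cocycles₁ (Hm M C)) : cocycles₂ (Hm (up M) C) :=
  ⟨Fcoc M C f, Fcoc_mem_cocycles₂ M C f.2⟩

/-- **Compatibility**: `⟨[F_f], x⟩₂₀ = [f] ∪ [x]`. -/
theorem pushH_eval_FcocZ (M C : Rep.{0} k G) (f : cocycles₁ (Hm M C)) (x : cocycles₁ M)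
    (hm : ∀ g : G, (up M).ρ g (upOfCoc M x) = upOfCoc M x) :
    pushH 2 (evalHom (up M) C (upOfCoc M x) hm) (H2π (Hm (up M) C) (FcocZ M C f))
      = cupH M C (H1π (Hm M C) f) (H1π M x) := by
  rw [pushH_two_H2π, cupH_π, H2π_eq_iff]
  refine ⟨fun g => toLin (f g) (x g), ?_⟩
  have h1 : cup11 M C f x - (fun p : G × G => toLin (Fcoc M C f p) (upOfCoc M x))
      = -(d₁₂ C).hom (fun g => toLin (f g) (x g)) := by
    have h0 := cup11_sub_Fcoc M C f.2 x
    rw [map_neg] at h0
    exact h0
  have h2 : (d₁₂ C).hom (fun g => toLin (f g) (x g))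
      = (fun p : G × G => toLin (Fcoc M C f p) (upOfCoc M x)) - cup11 M C f x := by
    rw [← neg_sub, h1, neg_neg]
  rw [h2]
  rfl

end poly

section int

variable {G : Type} [Group G] [Finite G]

lemma isNorm_iff_isNormK (M : Rep.{0} ℤ G) (x : M.V) : IsNorm M x ↔ IsNormK M x := Iff.rfl

/-- **TN11** (Tate–Nakayama duality in degrees `(1,1)`) from **TN20** by dimension shifting. -/
theorem tn11_of (h20 : TN20) : TN11 := by
  intro G _ _ p _ C u hu M hfree hfin
  have hfree' : @Module.Free ℤ M.V _ _ M.hV2 := free_int_congr _ _ hfree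
  have hfin' : @Module.Finite ℤ M.V _ _ M.hV2 := finite_int_congr _ _ hfin
  have hfreeU : Module.Free ℤ (up M).V := free_int_congr _ _ (up_free (k := ℤ) M)
  have hfinU : Module.Finite ℤ (up M).V := finite_int_congr _ _ (up_finite (k := ℤ) M)
  obtain ⟨hL, hR⟩ := h20 G p C u hu (up M) hfreeU hfinU
  refine ⟨cupH M C, ?_, ?_, ?_⟩
  · intro f x c hc
    rw [cupH_π]
    congr 1
    exact Subtype.ext hc.symm
  · -- left nondegeneracy
    intro ξ hξ hB
    induction ξ using H1_induction_on with | h f =>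
    have hFp : IsPPrimary p (H2π (Hm (up M) C) (FcocZ M C f)) := by
      obtain ⟨j, hj⟩ := hξ
      refine ⟨j, ?_⟩
      rw [← map_nsmul, H1π_eq_zero_iff] at hj
      rw [← map_nsmul, H2π_eq_zero_iff]
      have h1 : ((p ^ j • FcocZ M C f : cocycles₂ (Hm (up M) C)) : G × G → (Hm (up M) C).V)
          = Fcoc M C ((p ^ j • f : cocycles₁ (Hm M C)) : G → (Hm M C).V) :=
        (Fcoc_nsmul M C (p ^ j) f).symm
      rw [h1]
      exact Fcoc_mem_coboundaries₂ M C hj
    have hpair : ∀ (m : (up M).V) (hm : ∀ g : G, (up M).ρ g m = m),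
        pushH 2 (evalHom (up M) C m hm) (H2π (Hm (up M) C) (FcocZ M C f)) = 0 := by
      intro m hm
      have hx : upVal M m ∈ cocycles₁ M := (up_invariant_iff M m).1 hm
      have hmx : m = upOfCoc M ⟨upVal M m, hx⟩ := rfl
      have := pushH_eval_FcocZ M C f ⟨upVal M m, hx⟩ (fun g => hm g)
      rw [hB] at this
      exact this
    have hF0 := hL (H2π (Hm (up M) C) (FcocZ M C f)) hFp hpair
    rw [H2π_eq_zero_iff] at hF0
    rw [H1π_eq_zero_iff]
    exact mem_coboundaries₁_of_Fcoc M C f.2 hF0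
  · -- right nondegeneracy
    intro η hη hB
    induction η using H1_induction_on with | h x =>
    have hm : ∀ g : G, (up M).ρ g (upOfCoc M x) = upOfCoc M x := upOfCoc_invariant M x
    have hpm : IsPPrimaryModNorm p (up M) (upOfCoc M x) := by
      obtain ⟨j, hj⟩ := hη
      refine ⟨j, ?_⟩
      rw [← map_nsmul, H1π_eq_zero_iff] at hj
      exact (isNormK_up_iff M _).2 hj
    have hall : ∀ F : H2 (Hm (up M) C), pushH 2 (evalHom (up M) C (upOfCoc M x) hm) F = 0 := by
      intro F
      induction F using H2_induction_on with | h F₀ =>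
      obtain ⟨f, hf, hd⟩ := exists_Fcoc_sub_mem_coboundaries₂ M C F₀.2
      have h1 : H2π (Hm (up M) C) F₀ = H2π (Hm (up M) C) (FcocZ M C ⟨f, hf⟩) :=
        (H2π_eq_iff _ _).2 hd
      rw [h1, pushH_eval_FcocZ M C ⟨f, hf⟩ x hm, hB]
    have hnorm := hR (upOfCoc M x) hm hpm hall
    rw [H1π_eq_zero_iff]
    exact (isNormK_up_iff M (upOfCoc M x)).1 hnorm

end int

end

end Fermat.Agent.PT.FG.TNOneOne1
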