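import Fermat.Agent.PT.FG.H0Dual18
import Fermat.Agent.PT.FG.TNDual1

/-
Program F (S55), chapter FG, leaf (D0) bridge.  Owner: helper18.

`H0Dual18` proves the `Ĥ⁰`-duality for lattices; `TNDual1` (helper1) consumes it in the shapes
`TNDual1.D0a`, `TNDual1.D0b`.  This file proves those two Props and specialises `tn20_of`:

* `d0a : TNDual1.D0a`, `d0b : TNDual1.D0b`;
* `tn20_of_tateZero : Interface8.TateZero → Interface8.TN20`.
-/

set_option autoImplicit false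

namespace Fermat.Agent.PT.FG.D0Bridge18

open Fermat.Agent.PT.FG

/-- `H0Dual18.d0b'` with the conclusion evaluated pointwise (arbitrary `Module ℤ V` instance). -/
theorem d0b_pointwise {G : Type*} [Group G] [Fintype G] {V : Type*} [AddCommGroup V]
    [inst : Module ℤ V] [Module.Free ℤ V] [Module.Finite ℤ V]
    (ρ : Representation ℤ G V) (φ : V →ₗ[ℤ] ℤ) (hφ : ∀ g, φ ∘ₗ ρ g = φ)
    (h : ∀ m : V, (∀ g, ρ g m = m) → (Nat.card G : ℤ) ∣ φ m) :
    ∃ ψ : V →ₗ[ℤ] ℤ, ∀ m, φ m = ∑ g : G, ψ (ρ g⁻¹ m) := by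
  obtain ⟨ψ, hψ⟩ := H0Dual18.d0b' ρ φ hφ h
  exact ⟨ψ, fun m => by rw [hψ, LinearMap.sum_apply]; rfl⟩

/-- **(D0a)** in helper1's shape. -/
theorem d0a : TNDual1.D0a := by
  intro G _ _ M hfree hfin m hm h
  let _ := Fintype.ofFinite G
  have hfree' : @Module.Free ℤ M.V _ _ M.hV2 := TNDual1.free_int_congr _ _ hfree
  have hfin' : @Module.Finite ℤ M.V _ _ M.hV2 := TNDual1.finite_int_congr _ _ hfin
  obtain ⟨y, hy⟩ := @H0Dual18.d0a' G _ _ M.V _ M.hV2 hfree' hfin' M.ρ m hm h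
  exact ⟨y, hy⟩

/-- **(D0b)** in helper1's shape. -/
theorem d0b : TNDual1.D0b := by
  intro G _ _ M hfree hfin φ hφ h
  let _ := Fintype.ofFinite G
  have hfree' : @Module.Free ℤ M.V _ _ M.hV2 := TNDual1.free_int_congr _ _ hfree
  have hfin' : @Module.Finite ℤ M.V _ _ M.hV2 := TNDual1.finite_int_congr _ _ hfin
  obtain ⟨ψ, hψ⟩ := @d0b_pointwise G _ _ M.V _ M.hV2 hfree' hfin' M.ρ φ hφ h
  exact ⟨ψ, hψ⟩

/-- **TN20** from Tate's theorem in degree `0 → 2` alone. -/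
theorem tn20_of_tateZero (hT0 : Interface8.TateZero) : Interface8.TN20 :=
  TNDual1.tn20_of hT0 d0a d0b

end Fermat.Agent.PT.FG.D0Bridge18
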