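/-
PROGRAM F (S55), chapter FG.  helper9.
Modular representation theory of finite `p`-groups, the representation-independent core of
the Nakayama–Tate theory (Serre, Local Fields IX §5, Lemmes 1–4):
for a finite `p`-group `G` acting additively on an abelian group `V` killed by `p`,
* `V ≠ 0 ⇒ V^G ≠ 0`;
* `V_G = 0 ⇒ V = 0`;
* an equivariant map which is surjective on coinvariants is surjective.
-/
import Mathlib

set_option autoImplicit false

namespace Fermat.Agent.PT.FG.PGroupMod9

open Function

section Core

variable {p : ℕ} [Fact p.Prime] {G : Type*} [Group G] [Finite G]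
variable {V : Type*} [AddCommGroup V]

/-- Core fixed point lemma: a finite `p`-group acting by additive endomorphisms on a nonzero
abelian group killed by `p` has a nonzero fixed vector. -/
theorem exists_ne_zero_fixed (hG : IsPGroup p G) (a : G →* AddMonoid.End V)
    (hp : ∀ v : V, p • v = 0) (hV : Nontrivial V) :
    ∃ v : V, v ≠ 0 ∧ ∀ g : G, a g v = v := by
  classical
  obtain ⟨v₀, hv₀⟩ := exists_ne (0 : V)
  -- the finite stable subgroup generated by the orbit of `v₀`
  let s : Set V := Set.range fun g : G => a g v₀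
  have hsfin : s.Finite := Set.finite_range _
  let W : AddSubgroup V := AddSubgroup.closure s
  have hstab : ∀ (g : G) (w : V), w ∈ W → a g w ∈ W := by
    intro g w hw
    induction hw using AddSubgroup.closure_induction with
    | mem x hx =>
      obtain ⟨h, rfl⟩ := hx
      refine AddSubgroup.subset_closure ⟨g * h, ?_⟩
      simp [map_mul]
    | zero => simp [W.zero_mem]
    | add x y _ _ hx hy => rw [map_add]; exact W.add_mem hx hy
    | neg x _ hx => rw [map_neg]; exact W.neg_mem hx
  have hv₀W : v₀ ∈ W := AddSubgroup.subset_closure ⟨1, by simp⟩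
  -- `W` is finite
  have : Finite s := hsfin
  have : AddGroup.FG W := AddGroup.closure_finite_fg s
  have htors : IsAddTorsion W := by
    intro w
    rw [isOfFinAddOrder_iff_nsmul_eq_zero]
    exact ⟨p, (Fact.out : p.Prime).pos, Subtype.ext (by simpa using hp w.1)⟩
  have : Finite W := AddCommGroup.finite_of_fg_isAddTorsion W htors
  -- the action of `G` on `W`
  let act : G → W → W := fun g w => ⟨a g w.1, hstab g w.1 w.2⟩
  let _ : MulAction G W :=
    { smul := act
      one_smul := fun w => Subtype.ext (show a 1 w.1 = w.1 by simp)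
      mul_smul := fun g h w => Subtype.ext (show a (g * h) w.1 = a g (a h w.1) by
        simp [map_mul]) }
  have hsmul : ∀ (g : G) (w : W), ((g • w : W) : V) = a g w.1 := fun _ _ => rfl
  -- `p ∣ card W`
  have hpW : IsPGroup p (Multiplicative W) := by
    intro w
    refine ⟨1, ?_⟩
    rw [pow_one]
    apply Multiplicative.toAdd.injective
    rw [toAdd_pow, toAdd_one]
    exact Subtype.ext (by simpa using hp (Multiplicative.toAdd w).1)
  have hcard : p ∣ Nat.card W := by
    have h := hpW.card_eq_or_dvd
    rw [Nat.card_congr Multiplicative.toAdd] at h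
    rcases h with h | h
    · exfalso
      have hsub : Subsingleton W := (Nat.card_eq_one_iff_unique.1 h).1
      exact hv₀ (congrArg Subtype.val (Subsingleton.elim (⟨v₀, hv₀W⟩ : W) 0))
    · exact h
  have h0 : (0 : W) ∈ MulAction.fixedPoints G W := by
    intro g
    exact Subtype.ext (by simp [hsmul])
  obtain ⟨b, hb, hb0⟩ := hG.exists_fixed_point_of_prime_dvd_card_of_fixed_point W hcard h0
  refine ⟨b.1, fun h => hb0 (Subtype.ext h.symm), fun g => ?_⟩
  have := hb g
  exact congrArg Subtype.val this

/-- The additive subgroup generated by the elements `a g v - v` ("`I_G • V`"). -/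
def augSub (a : G →* AddMonoid.End V) : AddSubgroup V :=
  AddSubgroup.closure {x : V | ∃ (g : G) (v : V), a g v - v = x}

omit [Finite G] in
theorem sub_mem_augSub (a : G →* AddMonoid.End V) (g : G) (v : V) : a g v - v ∈ augSub a :=
  AddSubgroup.subset_closure ⟨g, v, rfl⟩

/-- The contragredient action on `V →+ ZMod p`. -/
def dualAct (p : ℕ) (a : G →* AddMonoid.End V) : G →* AddMonoid.End (V →+ ZMod p) where
  toFun g :=
    { toFun := fun φ => φ.comp (a g⁻¹ : V →+ V)
      map_zero' := by ext; rfl
      map_add' := fun φ ψ => by ext; rfl }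
  map_one' := by
    ext φ v
    show φ ((a 1⁻¹ : V →+ V) v) = φ v
    rw [inv_one, map_one]
    rfl
  map_mul' g h := by
    ext φ v
    show φ ((a (g * h)⁻¹ : V →+ V) v) = φ ((a h⁻¹ : V →+ V) ((a g⁻¹ : V →+ V) v))
    rw [mul_inv_rev, map_mul]
    rfl

omit [Finite G] in
@[simp]
theorem dualAct_apply (a : G →* AddMonoid.End V) (g : G) (φ : V →+ ZMod p) (v : V) :
    dualAct p a g φ v = φ (a g⁻¹ v) := rfl

/-- Nakayama for `p`-groups: if `V = I_G V` then `V = 0`. -/
theorem subsingleton_of_augSub_eq_top (hG : IsPGroup p G) (a : G →* AddMonoid.End V)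
    (hp : ∀ v : V, p • v = 0) (h : augSub a = ⊤) : Subsingleton V := by
  by_contra hns
  rw [not_subsingleton_iff_nontrivial] at hns
  -- a nonzero additive functional
  have hD : Nontrivial (V →+ ZMod p) := by
    let inst : Module (ZMod p) V := AddCommGroup.zmodModule hp
    obtain ⟨v, hv⟩ := exists_ne (0 : V)
    have hfree : @Module.Free (ZMod p) V _ _ inst :=
      @Module.Free.of_divisionRing (ZMod p) V _ _ inst
    have hproj : @Module.Projective (ZMod p) _ V _ inst :=
      @Module.Projective.of_free (ZMod p) _ V _ inst hfree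
    obtain ⟨ψ, hψ⟩ := @Module.Projective.exists_dual_ne_zero V _ (ZMod p) _ inst hproj v hv
    refine ⟨⟨ψ.toAddMonoidHom, 0, fun h0 => hψ ?_⟩⟩
    simpa using DFunLike.congr_fun h0 v
  have hpD : ∀ φ : V →+ ZMod p, p • φ = 0 := by
    intro φ
    ext v
    simp
  obtain ⟨φ, hφ0, hφ⟩ := exists_ne_zero_fixed hG (dualAct p a) hpD hD
  apply hφ0
  have hker : augSub a ≤ φ.ker := by
    unfold augSub
    rw [AddSubgroup.closure_le]
    rintro x ⟨g, v, rfl⟩
    have h1 := DFunLike.congr_fun (hφ g⁻¹) v
    simp only [dualAct_apply, inv_inv] at h1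
    simp [AddMonoidHom.mem_ker, map_sub, h1]
  rw [h, top_le_iff] at hker
  ext v
  have : v ∈ φ.ker := hker ▸ AddSubgroup.mem_top v
  simpa [AddMonoidHom.mem_ker] using this

variable {W : Type*} [AddCommGroup W]

/-- The action induced on the cokernel of an equivariant map. -/
def cokerAct (a : G →* AddMonoid.End V) (b : G →* AddMonoid.End W) (f : V →+ W)
    (hf : ∀ g v, f (a g v) = b g (f v)) : G →* AddMonoid.End (W ⧸ f.range) where
  toFun g := QuotientAddGroup.map f.range f.range (b g : W →+ W) (by
    rintro _ ⟨v, rfl⟩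
    exact ⟨a g v, hf g v⟩)
  map_one' := by
    ext q
    obtain ⟨w, rfl⟩ := QuotientAddGroup.mk_surjective q
    show ((b 1 : W →+ W) w : W ⧸ f.range) = (w : W ⧸ f.range)
    rw [map_one]; rfl
  map_mul' g h := by
    ext q
    obtain ⟨w, rfl⟩ := QuotientAddGroup.mk_surjective q
    show ((b (g * h) : W →+ W) w : W ⧸ f.range) =
      ((b g : W →+ W) ((b h : W →+ W) w) : W ⧸ f.range)
    rw [map_mul]; rfl

omit [Finite G] in
theorem cokerAct_mk (a : G →* AddMonoid.End V) (b : G →* AddMonoid.End W) (f : V →+ W)
    (hf : ∀ g v, f (a g v) = b g (f v)) (g : G) (w : W) :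
    cokerAct a b f hf g (w : W ⧸ f.range) = ((b g w : W) : W ⧸ f.range) := rfl

/-- Nakayama for `p`-groups, relative form: an equivariant map which is surjective modulo `I_G`
is surjective. -/
theorem surjective_of_range_sup_augSub_eq_top (hG : IsPGroup p G) (a : G →* AddMonoid.End V)
    (b : G →* AddMonoid.End W) (hp : ∀ w : W, p • w = 0) (f : V →+ W)
    (hf : ∀ g v, f (a g v) = b g (f v)) (h : f.range ⊔ augSub b = ⊤) : Surjective f := by
  have hpQ : ∀ q : W ⧸ f.range, p • q = 0 := by
    intro q
    obtain ⟨w, rfl⟩ := QuotientAddGroup.mk_surjective q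
    rw [← QuotientAddGroup.mk_nsmul, hp w]; rfl
  have htop : augSub (cokerAct a b f hf) = ⊤ := by
    rw [eq_top_iff]
    rintro q -
    obtain ⟨w, rfl⟩ := QuotientAddGroup.mk_surjective q
    have hw : w ∈ f.range ⊔ augSub b := h ▸ AddSubgroup.mem_top w
    obtain ⟨y, hy, z, hz, rfl⟩ := AddSubgroup.mem_sup.1 hw
    have hy0 : ((y : W) : W ⧸ f.range) = 0 := (QuotientAddGroup.eq_zero_iff y).2 hy
    rw [QuotientAddGroup.mk_add, hy0, zero_add]
    -- image of `augSub b` lies in `augSub` of the quotient
    have : augSub b ≤ (augSub (cokerAct a b f hf)).comap (QuotientAddGroup.mk' f.range) := by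
      unfold augSub
      rw [AddSubgroup.closure_le]
      rintro x ⟨g, w', rfl⟩
      refine AddSubgroup.subset_closure ⟨g, (w' : W ⧸ f.range), ?_⟩
      rw [cokerAct_mk]; rfl
    exact this hz
  have hsub := subsingleton_of_augSub_eq_top hG (cokerAct a b f hf) hpQ htop
  intro w
  have : ((w : W) : W ⧸ f.range) = 0 := Subsingleton.elim _ _
  exact (QuotientAddGroup.eq_zero_iff w).1 this

end Core

section Rep

open Representation

variable {k : Type*} [CommRing k] {p : ℕ} [Fact p.Prime] {G : Type*} [Group G]
variable {V : Type*} [AddCommGroup V] [Module k V] (ρ : Representation k G V)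
variable {W : Type*} [AddCommGroup W] [Module k W] (σ : Representation k G W)

/-- The additive action underlying a representation. -/
def toEnd : G →* AddMonoid.End V where
  toFun g := (ρ g).toAddMonoidHom
  map_one' := by ext v; simp; rfl
  map_mul' g h := by ext v; simp; rfl

@[simp]
theorem toEnd_apply (g : G) (v : V) : toEnd ρ g v = ρ g v := rfl

theorem augSub_toEnd : augSub (toEnd ρ) = (Coinvariants.ker ρ).toAddSubgroup := by
  apply le_antisymm
  · unfold augSub
    rw [AddSubgroup.closure_le]
    rintro x ⟨g, v, rfl⟩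
    exact Coinvariants.sub_mem_ker g v
  · -- the closure is stable under scalars
    let S : Submodule k V :=
      { carrier := augSub (toEnd ρ)
        add_mem' := fun ha hb => (augSub (toEnd ρ)).add_mem ha hb
        zero_mem' := (augSub (toEnd ρ)).zero_mem
        smul_mem' := by
          intro c x hx
          change x ∈ augSub (toEnd ρ) at hx
          change c • x ∈ augSub (toEnd ρ)
          unfold augSub at hx
          induction hx using AddSubgroup.closure_induction with
          | mem x hx =>
            obtain ⟨g, v, rfl⟩ := hx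
            have : c • (toEnd ρ g v - v) = toEnd ρ g (c • v) - c • v := by
              simp [smul_sub]
            rw [this]
            exact sub_mem_augSub _ g (c • v)
          | zero => simp [(augSub (toEnd ρ)).zero_mem]
          | add x y _ _ hx hy => rw [smul_add]; exact (augSub (toEnd ρ)).add_mem hx hy
          | neg x _ hx => rw [smul_neg]; exact (augSub (toEnd ρ)).neg_mem hx }
    have : Coinvariants.ker ρ ≤ S := by
      unfold Coinvariants.ker
      rw [Submodule.span_le]
      rintro x ⟨⟨g, v⟩, rfl⟩
      exact sub_mem_augSub (toEnd ρ) g v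
    exact fun x hx => this hx

variable [Finite G]

/-- A finite `p`-group acting linearly on a nonzero module killed by `p` has a nonzero
invariant vector. -/
theorem exists_ne_zero_mem_invariants (hG : IsPGroup p G) (hp : ∀ v : V, p • v = 0)
    [hV : Nontrivial V] : ∃ v : V, v ≠ 0 ∧ v ∈ ρ.invariants := by
  obtain ⟨v, hv0, hv⟩ := exists_ne_zero_fixed hG (toEnd ρ) hp hV
  exact ⟨v, hv0, fun g => hv g⟩

/-- If the coinvariants of a `p`-torsion representation of a finite `p`-group vanish, the
representation is zero. -/
theorem subsingleton_of_coinvariantsKer_eq_top (hG : IsPGroup p G) (hp : ∀ v : V, p • v = 0)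
    (h : Coinvariants.ker ρ = ⊤) : Subsingleton V := by
  apply subsingleton_of_augSub_eq_top hG (toEnd ρ) hp
  rw [augSub_toEnd, h]; rfl

theorem subsingleton_of_subsingleton_coinvariants (hG : IsPGroup p G) (hp : ∀ v : V, p • v = 0)
    [h : Subsingleton (Coinvariants ρ)] : Subsingleton V := by
  apply subsingleton_of_coinvariantsKer_eq_top ρ hG hp
  rw [eq_top_iff]
  intro v _
  exact (Coinvariants.mk_eq_zero ρ).1 (Subsingleton.elim _ _)

/-- An equivariant linear map to a `p`-torsion representation of a finite `p`-group whose range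
together with `I_G W` spans `W` is surjective. -/
theorem surjective_of_range_sup_coinvariantsKer_eq_top (hG : IsPGroup p G)
    (hp : ∀ w : W, p • w = 0) (f : V →ₗ[k] W) (hf : ∀ g v, f (ρ g v) = σ g (f v))
    (h : LinearMap.range f ⊔ Coinvariants.ker σ = ⊤) : Surjective f := by
  apply surjective_of_range_sup_augSub_eq_top hG (toEnd ρ) (toEnd σ) hp f.toAddMonoidHom hf
  rw [augSub_toEnd, eq_top_iff]
  intro w _
  have hw : w ∈ LinearMap.range f ⊔ Coinvariants.ker σ := h ▸ Submodule.mem_top
  obtain ⟨y, hy, z, hz, rfl⟩ := Submodule.mem_sup.1 hw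
  refine AddSubgroup.mem_sup.2 ⟨y, ?_, z, hz, rfl⟩
  obtain ⟨v, rfl⟩ := hy
  exact ⟨v, rfl⟩

/-- An intertwining map to a `p`-torsion representation of a finite `p`-group which is surjective
on coinvariants is surjective. -/
theorem surjective_of_coinvariants_map_surjective (hG : IsPGroup p G)
    (hp : ∀ w : W, p • w = 0) (f : IntertwiningMap ρ σ)
    (h : Surjective (Coinvariants.map ρ σ f)) : Surjective f := by
  apply surjective_of_range_sup_coinvariantsKer_eq_top ρ σ hG hp f.toLinearMap
    (fun g v => by simpa using congr($(f.isIntertwining' g) v))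
  rw [eq_top_iff]
  intro w _
  obtain ⟨x, hx⟩ := h (Coinvariants.mk σ w)
  obtain ⟨v, rfl⟩ := Coinvariants.mk_surjective ρ x
  rw [Coinvariants.map_mk, Coinvariants.mk_eq_iff] at hx
  have : w = f v + (-(f v - w)) := by abel
  rw [this]
  exact Submodule.add_mem_sup ⟨v, rfl⟩ (neg_mem hx)

end Rep

end Fermat.Agent.PT.FG.PGroupMod9
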