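/-
PROGRAM F (S55), chapter FG.  helper9.
Serre, Local Fields IX §5, Théorème 5 (the key step): a representation `A` of a finite `p`-group
`G`, killed by `p`, with `H₁(G, A) = 0`, is induced: `A = ⊕_{g ∈ G} g • B` for a submodule
`B ⊆ A` mapping isomorphically onto the coinvariants `A_G`.
-/
import Mathlib
import Fermat.Agent.PT.FG.PGroupMod9

set_option autoImplicit false

namespace Fermat.Agent.PT.FG.PGroupFree9

open Function CategoryTheory Representation CategoryTheory.Limits
open Fermat.Agent.PT.FG.PGroupMod9

universe u

section IndRep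

variable {k : Type*} [CommRing k] {G : Type*} [Group G]
variable (B : Type*) [AddCommGroup B] [Module k B]

/-- The induced representation `k[G] ⊗ B`, realised on `G →₀ B` by left translation:
`g • single h b = single (g * h) b`. -/
noncomputable def indRep : Representation k G (G →₀ B) where
  toFun g := Finsupp.lmapDomain B k (g * ·)
  map_one' := by
    ext h b : 2
    simp
  map_mul' g₁ g₂ := by
    ext h b : 2
    simp [mul_assoc]

variable {B}

@[simp]
theorem indRep_single (g h : G) (b : B) :
    indRep (k := k) B g (Finsupp.single h b) = Finsupp.single (g * h) b := by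
  simp [indRep]

/-- The augmentation (sum of the coefficients) `(G →₀ B) → B`. -/
noncomputable def indAug : (G →₀ B) →ₗ[k] B := Finsupp.lsum k fun _ : G => (LinearMap.id : B →ₗ[k] B)

omit [Group G] in
@[simp]
theorem indAug_single (h : G) (b : B) : indAug (k := k) (Finsupp.single h b) = b := by
  simp [indAug]

theorem indAug_indRep (g : G) (f : G →₀ B) :
    indAug (k := k) (indRep (k := k) B g f) = indAug (k := k) f := by
  induction f using Finsupp.induction_linear with
  | zero => simp
  | add x y hx hy => simp only [map_add, hx, hy]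
  | single h b => simp

/-- The kernel of the augmentation is the kernel of the projection to the coinvariants. -/
theorem ker_indAug : LinearMap.ker (indAug (k := k) (G := G) (B := B)) =
    Coinvariants.ker (indRep (k := k) (G := G) B) := by
  apply le_antisymm
  · intro f hf
    rw [LinearMap.mem_ker] at hf
    -- `f = ∑ (single g (f g) - single 1 (f g)) + single 1 (∑ f g)`
    have key : ∀ f : G →₀ B, f - Finsupp.single 1 (indAug (k := k) f) ∈
        Coinvariants.ker (indRep (k := k) (G := G) B) := by
      intro f
      induction f using Finsupp.induction_linear with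
      | zero => simp
      | add x y hx hy =>
        have : x + y - Finsupp.single 1 (indAug (k := k) (x + y)) =
            (x - Finsupp.single 1 (indAug (k := k) x)) +
              (y - Finsupp.single 1 (indAug (k := k) y)) := by
          rw [map_add, Finsupp.single_add]; abel
        rw [this]
        exact Submodule.add_mem _ hx hy
      | single h b =>
        rw [indAug_single]
        have : Finsupp.single h b - Finsupp.single 1 b =
            indRep (k := k) B h (Finsupp.single 1 b) - Finsupp.single 1 b := by
          simp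
        rw [this]
        exact Coinvariants.sub_mem_ker h _
    have := key f
    rwa [hf, Finsupp.single_zero, sub_zero] at this
  · unfold Coinvariants.ker
    rw [Submodule.span_le]
    rintro x ⟨⟨g, f⟩, rfl⟩
    simp [LinearMap.mem_ker, indAug_indRep]

variable {V : Type*} [AddCommGroup V] [Module k V] (ρ : Representation k G V)

/-- The equivariant extension `(G →₀ B) → V` of a linear map `s : B → V`:
`single g b ↦ ρ g (s b)`. -/
noncomputable def indLift (s : B →ₗ[k] V) : (G →₀ B) →ₗ[k] V :=
  Finsupp.lsum k fun g : G => (ρ g) ∘ₗ s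

@[simp]
theorem indLift_single (s : B →ₗ[k] V) (g : G) (b : B) :
    indLift ρ s (Finsupp.single g b) = ρ g (s b) := by
  simp [indLift]

theorem indLift_indRep (s : B →ₗ[k] V) (g : G) (f : G →₀ B) :
    indLift ρ s (indRep (k := k) B g f) = ρ g (indLift ρ s f) := by
  induction f using Finsupp.induction_linear with
  | zero => simp
  | add x y hx hy => simp only [map_add, hx, hy]
  | single h b => simp

/-- `indLift` as an intertwining map. -/
noncomputable def indLiftHom (s : B →ₗ[k] V) : IntertwiningMap (indRep (k := k) (G := G) B) ρ where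
  toLinearMap := indLift ρ s
  isIntertwining' g := LinearMap.ext fun f => indLift_indRep ρ s g f

end IndRep


section Main

variable {k G : Type u} [CommRing k] [Group G]

noncomputable def indLiftRep (A : Rep.{u} k G) (s : A.ρ.Coinvariants →ₗ[k] A) :
    Rep.of (indRep (k := k) (G := G) A.ρ.Coinvariants) ⟶ A :=
  Rep.ofHom (indLiftHom A.ρ s)

theorem indLiftRep_apply (A : Rep.{u} k G) (s : A.ρ.Coinvariants →ₗ[k] A)
    (f : G →₀ A.ρ.Coinvariants) : (indLiftRep A s).hom f = indLift A.ρ s f := rfl

variable {p : ℕ} [Fact p.Prime] [Finite G]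

theorem indLift_surjective (hG : IsPGroup p G) (A : Rep.{u} k G) (hp : ∀ a : A, p • a = 0)
    (s : A.ρ.Coinvariants →ₗ[k] A) (hs : ∀ x, Coinvariants.mk A.ρ (s x) = x) :
    Surjective (indLift A.ρ s) := by
  apply surjective_of_range_sup_coinvariantsKer_eq_top (indRep (k := k) (G := G) A.ρ.Coinvariants)
    A.ρ hG hp (indLift A.ρ s) (fun g v => indLift_indRep A.ρ s g v)
  rw [eq_top_iff]
  intro a _
  have h1 : s (Coinvariants.mk A.ρ a) ∈ LinearMap.range (indLift A.ρ s) :=
    ⟨Finsupp.single 1 (Coinvariants.mk A.ρ a), by simp⟩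
  have h2 : a - s (Coinvariants.mk A.ρ a) ∈ Coinvariants.ker A.ρ := by
    rw [← Coinvariants.mk_eq_zero, map_sub, hs, sub_self]
  have : a = s (Coinvariants.mk A.ρ a) + (a - s (Coinvariants.mk A.ρ a)) := by abel
  rw [this]
  exact Submodule.add_mem_sup h1 h2

omit [Finite G] in
theorem coinvariants_map_indLift_injective (A : Rep.{u} k G)
    (s : A.ρ.Coinvariants →ₗ[k] A) (hs : ∀ x, Coinvariants.mk A.ρ (s x) = x) :
    Injective (Coinvariants.map _ _ (indLiftHom A.ρ s)) := by
  rw [← LinearMap.ker_eq_bot, LinearMap.ker_eq_bot']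
  intro x hx
  obtain ⟨f, rfl⟩ := Coinvariants.mk_surjective _ x
  rw [Coinvariants.map_mk] at hx
  rw [Coinvariants.mk_eq_zero, ← ker_indAug, LinearMap.mem_ker]
  have key : ∀ f : G →₀ A.ρ.Coinvariants,
      Coinvariants.mk A.ρ (indLiftHom A.ρ s f) = indAug (k := k) f := by
    intro f
    induction f using Finsupp.induction_linear with
    | zero => simp
    | add x y hx hy => simp only [map_add, hx, hy]
    | single h b =>
      show Coinvariants.mk A.ρ (indLift A.ρ s (Finsupp.single h b)) = _
      rw [indLift_single, Coinvariants.mk_self_apply, hs, indAug_single]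
  rw [← key, hx]

theorem indLiftRep_mono (hG : IsPGroup p G) (A : Rep.{u} k G) (hp : ∀ a : A, p • a = 0)
    (h1 : IsZero (groupHomology A 1))
    (s : A.ρ.Coinvariants →ₗ[k] A) (hs : ∀ x, Coinvariants.mk A.ρ (s x) = x) :
    Mono (indLiftRep A s) := by
  set φ := indLiftRep A s with hφ
  have hepi : Epi φ := (Rep.epi_iff_surjective φ).2 (indLift_surjective hG A hp s hs)
  -- the short exact sequence `0 → ker φ → F → A → 0`
  let S : ShortComplex (Rep.{u} k G) := ShortComplex.mk (kernel.ι φ) φ (kernel.condition φ)
  have hS : S.ShortExact := { exact := ShortComplex.exact_kernel φ, mono_f := inferInstance, epi_g := hepi }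
  have hex := groupHomology.mapShortComplex₁_exact hS (i := 1) (j := 0) rfl
  -- `H₀(ker φ) → H₀(F)` is mono
  have hmono : Mono (groupHomology.mapShortComplex₁ hS (i := 1) (j := 0) rfl).g :=
    hex.mono_g (h1.eq_of_src _ _)
  have hmono' : Mono ((groupHomology.functor k G 0).map (kernel.ι φ)) := hmono
  -- `H₀(φ)` is mono
  have hφ0 : Mono ((groupHomology.functor k G 0).map φ) := by
    have h := groupHomology.map_id_comp_H0Iso_hom φ
    have hinj : Mono ((Rep.coinvariantsFunctor k G).map φ) := by
      rw [ModuleCat.mono_iff_injective]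
      exact coinvariants_map_indLift_injective A s hs
    have : Mono ((groupHomology.functor k G 0).map φ ≫ (groupHomology.H0Iso A).hom) := by
      show Mono (groupHomology.map (MonoidHom.id G) φ 0 ≫ (groupHomology.H0Iso A).hom)
      rw [h]; infer_instance
    exact mono_of_mono _ (groupHomology.H0Iso A).hom
  -- hence `H₀(ker φ) = 0`
  have hzero : (groupHomology.functor k G 0).map (kernel.ι φ) = 0 := by
    rw [← cancel_mono ((groupHomology.functor k G 0).map φ), zero_comp,
      ← Functor.map_comp, kernel.condition, Functor.map_zero]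
  have hH0 : IsZero (groupHomology (kernel φ) 0) := by
    exact @IsZero.of_mono_eq_zero _ _ _ _ _ _ hmono' hzero
  have hcoinv : Subsingleton (kernel φ).ρ.Coinvariants := by
    have : IsZero ((Rep.coinvariantsFunctor k G).obj (kernel φ)) :=
      hH0.of_iso (groupHomology.H0Iso (kernel φ)).symm
    exact ModuleCat.subsingleton_of_isZero this
  -- the kernel is killed by `p`
  have hpK : ∀ x : (kernel φ : Rep.{u} k G), p • x = 0 := by
    intro x
    have hinj : Injective (kernel.ι φ).hom := (Rep.mono_iff_injective _).1 inferInstance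
    apply hinj
    rw [map_nsmul, map_zero]
    ext g
    rw [Finsupp.smul_apply, Finsupp.zero_apply]
    obtain ⟨a, ha⟩ := Coinvariants.mk_surjective A.ρ (((kernel.ι φ).hom x) g)
    rw [← ha, ← map_nsmul, hp, map_zero]
  have hsub : Subsingleton (kernel φ : Rep.{u} k G) :=
    subsingleton_of_subsingleton_coinvariants (kernel φ).ρ hG hpK
  exact Preadditive.mono_of_isZero_kernel φ ((Rep.isZero_iff k G _).2 hsub)

/-- **Serre, Local Fields IX §5 Thm 5.**  For a finite `p`-group `G` and a representation `A` killed
by `p` with `H₁(G, A) = 0`, any linear section `s` of `A → A_G` induces a bijection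
`(G →₀ A_G) → A`, `single g b ↦ g • s b`: `A` is the direct sum of the translates of `s(A_G)`. -/
theorem indLift_bijective (hG : IsPGroup p G) (A : Rep.{u} k G) (hp : ∀ a : A, p • a = 0)
    (h1 : IsZero (groupHomology A 1))
    (s : A.ρ.Coinvariants →ₗ[k] A) (hs : ∀ x, Coinvariants.mk A.ρ (s x) = x) :
    Bijective (indLift A.ρ s) :=
  ⟨(Rep.mono_iff_injective (indLiftRep A s)).1 (indLiftRep_mono hG A hp h1 s hs),
    indLift_surjective hG A hp s hs⟩

/-- The isomorphism `Ind(A_G) ≅ A` of `indLift_bijective`. -/
noncomputable def indLiftIso (hG : IsPGroup p G) (A : Rep.{u} k G) (hp : ∀ a : A, p • a = 0)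
    (h1 : IsZero (groupHomology A 1))
    (s : A.ρ.Coinvariants →ₗ[k] A) (hs : ∀ x, Coinvariants.mk A.ρ (s x) = x) :
    Rep.of (indRep (k := k) (G := G) A.ρ.Coinvariants) ≅ A :=
  haveI : Mono (indLiftRep A s) := indLiftRep_mono hG A hp h1 s hs
  haveI : Epi (indLiftRep A s) :=
    (Rep.epi_iff_surjective _).2 (indLift_surjective hG A hp s hs)
  haveI : IsIso (indLiftRep A s) := isIso_of_mono_of_epi _
  asIso (indLiftRep A s)

end Main

section Sections

variable {p : ℕ} [Fact p.Prime]

/-- `k`-linear surjections out of `k`-modules killed by `p` split.  True for fields and for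
`k = ℤ`; this is the only property of the coefficient ring used in the Nakayama–Tate theory. -/
def SplitsModP (k : Type u) [CommRing k] (p : ℕ) : Prop :=
  ∀ (V W : Type u) [AddCommGroup V] [Module k V] [AddCommGroup W] [Module k W] (f : V →ₗ[k] W),
    Surjective f → (∀ v : V, p • v = 0) → ∃ s : W →ₗ[k] V, ∀ x, f (s x) = x

theorem splitsModP_field (k : Type u) [Field k] (p : ℕ) : SplitsModP k p := by
  intro V W _ _ _ _ f hf _
  obtain ⟨s, hs⟩ := LinearMap.exists_rightInverse_of_surjective f (LinearMap.range_eq_top.2 hf)
  exact ⟨s, fun x => LinearMap.congr_fun hs x⟩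

theorem exists_addSection_aux {V W : Type*} [AddCommGroup V] [AddCommGroup W] [Module (ZMod p) V]
    [Module (ZMod p) W] (g : V →+ W) (hg : Surjective g) : ∃ s : W →+ V, ∀ x, g (s x) = x := by
  obtain ⟨s, hs⟩ := LinearMap.exists_rightInverse_of_surjective (g.toZModLinearMap p)
    (LinearMap.range_eq_top.2 hg)
  exact ⟨s.toAddMonoidHom, fun x => LinearMap.congr_fun hs x⟩

/-- A surjective additive map between abelian groups killed by `p` has an additive section. -/
theorem exists_addSection {V W : Type*} [AddCommGroup V] [AddCommGroup W]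
    (hp : ∀ v : V, p • v = 0) (hpW : ∀ v : W, p • v = 0) (g : V →+ W) (hg : Surjective g) :
    ∃ s : W →+ V, ∀ x, g (s x) = x :=
  @exists_addSection_aux p _ V W _ _ (AddCommGroup.zmodModule hp) (AddCommGroup.zmodModule hpW) g hg

theorem splitsModP_int (p : ℕ) [Fact p.Prime] : SplitsModP ℤ p := by
  intro V W _ _ _ _ f hf hp
  have hpW : ∀ w : W, p • w = 0 := by
    intro w
    obtain ⟨v, rfl⟩ := hf w
    rw [← map_nsmul, hp, map_zero]
  obtain ⟨s, hs⟩ := exists_addSection hp hpW f.toAddMonoidHom hf
  refine ⟨{ toFun := s, map_add' := s.map_add, map_smul' := ?_ }, hs⟩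
  intro n x
  simpa using map_intCast_smul s ℤ ℤ n x

end Sections

section Final

variable {p : ℕ} [Fact p.Prime] {k G : Type u} [CommRing k] [Group G] [Finite G]

/-- **Serre IX Thm 5**: for a finite `p`-group `G` and a representation `A` killed by `p`
(over a coefficient ring `k` with `SplitsModP k p`, e.g. `ℤ` or `ZMod p`), `H₁(G, A) = 0` implies
that `A` is induced. -/
theorem nonempty_indRep_iso (hk : SplitsModP k p) (hG : IsPGroup p G) (A : Rep.{u} k G)
    (hp : ∀ a : A, p • a = 0) (h1 : IsZero (groupHomology A 1)) :
    Nonempty (Rep.of (indRep (k := k) (G := G) A.ρ.Coinvariants) ≅ A) := by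
  obtain ⟨s, hs⟩ := hk A A.ρ.Coinvariants (Coinvariants.mk A.ρ) (Coinvariants.mk_surjective A.ρ) hp
  exact ⟨indLiftIso hG A hp h1 s hs⟩

end Final

end Fermat.Agent.PT.FG.PGroupFree9
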