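/-
PROGRAM F (S55), chapter FG.  helper9.
Cohomological triviality for finite `p`-groups (Serre, Local Fields IX §§5–6; Nakayama–Tate),
in Mathlib's language (`Rep k G`, `tateCohomology`), conditional on ONE interface statement:
`IndTateAcyclic k` (the induced modules `indRep B` have vanishing Tate cohomology for the full
group, in all degrees).
-/
import Mathlib
import Fermat.Agent.PT.FG.PGroupFree9

set_option autoImplicit false

namespace Fermat.Agent.PT.FG.CohTriv9

open Function CategoryTheory Representation CategoryTheory.Limits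
open Fermat.Agent.PT.FG.PGroupMod9 Fermat.Agent.PT.FG.PGroupFree9

universe u

/-- A representation is cohomologically trivial if the Tate cohomology of all its restrictions to
subgroups vanishes in all degrees. -/
def IsCohTrivial {k G : Type u} [CommRing k] [Group G] (M : Rep.{u} k G) : Prop :=
  ∀ (H : Subgroup G) [Fintype H] (n : ℤ), IsZero (tateCohomology (Rep.res H.subtype M) n)

/-- INTERFACE: induced modules are Tate-acyclic (for the full group). -/
def IndTateAcyclic (k : Type u) [CommRing k] : Prop :=
  ∀ (G : Type u) [Group G] [Fintype G] (B : Type u) [AddCommGroup B] [Module k B] (n : ℤ),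
    IsZero (tateCohomology (Rep.of (indRep (k := k) (G := G) B)) n)

section Basic

variable {k G : Type u} [CommRing k] [Group G]

theorem isZero_tate_of_iso [Fintype G] {M N : Rep.{u} k G} (e : M ≅ N) (n : ℤ)
    (h : IsZero (tateCohomology M n)) : IsZero (tateCohomology N n) :=
  h.of_iso ((tateCohomologyFunctor n).mapIso e).symm

theorem IsCohTrivial.of_iso {M N : Rep.{u} k G} (e : M ≅ N) (h : IsCohTrivial M) :
    IsCohTrivial N := by
  intro H _ n
  exact isZero_tate_of_iso ((Rep.resFunctor H.subtype).mapIso e) n (h H n)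

end Basic

section Mackey

variable {k G : Type u} [CommRing k] [Group G] (H : Subgroup G) {T : Set G}
  (hHT : Subgroup.IsComplement (H : Set G) T) (B : Type u) [AddCommGroup B] [Module k B]

/-- Mackey decomposition for induced modules: as an `H`-module, `k[G] ⊗ B ≅ k[H] ⊗ (k[T] ⊗ B)`
for a right transversal `T` of `H` in `G`. -/
noncomputable def mackeyLinearEquiv : (G →₀ B) ≃ₗ[k] (H →₀ (T →₀ B)) :=
  (Finsupp.domLCongr hHT.equiv).trans (Finsupp.curryLinearEquiv k)

theorem mackeyLinearEquiv_single (g : G) (b : B) :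
    mackeyLinearEquiv (k := k) H hHT B (Finsupp.single g b) =
      Finsupp.single (hHT.equiv g).1 (Finsupp.single (hHT.equiv g).2 b) := by
  simp [mackeyLinearEquiv]

/-- The Mackey isomorphism as an equivalence of representations of `H`. -/
noncomputable def mackeyEquiv :
    Representation.Equiv
      ((indRep (k := k) (G := G) B).comp H.subtype : Representation k H (G →₀ B))
      (indRep (k := k) (G := H) (T →₀ B)) :=
  Representation.Equiv.mk (mackeyLinearEquiv (k := k) H hHT B) (by
    intro h
    ext g b : 2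
    have h1 : ((indRep (k := k) (G := G) B).comp H.subtype : Representation k H (G →₀ B)) h
        (Finsupp.single g b) = Finsupp.single ((h : G) * g) b := by
      simp
    simp only [LinearMap.coe_comp, LinearEquiv.coe_coe, Function.comp_apply,
      Finsupp.lsingle_apply]
    rw [h1, mackeyLinearEquiv_single, mackeyLinearEquiv_single, indRep_single,
      hHT.equiv_mul_left h g])

/-- Induced modules are cohomologically trivial. -/
theorem isCohTrivial_indRep (hacyc : IndTateAcyclic k) :
    IsCohTrivial (Rep.of (indRep (k := k) (G := G) B)) := by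
  intro H _ n
  obtain ⟨T, hHT, -⟩ := H.exists_isComplement_right 1
  have e : Rep.res H.subtype (Rep.of (indRep (k := k) (G := G) B)) ≅
      Rep.of (indRep (k := k) (G := H) (T →₀ B)) := Rep.mkIso (mackeyEquiv H hHT B)
  exact isZero_tate_of_iso e.symm n (hacyc H (T →₀ B) n)

end Mackey

section LES

variable {k G : Type u} [CommRing k] [Group G] [Fintype G] {S : ShortComplex (Rep.{u} k G)}
  (hS : S.ShortExact)
include hS

theorem isZero_tate_X₂ (n : ℤ) (h₁ : IsZero (tateCohomology S.X₁ n))
    (h₃ : IsZero (tateCohomology S.X₃ n)) : IsZero (tateCohomology S.X₂ n) := by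
  have hex := (TateCohomology.map_tateComplexFunctor_shortExact hS).homology_exact₂ n
  exact hex.isZero_of_both_zeros (h₁.eq_of_src _ _) (h₃.eq_of_tgt _ _)

theorem isZero_tate_X₃ (n : ℤ) (h₂ : IsZero (tateCohomology S.X₂ n))
    (h₁ : IsZero (tateCohomology S.X₁ (n + 1))) : IsZero (tateCohomology S.X₃ n) :=
  (TateCohomology.exact₃ hS n).isZero_of_both_zeros (h₂.eq_of_src _ _) (h₁.eq_of_tgt _ _)

theorem isZero_tate_X₁ (n : ℤ) (h₃ : IsZero (tateCohomology S.X₃ n))
    (h₂ : IsZero (tateCohomology S.X₂ (n + 1))) : IsZero (tateCohomology S.X₁ (n + 1)) :=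
  (TateCohomology.exact₁ hS n).isZero_of_both_zeros (h₃.eq_of_src _ _) (h₂.eq_of_tgt _ _)

end LES

section Shift

variable {k G : Type u} [CommRing k] [Group G] (M : Rep.{u} k G)

/-- `k[G] ⊗ M` with `G` acting on the left factor only (carrier `G →₀ M`). -/
noncomputable abbrev indOf : Rep.{u} k G := Rep.of (indRep (k := k) (G := G) M.V)

/-- The counit `ε : k[G] ⊗ M → M`, `g ⊗ m ↦ g • m`. -/
noncomputable def indCounit : indOf M ⟶ M := Rep.ofHom (indLiftHom M.ρ LinearMap.id)

theorem indCounit_apply (f : G →₀ M.V) :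
    (indCounit M).hom f = indLift M.ρ LinearMap.id f := rfl

theorem indCounit_single (g : G) (m : M.V) :
    (indCounit M).hom (Finsupp.single g m) = M.ρ g m := by
  rw [indCounit_apply, indLift_single]; rfl

instance epi_indCounit : Epi (indCounit M) := by
  rw [Rep.epi_iff_surjective]
  intro m
  exact ⟨Finsupp.single 1 m, by rw [indCounit_single]; simp⟩

variable [Fintype G]

/-- The unit `η : M → k[G] ⊗ M`, `m ↦ ∑ g ⊗ g⁻¹ • m`, as a linear map. -/
noncomputable def indUnitLin : M.V →ₗ[k] (G →₀ M.V) :=
  ∑ g : G, Finsupp.lsingle g ∘ₗ M.ρ g⁻¹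

theorem indUnitLin_apply (m : M.V) :
    indUnitLin M m = ∑ g : G, Finsupp.single g (M.ρ g⁻¹ m) := by
  simp [indUnitLin, LinearMap.sum_apply]

theorem indUnitLin_apply_apply (m : M.V) (g : G) : indUnitLin M m g = M.ρ g⁻¹ m := by
  classical
  rw [indUnitLin_apply, Finsupp.finsetSum_apply]
  simp [Finsupp.single_apply]

/-- The unit `η : M → k[G] ⊗ M`. -/
noncomputable def indUnit : M ⟶ indOf M :=
  Rep.ofHom
    { toLinearMap := indUnitLin M
      isIntertwining' := fun h => by
        ext m g
        simp only [LinearMap.coe_comp, Function.comp_apply]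
        rw [indUnitLin_apply_apply]
        have : (indRep (k := k) (G := G) M.V h) (indUnitLin M m) g = M.ρ (h⁻¹ * g)⁻¹ m := by
          rw [indUnitLin_apply, map_sum, Finsupp.finsetSum_apply]
          simp only [indRep_single]
          classical
          simp only [Finsupp.single_apply]
          rw [Finset.sum_eq_single (h⁻¹ * g)]
          · simp
          · intro b _ hb
            rw [if_neg]
            intro hb'
            apply hb
            rw [← hb']; group
          · simp
        rw [this]
        simp [mul_inv_rev] }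

theorem indUnit_apply (m : M.V) : (indUnit M).hom m = indUnitLin M m := rfl

instance mono_indUnit : Mono (indUnit M) := by
  rw [Rep.mono_iff_injective]
  intro m m' h
  have := DFunLike.congr_fun h (1 : G)
  rw [indUnit_apply, indUnit_apply, indUnitLin_apply_apply, indUnitLin_apply_apply] at this
  simpa using this

/-- `ε ∘ η = |G|`. -/
theorem indUnit_comp_indCounit :
    indUnit M ≫ indCounit M = (Fintype.card G) • 𝟙 M := by
  ext m
  simp only [Rep.hom_comp]
  show (indCounit M).hom ((indUnit M).hom m) = _
  rw [indUnit_apply, indUnitLin_apply, map_sum]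
  have : ∀ g : G, (indCounit M).hom (Finsupp.single g (M.ρ g⁻¹ m)) = m := by
    intro g
    rw [indCounit_single]
    simp
  rw [Finset.sum_congr rfl (fun g _ => this g), Rep.nsmul_hom]
  rw [Finset.sum_const, Finset.card_univ]
  show _ = ((Fintype.card G • (𝟙 M : M ⟶ M).hom : IntertwiningMap M.ρ M.ρ) : M.V → M.V) m
  rw [IntertwiningMap.coe_nsmul]
  rfl

/-- The down-shift `ker (k[G] ⊗ M → M)`. -/
noncomputable abbrev down : Rep.{u} k G := kernel (indCounit M)

/-- The up-shift `coker (M → k[G] ⊗ M)`. -/
noncomputable abbrev up : Rep.{u} k G := cokernel (indUnit M)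

/-- `0 → down M → k[G] ⊗ M → M → 0`. -/
noncomputable def downSES : ShortComplex (Rep.{u} k G) :=
  ShortComplex.mk (kernel.ι (indCounit M)) (indCounit M) (kernel.condition _)

/-- `0 → M → k[G] ⊗ M → up M → 0`. -/
noncomputable def upSES : ShortComplex (Rep.{u} k G) :=
  ShortComplex.mk (indUnit M) (cokernel.π (indUnit M)) (cokernel.condition _)

omit [Fintype G] in
theorem downSES_shortExact : (downSES M).ShortExact :=
  { exact := ShortComplex.exact_kernel _
    mono_f := inferInstanceAs (Mono (kernel.ι (indCounit M)))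
    epi_g := epi_indCounit M }

theorem upSES_shortExact : (upSES M).ShortExact :=
  { exact := ShortComplex.exact_cokernel _
    mono_f := mono_indUnit M
    epi_g := inferInstanceAs (Epi (cokernel.π (indUnit M))) }

variable (hacyc : IndTateAcyclic k)
include hacyc

theorem isZero_tate_down_iff (n : ℤ) :
    IsZero (tateCohomology (down M) (n + 1)) ↔ IsZero (tateCohomology M n) := by
  constructor
  · intro h
    exact isZero_tate_X₃ (downSES_shortExact M) n (hacyc G M.V n) h
  · intro h
    exact isZero_tate_X₁ (downSES_shortExact M) n h (hacyc G M.V (n + 1))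

theorem isZero_tate_up_iff (n : ℤ) :
    IsZero (tateCohomology (up M) n) ↔ IsZero (tateCohomology M (n + 1)) := by
  constructor
  · intro h
    exact isZero_tate_X₁ (upSES_shortExact M) n h (hacyc G M.V (n + 1))
  · intro h
    exact isZero_tate_X₃ (upSES_shortExact M) n (hacyc G M.V n) h

end Shift

section Torsion

variable {k G : Type u} [CommRing k] [Group G] (M : Rep.{u} k G)

theorem indOf_torsion (c : ℕ) (h : ∀ m : M.V, c • m = 0) : ∀ x : (indOf M).V, c • x = 0 := by
  intro x
  ext g
  exact h (x g)

theorem indOf_torsionFree (c : ℕ) (h : ∀ m : M.V, c • m = 0 → m = 0) :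
    ∀ x : (indOf M).V, c • x = 0 → x = 0 := by
  intro x hx
  ext g
  exact h (x g) (by simpa using DFunLike.congr_fun hx g)

theorem down_torsion (c : ℕ) (h : ∀ m : M.V, c • m = 0) : ∀ x : (down M).V, c • x = 0 := by
  intro x
  have hinj : Injective (kernel.ι (indCounit M)).hom := (Rep.mono_iff_injective _).1 inferInstance
  apply hinj
  rw [map_nsmul, map_zero]
  exact indOf_torsion M c h _

theorem down_torsionFree (c : ℕ) (h : ∀ m : M.V, c • m = 0 → m = 0) :
    ∀ x : (down M).V, c • x = 0 → x = 0 := by
  intro x hx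
  have hinj : Injective (kernel.ι (indCounit M)).hom := (Rep.mono_iff_injective _).1 inferInstance
  apply hinj
  rw [map_zero]
  apply indOf_torsionFree M c h
  rw [← map_nsmul, hx, map_zero]

theorem up_torsion [Fintype G] (c : ℕ) (h : ∀ m : M.V, c • m = 0) :
    ∀ x : (up M).V, c • x = 0 := by
  intro x
  have hsurj : Surjective (cokernel.π (indUnit M)).hom :=
    (Rep.epi_iff_surjective _).1 inferInstance
  obtain ⟨y, rfl⟩ := hsurj x
  rw [← map_nsmul, indOf_torsion M c h, map_zero]

end Torsion

section Iterate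

variable {k G : Type u} [CommRing k] [Group G] [Fintype G]

/-- Iterated up-shift. -/
noncomputable def upN : ℕ → Rep.{u} k G → Rep.{u} k G
  | 0, M => M
  | j + 1, M => up (upN j M)

/-- Iterated down-shift. -/
noncomputable def downN : ℕ → Rep.{u} k G → Rep.{u} k G
  | 0, M => M
  | j + 1, M => down (downN j M)

theorem upN_torsion (c : ℕ) (j : ℕ) (M : Rep.{u} k G) (h : ∀ m : M.V, c • m = 0) :
    ∀ x : (upN j M).V, c • x = 0 := by
  induction j with
  | zero => exact h
  | succ j ih => exact up_torsion _ c ih

omit [Fintype G] in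
theorem downN_torsion (c : ℕ) (j : ℕ) (M : Rep.{u} k G) (h : ∀ m : M.V, c • m = 0) :
    ∀ x : (downN j M).V, c • x = 0 := by
  induction j with
  | zero => exact h
  | succ j ih => exact down_torsion _ c ih

variable (hacyc : IndTateAcyclic k)
include hacyc

theorem isZero_tate_upN_iff (j : ℕ) (M : Rep.{u} k G) (n : ℤ) :
    IsZero (tateCohomology (upN j M) n) ↔ IsZero (tateCohomology M (n + j)) := by
  induction j generalizing n with
  | zero => simp [upN]
  | succ j ih =>
    show IsZero (tateCohomology (up (upN j M)) n) ↔ _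
    rw [isZero_tate_up_iff _ hacyc, ih]
    have : n + 1 + (j : ℤ) = n + ((j + 1 : ℕ) : ℤ) := by push_cast; ring
    rw [this]

theorem isZero_tate_downN_iff (j : ℕ) (M : Rep.{u} k G) (n : ℤ) :
    IsZero (tateCohomology (downN j M) (n + j)) ↔ IsZero (tateCohomology M n) := by
  induction j generalizing n with
  | zero => simp [downN]
  | succ j ih =>
    have : n + ((j + 1 : ℕ) : ℤ) = (n + j) + 1 := by push_cast; ring
    rw [this]
    show IsZero (tateCohomology (down (downN j M)) (n + j + 1)) ↔ _
    rw [isZero_tate_down_iff _ hacyc, ih]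

end Iterate

section ThmA

variable {k G : Type u} [CommRing k] [Group G] [Fintype G] {p : ℕ} [Fact p.Prime]

theorem isZero_groupHomology_one_iff (M : Rep.{u} k G) :
    IsZero (groupHomology M 1) ↔ IsZero (tateCohomology M (-2)) :=
  (((TateCohomology.isoGroupHomology (-2) 1 (by norm_num)).app M).isZero_iff).symm

variable (hacyc : IndTateAcyclic k) (hk : SplitsModP k p) (hG : IsPGroup p G)
include hacyc hk hG

/-- A `p`-torsion representation of a `p`-group with `Ĥ⁻²(G, N) = 0` is Tate-acyclic. -/
theorem tate_all_zero_of_neg_two (N : Rep.{u} k G) (hp : ∀ m : N.V, p • m = 0)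
    (h : IsZero (tateCohomology N (-2))) (n : ℤ) : IsZero (tateCohomology N n) := by
  obtain ⟨e⟩ := nonempty_indRep_iso hk hG N hp ((isZero_groupHomology_one_iff N).2 h)
  exact isZero_tate_of_iso e n (hacyc G _ n)

/-- **Serre IX Thm 5, (iv) ⇒ (iii) for the full group**: a `p`-torsion representation of a
`p`-group one of whose Tate cohomology groups vanishes is Tate-acyclic. -/
theorem tate_all_zero_of_one_zero (M : Rep.{u} k G) (hp : ∀ m : M.V, p • m = 0) (i : ℤ)
    (hi : IsZero (tateCohomology M i)) (n : ℤ) : IsZero (tateCohomology M n) := by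
  by_cases h : 0 ≤ i + 2
  · obtain ⟨j, hj⟩ := Int.eq_ofNat_of_zero_le h
    have h2 : IsZero (tateCohomology (upN j M) (-2)) := by
      rw [isZero_tate_upN_iff hacyc]
      have : (-2 : ℤ) + j = i := by omega
      rwa [this]
    have hall := tate_all_zero_of_neg_two hacyc hk hG (upN j M) (upN_torsion p j M hp) h2
    have := (isZero_tate_upN_iff hacyc j M (n - j)).1 (hall (n - j))
    have h3 : n - (j : ℤ) + j = n := by ring
    rwa [h3] at this
  · obtain ⟨j, hj⟩ := Int.eq_ofNat_of_zero_le (show 0 ≤ -2 - i by omega)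
    have h2 : IsZero (tateCohomology (downN j M) (-2)) := by
      have : (-2 : ℤ) = i + j := by omega
      rw [this, isZero_tate_downN_iff hacyc]
      exact hi
    have hall := tate_all_zero_of_neg_two hacyc hk hG (downN j M) (downN_torsion p j M hp) h2
    exact (isZero_tate_downN_iff hacyc j M n).1 (hall (n + j))

/-- **Serre IX Thm 5, (iv) ⇒ (ii)**: a `p`-torsion representation of a `p`-group one of whose
Tate cohomology groups vanishes is induced. -/
theorem nonempty_indRep_iso_of_tate (M : Rep.{u} k G) (hp : ∀ m : M.V, p • m = 0) (i : ℤ)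
    (hi : IsZero (tateCohomology M i)) :
    Nonempty (Rep.of (indRep (k := k) (G := G) M.ρ.Coinvariants) ≅ M) :=
  nonempty_indRep_iso hk hG M hp ((isZero_groupHomology_one_iff M).2
    (tate_all_zero_of_one_zero hacyc hk hG M hp i hi (-2)))

/-- **Serre IX Thm 5, (iv) ⇒ (iii)**: a `p`-torsion representation of a `p`-group one of whose
Tate cohomology groups vanishes is cohomologically trivial. -/
theorem isCohTrivial_of_tate (M : Rep.{u} k G) (hp : ∀ m : M.V, p • m = 0) (i : ℤ)
    (hi : IsZero (tateCohomology M i)) : IsCohTrivial M := by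
  obtain ⟨e⟩ := nonempty_indRep_iso_of_tate hacyc hk hG M hp i hi
  exact (isCohTrivial_indRep _ hacyc).of_iso e

end ThmA

section CardKills

variable {k G : Type u} [CommRing k] [Group G] [Fintype G]

instance additive_tateCohomologyFunctor (n : ℤ) :
    (tateCohomologyFunctor (R := k) (G := G) n).Additive :=
  inferInstanceAs ((tateComplexFunctor k G ⋙ HomologicalComplex.homologyFunctor _ _ n).Additive)

theorem card_nsmul_id_tate (hacyc : IndTateAcyclic k) (M : Rep.{u} k G) (n : ℤ) :
    Fintype.card G • 𝟙 (tateCohomology M n) = 0 := by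
  have h1 : (tateCohomologyFunctor n).map (Fintype.card G • 𝟙 M) =
      Fintype.card G • 𝟙 (tateCohomology M n) := by
    rw [Functor.map_nsmul, CategoryTheory.Functor.map_id]
  rw [← h1, ← indUnit_comp_indCounit, Functor.map_comp]
  have h0 : (tateCohomologyFunctor n).map (indUnit M) = 0 := (hacyc G M.V n).eq_of_tgt _ _
  rw [h0, zero_comp]

theorem card_nsmul_tate (hacyc : IndTateAcyclic k) (M : Rep.{u} k G) (n : ℤ)
    (x : tateCohomology M n) : Fintype.card G • x = 0 := by
  have := card_nsmul_id_tate hacyc M n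
  have h2 := congrArg (fun f => (ModuleCat.Hom.hom f) x) this
  simpa using h2

end CardKills

section ModP
variable {k G : Type u} [CommRing k] [Group G] (p : ℕ) (M : Rep.{u} k G)

/-- multiplication by `p` -/
noncomputable abbrev mulP : M ⟶ M := p • 𝟙 M

theorem mulP_apply (m : M.V) : (mulP p M).hom m = p • m := by
  show ((p • (𝟙 M : M ⟶ M).hom : IntertwiningMap M.ρ M.ρ) : M.V → M.V) m = _
  rw [IntertwiningMap.coe_nsmul]
  rfl

/-- `M / pM` -/
noncomputable abbrev modP : Rep.{u} k G := cokernel (mulP p M)

/-- `0 → M → M → M/p → 0` -/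
noncomputable def modPSES : ShortComplex (Rep.{u} k G) :=
  ShortComplex.mk (mulP p M) (cokernel.π (mulP p M)) (cokernel.condition _)

theorem modPSES_shortExact (htf : ∀ m : M.V, p • m = 0 → m = 0) : (modPSES p M).ShortExact :=
  { exact := ShortComplex.exact_cokernel _
    mono_f := by
      show Mono (mulP p M)
      rw [Rep.mono_iff_injective, injective_iff_map_eq_zero]
      intro m hm
      rw [mulP_apply] at hm
      exact htf m hm
    epi_g := inferInstanceAs (Epi (cokernel.π (mulP p M))) }

theorem modP_torsion : ∀ x : (modP p M).V, p • x = 0 := by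
  intro x
  have hsurj : Surjective (cokernel.π (mulP p M)).hom :=
    (Rep.epi_iff_surjective _).1 inferInstance
  obtain ⟨y, rfl⟩ := hsurj x
  rw [← map_nsmul, ← mulP_apply]
  have := cokernel.condition (mulP p M)
  have h2 := congrArg (fun f => (Rep.Hom.hom f) y) this
  exact h2

end ModP

section ThmB

theorem isZero_of_mono_nsmul {k : Type u} [CommRing k] (X : ModuleCat.{u} k) (p a : ℕ)
    (hmono : Mono (p • 𝟙 X)) (hkill : (p ^ a) • 𝟙 X = 0) : IsZero X := by
  have hinj : ∀ x : X, p • x = 0 → x = 0 := by
    intro x hx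
    have h := (ModuleCat.mono_iff_injective _).1 hmono
    apply h
    simpa using hx
  have hkill' : ∀ x : X, (p ^ a) • x = 0 := by
    intro x
    have h2 := congrArg (fun f => (ModuleCat.Hom.hom f) x) hkill
    simp only [ModuleCat.hom_nsmul, ModuleCat.hom_id, LinearMap.smul_apply, LinearMap.id_coe,
      id_eq, ModuleCat.hom_zero, LinearMap.zero_apply] at h2
    exact h2
  have : ∀ (b : ℕ) (x : X), (p ^ b) • x = 0 → x = 0 := by
    intro b
    induction b with
    | zero => intro x hx; simpa using hx
    | succ b ih =>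
      intro x hx
      apply ih
      apply hinj
      rw [← mul_nsmul', ← pow_succ']
      exact hx
  have : Subsingleton X := ⟨fun x y => by
    rw [this a x (hkill' x), this a y (hkill' y)]⟩
  exact ModuleCat.isZero_of_subsingleton X

end ThmB

section ThmB2

variable {k G : Type u} [CommRing k] [Group G] {p : ℕ} [Fact p.Prime]

/-- For a `p`-group `G` and a short exact sequence `0 → N --p--> N → Q → 0`:
`Ĥ^m(G, Q) = 0 ⇒ Ĥ^{m+1}(G, N) = 0`. -/
theorem isZero_tate_succ_of_mulP_ses [Fintype G] (hacyc : IndTateAcyclic k) (hG : IsPGroup p G)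
    {N Q : Rep.{u} k G} (f : N ⟶ N) (hf : f = p • 𝟙 N) (g : N ⟶ Q) (w : f ≫ g = 0)
    (hS : (ShortComplex.mk f g w).ShortExact) (m : ℤ)
    (h : IsZero (tateCohomology Q m)) : IsZero (tateCohomology N (m + 1)) := by
  have hex := TateCohomology.exact₁ hS m
  have hmono : Mono ((tateCohomologyFunctor (m + 1)).map f) :=
    hex.mono_g (h.eq_of_src _ _)
  have hmap : (tateCohomologyFunctor (m + 1)).map f =
      p • 𝟙 (tateCohomology N (m + 1)) := by
    rw [hf, Functor.map_nsmul, CategoryTheory.Functor.map_id]
  rw [hmap] at hmono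
  obtain ⟨a, ha⟩ := IsPGroup.iff_card.1 hG
  refine isZero_of_mono_nsmul _ p a hmono ?_
  rw [← ha, Nat.card_eq_fintype_card]
  exact card_nsmul_id_tate hacyc N (m + 1)

/-- **Serre IX Thm 7, (iii) ⇒ (ii)**: if `p` is injective on `M` and `M/p` is cohomologically
trivial, then `M` is cohomologically trivial (`G` a `p`-group). -/
theorem isCohTrivial_of_modP [Finite G] (hacyc : IndTateAcyclic k) (hG : IsPGroup p G)
    (M : Rep.{u} k G) (htf : ∀ m : M.V, p • m = 0 → m = 0)
    (h : IsCohTrivial (modP p M)) : IsCohTrivial M := by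
  intro H _ n
  obtain ⟨m, rfl⟩ : ∃ m, n = m + 1 := ⟨n - 1, by ring⟩
  have hS := (Rep.shortExact_res H.subtype).2 (modPSES_shortExact p M htf)
  have hf : (Rep.resFunctor H.subtype).map (mulP p M) = p • 𝟙 (Rep.res H.subtype M) := by
    rw [Functor.map_nsmul, CategoryTheory.Functor.map_id]
  exact isZero_tate_succ_of_mulP_ses hacyc (hG.to_subgroup H) _ hf _ _ hS m (h H m)

end ThmB2

section TwoOfThree

variable {k G : Type u} [CommRing k] [Group G] {S : ShortComplex (Rep.{u} k G)}
  (hS : S.ShortExact)
include hS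

theorem IsCohTrivial.X₃ (h₁ : IsCohTrivial S.X₁) (h₂ : IsCohTrivial S.X₂) : IsCohTrivial S.X₃ := by
  intro H _ n
  have hS' := (Rep.shortExact_res H.subtype).2 hS
  exact isZero_tate_X₃ hS' n (h₂ H n) (h₁ H (n + 1))

theorem IsCohTrivial.X₂ (h₁ : IsCohTrivial S.X₁) (h₃ : IsCohTrivial S.X₃) : IsCohTrivial S.X₂ := by
  intro H _ n
  have hS' := (Rep.shortExact_res H.subtype).2 hS
  exact isZero_tate_X₂ hS' n (h₁ H n) (h₃ H n)

theorem IsCohTrivial.X₁ (h₂ : IsCohTrivial S.X₂) (h₃ : IsCohTrivial S.X₃) : IsCohTrivial S.X₁ := by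
  intro H _ n
  obtain ⟨m, rfl⟩ : ∃ m, n = m + 1 := ⟨n - 1, by ring⟩
  have hS' := (Rep.shortExact_res H.subtype).2 hS
  exact isZero_tate_X₁ hS' m (h₃ H m) (h₂ H (m + 1))

end TwoOfThree

section ThmBC

variable {k G : Type u} [CommRing k] [Group G] [Fintype G] {p : ℕ} [Fact p.Prime]
variable (hacyc : IndTateAcyclic k) (hk : SplitsModP k p) (hG : IsPGroup p G)
include hacyc hk hG

/-- **Serre IX Thm 7**: a representation of a `p`-group on which `p` is injective and which has
two consecutive vanishing Tate cohomology groups is cohomologically trivial. -/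
theorem isCohTrivial_of_tate_of_torsionFree (M : Rep.{u} k G)
    (htf : ∀ m : M.V, p • m = 0 → m = 0) (i : ℤ) (hi : IsZero (tateCohomology M i))
    (hi' : IsZero (tateCohomology M (i + 1))) : IsCohTrivial M := by
  have h1 : IsZero (tateCohomology (modP p M) i) :=
    isZero_tate_X₃ (modPSES_shortExact p M htf) i hi hi'
  have h2 : IsCohTrivial (modP p M) :=
    isCohTrivial_of_tate hacyc hk hG _ (modP_torsion p M) i h1
  exact isCohTrivial_of_modP hacyc hG M htf h2

end ThmBC

section ThmC

variable {k G : Type u} [CommRing k] [Group G] (M : Rep.{u} k G)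

/-- The free cover `k[G] ⊗ k^(M) → M`. -/
noncomputable abbrev freeCover : Rep.{u} k G := Rep.of (indRep (k := k) (G := G) (M.V →₀ k))

/-- The covering map `k[G] ⊗ k^(M) → M`. -/
noncomputable def freeCoverMap : freeCover M ⟶ M :=
  Rep.ofHom (indLiftHom M.ρ (Finsupp.linearCombination k (id : M.V → M.V)))

theorem freeCoverMap_single (g : G) (b : M.V →₀ k) :
    (freeCoverMap M).hom (Finsupp.single g b) =
      M.ρ g (Finsupp.linearCombination k (id : M.V → M.V) b) := by
  show indLift M.ρ _ (Finsupp.single g b) = _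
  rw [indLift_single]

instance epi_freeCoverMap : Epi (freeCoverMap M) := by
  rw [Rep.epi_iff_surjective]
  intro m
  refine ⟨Finsupp.single 1 (Finsupp.single m 1), ?_⟩
  rw [freeCoverMap_single]
  simp

/-- `0 → R → k[G] ⊗ k^(M) → M → 0`. -/
noncomputable def freeCoverSES : ShortComplex (Rep.{u} k G) :=
  ShortComplex.mk (kernel.ι (freeCoverMap M)) (freeCoverMap M) (kernel.condition _)

theorem freeCoverSES_shortExact : (freeCoverSES M).ShortExact :=
  { exact := ShortComplex.exact_kernel _
    mono_f := inferInstanceAs (Mono (kernel.ι (freeCoverMap M)))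
    epi_g := epi_freeCoverMap M }

theorem freeCover_torsionFree (c : ℕ) (hk : ∀ x : k, c • x = 0 → x = 0) :
    ∀ x : (freeCover M).V, c • x = 0 → x = 0 := by
  intro x hx
  ext g m
  exact hk (x g m) (by simpa using DFunLike.congr_fun (DFunLike.congr_fun hx g) m)

theorem kernel_freeCoverMap_torsionFree (c : ℕ) (hk : ∀ x : k, c • x = 0 → x = 0) :
    ∀ x : (kernel (freeCoverMap M) : Rep.{u} k G).V, c • x = 0 → x = 0 := by
  intro x hx
  have hinj : Injective (kernel.ι (freeCoverMap M)).hom := (Rep.mono_iff_injective _).1 inferInstance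
  apply hinj
  rw [map_zero]
  apply freeCover_torsionFree M c hk
  rw [← map_nsmul, hx, map_zero]

variable [Fintype G] {p : ℕ} [Fact p.Prime]

/-- **Serre IX Thm 8 (Nakayama–Tate)**: a representation of a `p`-group with two consecutive
vanishing Tate cohomology groups is cohomologically trivial.  (`k` has no `p`-torsion, e.g.
`k = ℤ`.) -/
theorem isCohTrivial_of_tate_consecutive (hacyc : IndTateAcyclic k) (hk : SplitsModP k p)
    (hkp : ∀ x : k, p • x = 0 → x = 0) (hG : IsPGroup p G) (i : ℤ)
    (hi : IsZero (tateCohomology M i)) (hi' : IsZero (tateCohomology M (i + 1))) :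
    IsCohTrivial M := by
  have hS := freeCoverSES_shortExact M
  have hF : IsCohTrivial (freeCover M) := isCohTrivial_indRep _ hacyc
  have hF' : ∀ n, IsZero (tateCohomology (freeCoverSES M).X₂ n) := fun n => hacyc G _ n
  have hi₃ : IsZero (tateCohomology (freeCoverSES M).X₃ i) := hi
  have hi₃' : IsZero (tateCohomology (freeCoverSES M).X₃ (i + 1)) := hi'
  have h1 : IsZero (tateCohomology (freeCoverSES M).X₁ (i + 1)) :=
    isZero_tate_X₁ hS i hi₃ (hF' _)
  have h2 : IsZero (tateCohomology (freeCoverSES M).X₁ (i + 1 + 1)) :=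
    isZero_tate_X₁ hS (i + 1) hi₃' (hF' _)
  have hR : IsCohTrivial (freeCoverSES M).X₁ :=
    isCohTrivial_of_tate_of_torsionFree hacyc hk hG (freeCoverSES M).X₁
      (kernel_freeCoverMap_torsionFree M p hkp) (i + 1) h1 h2
  have hF₂ : IsCohTrivial (freeCoverSES M).X₂ := hF
  have := IsCohTrivial.X₃ hS hR hF₂
  exact this

end ThmC

end Fermat.Agent.PT.FG.CohTriv9
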