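/-
PROGRAM F (S55), chapter FG.  helper9.
Discharges the interface hypothesis `IndTateAcyclic` of `CohTriv9` from helper3's `TateInduced3`
(`coind₁` is Tate-acyclic), and restates the Nakayama–Tate theorems unconditionally.
-/
import Mathlib
import Fermat.Agent.PT.FG.CohTriv9
import Fermat.Agent.PT.FG.TateInduced3

set_option autoImplicit false

namespace Fermat.Agent.PT.FG.IndAcyclic9

open Function CategoryTheory Representation CategoryTheory.Limits
open Fermat.Agent.PT.FG.PGroupMod9 Fermat.Agent.PT.FG.PGroupFree9 Fermat.Agent.PT.FG.CohTriv9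
open Fermat.Agent.PT.FG.TateInduced3

universe u

section Bridge

variable {k : Type u} [CommRing k] (G : Type u) [Group G] [Fintype G]
  (B : Type u) [AddCommGroup B] [Module k B]

/-- `(G →₀ B) ≃ (G → B)`, `f ↦ (x ↦ f x⁻¹)`. -/
noncomputable def indCoindLinearEquiv : (G →₀ B) ≃ₗ[k] (G → B) :=
  (Finsupp.domLCongr (Equiv.inv G)).trans (Finsupp.linearEquivFunOnFinite k B G)

theorem indCoindLinearEquiv_apply (f : G →₀ B) (x : G) :
    indCoindLinearEquiv (k := k) G B f x = f x⁻¹ := by
  simp [indCoindLinearEquiv, Finsupp.domLCongr_apply, Finsupp.domCongr_apply,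
    Finsupp.equivMapDomain_apply]

/-- The induced module `indRep B` is isomorphic to helper3's `coind₁`. -/
noncomputable def indRepIsoCoind₁ : Rep.of (indRep (k := k) (G := G) B) ≅ coind₁ k G B :=
  Rep.mkIso (Representation.Equiv.mk (indCoindLinearEquiv (k := k) G B) (by
    intro g
    ext h b x
    simp only [LinearMap.coe_comp, LinearEquiv.coe_coe, Function.comp_apply,
      Finsupp.lsingle_apply, indRep_single, indCoindLinearEquiv_apply, coind₁Rep_apply]
    classical
    simp only [Finsupp.single_apply]
    congr 1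
    rw [mul_inv_rev, eq_iff_iff]
    constructor
    · intro h1; rw [← h1]; group
    · intro h1; rw [h1]; group))

end Bridge

/-- The interface hypothesis of `CohTriv9` holds. -/
theorem indTateAcyclic (k : Type u) [CommRing k] : IndTateAcyclic k := by
  intro G _ _ B _ _ n
  exact CohTriv9.isZero_tate_of_iso (indRepIsoCoind₁ (k := k) G B).symm n
    (isZero_tate_coind₁ (R := k) G B n)

/-! ### Unconditional forms of the theorems of `CohTriv9` -/

section Unconditional

variable {k G : Type u} [CommRing k] [Group G]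

/-- Induced modules are cohomologically trivial. -/
theorem isCohTrivial_indRep' (B : Type u) [AddCommGroup B] [Module k B] :
    IsCohTrivial (Rep.of (indRep (k := k) (G := G) B)) :=
  isCohTrivial_indRep B (indTateAcyclic k)

variable [Fintype G]

/-- `|G|` kills Tate cohomology. -/
theorem card_nsmul_tate' (M : Rep.{u} k G) (n : ℤ) (x : tateCohomology M n) :
    Fintype.card G • x = 0 :=
  card_nsmul_tate (indTateAcyclic k) M n x

variable {p : ℕ} [Fact p.Prime]

/-- **Serre IX Thm 5**: `G` a `p`-group, `pM = 0`, one vanishing Tate group ⇒ `M` induced. -/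
theorem nonempty_indRep_iso_of_tate' (hk : SplitsModP k p) (hG : IsPGroup p G) (M : Rep.{u} k G)
    (hp : ∀ m : M.V, p • m = 0) (i : ℤ) (hi : IsZero (tateCohomology M i)) :
    Nonempty (Rep.of (indRep (k := k) (G := G) M.ρ.Coinvariants) ≅ M) :=
  nonempty_indRep_iso_of_tate (indTateAcyclic k) hk hG M hp i hi

/-- **Serre IX Thm 5**: `G` a `p`-group, `pM = 0`, one vanishing Tate group ⇒ `M` cohomologically
trivial. -/
theorem isCohTrivial_of_tate' (hk : SplitsModP k p) (hG : IsPGroup p G) (M : Rep.{u} k G)
    (hp : ∀ m : M.V, p • m = 0) (i : ℤ) (hi : IsZero (tateCohomology M i)) : IsCohTrivial M :=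
  isCohTrivial_of_tate (indTateAcyclic k) hk hG M hp i hi

/-- **Serre IX Thm 7**: `G` a `p`-group, `p` injective on `M`, `M/p` cohomologically trivial ⇒ `M`
cohomologically trivial. -/
theorem isCohTrivial_of_modP' (hG : IsPGroup p G) (M : Rep.{u} k G)
    (htf : ∀ m : M.V, p • m = 0 → m = 0) (h : IsCohTrivial (modP p M)) : IsCohTrivial M :=
  isCohTrivial_of_modP (indTateAcyclic k) hG M htf h

/-- **Serre IX Thm 7**: `G` a `p`-group, `p` injective on `M`, two consecutive vanishing Tate
groups ⇒ `M` cohomologically trivial. -/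
theorem isCohTrivial_of_tate_of_torsionFree' (hk : SplitsModP k p) (hG : IsPGroup p G)
    (M : Rep.{u} k G) (htf : ∀ m : M.V, p • m = 0 → m = 0) (i : ℤ)
    (hi : IsZero (tateCohomology M i)) (hi' : IsZero (tateCohomology M (i + 1))) :
    IsCohTrivial M :=
  isCohTrivial_of_tate_of_torsionFree (indTateAcyclic k) hk hG M htf i hi hi'

/-- **Serre IX Thm 8 (Nakayama–Tate)**: `G` a `p`-group, two consecutive vanishing Tate groups ⇒
`M` cohomologically trivial (`k` without `p`-torsion and with `SplitsModP k p`, e.g. `k = ℤ`). -/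
theorem isCohTrivial_of_tate_consecutive' (hk : SplitsModP k p)
    (hkp : ∀ x : k, p • x = 0 → x = 0) (hG : IsPGroup p G) (M : Rep.{u} k G) (i : ℤ)
    (hi : IsZero (tateCohomology M i)) (hi' : IsZero (tateCohomology M (i + 1))) :
    IsCohTrivial M :=
  isCohTrivial_of_tate_consecutive M (indTateAcyclic k) hk hkp hG i hi hi'

end Unconditional

section Int

variable {G : Type} [Group G] [Fintype G] {p : ℕ} [Fact p.Prime]

/-- **Nakayama–Tate for `ℤ[G]`-modules, `G` a `p`-group.** -/
theorem isCohTrivial_int (hG : IsPGroup p G) (M : Rep.{0} ℤ G) (i : ℤ)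
    (hi : IsZero (tateCohomology M i)) (hi' : IsZero (tateCohomology M (i + 1))) :
    IsCohTrivial M :=
  isCohTrivial_of_tate_consecutive' (splitsModP_int p)
    (fun x hx => by
      rcases (smul_eq_zero.1 hx) with h | h
      · exact absurd h (Fact.out : p.Prime).ne_zero
      · exact h) hG M i hi hi'

end Int

end Fermat.Agent.PT.FG.IndAcyclic9
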