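/-
Program F (S55), chapter FG, leaf (FG-S), helper8: the SPLITTING MODULE `C(σ)` of a 2-cocycle
`σ ∈ Z²(G, C)` (Tate / Serre LF XI §3, CF IV §9), for an arbitrary (not nec. normalised) cocycle.

Model: `C(σ) = C × I_G` (`I_G` = augmentation submodule of `G →₀ k`) with the twisted action
  `g • (c, y) = (g • c + ∑ₕ y(h) • σ(g, h), g • y)`.
It is a representation because `∑ₕ y(h) = 0` on `I_G`.  There are short exact sequences
  `0 → C → C(σ) → I_G → 0`   and   `0 → I_G → k[G] → k → 0`,
and `σ` becomes the coboundary of the explicit 1-cochain `g ↦ (σ(g, 1), δ_g - δ_1)` in `C(σ)`.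
Everything is generic in the commutative ring `k` (use `k = ℤ`).
-/
import Mathlib

set_option autoImplicit false

open CategoryTheory groupCohomology

namespace Fermat.Agent.PT.FG.SplitModule8

noncomputable section

variable {k G : Type} [CommRing k] [Group G]

/-! ### The regular representation on `G →₀ k` and its augmentation -/

/-- Left translation on `G →₀ k`. -/
def reg (k G : Type) [CommRing k] [Group G] : Representation k G (G →₀ k) where
  toFun g := Finsupp.lmapDomain k k (g * ·)
  map_one' := by
    ext h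
    simp
  map_mul' g g' := by
    ext h
    simp [mul_assoc]

@[simp] theorem reg_single (g h : G) (a : k) :
    reg k G g (Finsupp.single h a) = Finsupp.single (g * h) a := by
  simp [reg]

/-- The augmentation `ε : (G →₀ k) → k`, sum of the coefficients. -/
def eps (k G : Type) [CommRing k] [Group G] : (G →₀ k) →ₗ[k] k :=
  Finsupp.linearCombination k (fun _ : G => (1 : k))

@[simp] theorem eps_single (g : G) (a : k) : eps k G (Finsupp.single g a) = a := by
  simp [eps]

theorem eps_reg (g : G) (y : G →₀ k) : eps k G (reg k G g y) = eps k G y := by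
  induction y using Finsupp.induction_linear with
  | zero => simp
  | add y z hy hz => simp [map_add, hy, hz]
  | single h a => simp

/-- The augmentation submodule `I_G`. -/
def aug (k G : Type) [CommRing k] [Group G] : Submodule k (G →₀ k) := LinearMap.ker (eps k G)

theorem mem_aug {y : G →₀ k} : y ∈ aug k G ↔ eps k G y = 0 := LinearMap.mem_ker

theorem reg_mem_aug (g : G) {y : G →₀ k} (hy : y ∈ aug k G) : reg k G g y ∈ aug k G := by
  rw [mem_aug, eps_reg]; exact mem_aug.1 hy

/-- The carrier of `I_G` (a type synonym of `↥(aug k G)`, to control instances). -/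
def AugV (k G : Type) [CommRing k] [Group G] : Type := aug k G

instance : AddCommGroup (AugV k G) := inferInstanceAs (AddCommGroup (aug k G))
instance : Module k (AugV k G) := inferInstanceAs (Module k (aug k G))

/-- The inclusion `I_G → (G →₀ k)`. -/
def AugV.val : AugV k G →ₗ[k] (G →₀ k) := (aug k G).subtype

theorem AugV.val_injective : Function.Injective (AugV.val : AugV k G → (G →₀ k)) :=
  Subtype.val_injective

theorem AugV.eps_val (y : AugV k G) : eps k G (AugV.val y) = 0 := mem_aug.1 y.2

/-- Constructor. -/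
def AugV.mk (y : G →₀ k) (hy : eps k G y = 0) : AugV k G := ⟨y, mem_aug.2 hy⟩

@[simp] theorem AugV.val_mk (y : G →₀ k) (hy : eps k G y = 0) : AugV.val (AugV.mk y hy) = y := rfl

/-- `δ_g - δ_1 ∈ I_G`. -/
def augGen (k : Type) [CommRing k] {G : Type} [Group G] (g : G) : AugV k G :=
  AugV.mk (Finsupp.single g 1 - Finsupp.single 1 1) (by simp)

@[simp] theorem val_augGen (g : G) :
    AugV.val (augGen k g) = Finsupp.single g 1 - Finsupp.single 1 1 := rfl

/-- The representation of `G` on `I_G`. -/
def augRho (k G : Type) [CommRing k] [Group G] : Representation k G (AugV k G) where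
  toFun g := (reg k G g).restrict (fun _ hy => reg_mem_aug g hy)
  map_one' := by
    refine LinearMap.ext fun y => AugV.val_injective ?_
    show reg k G 1 (AugV.val y) = AugV.val y
    simp
  map_mul' g g' := by
    refine LinearMap.ext fun y => AugV.val_injective ?_
    show reg k G (g * g') (AugV.val y) = reg k G g (reg k G g' (AugV.val y))
    simp

@[simp] theorem val_augRho (g : G) (y : AugV k G) :
    AugV.val (augRho k G g y) = reg k G g (AugV.val y) := rfl

/-! ### The twisting term -/

variable (C : Rep.{0} k G)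

/-- `τ_g(y) = ∑ₕ y(h) • σ(g, h)`. -/
def tau (σ : G × G → C.V) (g : G) : (G →₀ k) →ₗ[k] C.V :=
  Finsupp.linearCombination k (fun h : G => σ (g, h))

@[simp] theorem tau_single (σ : G × G → C.V) (g h : G) (a : k) :
    tau C σ g (Finsupp.single h a) = a • σ (g, h) := by
  simp [tau]

variable {C}

/-- The key identity: `g • τ_{g'}(y) + τ_g(g' • y) = τ_{gg'}(y) + ε(y) • σ(g, g')`. -/
theorem tau_mul (σ : cocycles₂ C) (g g' : G) (y : G →₀ k) :
    C.ρ g (tau C σ g' y) + tau C σ g (reg k G g' y) =
      tau C σ (g * g') y + eps k G y • (σ : G × G → C.V) (g, g') := by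
  induction y using Finsupp.induction_linear with
  | zero => simp
  | add y z hy hz =>
    simp only [map_add, add_smul]
    rw [add_add_add_comm, hy, hz]
    abel
  | single h a =>
    have hc := (mem_cocycles₂_iff (σ : G × G → C.V)).1 σ.2 g g' h
    simp only [tau_single, reg_single, eps_single, map_smul]
    rw [← smul_add, ← smul_add, ← hc]

theorem tau_one (σ : cocycles₂ C) (y : G →₀ k) :
    tau C σ 1 y = eps k G y • (σ : G × G → C.V) (1, 1) := by
  induction y using Finsupp.induction_linear with
  | zero => simp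
  | add y z hy hz => simp only [map_add, add_smul, hy, hz]
  | single h a => simp [cocycles₂_map_one_fst]

/-! ### The splitting module -/

/-- The carrier `C × I_G` of the splitting module (a type synonym, to control instances). -/
def SplitV (C : Rep.{0} k G) : Type := C.V × AugV k G

instance (C : Rep.{0} k G) : AddCommGroup (SplitV C) :=
  inferInstanceAs (AddCommGroup (C.V × AugV k G))

instance (C : Rep.{0} k G) : Module k (SplitV C) :=
  inferInstanceAs (Module k (C.V × AugV k G))

/-- Constructor. -/
def SplitV.mk (c : C.V) (y : AugV k G) : SplitV C := (c, y)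

/-- First component (in `C`). -/
def SplitV.fst : SplitV C →ₗ[k] C.V := LinearMap.fst k C.V (AugV k G)

/-- Second component (in `I_G`). -/
def SplitV.snd : SplitV C →ₗ[k] AugV k G := LinearMap.snd k C.V (AugV k G)

@[simp] theorem SplitV.fst_mk (c : C.V) (y : AugV k G) : SplitV.fst (SplitV.mk c y) = c := rfl
@[simp] theorem SplitV.snd_mk (c : C.V) (y : AugV k G) : SplitV.snd (SplitV.mk c y) = y := rfl

@[ext] theorem SplitV.ext {x x' : SplitV C} (h1 : SplitV.fst x = SplitV.fst x')
    (h2 : SplitV.snd x = SplitV.snd x') : x = x' := Prod.ext h1 h2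

@[simp] theorem SplitV.fst_add (x x' : SplitV C) :
    SplitV.fst (x + x') = SplitV.fst x + SplitV.fst x' := rfl
@[simp] theorem SplitV.snd_add (x x' : SplitV C) :
    SplitV.snd (x + x') = SplitV.snd x + SplitV.snd x' := rfl

/-- The twisted action on `C × I_G`. -/
def splitFun (σ : G × G → C.V) (g : G) : SplitV C →ₗ[k] SplitV C :=
  LinearMap.prod
    (C.ρ g ∘ₗ SplitV.fst + tau C σ g ∘ₗ AugV.val ∘ₗ SplitV.snd)
    (augRho k G g ∘ₗ SplitV.snd)

@[simp] theorem fst_splitFun (σ : G × G → C.V) (g : G) (x : SplitV C) :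
    SplitV.fst (splitFun σ g x) =
      C.ρ g (SplitV.fst x) + tau C σ g (AugV.val (SplitV.snd x)) := rfl

@[simp] theorem snd_splitFun (σ : G × G → C.V) (g : G) (x : SplitV C) :
    SplitV.snd (splitFun σ g x) = augRho k G g (SplitV.snd x) := rfl

/-- The representation `C(σ)`. -/
def splitRho (σ : cocycles₂ C) : Representation k G (SplitV C) where
  toFun g := splitFun (σ : G × G → C.V) g
  map_one' := by
    refine LinearMap.ext fun x => SplitV.ext ?_ ?_
    · simp [tau_one, AugV.eps_val]
    · simp
  map_mul' g g' := by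
    refine LinearMap.ext fun x => SplitV.ext ?_ ?_
    · simp only [fst_splitFun, snd_splitFun, Module.End.mul_apply, map_mul, val_augRho, map_add]
      have h := tau_mul σ g g' (AugV.val (SplitV.snd x))
      rw [AugV.eps_val, zero_smul, add_zero] at h
      rw [← h]
      abel
    · simp

/-- The splitting module of the cocycle `σ`. -/
def split (σ : cocycles₂ C) : Rep.{0} k G := Rep.of (splitRho σ)

@[simp] theorem split_ρ (σ : cocycles₂ C) (g : G) : (split σ).ρ g = splitFun (σ : G × G → C.V) g := rfl

/-! ### The two short exact sequences -/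

/-- `I_G` as a `G`-module. -/
def augRep (k G : Type) [CommRing k] [Group G] : Rep.{0} k G := Rep.of (augRho k G)

/-- `k[G]` (on `G →₀ k`) as a `G`-module. -/
def regRep (k G : Type) [CommRing k] [Group G] : Rep.{0} k G := Rep.of (reg k G)

/-- `C → C(σ)`, `c ↦ (c, 0)`. -/
def splitIncl (σ : cocycles₂ C) : C ⟶ split σ :=
  Rep.ofHom ⟨LinearMap.inl k C.V (AugV k G), fun g => by
    refine LinearMap.ext fun c => SplitV.ext ?_ ?_
    · show C.ρ g c = C.ρ g c + tau C σ g (AugV.val (0 : AugV k G))
      simp
    · show (0 : AugV k G) = augRho k G g 0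
      simp⟩

/-- `C(σ) → I_G`, `(c, y) ↦ y`. -/
def splitProj (σ : cocycles₂ C) : split σ ⟶ augRep k G :=
  Rep.ofHom ⟨SplitV.snd, fun g => by
    refine LinearMap.ext fun x => ?_
    rfl⟩

/-- `I_G → k[G]`. -/
def augIncl (k G : Type) [CommRing k] [Group G] : augRep k G ⟶ regRep k G :=
  Rep.ofHom ⟨AugV.val, fun g => by
    refine LinearMap.ext fun x => ?_
    rfl⟩

/-- `ε : k[G] → k`. -/
def epsHom (k G : Type) [CommRing k] [Group G] : regRep k G ⟶ Rep.trivial k G k :=
  Rep.ofHom ⟨eps k G, fun g => by
    refine LinearMap.ext fun x => ?_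
    show eps k G (reg k G g x) = eps k G x
    exact eps_reg g x⟩

/-- `0 → C → C(σ) → I_G → 0`. -/
def splitSeq (σ : cocycles₂ C) : ShortComplex (Rep.{0} k G) where
  X₁ := C
  X₂ := split σ
  X₃ := augRep k G
  f := splitIncl σ
  g := splitProj σ
  zero := by
    refine Rep.hom_ext ?_
    refine Representation.IntertwiningMap.ext (LinearMap.ext fun c => ?_)
    rfl

theorem splitSeq_shortExact (σ : cocycles₂ C) : (splitSeq σ).ShortExact where
  exact := (forget₂ (Rep.{0} k G) (ModuleCat k)).reflects_exact_of_faithful _ <|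
    (ShortComplex.moduleCat_exact_iff _).2 fun (x : SplitV C) (hx : SplitV.snd x = 0) => by
      refine ⟨SplitV.fst (C := C) x, ?_⟩
      refine SplitV.ext (C := C) rfl ?_
      exact hx.symm
  mono_f := (Rep.mono_iff_injective _).2 fun c c' h => congrArg (SplitV.fst (C := C)) h
  epi_g := (Rep.epi_iff_surjective _).2 fun (y : AugV k G) => ⟨SplitV.mk (C := C) 0 y, rfl⟩

/-- `0 → I_G → k[G] → k → 0`. -/
def augSeq (k G : Type) [CommRing k] [Group G] : ShortComplex (Rep.{0} k G) where
  X₁ := augRep k G
  X₂ := regRep k G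
  X₃ := Rep.trivial k G k
  f := augIncl k G
  g := epsHom k G
  zero := by
    refine Rep.hom_ext ?_
    refine Representation.IntertwiningMap.ext (LinearMap.ext fun (y : AugV k G) => ?_)
    exact AugV.eps_val y

theorem augSeq_shortExact : (augSeq k G).ShortExact where
  exact := (forget₂ (Rep.{0} k G) (ModuleCat k)).reflects_exact_of_faithful _ <|
    (ShortComplex.moduleCat_exact_iff _).2 fun (x : G →₀ k) (hx : eps k G x = 0) =>
      ⟨AugV.mk x hx, rfl⟩
  mono_f := (Rep.mono_iff_injective _).2 fun _ _ h => AugV.val_injective h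
  epi_g := (Rep.epi_iff_surjective _).2 fun (a : k) =>
    ⟨(Finsupp.single 1 a : G →₀ k), eps_single 1 a⟩

/-! ### The fundamental 1-cochain: `σ` becomes a coboundary in `C(σ)` -/

/-- `g • σ(h, 1) = σ(gh, 1)` for a 2-cocycle. -/
theorem rho_sigma_one (σ : cocycles₂ C) (g h : G) :
    C.ρ g ((σ : G × G → C.V) (h, 1)) = (σ : G × G → C.V) (g * h, 1) := by
  have hc := (mem_cocycles₂_iff (σ : G × G → C.V)).1 σ.2 g h 1
  rw [mul_one] at hc
  exact (add_right_cancel hc).symm

/-- The 1-cochain `g ↦ (σ(g, 1), δ_g - δ_1)` of `C(σ)`. -/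
def fundCochain (σ : cocycles₂ C) (g : G) : split σ :=
  SplitV.mk (C := C) ((σ : G × G → C.V) (g, 1)) (augGen k g)

/-- `d(fundCochain) = ι ∘ σ`: the image of `σ` in `C(σ)` is a coboundary. -/
theorem d_fundCochain (σ : cocycles₂ C) (g h : G) :
    (split σ).ρ g (fundCochain σ h) - fundCochain σ (g * h) + fundCochain σ g =
      (splitIncl σ).hom ((σ : G × G → C.V) (g, h)) := by
  refine SplitV.ext (C := C) ?_ ?_
  · show C.ρ g ((σ : G × G → C.V) (h, 1)) + tau C σ g (AugV.val (augGen k h))
        - (σ : G × G → C.V) (g * h, 1) + (σ : G × G → C.V) (g, 1) = (σ : G × G → C.V) (g, h)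
    rw [val_augGen, map_sub, tau_single, tau_single, one_smul, one_smul, rho_sigma_one]
    abel
  · refine AugV.val_injective ?_
    show reg k G g (AugV.val (augGen k h)) - AugV.val (augGen k (g * h)) + AugV.val (augGen k g) = 0
    simp only [val_augGen, map_sub, reg_single, mul_one]
    abel

/-! ### Restriction along a group homomorphism `φ : S →* G` and the connecting maps -/

section Res

variable {S : Type} [Group S] (φ : S →* G)

/-- `0 → C → C(σ) → I_G → 0` restricted to `S`. -/
def splitSeqRes (σ : cocycles₂ C) : ShortComplex (Rep.{0} k S) :=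
  (splitSeq σ).map (Rep.resFunctor φ)

theorem splitSeqRes_shortExact (σ : cocycles₂ C) : (splitSeqRes φ σ).ShortExact :=
  (Rep.shortExact_res φ).2 (splitSeq_shortExact σ)

/-- `0 → I_G → k[G] → k → 0` restricted to `S`. -/
def augSeqRes (k : Type) [CommRing k] {G : Type} [Group G] {S : Type} [Group S] (φ : S →* G) :
    ShortComplex (Rep.{0} k S) :=
  (augSeq k G).map (Rep.resFunctor φ)

theorem augSeqRes_shortExact : (augSeqRes k φ).ShortExact :=
  (Rep.shortExact_res φ).2 augSeq_shortExact

/-- The 1-cocycle `s ↦ δ_{φ s} - δ_1` of `S` with values in `I_G`. -/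
def augCocycle (k : Type) [CommRing k] {G : Type} [Group G] {S : Type} [Group S] (φ : S →* G) :
    cocycles₁ (Rep.res φ (augRep k G)) :=
  ⟨fun s => (augGen k (φ s) : AugV k G), (mem_cocycles₁_iff _).2 (fun s t => by
    refine AugV.val_injective ?_
    show AugV.val (augGen k (φ (s * t))) =
      reg k G (φ s) (AugV.val (augGen k (φ t))) + AugV.val (augGen k (φ s))
    simp only [val_augGen, map_mul, map_sub, reg_single, mul_one]
    abel)⟩

/-- The invariant element `1` of the trivial module `k`. -/
def oneInv (k : Type) [CommRing k] (S : Type) [Group S] :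
    (Rep.trivial k S k).ρ.invariants := ⟨(1 : k), fun _ => rfl⟩

/-- **(K1)** the connecting map of `0 → I_G → k[G] → k → 0` sends `1` to the class of
`s ↦ δ_{φ s} - δ_1`. -/
theorem delta_aug_one :
    δ (augSeqRes_shortExact (k := k) φ) 0 1 rfl ((H0Iso (Rep.trivial k S k)).inv (oneInv k S)) =
      H1π (Rep.res φ (augRep k G)) (augCocycle k φ) := by
  have h := δ₀_apply (augSeqRes_shortExact (k := k) φ) (oneInv k S)
    (Finsupp.single (1 : G) (1 : k) : G →₀ k) (eps_single (1 : G) (1 : k))
    (fun s => augGen k (φ s)) (by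
      funext s
      show AugV.val (augGen k (φ s)) =
        reg k G (φ s) (Finsupp.single 1 1) - Finsupp.single 1 1
      simp)
  exact h

/-- The restriction of `σ` to `S`, as a 2-cocycle of `Res C`. -/
def resCocycle (σ : cocycles₂ C) : cocycles₂ (Rep.res φ C) :=
  ⟨fun st => (σ : G × G → C.V) (φ st.1, φ st.2), (mem_cocycles₂_iff _).2 (fun s t r => by
    have hc := (mem_cocycles₂_iff (σ : G × G → C.V)).1 σ.2 (φ s) (φ t) (φ r)
    show (σ : G × G → C.V) (φ (s * t), φ r) + (σ : G × G → C.V) (φ s, φ t) =
      C.ρ (φ s) ((σ : G × G → C.V) (φ t, φ r)) + (σ : G × G → C.V) (φ s, φ (t * r))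
    rw [map_mul, map_mul]
    exact hc)⟩

theorem H2π_resCocycle (σ : cocycles₂ C) :
    H2π (Rep.res φ C) (resCocycle φ σ) =
      groupCohomology.map φ (𝟙 (Rep.res φ C)) 2 (H2π C σ) := by
  rw [H2π_comp_map_apply]
  congr 1

/-- **(K2)** the connecting map of `0 → C → C(σ) → I_G → 0` sends the class of
`s ↦ δ_{φ s} - δ_1` to the class of `σ` restricted to `S`. -/
theorem delta_split_augCocycle (σ : cocycles₂ C) :
    δ (splitSeqRes_shortExact φ σ) 1 2 rfl (H1π (Rep.res φ (augRep k G)) (augCocycle k φ)) =
      H2π (Rep.res φ C) (resCocycle φ σ) := by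
  have h := δ₁_apply (splitSeqRes_shortExact φ σ) (augCocycle k φ)
    (fun s => fundCochain σ (φ s)) rfl
    (fun st => (σ : G × G → C.V) (φ st.1, φ st.2)) (by
      funext st
      obtain ⟨s, t⟩ := st
      have := d_fundCochain σ (φ s) (φ t)
      show (splitIncl σ).hom ((σ : G × G → C.V) (φ s, φ t)) =
        (split σ).ρ (φ s) (fundCochain σ (φ t)) - fundCochain σ (φ (s * t)) + fundCochain σ (φ s)
      rw [map_mul]
      exact this.symm)
  exact h

end Res

end

end Fermat.Agent.PT.FG.SplitModule8
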