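/-
Program F (S55, Poitou–Tate), chapter FG, block (R): restriction / corestriction through
coinduction ("abstract transfer"), owner helper2.

For a subgroup `S ≤ G` of finite index and a `G`-module `B` we use the two `G`-morphisms
`unitCoind : B ⟶ Coind_S^G Res_S B` (`b ↦ (g ↦ g • b)`) and
`traceCoind : Coind_S^G Res_S B ⟶ B` (`f ↦ ∑_{gS} g • f g⁻¹`), whose composite is `[G : S]`,
together with Mathlib's Shapiro isomorphism `groupCohomology.coindIso`, to get maps
`jMap : Hⁿ(G, B) ⟶ Hⁿ(S, B)` and `tMap : Hⁿ(S, B) ⟶ Hⁿ(G, B)` with `tMap ∘ jMap = [G : S]`.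
(We do NOT claim here that `jMap` is Mathlib's restriction `groupCohomology.map S.subtype (𝟙 _) n`.)

Consequences (all degrees `n : ℕ`, any commutative ring `k`, `{k G : Type u}`):
* (a) `index_nsmul_eq_zero_of_isZero`: `Hⁿ(S, B) = 0 ⇒ [G : S] • Hⁿ(G, B) = 0`;
* (b) `eq_zero_of_jMap_eq_zero`: if `p` is prime to `[G : S]`, `jMap` is injective on `p`-primary
  classes; (b') `card_primaryTorsion_dvd`: then `#Hⁿ(G, B)(p) ∣ #Hⁿ(S, B)`;
  `primaryTorsion_eq_bot_of_isZero`;
* (c) `isZero_of_forall_sylow`: `Hⁿ(P, B) = 0` for all Sylow subgroups `P` (all primes)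
  `⇒ Hⁿ(G, B) = 0`;
* (d) `card_nsmul_eq_zero`: `|G| • Hⁿ⁺¹(G, B) = 0`.
-/
import Mathlib

set_option autoImplicit false
set_option linter.unusedSectionVars false
set_option linter.style.haveILetI false
set_option linter.unusedTactic false

namespace Fermat.Agent.PT.FG.Transfer2

open CategoryTheory Rep groupCohomology

universe u

variable {k G : Type u} [CommRing k] [Group G] (S : Subgroup G) (B : Rep.{u} k G)

section defs

/-- The unit `B ⟶ Coind_S^G Res_S B`, `b ↦ (g ↦ g • b)`. -/
noncomputable def unitCoind : B ⟶ coind S.subtype (res S.subtype B) :=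
  resCoindToHom S.subtype B (res S.subtype B) (𝟙 _)

lemma unitCoind_apply (b : B.V) (g : G) : ((unitCoind S B).hom b).1 g = B.ρ g b := rfl

/-- The summand of the trace attached to a left coset `gS`: `g • f g⁻¹`. -/
noncomputable def traceTerm (c : G ⧸ S) : (coind S.subtype (res S.subtype B)).V →ₗ[k] B.V :=
  Quotient.liftOn' c
    (fun g => (B.ρ g) ∘ₗ (LinearMap.proj g⁻¹) ∘ₗ (Submodule.subtype _))
    (by
      intro a b hab
      rw [QuotientGroup.leftRel_apply] at hab
      ext f
      simp only [LinearMap.coe_comp, Function.comp_apply, Submodule.coe_subtype, LinearMap.coe_proj,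
        Function.eval]
      have h1 : b⁻¹ = (⟨a⁻¹ * b, hab⟩ : S)⁻¹.1 * a⁻¹ := by simp
      have h2 := f.2 (⟨a⁻¹ * b, hab⟩ : S)⁻¹ a⁻¹
      simp only [Subgroup.coe_subtype] at h2
      rw [h1, h2]
      simp only [MonoidHom.coe_comp, Function.comp_apply, Subgroup.coe_subtype]
      rw [← Module.End.mul_apply, ← map_mul]
      simp)

lemma traceTerm_mk (g : G) (f : (coind S.subtype (res S.subtype B)).V) :
    traceTerm S B (QuotientGroup.mk g) f = B.ρ g (f.1 g⁻¹) := rfl

variable [S.FiniteIndex]

attribute [local instance] Subgroup.fintypeQuotientOfFiniteIndex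

/-- The trace as a linear map. -/
noncomputable def traceLin : (coind S.subtype (res S.subtype B)).V →ₗ[k] B.V :=
  ∑ c : G ⧸ S, traceTerm S B c

lemma traceLin_apply (f : (coind S.subtype (res S.subtype B)).V) :
    traceLin S B f = ∑ c : G ⧸ S, traceTerm S B c f := by
  simp [traceLin, LinearMap.sum_apply]

lemma traceTerm_smul (g : G) (c : G ⧸ S) (f : (coind S.subtype (res S.subtype B)).V) :
    traceTerm S B c ((coind S.subtype (res S.subtype B)).ρ g f) =
      B.ρ g (traceTerm S B (g⁻¹ • c) f) := by
  induction c using QuotientGroup.induction_on with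
  | H x =>
    have : g⁻¹ • (QuotientGroup.mk x : G ⧸ S) = QuotientGroup.mk (g⁻¹ * x) := rfl
    rw [this, traceTerm_mk, traceTerm_mk]
    rw [← Module.End.mul_apply, ← map_mul]
    have e : g * (g⁻¹ * x) = x := by group
    rw [e]
    congr 1
    show f.1 (x⁻¹ * g) = f.1 ((g⁻¹ * x)⁻¹)
    congr 1
    group

/-- The trace `Coind_S^G Res_S B ⟶ B`, `f ↦ ∑_{gS} g • f g⁻¹`. -/
noncomputable def traceCoind : coind S.subtype (res S.subtype B) ⟶ B :=
  Rep.ofHom ⟨traceLin S B, fun g => by
    ext f
    simp only [LinearMap.coe_comp, Function.comp_apply]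
    rw [traceLin_apply, traceLin_apply, map_sum]
    rw [← Equiv.sum_comp (MulAction.toPerm g⁻¹ : Equiv.Perm (G ⧸ S))
      (fun c => B.ρ g (traceTerm S B c f))]
    refine Finset.sum_congr rfl fun c _ => ?_
    rw [traceTerm_smul]
    rfl⟩

end defs

section composite

variable [S.FiniteIndex]

attribute [local instance] Subgroup.fintypeQuotientOfFiniteIndex

lemma traceCoind_unitCoind_apply (b : B.V) :
    (traceCoind S B).hom ((unitCoind S B).hom b) = S.index • b := by
  show traceLin S B ((unitCoind S B).hom b) = _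
  rw [traceLin_apply]
  have : ∀ c : G ⧸ S, traceTerm S B c ((unitCoind S B).hom b) = b := by
    intro c
    induction c using QuotientGroup.induction_on with
    | H x =>
      rw [traceTerm_mk, unitCoind_apply, ← Module.End.mul_apply, ← map_mul]
      simp
  simp only [this, Finset.sum_const, Finset.card_univ]
  congr 1
  rw [Subgroup.index_eq_card, Nat.card_eq_fintype_card]

lemma unitCoind_comp_traceCoind : unitCoind S B ≫ traceCoind S B = S.index • 𝟙 B := by
  apply Rep.hom_ext
  ext b
  rw [Rep.nsmul_hom]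
  exact traceCoind_unitCoind_apply S B b

instance functor_additive (n : ℕ) : (functor k G n).Additive where
  map_add {X Y f g} := by
    show (HomologicalComplex.homologyFunctor _ _ n).map ((cochainsFunctor k G).map (f + g)) = _
    rw [Functor.map_add, Functor.map_add]
    rfl

end composite

section maps

variable [S.FiniteIndex]

/-- `j : Hⁿ(G,B) ⟶ Hⁿ(S,B)` (unit of `Res ⊣ Coind` followed by Shapiro). -/
noncomputable def jMap (n : ℕ) : groupCohomology B n ⟶ groupCohomology (res S.subtype B) n :=
  groupCohomology.map (MonoidHom.id G) (unitCoind S B) n ≫ (coindIso (res S.subtype B) n).hom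

/-- `t : Hⁿ(S,B) ⟶ Hⁿ(G,B)` (inverse of Shapiro followed by the trace): a transfer. -/
noncomputable def tMap (n : ℕ) : groupCohomology (res S.subtype B) n ⟶ groupCohomology B n :=
  (coindIso (res S.subtype B) n).inv ≫ groupCohomology.map (MonoidHom.id G) (traceCoind S B) n

omit [S.FiniteIndex] in
lemma map_nsmul_id (n : ℕ) (m : ℕ) :
    groupCohomology.map (MonoidHom.id G) (m • 𝟙 B) n = m • 𝟙 (groupCohomology B n) := by
  have h : (functor k G n).map (m • 𝟙 B) = m • (functor k G n).map (𝟙 B) := Functor.map_nsmul _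
  rw [CategoryTheory.Functor.map_id] at h
  exact h

lemma jMap_tMap (n : ℕ) : jMap S B n ≫ tMap S B n = S.index • 𝟙 (groupCohomology B n) := by
  have h1 : groupCohomology.map (MonoidHom.id G) (unitCoind S B) n ≫
      groupCohomology.map (MonoidHom.id G) (traceCoind S B) n =
      S.index • 𝟙 (groupCohomology B n) := by
    rw [← groupCohomology.map_id_comp]
    exact (congrArg (fun φ : B ⟶ B => groupCohomology.map (MonoidHom.id G) φ n)
      (unitCoind_comp_traceCoind S B)).trans (map_nsmul_id B n S.index)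
  unfold jMap tMap
  rw [Category.assoc, Iso.hom_inv_id_assoc]
  exact h1

lemma tMap_jMap_apply (n : ℕ) (x : groupCohomology B n) :
    (tMap S B n).hom ((jMap S B n).hom x) = S.index • x := by
  have h := congrArg (fun f => f.hom x) (jMap_tMap S B n)
  simpa using h

end maps

section cons1

section consequences

variable [S.FiniteIndex]

/-- **(a)** If `Hⁿ(S, B) = 0` then `Hⁿ(G, B)` is killed by the index `[G : S]`. -/
theorem index_nsmul_eq_zero_of_isZero (n : ℕ)
    (h : Limits.IsZero (groupCohomology (res S.subtype B) n)) (x : groupCohomology B n) :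
    S.index • x = 0 := by
  rw [← tMap_jMap_apply S B n x]
  haveI := ModuleCat.subsingleton_of_isZero h
  rw [Subsingleton.elim ((jMap S B n).hom x) 0, map_zero]

/-- **(b)** If `p ∤ [G : S]` then `j` is injective on the `p`-primary torsion of `Hⁿ(G, B)`. -/
theorem eq_zero_of_jMap_eq_zero {p : ℕ} (hp : Nat.Coprime p S.index) (n : ℕ)
    (x : groupCohomology B n) (hx : ∃ m : ℕ, p ^ m • x = 0) (hj : (jMap S B n).hom x = 0) :
    x = 0 := by
  obtain ⟨m, hm⟩ := hx
  have h1 : S.index • x = 0 := by rw [← tMap_jMap_apply S B n x, hj, map_zero]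
  have hcop : Nat.Coprime (p ^ m) S.index := Nat.Coprime.pow_left m hp
  have h2 : addOrderOf x ∣ p ^ m := addOrderOf_dvd_of_nsmul_eq_zero hm
  have h3 : addOrderOf x ∣ S.index := addOrderOf_dvd_of_nsmul_eq_zero h1
  have h4 : addOrderOf x = 1 := Nat.eq_one_of_dvd_coprimes hcop h2 h3
  exact AddMonoid.addOrderOf_eq_one_iff.mp h4

end consequences

end cons1

section cons2

section consequences2

/-- The `p`-primary torsion of an additive commutative group. -/
def primaryTorsion (A : Type*) [AddCommGroup A] (p : ℕ) : AddSubgroup A where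
  carrier := {x | ∃ m : ℕ, p ^ m • x = 0}
  zero_mem' := ⟨0, by simp⟩
  add_mem' := by
    rintro x y ⟨a, ha⟩ ⟨b, hb⟩
    refine ⟨a + b, ?_⟩
    have h1 : p ^ (a + b) • x = 0 := by rw [pow_add, mul_comm, mul_smul, ha, smul_zero]
    have h2 : p ^ (a + b) • y = 0 := by rw [pow_add, mul_smul, hb, smul_zero]
    rw [smul_add, h1, h2, add_zero]
  neg_mem' := by
    rintro x ⟨a, ha⟩
    exact ⟨a, by rw [smul_neg, ha, neg_zero]⟩

lemma mem_primaryTorsion {A : Type*} [AddCommGroup A] {p : ℕ} {x : A} :
    x ∈ primaryTorsion A p ↔ ∃ m : ℕ, p ^ m • x = 0 := Iff.rfl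

variable [S.FiniteIndex]

/-- **(b')** If `p ∤ [G : S]` and `Hⁿ(S, B)` is finite, the `p`-primary torsion of `Hⁿ(G, B)` is
finite and its order divides the order of `Hⁿ(S, B)`. -/
theorem card_primaryTorsion_dvd {p : ℕ} (hp : Nat.Coprime p S.index) (n : ℕ)
    [Finite (groupCohomology (res S.subtype B) n)] :
    Finite (primaryTorsion (groupCohomology B n) p) ∧
    Nat.card (primaryTorsion (groupCohomology B n) p) ∣
      Nat.card (groupCohomology (res S.subtype B) n) := by
  let f : primaryTorsion (groupCohomology B n) p →+ groupCohomology (res S.subtype B) n :=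
    ((jMap S B n).hom.toAddMonoidHom).comp (primaryTorsion (groupCohomology B n) p).subtype
  have hf : Function.Injective f := by
    rw [injective_iff_map_eq_zero]
    intro x hx
    apply Subtype.ext
    exact eq_zero_of_jMap_eq_zero S B hp n x.1 x.2 hx
  exact ⟨Finite.of_injective f hf, AddSubgroup.card_dvd_of_injective f hf⟩

/-- If `p ∤ [G : S]` and `Hⁿ(S, B) = 0` then `Hⁿ(G, B)` has no `p`-primary torsion. -/
theorem primaryTorsion_eq_bot_of_isZero {p : ℕ} (hp : Nat.Coprime p S.index) (n : ℕ)
    (h : Limits.IsZero (groupCohomology (res S.subtype B) n)) :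
    primaryTorsion (groupCohomology B n) p = ⊥ := by
  rw [eq_bot_iff]
  intro x hx
  have := ModuleCat.subsingleton_of_isZero h
  exact eq_zero_of_jMap_eq_zero S B hp n x hx (Subsingleton.elim _ _)

end consequences2

section finite

variable [Finite G]

/-- **(d)** `Hⁿ⁺¹(G, B)` is killed by `|G|`. -/
theorem card_nsmul_eq_zero (n : ℕ) (x : groupCohomology B (n + 1)) : Nat.card G • x = 0 := by
  have h := index_nsmul_eq_zero_of_isZero (⊥ : Subgroup G) B (n + 1)
    (isZero_groupCohomology_succ_of_subsingleton _ n) x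
  rwa [Subgroup.index_bot] at h

/-- The index of a Sylow `p`-subgroup is prime to `p` (so (b), (b') apply to `S = P`). -/
theorem sylow_coprime_index {p : ℕ} [Fact p.Prime] (P : Sylow p G) :
    Nat.Coprime p (P : Subgroup G).index :=
  (Nat.Prime.coprime_iff_not_dvd Fact.out).2 P.not_dvd_index

/-- **(b'), Sylow form**: `#Hⁿ(G, B)(p) ∣ #Hⁿ(P, B)` for a Sylow `p`-subgroup `P`. -/
theorem card_primaryTorsion_dvd_sylow {p : ℕ} [Fact p.Prime] (P : Sylow p G) (n : ℕ)
    [Finite (groupCohomology (res (P : Subgroup G).subtype B) n)] :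
    Finite (primaryTorsion (groupCohomology B n) p) ∧
    Nat.card (primaryTorsion (groupCohomology B n) p) ∣
      Nat.card (groupCohomology (res (P : Subgroup G).subtype B) n) :=
  card_primaryTorsion_dvd (P : Subgroup G) B (sylow_coprime_index P) n

/-- If `Hⁿ(P, B) = 0` for ONE Sylow `p`-subgroup `P`, then `Hⁿ(G, B)` has no `p`-primary
torsion. -/
theorem eq_zero_of_isZero_sylow {p : ℕ} [Fact p.Prime] (P : Sylow p G) (n : ℕ)
    (h : Limits.IsZero (groupCohomology (res (P : Subgroup G).subtype B) n))
    (x : groupCohomology B n) (hx : ∃ m : ℕ, p ^ m • x = 0) : x = 0 := by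
  have := primaryTorsion_eq_bot_of_isZero (P : Subgroup G) B (sylow_coprime_index P) n h
  have hx' : x ∈ primaryTorsion (groupCohomology B n) p := hx
  rw [this] at hx'
  exact hx'

/-- **(c)** If `Hⁿ(P, B) = 0` for every Sylow subgroup `P` of `G` (for every prime), then
`Hⁿ(G, B) = 0`. -/
theorem isZero_of_forall_sylow (n : ℕ)
    (h : ∀ (p : ℕ) [Fact p.Prime] (P : Sylow p G),
      Limits.IsZero (groupCohomology (res (P : Subgroup G).subtype B) n)) :
    Limits.IsZero (groupCohomology B n) := by
  rw [ModuleCat.isZero_iff_subsingleton]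
  refine subsingleton_of_forall_eq 0 fun x => ?_
  have key : ∀ (p : ℕ) [Fact p.Prime] (P : Sylow p G), addOrderOf x ∣ (P : Subgroup G).index :=
    fun p _ P => addOrderOf_dvd_of_nsmul_eq_zero
      (index_nsmul_eq_zero_of_isZero (P : Subgroup G) B n (h p P) x)
  have h1 : addOrderOf x = 1 := by
    by_contra hne
    obtain ⟨q, hq, hqd⟩ := Nat.exists_prime_and_dvd hne
    haveI : Fact q.Prime := ⟨hq⟩
    obtain ⟨P⟩ : Nonempty (Sylow q G) := inferInstance
    exact P.not_dvd_index (hqd.trans (key q P))
  exact AddMonoid.addOrderOf_eq_one_iff.mp h1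

end finite

end cons2

end Fermat.Agent.PT.FG.Transfer2
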