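/-
Program F (S55, Poitou–Tate), chapter FG, block (S3) (helper8).

The splitting module `C(σ)` of a fundamental class is cohomologically trivial on `p`-subgroups in
degrees `1` and `2`:  for `(C, [σ])` satisfying `IsFundClass p C [σ]` and every `p`-subgroup
`S ≤ G`:  `H¹(S, C(σ)) = 0 = H²(S, C(σ))`.

Proof: the long exact sequences of `0 → I_G → ℤ[G] → ℤ → 0` and `0 → C → C(σ) → I_G → 0`
restricted to `S`, with `Hⁿ(S, ℤ[G]) = 0` (`n ≥ 1`, helper9/helper3), `H¹(S, ℤ) = 0`,
`δ(1) = [s ↦ s - 1]` (K1), `δ[s ↦ s - 1] = Res σ` (K2), `|S| • H¹ = 0` (helper2).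
-/
import Mathlib
import Fermat.Agent.PT.FG.Interface8
import Fermat.Agent.PT.FG.SplitModule8
import Fermat.Agent.PT.FG.IndAcyclic9
import Fermat.Agent.PT.FG.Transfer2

set_option autoImplicit false

open CategoryTheory groupCohomology

namespace Fermat.Agent.PT.FG.SplitCoh8

open Fermat.Agent.PT.FG.Interface8 Fermat.Agent.PT.FG.SplitModule8

noncomputable section

/-! ### Two lemmas on abelian groups -/

/-- If `M` is generated by `a`, `n • a = 0` and `f a` has order `n`, then `f` is injective. -/
theorem injective_of_generator {M N : Type*} [AddCommGroup M] [AddCommGroup N] (f : M →+ N)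
    (a : M) (n : ℕ) (hn : n • a = 0) (hgen : ∀ y : M, ∃ m : ℤ, y = m • a)
    (hord : addOrderOf (f a) = n) : Function.Injective f := by
  rw [injective_iff_map_eq_zero]
  intro y hy
  obtain ⟨m, rfl⟩ := hgen y
  rw [map_zsmul] at hy
  have hdvd : (n : ℤ) ∣ m := by
    rw [← hord]
    exact addOrderOf_dvd_iff_zsmul_eq_zero.2 hy
  obtain ⟨c, rfl⟩ := hdvd
  rw [mul_comm, mul_zsmul, natCast_zsmul, hn, zsmul_zero]

/-- If `#N = ord r` is positive then `N` is generated by `r`. -/
theorem exists_zsmul_of_card_eq {N : Type*} [AddCommGroup N] (r : N)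
    (hcard : Nat.card N = addOrderOf r) (hpos : 0 < Nat.card N) (w : N) : ∃ m : ℤ, w = m • r := by
  have : Finite N := Nat.finite_of_card_ne_zero hpos.ne'
  have htop : AddSubgroup.zmultiples r = ⊤ := by
    rw [← AddSubgroup.card_eq_iff_eq_top, Nat.card_zmultiples, hcard]
  have hw : w ∈ AddSubgroup.zmultiples r := htop ▸ AddSubgroup.mem_top w
  obtain ⟨m, hm⟩ := AddSubgroup.mem_zmultiples_iff.1 hw
  exact ⟨m, hm.symm⟩

/-! ### `ℤ[G]` is acyclic on every finite subgroup -/

section Reg

variable {k G : Type} [CommRing k] [Group G]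

theorem isZero_groupCohomology_res_regRep (S : Subgroup G) [Finite S] (n : ℕ) :
    Limits.IsZero (groupCohomology (Rep.res S.subtype (regRep k G)) (n + 1)) := by
  let _ : Fintype S := Fintype.ofFinite S
  have h : Limits.IsZero (tateCohomology (Rep.res S.subtype (regRep k G)) ((n + 1 : ℕ) : ℤ)) :=
    IndAcyclic9.isCohTrivial_indRep' (k := k) (G := G) k S ((n + 1 : ℕ) : ℤ)
  exact h.of_iso ((TateCohomology.isoGroupCohomology (n + 1)).app _).symm

end Reg

/-! ### `H¹(S, ℤ) = 0` -/

section TrivialH1

variable {S : Type} [Group S] [Finite S]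

theorem subsingleton_H1_trivial_int : Subsingleton (H1 (Rep.trivial ℤ S ℤ)) := by
  refine ⟨fun x y => ?_⟩
  have key : ∀ z : H1 (Rep.trivial ℤ S ℤ), z = 0 := by
    intro z
    induction z using H1_induction_on with
    | h f =>
      have hf : (f : S → ℤ) = 0 := by
        funext s
        have hmul : ∀ s t : S, (f : S → ℤ) (s * t) = (f : S → ℤ) s + (f : S → ℤ) t := by
          intro s t
          have := (mem_cocycles₁_iff (f : S → ℤ)).1 f.2 s t
          simpa [add_comm] using this
        have hone : (f : S → ℤ) 1 = 0 := by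
          have := hmul 1 1
          rw [mul_one] at this
          linarith
        have hpow : ∀ n : ℕ, (f : S → ℤ) (s ^ n) = n * (f : S → ℤ) s := by
          intro n
          induction n with
          | zero => simp [hone]
          | succ n ih => rw [pow_succ, hmul, ih]; push_cast; ring
        have h0 := hpow (orderOf s)
        rw [pow_orderOf_eq_one, hone] at h0
        have hpos : (0 : ℤ) < orderOf s := by exact_mod_cast orderOf_pos s
        have : (f : S → ℤ) s = 0 := by
          rcases mul_eq_zero.1 h0.symm with h | h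
          · exact absurd h hpos.ne'
          · exact h
        simpa using this
      have : f = 0 := Subtype.ext hf
      rw [this, map_zero]
  rw [key x, key y]

end TrivialH1

/-! ### The main computation -/

section Main

variable {G : Type} [Group G] {C : Rep.{0} ℤ G}

/-- `H¹(S, I_G)` is generated by the class of `s ↦ s - 1`. -/
theorem H1_aug_generated (S : Subgroup G) [Finite S]
    (y : H1 (Rep.res S.subtype (augRep ℤ G))) :
    ∃ m : ℤ, y = m • H1π (Rep.res S.subtype (augRep ℤ G)) (augCocycle ℤ S.subtype) := by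
  have hA := augSeqRes_shortExact (k := ℤ) (G := G) S.subtype
  have hepi : Epi (δ hA 0 1 rfl) :=
    epi_δ_of_isZero hA 0 (isZero_groupCohomology_res_regRep (k := ℤ) S 0)
  obtain ⟨t, rfl⟩ := (ModuleCat.epi_iff_surjective _).1 hepi y
  let T : Rep.{0} ℤ S := Rep.trivial ℤ S ℤ
  let Ψ : T.ρ.invariants →+ H1 (Rep.res S.subtype (augRep ℤ G)) :=
    ((δ hA 0 1 rfl).hom.toAddMonoidHom).comp ((H0Iso T).inv.hom.toAddMonoidHom)
  have hΨ1 : Ψ (oneInv ℤ S) = H1π (Rep.res S.subtype (augRep ℤ G)) (augCocycle ℤ S.subtype) :=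
    delta_aug_one (k := ℤ) S.subtype
  let i : T.ρ.invariants := (H0Iso T).hom t
  have hi : i = (i.1 : ℤ) • oneInv ℤ S := by
    apply Subtype.ext
    simp [oneInv]
  have ht : (δ hA 0 1 rfl) t = Ψ i := by
    have h0 : (H0Iso T).inv ((H0Iso T).hom (show H0 T from t)) = (show H0 T from t) :=
      Iso.hom_inv_id_apply _ _
    exact congrArg (δ hA 0 1 rfl) h0.symm
  refine ⟨i.1, ?_⟩
  rw [ht, hi, map_zsmul, hΨ1]
  have h1 : ((oneInv ℤ S : T.ρ.invariants) : ℤ) = 1 := rfl
  simp [h1]

/-- `H²(S, I_G) = 0` for every finite subgroup `S`. -/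
theorem subsingleton_H2_aug (S : Subgroup G) [Finite S] :
    Subsingleton (H2 (Rep.res S.subtype (augRep ℤ G))) := by
  have hA := augSeqRes_shortExact (k := ℤ) (G := G) S.subtype
  have hex := mapShortComplex₁_exact hA (i := 1) (j := 2) rfl
  have hreg := isZero_groupCohomology_res_regRep (k := ℤ) S 1
  have htriv : Subsingleton (H1 (Rep.trivial ℤ S ℤ)) := subsingleton_H1_trivial_int
  refine ⟨fun x y => ?_⟩
  have key : ∀ z : H2 (Rep.res S.subtype (augRep ℤ G)), z = 0 := by
    intro z
    have hz : (mapShortComplex₁ hA (i := 1) (j := 2) rfl).g z = 0 :=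
      (ModuleCat.subsingleton_of_isZero hreg).elim _ _
    obtain ⟨w, hw⟩ := (ShortComplex.moduleCat_exact_iff _).1 hex z hz
    have hw0 : w = 0 := htriv.elim _ _
    rw [← hw, hw0]
    exact map_zero _
  rw [key x, key y]

/-- **(S3)** If `H¹(S, C) = 0`, `#H²(S, C) = #S` and `Res σ` has order `#S`, then
`H¹(S, C(σ)) = 0 = H²(S, C(σ))`. -/
theorem split_vanishing (σ : cocycles₂ C) (S : Subgroup G) [Finite S]
    (h1 : Subsingleton (H1 (Rep.res S.subtype C)))
    (hcard : Nat.card (H2 (Rep.res S.subtype C)) = Nat.card S)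
    (hord : addOrderOf (groupCohomology.map S.subtype (𝟙 (Rep.res S.subtype C)) 2 (H2π C σ)) =
      Nat.card S) :
    Subsingleton (H1 (Rep.res S.subtype (split σ))) ∧
      Subsingleton (H2 (Rep.res S.subtype (split σ))) := by
  have hE := splitSeqRes_shortExact S.subtype σ
  set a : H1 (Rep.res S.subtype (augRep ℤ G)) :=
    H1π (Rep.res S.subtype (augRep ℤ G)) (augCocycle ℤ S.subtype) with ha
  set r : H2 (Rep.res S.subtype C) := H2π (Rep.res S.subtype C) (resCocycle S.subtype σ) with hr
  have hr' : r = groupCohomology.map S.subtype (𝟙 (Rep.res S.subtype C)) 2 (H2π C σ) :=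
    H2π_resCocycle S.subtype σ
  rw [← hr'] at hord
  let d : H1 (Rep.res S.subtype (augRep ℤ G)) →+ H2 (Rep.res S.subtype C) :=
    (δ hE 1 2 rfl).hom.toAddMonoidHom
  have hda : d a = r := delta_split_augCocycle S.subtype σ
  have hkill : Nat.card S • a = 0 := by
    have := Transfer2.card_nsmul_eq_zero (Rep.res S.subtype (augRep ℤ G)) 0 a
    exact this
  have hdinj : Function.Injective d :=
    injective_of_generator d a (Nat.card S) hkill (H1_aug_generated S) (hda ▸ hord)
  have hdsurj : ∀ w : H2 (Rep.res S.subtype C), ∃ y, d y = w := by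
    intro w
    obtain ⟨m, hm⟩ := exists_zsmul_of_card_eq r (hcard.trans hord.symm)
      (hcard ▸ Nat.card_pos) w
    exact ⟨m • a, by rw [map_zsmul, hda, hm]⟩
  constructor
  · -- `H¹`
    refine ⟨fun x y => ?_⟩
    have key : ∀ z : H1 (Rep.res S.subtype (split σ)), z = 0 := by
      intro z
      have hex2 := mapShortComplex₂_exact hE 1
      have hex3 := mapShortComplex₃_exact hE (i := 1) (j := 2) rfl
      -- the image of `z` in `H¹(I_G)` is killed by `d`, hence zero
      have h0 : d ((mapShortComplex₂ (splitSeqRes S.subtype σ) 1).g z) = 0 := by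
        have := (mapShortComplex₃ hE (i := 1) (j := 2) rfl).zero
        exact congr($this z)
      have h0' : (mapShortComplex₂ (splitSeqRes S.subtype σ) 1).g z = 0 :=
        hdinj (h0.trans (map_zero d).symm)
      obtain ⟨w, hw⟩ := (ShortComplex.moduleCat_exact_iff _).1 hex2 z h0'
      have hw0 : w = 0 := h1.elim _ _
      rw [← hw, hw0]
      exact map_zero _
    rw [key x, key y]
  · -- `H²`
    refine ⟨fun x y => ?_⟩
    have key : ∀ z : H2 (Rep.res S.subtype (split σ)), z = 0 := by
      intro z
      have hex2 := mapShortComplex₂_exact hE 2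
      have hz : (mapShortComplex₂ (splitSeqRes S.subtype σ) 2).g z = 0 :=
        (subsingleton_H2_aug S).elim _ _
      obtain ⟨w, hw⟩ := (ShortComplex.moduleCat_exact_iff _).1 hex2 z hz
      obtain ⟨y, hy⟩ := hdsurj w
      have hcomp := (mapShortComplex₁ hE (i := 1) (j := 2) rfl).zero
      have : (mapShortComplex₂ (splitSeqRes S.subtype σ) 2).f (d y) = 0 := congr($hcomp y)
      rw [← hw, ← hy]
      exact this
    rw [key x, key y]

/-- **(S3)** for a fundamental class: `H¹(S, C(σ)) = 0 = H²(S, C(σ))` for all `p`-subgroups `S`. -/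
theorem split_vanishing_of_isFundClass [Finite G] {p : ℕ} (σ : cocycles₂ C)
    (h : IsFundClass p C (H2π C σ)) (S : Subgroup G) (hS : IsPGroup p S) :
    Subsingleton (H1 (resSub S (split σ))) ∧ Subsingleton (H2 (resSub S (split σ))) :=
  split_vanishing σ S (h.h1 S hS) (h.card S hS) (h.order S hS)

/-- The splitting module of a fundamental class is cohomologically trivial (all subgroups, all
Tate degrees) on every `p`-subgroup of `G` (Nakayama–Tate, helper9). -/
theorem isCohTrivial_res_split [Finite G] {p : ℕ} [Fact p.Prime] (σ : cocycles₂ C)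
    (h : IsFundClass p C (H2π C σ)) (P : Subgroup G) (hP : IsPGroup p P) :
    CohTriv9.IsCohTrivial (Rep.res P.subtype (split σ)) := by
  let _ : Fintype P := Fintype.ofFinite P
  obtain ⟨h1, h2⟩ := split_vanishing_of_isFundClass σ h P hP
  have e1 := (TateCohomology.isoGroupCohomology (R := ℤ) (G := P) 1).app
    (Rep.res P.subtype (split σ))
  have e2 := (TateCohomology.isoGroupCohomology (R := ℤ) (G := P) 2).app
    (Rep.res P.subtype (split σ))
  have z1 : Limits.IsZero (groupCohomology (Rep.res P.subtype (split σ)) 1) :=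
    (ModuleCat.isZero_iff_subsingleton).2 h1
  have z2 : Limits.IsZero (groupCohomology (Rep.res P.subtype (split σ)) 2) :=
    (ModuleCat.isZero_iff_subsingleton).2 h2
  exact IndAcyclic9.isCohTrivial_int hP (Rep.res P.subtype (split σ)) 1 (z1.of_iso e1)
    (z2.of_iso e2)

end Main

end

end Fermat.Agent.PT.FG.SplitCoh8
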