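/-
Program F (S55, Poitou–Tate), chapter FG, block (T0) (helper8).

Tate's theorem in degrees `0 → 2` with coefficients (`Interface8.TateZero`), from the splitting
module: for `X` `ℤ`-free, the two exact sequences `0 → X⊗I_G → X⊗ℤ[G] → X → 0` and
`0 → X⊗C → X⊗C(σ) → X⊗I_G → 0`, the ordinary long exact sequences, naturality of `δ`, (K1), (K2),
`H¹(G, X⊗ℤ[G]) = 0`, `(X⊗ℤ[G])^G → X^G` has image `N X`, and the input
`SplitTensorAcyclic`: `Hⁿ(G, X ⊗ C(σ))(p) = 0` for `n = 1, 2`.
-/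
import Mathlib
import Fermat.Agent.PT.FG.Interface8
import Fermat.Agent.PT.FG.SplitModule8
import Fermat.Agent.PT.FG.Transfer2

set_option autoImplicit false

open CategoryTheory groupCohomology MonoidalCategory

namespace Fermat.Agent.PT.FG.TateZero8

open Fermat.Agent.PT.FG.Interface8 Fermat.Agent.PT.FG.SplitModule8

noncomputable section

/-! ### Tensoring a short exact sequence with a flat module -/

section TensorSeq

variable {k G : Type} [CommRing k] [Group G] (X : Rep.{0} k G)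

/-- `X ⊗ S`. -/
def tensorSeq (S : ShortComplex (Rep.{0} k G)) : ShortComplex (Rep.{0} k G) :=
  S.map (tensorLeft X)

theorem tensorSeq_shortExact [Module.Flat k X.V] {S : ShortComplex (Rep.{0} k G)}
    (hS : S.ShortExact) : (tensorSeq X S).ShortExact where
  exact := by
    have hf : Function.Injective S.f.hom := (Rep.mono_iff_injective _).1 hS.mono_f
    have hg : Function.Surjective S.g.hom := (Rep.epi_iff_surjective _).1 hS.epi_g
    have hex : Function.Exact S.f.hom.toLinearMap S.g.hom.toLinearMap :=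
      (ShortComplex.ShortExact.moduleCat_exact_iff_function_exact _).1
        (hS.exact.map (forget₂ (Rep.{0} k G) (ModuleCat k)))
    have hex' := lTensor_exact X.V hex hg
    refine (forget₂ (Rep.{0} k G) (ModuleCat k)).reflects_exact_of_faithful _ <|
      (ShortComplex.moduleCat_exact_iff _).2 fun z hz => ?_
    exact (hex' z).1 hz
  mono_f := (Rep.mono_iff_injective _).2 <|
    Module.Flat.lTensor_preserves_injective_linearMap (M := X.V) S.f.hom.toLinearMap
      ((Rep.mono_iff_injective _).1 hS.mono_f)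
  epi_g := (Rep.epi_iff_surjective _).2 <|
    LinearMap.lTensor_surjective X.V (g := S.g.hom.toLinearMap)
      ((Rep.epi_iff_surjective _).1 hS.epi_g)


theorem tensorLeftHom_naturality {A B : Rep.{0} k G} (f : A ⟶ B) (x : X.V)
    (hx : ∀ g : G, X.ρ g x = x) :
    tensorLeftHom X A x hx ≫ (X ◁ f) = f ≫ tensorLeftHom X B x hx := by
  refine Rep.hom_ext ?_
  refine Representation.IntertwiningMap.ext (LinearMap.ext fun c => ?_)
  rfl

/-- `x ⊗ - : S ⟶ X ⊗ S` for an invariant element `x`. -/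
def tensorSeqHom (S : ShortComplex (Rep.{0} k G)) (x : X.V) (hx : ∀ g : G, X.ρ g x = x) :
    S ⟶ tensorSeq X S where
  τ₁ := tensorLeftHom X S.X₁ x hx
  τ₂ := tensorLeftHom X S.X₂ x hx
  τ₃ := tensorLeftHom X S.X₃ x hx
  comm₁₂ := tensorLeftHom_naturality X S.f x hx
  comm₂₃ := tensorLeftHom_naturality X S.g x hx

end TensorSeq

/-! ### Modules on which the identity is a norm -/

section NormId

variable {k G : Type} [CommRing k] [Group G] [Fintype G] (A : Rep.{0} k G) (π : A.V →ₗ[k] A.V)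

/-- If `id_A = ∑ g, g ∘ π ∘ g⁻¹` for a `k`-linear `π`, then `H¹(G, A) = 0`. -/
theorem subsingleton_H1_of_norm_id (hπ : ∀ a : A.V, ∑ g : G, A.ρ g (π (A.ρ g⁻¹ a)) = a) :
    Subsingleton (H1 A) := by
  refine ⟨fun x y => ?_⟩
  have key : ∀ z : H1 A, z = 0 := by
    intro z
    induction z using H1_induction_on with
    | h f =>
      rw [H1π_eq_zero_iff]
      refine ⟨∑ g : G, A.ρ g (π ((f : G → A.V) g⁻¹)), ?_⟩
      funext h
      have hc : ∀ s t : G, (f : G → A.V) (s * t) = A.ρ s ((f : G → A.V) t) + (f : G → A.V) s :=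
        (mem_cocycles₁_iff (f : G → A.V)).1 f.2
      show A.ρ h (∑ g : G, A.ρ g (π ((f : G → A.V) g⁻¹))) - ∑ g : G, A.ρ g (π ((f : G → A.V) g⁻¹))
        = (f : G → A.V) h
      have h1 : A.ρ h (∑ g : G, A.ρ g (π ((f : G → A.V) g⁻¹))) =
          ∑ g : G, A.ρ g (π ((f : G → A.V) (g⁻¹ * h))) := by
        rw [map_sum]
        refine Fintype.sum_equiv (Equiv.mulLeft h) _ _ fun g => ?_
        simp only [Equiv.coe_mulLeft, mul_inv_rev, inv_mul_cancel_right, map_mul]
        rfl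
      have h2 : ∀ g : G, (f : G → A.V) (g⁻¹ * h) =
          A.ρ g⁻¹ ((f : G → A.V) h) + (f : G → A.V) g⁻¹ := fun g => hc g⁻¹ h
      rw [h1, ← Finset.sum_sub_distrib, ← hπ ((f : G → A.V) h)]
      refine Finset.sum_congr rfl fun g _ => ?_
      rw [h2 g, map_add, map_add, add_sub_cancel_right]
  rw [key x, key y]

/-- If `id_A = ∑ g, g ∘ π ∘ g⁻¹`, every invariant element `a` is the norm of `π a`. -/
theorem invariant_eq_norm_of_norm_id (hπ : ∀ a : A.V, ∑ g : G, A.ρ g (π (A.ρ g⁻¹ a)) = a)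
    (a : A.V) (ha : ∀ g : G, A.ρ g a = a) : ∑ g : G, A.ρ g (π a) = a := by
  conv_rhs => rw [← hπ a]
  refine Finset.sum_congr rfl fun g _ => ?_
  rw [ha g⁻¹]

end NormId

/-! ### `X ⊗ k[G]` -/

section RegTensor

variable {k G : Type} [CommRing k] [Group G]

section Lin

variable {V : Type} [AddCommGroup V] [Module k V] (ρ : Representation k G V)

/-- `x ⊗ y ↦ x ⊗ y(1)·[1]`. -/
def piRegLin (k G V : Type) [CommRing k] [Group G] [AddCommGroup V] [Module k V] :
    TensorProduct k V (G →₀ k) →ₗ[k] TensorProduct k V (G →₀ k) :=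
  LinearMap.lTensor V ((Finsupp.lsingle (1 : G)).comp (Finsupp.lapply (1 : G)))

theorem piRegLin_tmul [DecidableEq G] (x : V) (h : G) (c : k) :
    piRegLin k G V (x ⊗ₜ[k] (Finsupp.single h c : G →₀ k)) =
      x ⊗ₜ[k] (Finsupp.single (1 : G) (if h = 1 then c else 0) : G →₀ k) := by
  simp [piRegLin, Finsupp.single_apply]

theorem piRegLin_norm [Fintype G] (a : TensorProduct k V (G →₀ k)) :
    ∑ g : G, TensorProduct.map (ρ g) (reg k G g)
      (piRegLin k G V (TensorProduct.map (ρ g⁻¹) (reg k G g⁻¹) a)) = a := by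
  classical
  let L : TensorProduct k V (G →₀ k) →ₗ[k] TensorProduct k V (G →₀ k) :=
    ∑ g : G, (TensorProduct.map (ρ g) (reg k G g)) ∘ₗ (piRegLin k G V) ∘ₗ
      (TensorProduct.map (ρ g⁻¹) (reg k G g⁻¹))
  have hL : L = LinearMap.id := by
    refine TensorProduct.ext' fun x y => ?_
    induction y using Finsupp.induction_linear with
    | zero => simp
    | add y₁ y₂ h₁ h₂ => rw [TensorProduct.tmul_add, map_add, h₁, h₂, map_add]
    | single h c =>
      simp only [L, LinearMap.sum_apply, LinearMap.comp_apply, LinearMap.id_apply]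
      rw [Finset.sum_eq_single h]
      · rw [TensorProduct.map_tmul, reg_single, piRegLin_tmul, TensorProduct.map_tmul, reg_single]
        simp
      · intro g _ hg
        rw [TensorProduct.map_tmul, reg_single, piRegLin_tmul, TensorProduct.map_tmul, reg_single]
        have : ¬ g⁻¹ * h = 1 := fun hh => hg (by
          have := congrArg (g * ·) hh
          simpa using this.symm)
        simp [this]
      · intro hh
        exact absurd (Finset.mem_univ h) hh
  have := congrArg (fun f : TensorProduct k V (G →₀ k) →ₗ[k] TensorProduct k V (G →₀ k) => f a) hL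
  simpa [L, LinearMap.sum_apply] using this

end Lin

variable (X : Rep.{0} k G)

/-- `piRegLin` on the representation `X ⊗ k[G]`. -/
def piReg : (X ⊗ regRep k G).V →ₗ[k] (X ⊗ regRep k G).V := piRegLin k G X.V

theorem piReg_norm [Fintype G] (a : (X ⊗ regRep k G).V) :
    ∑ g : G, (X ⊗ regRep k G).ρ g (piReg X ((X ⊗ regRep k G).ρ g⁻¹ a)) = a :=
  piRegLin_norm X.ρ a

end RegTensor

/-! ### An arithmetic lemma: `p`-primary classes lift to `p`-primary classes -/

theorem exists_primary_lift {A B : Type*} [AddCommGroup A] [AddCommGroup B] (f : A →+ B) (n : ℕ)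
    (hnpos : n ≠ 0) (hn : ∀ a : A, n • a = 0) (p : ℕ) (hp : p.Prime) (w : B)
    (hw : IsPPrimary p w) (v : A) (hv : f v = w) : ∃ v' : A, IsPPrimary p v' ∧ f v' = w := by
  obtain ⟨e, n', hn', rfl⟩ := Nat.exists_eq_pow_mul_and_not_dvd hnpos p hp.ne_one
  obtain ⟨j, hj⟩ := hw
  have hcop : Nat.Coprime n' (p ^ j) :=
    Nat.Coprime.pow_right j ((Nat.Prime.coprime_iff_not_dvd hp).2 hn').symm
  have hbez : (1 : ℤ) = (n' : ℤ) * Int.gcdA n' (p ^ j : ℕ) + ((p ^ j : ℕ) : ℤ) * Int.gcdB n' (p ^ j : ℕ) := by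
    have := Int.gcd_eq_gcd_ab (n' : ℤ) ((p ^ j : ℕ) : ℤ)
    rw [Int.gcd_natCast_natCast, hcop] at this
    simpa using this
  set x := Int.gcdA n' (p ^ j : ℕ)
  set y := Int.gcdB n' (p ^ j : ℕ)
  refine ⟨((n' : ℤ) * x) • v, ⟨e, ?_⟩, ?_⟩
  · rw [← natCast_zsmul, smul_smul]
    have : ((p ^ e : ℕ) : ℤ) * ((n' : ℤ) * x) = x * ((p ^ e * n' : ℕ) : ℤ) := by
      push_cast; ring
    rw [this, mul_zsmul, natCast_zsmul, hn, zsmul_zero]
  · rw [map_zsmul, hv]
    have h1 : ((n' : ℤ) * x) = 1 - ((p ^ j : ℕ) : ℤ) * y := by linarith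
    rw [h1, sub_zsmul, one_zsmul, mul_comm, mul_zsmul, natCast_zsmul, hj, zsmul_zero]
    simp

/-! ### Low-degree lemmas on `δ` and `H⁰` -/

section H0

variable {k G : Type} [CommRing k] [Group G]

theorem map_H0Iso_inv_apply {A B : Rep.{0} k G} (f : A ⟶ B) (z : A.ρ.invariants)
    (hz : ∀ g : G, B.ρ g (f.hom z.1) = f.hom z.1) :
    groupCohomology.map (MonoidHom.id G) f 0 ((H0Iso A).inv z) =
      (H0Iso B).inv ⟨f.hom z.1, hz⟩ := by
  have h := congr($(map_id_comp_H0Iso_hom f) ((H0Iso A).inv z))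
  simp only [ModuleCat.hom_comp, LinearMap.comp_apply] at h
  rw [Iso.inv_hom_id_apply] at h
  have h2 : (H0Iso B).inv ((H0Iso B).hom
      (groupCohomology.map (MonoidHom.id G) f 0 ((H0Iso A).inv z))) =
      groupCohomology.map (MonoidHom.id G) f 0 ((H0Iso A).inv z) := Iso.hom_inv_id_apply _ _
  rw [← h2, h]
  rfl

variable {S : ShortComplex (Rep.{0} k G)} (hS : S.ShortExact)

theorem delta0_eq_zero_of_invariant (z : S.X₃.ρ.invariants) (y : S.X₂.ρ.invariants)
    (hy : S.g.hom y.1 = z.1) : δ hS 0 1 rfl ((H0Iso S.X₃).inv z) = 0 := by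
  have h := δ₀_apply hS z y.1 hy (fun _ => 0) (by
    funext g
    show S.f.hom 0 = S.X₂.ρ g y.1 - y.1
    rw [y.2 g, sub_self, map_zero])
  rw [h]
  have : (⟨fun _ => 0, mem_cocycles₁_of_comp_eq_d₀₁ hS (y := y.1) (x := fun _ => 0) (by
    funext g
    show S.f.hom 0 = S.X₂.ρ g y.1 - y.1
    rw [y.2 g, sub_self, map_zero])⟩ : cocycles₁ S.X₁) = 0 := rfl
  rw [this, map_zero]

theorem exists_invariant_of_delta0_eq_zero (z : S.X₃.ρ.invariants)
    (hz : δ hS 0 1 rfl ((H0Iso S.X₃).inv z) = 0) :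
    ∃ y : S.X₂.ρ.invariants, S.g.hom y.1 = z.1 := by
  have hex := mapShortComplex₃_exact hS (i := 0) (j := 1) rfl
  obtain ⟨s, hs⟩ : ∃ s : H0 S.X₂,
      groupCohomology.map (MonoidHom.id G) S.g 0 s = (H0Iso S.X₃).inv z :=
    (ShortComplex.moduleCat_exact_iff _).1 hex ((H0Iso S.X₃).inv z) hz
  refine ⟨(H0Iso S.X₂).hom s, ?_⟩
  have h := congr($(map_id_comp_H0Iso_hom S.g) s)
  simp only [ModuleCat.hom_comp, LinearMap.comp_apply] at h
  rw [hs, Iso.inv_hom_id_apply] at h
  exact (congrArg Subtype.val h).symm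

end H0

/-! ### (K1), (K2) for `G` itself -/

section K

variable {k G : Type} [CommRing k] [Group G] {C : Rep.{0} k G}

/-- The 1-cocycle `s ↦ δ_s - δ_1` of `G` with values in `I_G`. -/
def augCocycleG (k G : Type) [CommRing k] [Group G] : cocycles₁ (augRep k G) :=
  ⟨fun s => (augGen k s : AugV k G), (mem_cocycles₁_iff _).2 (fun s t => by
    refine AugV.val_injective ?_
    show AugV.val (augGen k (s * t)) =
      reg k G s (AugV.val (augGen k t)) + AugV.val (augGen k s)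
    simp only [val_augGen, map_sub, reg_single, mul_one]
    abel)⟩

theorem delta_aug_oneG :
    δ (augSeq_shortExact (k := k) (G := G)) 0 1 rfl
      ((H0Iso (Rep.trivial k G k)).inv (oneInv k G)) = H1π (augRep k G) (augCocycleG k G) := by
  have h := δ₀_apply (augSeq_shortExact (k := k) (G := G)) (oneInv k G)
    (Finsupp.single (1 : G) (1 : k) : G →₀ k) (eps_single (1 : G) (1 : k))
    (fun s => augGen k s) (by
      funext s
      show AugV.val (augGen k s) = reg k G s (Finsupp.single 1 1) - Finsupp.single 1 1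
      simp)
  exact h

theorem delta_split_augCocycleG (σ : cocycles₂ C) :
    δ (splitSeq_shortExact σ) 1 2 rfl (H1π (augRep k G) (augCocycleG k G)) = H2π C σ := by
  have h := δ₁_apply (splitSeq_shortExact σ) (augCocycleG k G)
    (fun s => fundCochain σ s) rfl
    (fun st => (σ : G × G → C.V) (st.1, st.2)) (by
      funext st
      obtain ⟨s, t⟩ := st
      have := d_fundCochain σ s t
      show (splitIncl σ).hom ((σ : G × G → C.V) (s, t)) =
        (split σ).ρ s (fundCochain σ t) - fundCochain σ (s * t) + fundCochain σ s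
      exact this.symm)
  exact h

end K

/-! ### The composite of the two connecting maps is `x ↦ (x ⊗ -)_* [σ]` -/

section Core

variable {k G : Type} [CommRing k] [Group G] (X : Rep.{0} k G) [Module.Flat k X.V]
  {C : Rep.{0} k G} (σ : cocycles₂ C)

/-- `x ⊗ 1` as an invariant element of `X ⊗ k`. -/
def tensOne (x : X.V) (hx : ∀ g : G, X.ρ g x = x) : (X ⊗ Rep.trivial k G k).ρ.invariants :=
  ⟨x ⊗ₜ[k] (1 : k), fun g => by
    show (X.ρ g x) ⊗ₜ[k] (1 : k) = x ⊗ₜ[k] (1 : k)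
    rw [hx]⟩

/-- `X ⊗ (0 → I_G → k[G] → k → 0)` is short exact. -/
theorem tA_shortExact : (tensorSeq X (augSeq k G)).ShortExact :=
  tensorSeq_shortExact X augSeq_shortExact

/-- `X ⊗ (0 → C → C(σ) → I_G → 0)` is short exact. -/
theorem tE_shortExact : (tensorSeq X (splitSeq σ)).ShortExact :=
  tensorSeq_shortExact X (splitSeq_shortExact σ)

theorem push_fund_eq (x : X.V) (hx : ∀ g : G, X.ρ g x = x) :
    pushH 2 (tensorLeftHom X C x hx) (H2π C σ) =
      δ (tE_shortExact X σ) 1 2 rfl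
        (δ (tA_shortExact X) 0 1 rfl
          ((H0Iso (X ⊗ Rep.trivial k G k)).inv (tensOne X x hx))) := by
  have n1 := δ_naturality augSeq_shortExact (tA_shortExact X)
    (tensorSeqHom X (augSeq k G) x hx) 0 1 rfl
  have n2 := δ_naturality (splitSeq_shortExact σ) (tE_shortExact X σ)
    (tensorSeqHom X (splitSeq σ) x hx) 1 2 rfl
  have e2 : groupCohomology.map (MonoidHom.id G) (tensorLeftHom X C x hx) 2
      (δ (splitSeq_shortExact σ) 1 2 rfl (H1π (augRep k G) (augCocycleG k G))) =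
      δ (tE_shortExact X σ) 1 2 rfl
        (groupCohomology.map (MonoidHom.id G) (tensorLeftHom X (augRep k G) x hx) 1
          (H1π (augRep k G) (augCocycleG k G))) :=
    congr($n2 (H1π (augRep k G) (augCocycleG k G)))
  have e1 : groupCohomology.map (MonoidHom.id G) (tensorLeftHom X (augRep k G) x hx) 1
      (δ (augSeq_shortExact (k := k) (G := G)) 0 1 rfl
        ((H0Iso (Rep.trivial k G k)).inv (oneInv k G))) =
      δ (tA_shortExact X) 0 1 rfl
        (groupCohomology.map (MonoidHom.id G) (tensorLeftHom X (Rep.trivial k G k) x hx) 0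
          ((H0Iso (Rep.trivial k G k)).inv (oneInv k G))) :=
    congr($n1 ((H0Iso (Rep.trivial k G k)).inv (oneInv k G)))
  rw [delta_split_augCocycleG] at e2
  rw [delta_aug_oneG] at e1
  have e0 : groupCohomology.map (MonoidHom.id G) (tensorLeftHom X (Rep.trivial k G k) x hx) 0
      ((H0Iso (Rep.trivial k G k)).inv (oneInv k G)) =
      (H0Iso (X ⊗ Rep.trivial k G k)).inv (tensOne X x hx) :=
    map_H0Iso_inv_apply _ _ _
  exact e2.trans (congrArg _ (e1.trans (congrArg _ e0)))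

end Core

section Core2

variable {k G : Type} [CommRing k] [Group G] [Fintype G] (X : Rep.{0} k G) [Module.Flat k X.V]
  {C : Rep.{0} k G} (σ : cocycles₂ C)

omit [Module.Flat k X.V] in
/-- `H¹(G, X ⊗ k[G]) = 0`. -/
theorem isZero_H1_tensor_reg : Limits.IsZero (groupCohomology (X ⊗ regRep k G) 1) :=
  (ModuleCat.isZero_iff_subsingleton).2
    (subsingleton_H1_of_norm_id (X ⊗ regRep k G) (piReg X) (piReg_norm X))

theorem sum_rho_invariant (A : Rep.{0} k G) (z : A.V) (h : G) :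
    A.ρ h (∑ g : G, A.ρ g z) = ∑ g : G, A.ρ g z := by
  have := Representation.self_norm_apply A.ρ h z
  simpa [Representation.norm, LinearMap.sum_apply] using this

/-- **Surjectivity**: every `p`-primary class of `H²(G, X ⊗ C)` is `(x ⊗ -)_* [σ]`. -/
theorem core_surj (p : ℕ) (hI2b : ∀ y : H2 (X ⊗ split σ), IsPPrimary p y → y = 0)
    (y : H2 (X ⊗ C)) (hy : IsPPrimary p y) :
    ∃ (x : X.V) (hx : ∀ g : G, X.ρ g x = x),
      pushH 2 (tensorLeftHom X C x hx) (H2π C σ) = y := by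
  have hTE := tE_shortExact X σ
  have hTA := tA_shortExact X
  have h0 : groupCohomology.map (MonoidHom.id G) (X ◁ splitIncl σ) 2 y = 0 := by
    apply hI2b
    obtain ⟨j, hj⟩ := hy
    exact ⟨j, by rw [← map_nsmul, hj, map_zero]⟩
  obtain ⟨w, hw⟩ : ∃ w : H1 (X ⊗ augRep k G), δ hTE 1 2 rfl w = y :=
    (ShortComplex.moduleCat_exact_iff _).1
      (mapShortComplex₁_exact hTE (i := 1) (j := 2) rfl) y h0
  have hepi : Epi (δ hTA 0 1 rfl) := epi_δ_of_isZero hTA 0 (isZero_H1_tensor_reg X)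
  obtain ⟨t, ht⟩ : ∃ t : H0 (X ⊗ Rep.trivial k G k), δ hTA 0 1 rfl t = w :=
    (ModuleCat.epi_iff_surjective _).1 hepi w
  let i : (X ⊗ Rep.trivial k G k).ρ.invariants := (H0Iso (X ⊗ Rep.trivial k G k)).hom t
  let x : X.V := TensorProduct.rid k X.V i.1
  have hi : i.1 = x ⊗ₜ[k] (1 : k) := by
    have h1 : i.1 = (TensorProduct.rid k X.V).symm x :=
      ((TensorProduct.rid k X.V).symm_apply_apply i.1).symm
    exact h1.trans (TensorProduct.rid_symm_apply x)
  have hx : ∀ g : G, X.ρ g x = x := by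
    intro g
    have h1 := i.2 g
    rw [hi] at h1
    have h2 : (X.ρ g x) ⊗ₜ[k] (1 : k) = x ⊗ₜ[k] (1 : k) := h1
    have h3 := congrArg (TensorProduct.rid k X.V) h2
    simpa using h3
  refine ⟨x, hx, ?_⟩
  rw [push_fund_eq]
  have hti : tensOne X x hx = i := Subtype.ext hi.symm
  have hinv : (H0Iso (X ⊗ Rep.trivial k G k)).inv i = t := Iso.hom_inv_id_apply _ _
  rw [hti, hinv, ht, hw]

omit [Module.Flat k X.V] [Fintype G] in
/-- `rid ∘ ρ_{X ⊗ k}(g) = ρ_X(g) ∘ rid`. -/
theorem rid_rho (g : G) (z : (X ⊗ Rep.trivial k G k).V) :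
    TensorProduct.rid k X.V ((X ⊗ Rep.trivial k G k).ρ g z) =
      X.ρ g (TensorProduct.rid k X.V z) := by
  have h : (TensorProduct.rid k X.V).toLinearMap ∘ₗ ((X ⊗ Rep.trivial k G k).ρ g) =
      (X.ρ g) ∘ₗ (TensorProduct.rid k X.V).toLinearMap := by
    refine TensorProduct.ext' fun x c => ?_
    show TensorProduct.rid k X.V ((X.ρ g x) ⊗ₜ[k] c) = X.ρ g (TensorProduct.rid k X.V (x ⊗ₜ[k] c))
    simp
  exact congrArg (fun f : (X ⊗ Rep.trivial k G k).V →ₗ[k] X.V => f z) h

/-- the norm of `x'`, tensored with `1`, is killed by the first connecting map -/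
theorem delta_tensOne_norm (x' : X.V) (hinv : ∀ g : G, X.ρ g (∑ h : G, X.ρ h x') = ∑ h : G, X.ρ h x') :
    δ (tA_shortExact X) 0 1 rfl
      ((H0Iso (X ⊗ Rep.trivial k G k)).inv (tensOne X (∑ h : G, X.ρ h x') hinv)) = 0 := by
  refine delta0_eq_zero_of_invariant (tA_shortExact X) _
    ⟨∑ g : G, (X ⊗ regRep k G).ρ g (x' ⊗ₜ[k] (Finsupp.single (1 : G) (1 : k) : G →₀ k)),
      fun h => sum_rho_invariant (X ⊗ regRep k G) _ h⟩ ?_
  show (X ◁ epsHom k G).hom
      (∑ g : G, (X ⊗ regRep k G).ρ g (x' ⊗ₜ[k] (Finsupp.single (1 : G) (1 : k) : G →₀ k))) =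
    (∑ h : G, X.ρ h x') ⊗ₜ[k] (1 : k)
  rw [map_sum, TensorProduct.sum_tmul]
  refine Finset.sum_congr rfl fun g _ => ?_
  show (X.ρ g x') ⊗ₜ[k] (eps k G (reg k G g (Finsupp.single (1 : G) (1 : k)))) = _
  rw [reg_single, eps_single]

/-- **Injectivity**: if `x ∈ X^G` is `p`-primary modulo norms and `(x ⊗ -)_* [σ] = 0`, then `x`
is a norm. -/
theorem core_inj (p : ℕ) (hp : p.Prime)
    (hI2a : ∀ y : H1 (X ⊗ split σ), IsPPrimary p y → y = 0)
    (x : X.V) (hx : ∀ g : G, X.ρ g x = x) (j : ℕ) (x' : X.V)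
    (hx' : ∑ g : G, X.ρ g x' = p ^ j • x)
    (h0 : pushH 2 (tensorLeftHom X C x hx) (H2π C σ) = 0) :
    ∃ x'' : X.V, ∑ g : G, X.ρ g x'' = x := by
  have hTE := tE_shortExact X σ
  have hTA := tA_shortExact X
  rw [push_fund_eq] at h0
  let d0 : (X ⊗ Rep.trivial k G k).ρ.invariants →+ H1 (X ⊗ augRep k G) :=
    ((δ (tA_shortExact X) 0 1 rfl).hom.toAddMonoidHom).comp
      ((H0Iso (X ⊗ Rep.trivial k G k)).inv.hom.toAddMonoidHom)
  have hd0 : ∀ z, d0 z = δ (tA_shortExact X) 0 1 rfl ((H0Iso (X ⊗ Rep.trivial k G k)).inv z) :=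
    fun _ => rfl
  have h0' : δ (tE_shortExact X σ) 1 2 rfl (d0 (tensOne X x hx)) = 0 := h0
  -- `p ^ j • w = 0`
  have hpw : p ^ j • d0 (tensOne X x hx) = 0 := by
    have hinv : ∀ g : G, X.ρ g (∑ h : G, X.ρ h x') = ∑ h : G, X.ρ h x' :=
      fun g => sum_rho_invariant X x' g
    have h1 : p ^ j • tensOne X x hx = tensOne X (∑ h : G, X.ρ h x') hinv := by
      apply Subtype.ext
      show p ^ j • (x ⊗ₜ[k] (1 : k)) = (∑ h : G, X.ρ h x') ⊗ₜ[k] (1 : k)
      rw [hx']
      exact (map_nsmul ((TensorProduct.mk k X.V k).flip (1 : k)) (p ^ j) x).symm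
    rw [← map_nsmul, h1, hd0]
    exact delta_tensOne_norm X x' hinv
  -- lift `w` to `H¹(X ⊗ C(σ))`
  let f1 : H1 (X ⊗ split σ) →+ H1 (X ⊗ augRep k G) :=
    (groupCohomology.map (MonoidHom.id G) (X ◁ splitProj σ) 1).hom.toAddMonoidHom
  obtain ⟨v, hv⟩ : ∃ v : H1 (X ⊗ split σ), f1 v = d0 (tensOne X x hx) :=
    (ShortComplex.moduleCat_exact_iff _).1
      (mapShortComplex₃_exact hTE (i := 1) (j := 2) rfl) (d0 (tensOne X x hx)) h0'
  have hkill : ∀ a : H1 (X ⊗ split σ), Nat.card G • a = 0 :=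
    fun a => Transfer2.card_nsmul_eq_zero (X ⊗ split σ) 0 a
  obtain ⟨v', hv'p, hv'⟩ := exists_primary_lift f1 (Nat.card G) Nat.card_pos.ne' hkill p hp
    (d0 (tensOne X x hx)) ⟨j, hpw⟩ v hv
  have hw0 : d0 (tensOne X x hx) = 0 := by
    rw [← hv', hI2a v' hv'p]
    exact map_zero _
  -- hence `x ⊗ 1` comes from an invariant of `X ⊗ k[G]`
  obtain ⟨y, hy⟩ := exists_invariant_of_delta0_eq_zero hTA (tensOne X x hx) hw0
  have hy1 : (X ◁ epsHom k G).hom y.1 = x ⊗ₜ[k] (1 : k) := hy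
  have hnorm := invariant_eq_norm_of_norm_id (X ⊗ regRep k G) (piReg X) (piReg_norm X) y.1 y.2
  refine ⟨TensorProduct.rid k X.V ((X ◁ epsHom k G).hom (piReg X y.1)), ?_⟩
  have h2 : x = TensorProduct.rid k X.V ((X ◁ epsHom k G).hom y.1) := by
    rw [hy1]; simp
  rw [h2]
  conv_rhs => rw [← hnorm]
  rw [map_sum, map_sum]
  refine Finset.sum_congr rfl fun g _ => ?_
  rw [Rep.hom_comm_apply, rid_rho]

end Core2

/-! ### Tate's theorem `Ĥ⁰(G, X)(p) ≅ H²(G, X ⊗ C)(p)` -/

section Final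

/-- The acyclicity input: for a fundamental class `[σ]` and `X` `ℤ`-free finitely generated,
`Hⁿ(G, X ⊗ C(σ))` has no `p`-torsion for `n = 1, 2`.  (It follows from (S3), Nakayama–Tate and
"`X ⊗ -` preserves cohomological triviality".) -/
def SplitTensorAcyclic : Prop :=
  ∀ (G : Type) [Group G] [Finite G] (p : ℕ) [Fact p.Prime] (C : Rep ℤ G) (σ : cocycles₂ C),
    IsFundClass p C (H2π C σ) → ∀ X : Rep ℤ G, Module.Free ℤ X.V → Module.Finite ℤ X.V →
      (∀ y : H1 (X ⊗ split σ), IsPPrimary p y → y = 0) ∧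
      (∀ y : H2 (X ⊗ split σ), IsPPrimary p y → y = 0)

/-- **(T0)** `Interface8.TateZero` from `SplitTensorAcyclic`. -/
theorem tateZero_of (h : SplitTensorAcyclic) : TateZero := by
  intro G _ _ p _ C u hu X hfree hfin
  let _ : Fintype G := Fintype.ofFinite G
  obtain ⟨σ, rfl⟩ := (ModuleCat.epi_iff_surjective (H2π C)).1 inferInstance u
  obtain ⟨hI2a, hI2b⟩ := h G p C σ hu X hfree hfin
  have hflat : @Module.Flat ℤ X.V _ _ X.hV2 := by
    have e : (AddCommGroup.toIntModule X.V : Module ℤ X.V) = X.hV2 := Subsingleton.elim _ _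
    rw [← e]
    infer_instance
  constructor
  · intro x hx hpx h0
    obtain ⟨j, x', hx'⟩ := hpx
    obtain ⟨x'', hx''⟩ := core_inj X σ p (Fact.out : p.Prime) hI2a x hx j x' hx' h0
    exact ⟨x'', hx''⟩
  · intro y hy
    exact core_surj X σ p hI2b y hy

end Final

end

end Fermat.Agent.PT.FG.TateZero8
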