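/-
PROGRAM F (S55), chapter FG.  helper9.
Transport of the vanishing of Tate cohomology along an isomorphism of groups `e : H ≃* H'` and a
compatible linear equivalence of the modules (e.g. a subgroup of a subgroup versus the corresponding
subgroup of the big group; conjugate subgroups, with the module twisted by `ρ g`).
Degrees `n ≥ 1` and `n ≤ -2` use Mathlib's `groupCohomology.mapIso` / `groupHomology.mapIso`,
degrees `0`, `-1` helper3's concrete criteria (`TateLow3`).
-/
import Mathlib
import Fermat.Agent.PT.FG.TateLow3

set_option autoImplicit false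

namespace Fermat.Agent.PT.FG.TateTransport9

open CategoryTheory CategoryTheory.Limits Representation
open Fermat.Agent.PT.FG.TateLow3

universe u

variable {k : Type u} [CommRing k] {H H' : Type u} [Group H] [Group H']

section Compat

variable (e : H ≃* H') {A : Rep.{u} k H'} {B : Rep.{u} k H} (e' : B.V ≃ₗ[k] A.V)
  (he : ∀ h, e'.toLinearMap ∘ₗ B.ρ h = A.ρ (e h) ∘ₗ e'.toLinearMap)
include he

theorem apply_comm (h : H) (b : B.V) : e' (B.ρ h b) = A.ρ (e h) (e' b) :=
  LinearMap.congr_fun (he h) b

/-- The compatibility for the inverse equivalences. -/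
theorem symm_comm (h' : H') :
    e'.symm.toLinearMap ∘ₗ A.ρ h' = B.ρ (e.symm h') ∘ₗ e'.symm.toLinearMap := by
  ext a
  simp only [LinearMap.coe_comp, LinearEquiv.coe_coe, Function.comp_apply]
  apply e'.injective
  rw [apply_comm e e' he, e.apply_symm_apply, e'.apply_symm_apply, e'.apply_symm_apply]

theorem mem_invariants (b : B.V) (hb : b ∈ B.ρ.invariants) : e' b ∈ A.ρ.invariants := by
  intro h'
  have := apply_comm e e' he (e.symm h') b
  rw [e.apply_symm_apply, hb (e.symm h')] at this
  exact this.symm

theorem mem_coinvariantsKer (b : B.V) (hb : b ∈ Coinvariants.ker B.ρ) :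
    e' b ∈ Coinvariants.ker A.ρ := by
  have : Coinvariants.ker B.ρ ≤ (Coinvariants.ker A.ρ).comap e'.toLinearMap := by
    unfold Coinvariants.ker
    rw [Submodule.span_le]
    rintro x ⟨⟨h, y⟩, rfl⟩
    simp only [Submodule.comap_coe, Set.mem_preimage, LinearEquiv.coe_coe, map_sub, SetLike.mem_coe]
    rw [apply_comm e e' he]
    exact Coinvariants.sub_mem_ker (e h) (e' y)
  exact this hb

theorem norm_comm [Fintype H] [Fintype H'] (b : B.V) : e' (B.ρ.norm b) = A.ρ.norm (e' b) := by
  simp only [Representation.norm, LinearMap.sum_apply, map_sum]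
  rw [← Fintype.sum_equiv e.toEquiv (fun h => e' (B.ρ h b)) (fun h' => A.ρ h' (e' b))]
  intro h
  exact apply_comm e e' he h b

end Compat

section Main

variable [Fintype H] [Fintype H'] (e : H ≃* H') (A : Rep.{u} k H') (B : Rep.{u} k H)
  (e' : B.V ≃ₗ[k] A.V)
  (he : ∀ h, e'.toLinearMap ∘ₗ B.ρ h = A.ρ (e h) ∘ₗ e'.toLinearMap)
include he

theorem isZero_tate_zero_of_equiv (hA : IsZero (tateCohomology A 0)) :
    IsZero (tateCohomology B 0) := by
  rw [isZero_tate_zero_iff] at hA ⊢
  intro b hb
  obtain ⟨x, hx⟩ := hA (e' b) (mem_invariants e e' he b hb)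
  refine ⟨e'.symm x, ?_⟩
  apply e'.injective
  rw [norm_comm e e' he, e'.apply_symm_apply, hx]

theorem isZero_tate_neg_one_of_equiv (hA : IsZero (tateCohomology A (-1))) :
    IsZero (tateCohomology B (-1)) := by
  rw [isZero_tate_neg_one_iff] at hA ⊢
  intro b hb
  have h1 : A.ρ.norm (e' b) = 0 := by rw [← norm_comm e e' he, hb, map_zero]
  have h2 := hA (e' b) h1
  have h3 := mem_coinvariantsKer e.symm e'.symm (symm_comm e e' he) (e' b) h2
  rwa [e'.symm_apply_apply] at h3

/-- Transport of vanishing of Tate cohomology along an isomorphism of groups and a compatible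
linear equivalence, one direction. -/
theorem isZero_tate_of_equiv (n : ℤ) (hA : IsZero (tateCohomology A n)) :
    IsZero (tateCohomology B n) := by
  obtain (_ | m) | (_ | m) := n
  · exact isZero_tate_zero_of_equiv e A B e' he hA
  · -- positive degree `m + 1`
    have iA := (TateCohomology.isoGroupCohomology (R := k) (G := H') (m + 1)).app A
    have iB := (TateCohomology.isoGroupCohomology (R := k) (G := H) (m + 1)).app B
    have i := groupCohomology.mapIso (A := A) (B := B) e e' he (m + 1)
    exact (hA.of_iso iA.symm).of_iso (iB ≪≫ i)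
  · exact isZero_tate_neg_one_of_equiv e A B e' he hA
  · -- degree `-(m + 2)`
    have iA := (TateCohomology.isoGroupHomology (R := k) (G := H') (Int.negSucc (m + 1)) (m + 1)
      (by simp [Int.negSucc_eq])).app A
    have iB := (TateCohomology.isoGroupHomology (R := k) (G := H) (Int.negSucc (m + 1)) (m + 1)
      (by simp [Int.negSucc_eq])).app B
    have i := groupHomology.mapIso (A := B) (B := A) e e' he (m + 1)
    exact (hA.of_iso iA.symm).of_iso (iB ≪≫ i)

/-- Transport of vanishing of Tate cohomology along an isomorphism of groups and a compatible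
linear equivalence. -/
theorem isZero_tate_iff_of_equiv (n : ℤ) :
    IsZero (tateCohomology B n) ↔ IsZero (tateCohomology A n) :=
  ⟨isZero_tate_of_equiv e.symm B A e'.symm (symm_comm e e' he) n,
    isZero_tate_of_equiv e A B e' he n⟩

end Main

end Fermat.Agent.PT.FG.TateTransport9
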