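/-
PROGRAM F (S55), chapter FG.  helper9.
**(CT2) for `p`-groups** (Serre, Local Fields IX Thm 9): `G` a finite `p`-group, `M` a cohomologically
trivial `G`-module, `X` a `k`-flat (e.g. `ℤ`-free) `G`-module ⇒ `X ⊗ M` is cohomologically trivial
(`CohTriv9.IsCohTrivial`, Mathlib's monoidal structure on `Rep k G`).

Ingredients:
* `rep_shortExact_iff`, `shortExact_whiskerLeft`: `X ⊗ -` is exact on `Rep k G` for `X` flat;
* `untwistIso : Ind(X ⊗ B) ≅ X ⊗ Ind(B)` (`single g (x ⊗ b) ↦ g x ⊗ single g b`), hence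
  `isCohTrivial_tensor_indRep`;
* `isCohTrivial_of_mulP_ses`: `0 → N →(p) N → Q → 0` with `Q` cohomologically trivial ⇒ so is `N`;
* `isCohTrivial_tensor_of_torsionFree`, `isCohTrivial_tensor`, `isCohTrivial_tensor_int` (`k = ℤ`).
-/
import Mathlib
import Fermat.Agent.PT.FG.IndAcyclic9
import Fermat.Agent.PT.FG.TateTransport9

set_option autoImplicit false
set_option linter.unusedSectionVars false
set_option linter.style.haveILetI false

namespace Fermat.Agent.PT.FG.TensorCohTriv9

open Function CategoryTheory Representation CategoryTheory.Limits MonoidalCategory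
open Fermat.Agent.PT.FG.PGroupMod9 Fermat.Agent.PT.FG.PGroupFree9 Fermat.Agent.PT.FG.CohTriv9
open Fermat.Agent.PT.FG.IndAcyclic9 Fermat.Agent.PT.FG.TateTransport9

universe u
variable {k G : Type u} [CommRing k] [Group G]

/-- Exactness in `Rep k G` is exactness of the underlying linear maps. -/
theorem rep_exact_iff (S : ShortComplex (Rep.{u} k G)) :
    S.Exact ↔ LinearMap.range S.f.hom.toLinearMap = LinearMap.ker S.g.hom.toLinearMap := by
  rw [← ShortComplex.exact_map_iff_of_faithful S (forget₂ (Rep.{u} k G) (ModuleCat.{u} k)),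
    ShortComplex.moduleCat_exact_iff_range_eq_ker]
  rfl

theorem rep_shortExact_iff (S : ShortComplex (Rep.{u} k G)) :
    S.ShortExact ↔ Injective S.f.hom ∧
      LinearMap.range S.f.hom.toLinearMap = LinearMap.ker S.g.hom.toLinearMap ∧
      Surjective S.g.hom := by
  constructor
  · intro h
    exact ⟨(Rep.mono_iff_injective _).1 h.mono_f, (rep_exact_iff S).1 h.exact,
      (Rep.epi_iff_surjective _).1 h.epi_g⟩
  · rintro ⟨h1, h2, h3⟩
    exact { exact := (rep_exact_iff S).2 h2
            mono_f := (Rep.mono_iff_injective _).2 h1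
            epi_g := (Rep.epi_iff_surjective _).2 h3 }

/-- Tensoring a short exact sequence of representations with a `k`-flat representation `X`
(on the left) gives a short exact sequence. -/
theorem shortExact_whiskerLeft (X : Rep.{u} k G) [Module.Flat k X.V]
    {S : ShortComplex (Rep.{u} k G)} (hS : S.ShortExact) :
    (ShortComplex.mk (X ◁ S.f) (X ◁ S.g)
      (by rw [← MonoidalCategory.whiskerLeft_comp, S.zero, MonoidalPreadditive.whiskerLeft_zero])).ShortExact := by
  obtain ⟨h1, h2, h3⟩ := (rep_shortExact_iff S).1 hS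
  refine (rep_shortExact_iff _).2 ⟨?_, ?_, ?_⟩
  · change Injective (S.f.hom.toLinearMap.lTensor X.V)
    exact Module.Flat.lTensor_preserves_injective_linearMap _ h1
  · change LinearMap.range (S.f.hom.toLinearMap.lTensor X.V) =
      LinearMap.ker (S.g.hom.toLinearMap.lTensor X.V)
    have hex : Function.Exact S.f.hom.toLinearMap S.g.hom.toLinearMap :=
      LinearMap.exact_iff.2 h2.symm
    exact (LinearMap.exact_iff.1 (lTensor_exact X.V hex h3)).symm
  · change Surjective (S.g.hom.toLinearMap.lTensor X.V)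
    exact LinearMap.lTensor_surjective _ h3

section Untwist

open TensorProduct

variable (X : Rep.{u} k G) (B : Type u) [AddCommGroup B] [Module k B]

/-- `single g (x ⊗ b) ↦ ρ(g) x ⊗ single g b`. -/
noncomputable def untwistFwd : (G →₀ X.V ⊗[k] B) →ₗ[k] X.V ⊗[k] (G →₀ B) :=
  indLift (X.ρ.tprod (indRep (k := k) (G := G) B))
    (LinearMap.lTensor X.V (Finsupp.lsingle (1 : G)))

@[simp]
theorem untwistFwd_single (g : G) (x : X.V) (b : B) :
    untwistFwd X B (Finsupp.single g (x ⊗ₜ[k] b)) = (X.ρ g x) ⊗ₜ[k] Finsupp.single g b := by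
  simp [untwistFwd]

open Classical in
/-- `x ⊗ single g b ↦ single g (ρ(g⁻¹) x ⊗ b)`. -/
noncomputable def untwistBwd : X.V ⊗[k] (G →₀ B) →ₗ[k] (G →₀ X.V ⊗[k] B) :=
  (Finsupp.lsum k (fun g : G => Finsupp.lsingle g ∘ₗ (X.ρ g⁻¹).rTensor B)) ∘ₗ
    (TensorProduct.finsuppRight k k X.V B G).toLinearMap

@[simp]
theorem untwistBwd_tmul_single (g : G) (x : X.V) (b : B) :
    untwistBwd X B (x ⊗ₜ[k] Finsupp.single g b) = Finsupp.single g ((X.ρ g⁻¹ x) ⊗ₜ[k] b) := by
  simp [untwistBwd]

theorem untwistBwd_comp_untwistFwd : untwistBwd X B ∘ₗ untwistFwd X B = LinearMap.id := by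
  refine Finsupp.lhom_ext' fun g => TensorProduct.ext' fun x b => ?_
  simp

theorem untwistFwd_comp_untwistBwd : untwistFwd X B ∘ₗ untwistBwd X B = LinearMap.id := by
  refine TensorProduct.ext' fun x f => ?_
  induction f using Finsupp.induction_linear with
  | zero => simp
  | add f₁ f₂ h₁ h₂ => simp only [TensorProduct.tmul_add, map_add, h₁, h₂]
  | single g b => simp

/-- The linear equivalence underlying the untwisting isomorphism. -/
noncomputable def untwistEquiv : (G →₀ X.V ⊗[k] B) ≃ₗ[k] X.V ⊗[k] (G →₀ B) :=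
  LinearEquiv.ofLinearMap (untwistFwd X B) (untwistBwd X B)
    (untwistFwd_comp_untwistBwd X B) (untwistBwd_comp_untwistFwd X B)

/-- **Untwisting**: `Ind(X ⊗ B) ≅ X ⊗ Ind(B)` (on the left, `X` is only used as a `k`-module). -/
noncomputable def untwistIso :
    Rep.of (indRep (k := k) (G := G) (X.V ⊗[k] B)) ≅ X ⊗ Rep.of (indRep (k := k) (G := G) B) :=
  Rep.mkIso (Representation.Equiv.mk (untwistEquiv X B) (fun g =>
    LinearMap.ext fun f => indLift_indRep _ _ g f))

end Untwist


section Main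

variable [Fintype G]

/-- A cohomologically trivial module has vanishing Tate cohomology (for the whole group). -/
theorem isZero_tate_of_isCohTrivial {M : Rep.{u} k G} (h : IsCohTrivial M) (n : ℤ) :
    IsZero (tateCohomology M n) := by
  classical
  haveI : Fintype (⊤ : Subgroup G) := Fintype.ofFinite _
  refine isZero_tate_of_equiv (Subgroup.topEquiv (G := G)).symm
    (Rep.res (⊤ : Subgroup G).subtype M) M (LinearEquiv.refl k M.V) ?_ n (h ⊤ n)
  intro g
  rfl

/-- Induced modules stay cohomologically trivial after tensoring with any representation. -/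
theorem isCohTrivial_tensor_indRep (X : Rep.{u} k G) (B : Type u) [AddCommGroup B] [Module k B] :
    IsCohTrivial (X ⊗ Rep.of (indRep (k := k) (G := G) B)) :=
  IsCohTrivial.of_iso (untwistIso X B) (isCohTrivial_indRep' _)

variable {p : ℕ} [Fact p.Prime]

/-- `0 → N →(p) N → Q → 0` exact with `Q` cohomologically trivial and `G` a `p`-group ⇒ `N`
cohomologically trivial. -/
theorem isCohTrivial_of_mulP_ses (hG : IsPGroup p G) {N Q : Rep.{u} k G} (f : N ⟶ N)
    (hf : f = p • 𝟙 N) (g : N ⟶ Q) (w : f ≫ g = 0)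
    (hS : (ShortComplex.mk f g w).ShortExact) (h : IsCohTrivial Q) : IsCohTrivial N := by
  intro H _ n
  obtain ⟨m, rfl⟩ : ∃ m, n = m + 1 := ⟨n - 1, by ring⟩
  have hS' := (Rep.shortExact_res H.subtype).2 hS
  have hf' : (Rep.resFunctor H.subtype).map f = p • 𝟙 (Rep.res H.subtype N) := by
    rw [hf, Functor.map_nsmul, CategoryTheory.Functor.map_id]
  exact isZero_tate_succ_of_mulP_ses (indTateAcyclic k) (hG.to_subgroup H) _ hf' _ _ hS' m (h H m)

omit [Fintype G] [Fact p.Prime] in
theorem whiskerLeft_nsmul_id (X N : Rep.{u} k G) (n : ℕ) :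
    X ◁ (n • 𝟙 N) = n • 𝟙 (X ⊗ N) := by
  have h := Functor.map_nsmul (F := tensorLeft X) (f := 𝟙 N) (n := n)
  rw [CategoryTheory.Functor.map_id] at h
  exact h

/-- Serre IX Thm 9, torsion-free case: `G` a `p`-group, `R` cohomologically trivial with `p`
injective on `R`, `X` flat over `k` ⇒ `X ⊗ R` cohomologically trivial. -/
theorem isCohTrivial_tensor_of_torsionFree (hk : SplitsModP k p) (hG : IsPGroup p G)
    (R X : Rep.{u} k G) [Module.Flat k X.V] (hRtf : ∀ x : R.V, p • x = 0 → x = 0)
    (hR : IsCohTrivial R) : IsCohTrivial (X ⊗ R) := by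
  -- `R / p` is induced
  have hS2 := modPSES_shortExact p R hRtf
  have h0 : IsZero (tateCohomology (modP p R) 0) :=
    isZero_tate_X₃ hS2 0 (isZero_tate_of_isCohTrivial hR 0) (isZero_tate_of_isCohTrivial hR (0 + 1))
  obtain ⟨e⟩ := nonempty_indRep_iso_of_tate' hk hG (modP p R) (modP_torsion p _) 0 h0
  -- `X ⊗ (R / p)` is cohomologically trivial
  have hXRp : IsCohTrivial (X ⊗ modP p R) :=
    IsCohTrivial.of_iso (whiskerLeftIso X e) (isCohTrivial_tensor_indRep X _)
  -- `X ⊗ R` is cohomologically trivial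
  have hS2' := shortExact_whiskerLeft X hS2
  refine isCohTrivial_of_mulP_ses hG _ ?_ _ _ hS2' hXRp
  exact whiskerLeft_nsmul_id X _ p

omit [Fintype G] [Fact p.Prime] in
theorem isCohTrivial_tensor_X₃ (X : Rep.{u} k G) [Module.Flat k X.V]
    {S : ShortComplex (Rep.{u} k G)} (hS : S.ShortExact)
    (h₁ : IsCohTrivial (X ⊗ S.X₁)) (h₂ : IsCohTrivial (X ⊗ S.X₂)) : IsCohTrivial (X ⊗ S.X₃) := by
  have h := shortExact_whiskerLeft X hS
  intro H _ n
  have hS' := (Rep.shortExact_res H.subtype).2 h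
  exact isZero_tate_X₃ hS' n (h₂ H n) (h₁ H (n + 1))

theorem isCohTrivial_tensor (hk : SplitsModP k p) (hkp : ∀ x : k, p • x = 0 → x = 0)
    (hG : IsPGroup p G) (M X : Rep.{u} k G) [Module.Flat k X.V] (hM : IsCohTrivial M) :
    IsCohTrivial (X ⊗ M) := by
  -- the free cover `0 → R → F → M → 0`
  have hS := freeCoverSES_shortExact M
  have hF : IsCohTrivial (freeCoverSES M).X₂ := isCohTrivial_indRep' (M.V →₀ k)
  have hM₃ : IsCohTrivial (freeCoverSES M).X₃ := hM
  have hR : IsCohTrivial (freeCoverSES M).X₁ := IsCohTrivial.X₁ hS hF hM₃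
  have hRtf : ∀ x : ((freeCoverSES M).X₁ : Rep.{u} k G).V, p • x = 0 → x = 0 :=
    kernel_freeCoverMap_torsionFree M p hkp
  have hXR : IsCohTrivial (X ⊗ (freeCoverSES M).X₁) :=
    isCohTrivial_tensor_of_torsionFree hk hG _ X hRtf hR
  have hXF : IsCohTrivial (X ⊗ freeCover M) :=
    isCohTrivial_tensor_indRep X (M.V →₀ k)
  have hXF' : IsCohTrivial (X ⊗ (freeCoverSES M).X₂) := hXF
  have hfin : IsCohTrivial (X ⊗ (freeCoverSES M).X₃) := isCohTrivial_tensor_X₃ X hS hXR hXF'
  exact hfin

end Main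


section Int

variable {G : Type} [Group G] [Fintype G] {p : ℕ} [Fact p.Prime]

/-- **CT2 for `p`-groups over `ℤ`.** -/
theorem isCohTrivial_tensor_int (hG : IsPGroup p G) (M X : Rep.{0} ℤ G) (hX : Module.Free ℤ X.V)
    (hM : IsCohTrivial M) : IsCohTrivial (X ⊗ M) := by
  have e : (AddCommGroup.toIntModule _ : Module ℤ X.V) = X.hV2 := Subsingleton.elim _ _
  have hflat : @Module.Flat ℤ X.V _ _ X.hV2 := by
    rw [← e]
    infer_instance
  haveI := hflat
  exact isCohTrivial_tensor (splitsModP_int p)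
    (fun x hx => by
      rcases (smul_eq_zero.1 hx) with h | h
      · exact absurd h (Fact.out : p.Prime).ne_zero
      · exact h) hG M X hM

end Int

end Fermat.Agent.PT.FG.TensorCohTriv9
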