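/-
Program F (S55, Poitou–Tate), chapter FG (helper8).

`tateZero : Interface8.TateZero` UNCONDITIONAL, hence `tn20 : Interface8.TN20`:
`SplitTensorAcyclic` from (S3) (`SplitCoh8`), Nakayama–Tate and `X ⊗ -` for `p`-groups (helper9)
and the Sylow reduction (helper2).
-/
import Mathlib
import Fermat.Agent.PT.FG.TateZero8
import Fermat.Agent.PT.FG.SplitCoh8
import Fermat.Agent.PT.FG.TensorCohTriv9
import Fermat.Agent.PT.FG.D0Bridge18

set_option autoImplicit false

open CategoryTheory groupCohomology MonoidalCategory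

namespace Fermat.Agent.PT.FG.TateZeroFinal8

open Fermat.Agent.PT.FG.Interface8 Fermat.Agent.PT.FG.SplitModule8

noncomputable section

/-- For a fundamental class `[σ]` and `X` `ℤ`-free: `Hⁿ(P, X ⊗ C(σ)) = 0` (`n ≥ 1`) for every
`p`-subgroup `P`. -/
theorem isZero_res_tensor_split {G : Type} [Group G] [Finite G] {p : ℕ} [Fact p.Prime]
    {C : Rep ℤ G} (σ : cocycles₂ C) (h : IsFundClass p C (H2π C σ)) (X : Rep ℤ G)
    (hfree : Module.Free ℤ X.V) (P : Subgroup G) (hP : IsPGroup p P) (n : ℕ) :
    Limits.IsZero (groupCohomology (Rep.res P.subtype (X ⊗ split σ)) (n + 1)) := by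
  let _ : Fintype P := Fintype.ofFinite P
  have h1 := SplitCoh8.isCohTrivial_res_split σ h P hP
  have h2 : CohTriv9.IsCohTrivial (Rep.res P.subtype X ⊗ Rep.res P.subtype (split σ)) :=
    TensorCohTriv9.isCohTrivial_tensor_int hP _ (Rep.res P.subtype X) hfree h1
  have h3 := TensorCohTriv9.isZero_tate_of_isCohTrivial h2 ((n + 1 : ℕ) : ℤ)
  have h4 : Limits.IsZero (groupCohomology
      (Rep.res P.subtype X ⊗ Rep.res P.subtype (split σ)) (n + 1)) :=
    h3.of_iso ((TateCohomology.isoGroupCohomology (n + 1)).app _).symm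
  exact h4

/-- `SplitTensorAcyclic` holds. -/
theorem splitTensorAcyclic : TateZero8.SplitTensorAcyclic := by
  intro G _ _ p _ C σ h X hfree _
  obtain ⟨P⟩ : Nonempty (Sylow p G) := inferInstance
  constructor
  · intro y hy
    exact Transfer2.eq_zero_of_isZero_sylow (X ⊗ split σ) P 1
      (isZero_res_tensor_split σ h X hfree (P : Subgroup G) P.isPGroup' 0) y hy
  · intro y hy
    exact Transfer2.eq_zero_of_isZero_sylow (X ⊗ split σ) P 2
      (isZero_res_tensor_split σ h X hfree (P : Subgroup G) P.isPGroup' 1) y hy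

/-- **(T0)** Tate's theorem in degrees `0 → 2` with coefficients. -/
theorem tateZero : TateZero := TateZero8.tateZero_of splitTensorAcyclic

/-- **(TN20)** Tate–Nakayama duality in degrees `(2, 0)`. -/
theorem tn20 : TN20 := D0Bridge18.tn20_of_tateZero tateZero

end

end Fermat.Agent.PT.FG.TateZeroFinal8
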