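/-
Program F (S55, Poitou–Tate), chapter FG, leaf (D): **TN11 unconditionally** (helper1).

`tn11 : Interface8.TN11` = `TNOneOne1.tn11_of` applied to helper8's `TateZeroFinal8.tn20`.
-/
import Fermat.Agent.PT.FG.TNOneOne1
import Fermat.Agent.PT.FG.TateZeroFinal8

set_option autoImplicit false

namespace Fermat.Agent.PT.FG.TNOneOneFinal1

/-- **(TN11) Tate–Nakayama duality in degrees `(1,1)`**: the cup product
`H¹(G, Hom(M, C)) × H¹(G, M) → H²(G, C)` is nondegenerate on `p`-primary parts. -/
theorem tn11 : Interface8.TN11 := TNOneOne1.tn11_of TateZeroFinal8.tn20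

end Fermat.Agent.PT.FG.TNOneOneFinal1
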