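/-
Program F (S55, Poitou–Tate), chapter FG, row (FG-TN02), owner helper3.

**TN02 UNCONDITIONALLY**, and its RAW cochain forms consumed by chapter PRO (`IndTN20`):

* `tn02 : TN02_3.TN02` (= `TN02_3.tn02_of_tn11 TNOneOneFinal1.tn11`);
* `tn02r_raw : IndTN20.TN02rProp ρ ρC p`, `tn02l_raw : IndTN20.TN02lProp ρ ρC p` for a finite group
  `G`, `ρ` a representation on a finite free `ℤ`-module `P` (ANY `Module ℤ P` instance), `ρC` a
  representation with a class `u ∈ H²(G, C)` satisfying `Interface8.IsFundClass p (Rep.of ρC) u`.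
-/
import Mathlib
import Fermat.Agent.PT.FG.TN02_3
import Fermat.Agent.PT.FG.TNOneOneFinal1
import Fermat.Agent.PT.PRO.IndTN20

set_option autoImplicit false

open CategoryTheory groupCohomology

namespace Fermat.Agent.PT.FG.TN02Final3

open Fermat.Agent.PT.FG.Interface8 Fermat.Agent.PT.FG.TNDual1 Fermat.Agent.PT.FG.TN02_3
open Fermat.Agent.PT.PRO.HyperLevel25 Fermat.Agent.PT.PRO.IndTN20

/-- **(TN02) Tate–Nakayama duality in degrees `(0,2)`**, unconditionally. -/
theorem tn02 : TN02 := tn02_of_tn11 TNOneOneFinal1.tn11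

section Raw

variable {G : Type} [Group G]
  {P C : Type} [AddCommGroup P] [Module ℤ P] [AddCommGroup C] [Module ℤ C]
  (ρ : Representation ℤ G P) (ρC : Representation ℤ G C)

lemma mem_cocycles₂_of_dTwo {z : G × G → P} (hz : dTwo ρ z = 0) :
    z ∈ cocycles₂ (Rep.of ρ) := by
  rw [mem_cocycles₂_iff]
  intro g h j
  have := congrFun hz (g, h, j)
  rw [dTwo_apply, Pi.zero_apply] at this
  show z (g * h, j) + z (g, h) = ρ g (z (h, j)) + z (g, h * j)
  refine Eq.symm ?_
  rw [← sub_eq_zero, ← this]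
  abel

lemma dTwo_of_mem_cocycles₂ (x : cocycles₂ (Rep.of ρ)) : dTwo ρ (x : G × G → P) = 0 := by
  funext ⟨g, h, j⟩
  have := (mem_cocycles₂_iff (A := Rep.of ρ) x).1 x.2 g h j
  rw [dTwo_apply, Pi.zero_apply]
  have h' : (x : G × G → P) (g * h, j) + (x : G × G → P) (g, h) =
      ρ g ((x : G × G → P) (h, j)) + (x : G × G → P) (g, h * j) := this
  rw [sub_eq_zero, sub_add_eq_add_sub, sub_eq_iff_eq_add, ← h', add_comm]

lemma mem_coboundaries₂_iff (z : G × G → P) :
    z ∈ coboundaries₂ (Rep.of ρ) ↔ ∃ t : G → P, z = dOne ρ t := by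
  constructor
  · rintro ⟨t, ht⟩
    exact ⟨t, ht.symm⟩
  · rintro ⟨t, ht⟩
    exact ⟨t, ht.symm⟩

/-- The morphism of representations attached to an invariant element of `Hom(P, C)`. -/
def homOfInvariant (y : P →ₗ[ℤ] C) (hy : ∀ g, Representation.linHom ρ ρC g y = y) :
    Rep.of ρ ⟶ Rep.of ρC :=
  Rep.ofHom ⟨y, fun g => by
    ext m
    have := LinearMap.congr_fun (hy g) (ρ g m)
    rw [Representation.linHom_apply, LinearMap.comp_apply, LinearMap.comp_apply,
      ← Module.End.mul_apply, ← map_mul, inv_mul_cancel, map_one, Module.End.one_apply] at this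
    exact this.symm⟩

lemma homOfInvariant_hom (y : P →ₗ[ℤ] C) (hy : ∀ g, Representation.linHom ρ ρC g y = y) (m : P) :
    (homOfInvariant ρ ρC y hy).hom m = y m := rfl

lemma invariant_of_hom (f : Rep.of ρ ⟶ Rep.of ρC) (g : G) :
    Representation.linHom ρ ρC g f.hom.toLinearMap = f.hom.toLinearMap := by
  ext m
  rw [Representation.linHom_apply, LinearMap.comp_apply, LinearMap.comp_apply]
  show ρC g (f.hom (ρ g⁻¹ m)) = f.hom m
  have := Rep.hom_comm_apply f g⁻¹ m
  have h2 : f.hom (ρ g⁻¹ m) = ρC g⁻¹ (f.hom m) := this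
  rw [h2, ← Module.End.mul_apply, ← map_mul, mul_inv_cancel, map_one, Module.End.one_apply]

omit [Group G] in
lemma sum_ofFinite_eq [Fintype G] {A : Type} [AddCommMonoid A] (F : G → A) :
    (letI := Fintype.ofFinite G; ∑ g : G, F g) = ∑ g : G, F g := by
  refine Finset.sum_congr ?_ fun _ _ => rfl
  ext g
  simp

variable [Fintype G] [DecidableEq G] (p : ℕ) [Fact p.Prime]

omit [DecidableEq G] in
/-- **Raw TN02, right kernel**, in the shape consumed by `IndTN20.TNr`. -/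
theorem tn02r_raw (hfree : Module.Free ℤ P) (hfin : Module.Finite ℤ P)
    (u : H2 (Rep.of ρC)) (hu : IsFundClass p (Rep.of ρC) u) : TN02rProp ρ ρC p := by
  intro z hz ⟨t', ht'⟩ hy
  have hT := (tn02 G p (Rep.of ρC) u hu (Rep.of ρ) (free_int_congr _ _ hfree)
    (finite_int_congr _ _ hfin)).1
  let x : cocycles₂ (Rep.of ρ) := ⟨z, mem_cocycles₂_of_dTwo ρ hz⟩
  have hx0 : H2π (Rep.of ρ) x = 0 := by
    refine hT _ ⟨1, ?_⟩ fun f => ?_
    · rw [pow_one, ← map_nsmul, H2π_eq_zero_iff]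
      refine (mem_coboundaries₂_iff ρ _).2 ⟨t', ?_⟩
      rw [← ht']
      funext q
      exact (@Nat.cast_smul_eq_nsmul ℤ P _ _ ‹Module ℤ P› p (z q)).symm
    · rw [pushH_two_H2π, H2π_eq_zero_iff]
      obtain ⟨u', hu'⟩ := hy f.hom.toLinearMap (invariant_of_hom ρ ρC f)
      exact (mem_coboundaries₂_iff ρC _).2 ⟨u', hu'⟩
  rw [H2π_eq_zero_iff] at hx0
  exact (mem_coboundaries₂_iff ρ _).1 hx0

omit [DecidableEq G] in
/-- **Raw TN02, left kernel**, in the shape consumed by `IndTN20.TNl`. -/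
theorem tn02l_raw (hfree : Module.Free ℤ P) (hfin : Module.Finite ℤ P)
    (u : H2 (Rep.of ρC)) (hu : IsFundClass p (Rep.of ρC) u) : TN02lProp ρ ρC p := by
  intro y hy ⟨e', he'⟩ hz
  have hT := (tn02 G p (Rep.of ρC) u hu (Rep.of ρ) (free_int_congr _ _ hfree)
    (finite_int_congr _ _ hfin)).2 (homOfInvariant ρ ρC y hy)
  have h1 : ∀ m : P, p ^ 1 • (homOfInvariant ρ ρC y hy).hom m =
      (letI := Fintype.ofFinite G; ∑ g : G, ρC g (e' (ρ g⁻¹ m))) := by
    intro m
    rw [sum_ofFinite_eq, pow_one]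
    have h3 := LinearMap.congr_fun he' m
    rw [LinearMap.sum_apply] at h3
    exact (@Nat.cast_smul_eq_nsmul ℤ C _ _ ‹Module ℤ C› p (y m)).symm.trans h3
  have h2 : ∀ x : H2 (Rep.of ρ), pushH 2 (homOfInvariant ρ ρC y hy) x = 0 := by
    intro x
    induction x using H2_induction_on with | @h x =>
    rw [pushH_two_H2π, H2π_eq_zero_iff]
    obtain ⟨u', hu'⟩ := hz x (dTwo_of_mem_cocycles₂ ρ x)
    exact (mem_coboundaries₂_iff ρC _).2 ⟨u', hu'⟩
  obtain ⟨φ, hφ⟩ := hT ⟨1, e', h1⟩ h2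
  refine ⟨φ, LinearMap.ext fun m => ?_⟩
  have := hφ m
  rw [sum_ofFinite_eq] at this
  rw [LinearMap.sum_apply]
  exact this

end Raw

end Fermat.Agent.PT.FG.TN02Final3
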