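import Mathlib

/-
Program F (S55), chapter FG, block (I1): inflation–restriction in degree 2.
Owner: helper1.

For a normal subgroup `S ≤ G` and `A : Rep k G` with `H¹(S, A) = 0` the sequence
`0 → H²(G ⧸ S, A^S) → H²(G, A) → H²(S, A)` is exact (Mathlib only has the degree-1 statement
`groupCohomology.H1InfRes`).  The proof is a direct cocycle manipulation.

Main exports (namespace `Fermat.Agent.PT.FG.InfResTwo1`):
* `Coc`, `dd`, `H1Vanish` : plain-function forms of "2-cocycle", "coboundary of a 1-cochain",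
  "`H¹(S, A) = 0`";
* `exists_factor`, `exists_descend` : the cocycle-level cores (no quotient types);
* `map_one_two` : `groupCohomology.map 1 φ 2 = 0`;
* `H2InfRes A S : ShortComplex (ModuleCat k)`;
* `H2InfRes_f_mono`, `H2InfRes_f_injective`, `H2InfRes_exact` (hypothesis `IsZero (H1 (res S.subtype A))`);
* `card_H2_dvd` : `#H²(G, A) ∣ #H²(G ⧸ S, A^S) * #H²(S, A)`.
-/

set_option autoImplicit false

open CategoryTheory groupCohomology Rep

universe u

namespace Fermat.Agent.PT.FG.InfResTwo1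

variable {k G : Type u} [CommRing k] [Group G] {A : Rep.{u} k G} {S : Subgroup G}

/-- The 2-cocycle identity for a function `G × G → A` (Mathlib's `mem_cocycles₂_iff` shape). -/
def Coc (f : G × G → A) : Prop :=
  ∀ g h j : G, f (g * h, j) + f (g, h) = A.ρ g (f (h, j)) + f (g, h * j)

/-- The coboundary of a 1-cochain (Mathlib's `d₁₂` as a plain function). -/
def dd (c : G → A) : G × G → A := fun p => A.ρ p.1 (c p.2) - c (p.1 * p.2) + c p.1

@[simp] lemma dd_apply (c : G → A) (g h : G) : dd c (g, h) = A.ρ g (c h) - c (g * h) + c g := rfl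

lemma coc_dd (c : G → A) : Coc (dd c) := by
  intro g h j
  simp only [dd_apply, map_add, map_sub, map_mul, Module.End.mul_apply, mul_assoc]
  abel

lemma Coc.add {f f' : G × G → A} (hf : Coc f) (hf' : Coc f') : Coc (f + f') := by
  intro g h j
  simp only [Pi.add_apply, map_add]
  rw [add_add_add_comm, hf g h j, hf' g h j]; abel

lemma Coc.sub {f f' : G × G → A} (hf : Coc f) (hf' : Coc f') : Coc (f - f') := by
  intro g h j
  simp only [Pi.sub_apply, map_sub]
  have h1 := hf g h j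
  have h2 := hf' g h j
  have : f (g * h, j) - f' (g * h, j) + (f (g, h) - f' (g, h))
      = (f (g * h, j) + f (g, h)) - (f' (g * h, j) + f' (g, h)) := by abel
  rw [this, h1, h2]; abel

lemma Coc.map_one_fst {f : G × G → A} (hf : Coc f) (g : G) : f (1, g) = f (1, 1) := by
  have := hf 1 1 g
  simp only [one_mul, map_one, Module.End.one_apply] at this
  exact (add_left_cancel this).symm

lemma Coc.map_one_snd {f : G × G → A} (hf : Coc f) (g : G) : f (g, 1) = A.ρ g (f (1, 1)) := by
  have := hf g 1 1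
  simp only [mul_one] at this
  exact add_left_cancel (a := f (g, 1)) (by rw [this, add_comm])

/-- Cocycle form of `H¹(S, A) = 0`. -/
def H1Vanish (A : Rep.{u} k G) (S : Subgroup G) : Prop :=
  ∀ φ : S → A, (∀ s t : S, φ (s * t) = A.ρ s (φ t) + φ s) → ∃ b : A, ∀ s : S, φ s = A.ρ s b - b

lemma step1 {f : G × G → A} (u : S → A)
    (hu : ∀ s t : S, f (s, t) = A.ρ s (u t) - u (s * t) + u s) :
    ∃ c : G → A, ∀ s t : G, s ∈ S → t ∈ S → (f - dd c) (s, t) = 0 := by
  classical
  refine ⟨fun g => if h : g ∈ S then u ⟨g, h⟩ else 0, fun s t hs ht => ?_⟩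
  have hst : s * t ∈ S := S.mul_mem hs ht
  simp only [Pi.sub_apply, dd_apply, dif_pos hs, dif_pos ht, dif_pos hst]
  have := hu ⟨s, hs⟩ ⟨t, ht⟩
  simp only [MulMemClass.mk_mul_mk] at this
  rw [this]; abel

section coset

variable (S) in
/-- coset representative -/
noncomputable def τ (g : G) : G := Quotient.out (g : G ⧸ S)

lemma τ_mem (g : G) : (τ S g)⁻¹ * g ∈ S := by
  have : ((τ S g : G) : G ⧸ S) = (g : G ⧸ S) := QuotientGroup.out_eq' _
  exact QuotientGroup.eq.1 this

lemma τ_mul_mem (g : G) {n : G} (hn : n ∈ S) : τ S (g * n) = τ S g := by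
  unfold τ
  rw [QuotientGroup.mk_mul_of_mem g hn]

lemma τ_τ (g : G) : τ S (τ S g) = τ S g := by
  unfold τ
  rw [QuotientGroup.out_eq']

lemma τ_mem_of_mem {n : G} (hn : n ∈ S) : τ S n ∈ S := by
  have h1 := τ_mem (S := S) n
  have h2 : (τ S n)⁻¹ ∈ S := by simpa using S.mul_mem h1 (S.inv_mem hn)
  simpa using S.inv_mem h2

lemma τ_mem_left [S.Normal] (n g : G) (hn : n ∈ S) : τ S (n * g) = τ S g := by
  have : n * g = g * (g⁻¹ * n * g) := by group
  rw [this]
  exact τ_mul_mem g (Subgroup.Normal.conj_mem' ‹_› n hn g)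

end coset

lemma step2a {f : G × G → A} (hf : Coc f) (h0 : ∀ s t : G, s ∈ S → t ∈ S → f (s, t) = 0) :
    ∃ c : G → A, ∀ g n : G, n ∈ S → (f + dd c) (g, n) = 0 := by
  have f11 : f (1, 1) = 0 := h0 1 1 S.one_mem S.one_mem
  let c : G → A := fun g => f (τ S g, (τ S g)⁻¹ * g)
  have cS : ∀ n, n ∈ S → c n = 0 := fun n hn => h0 _ _ (τ_mem_of_mem hn) (τ_mem n)
  have cτ : ∀ g, c (τ S g) = 0 := fun g => by
    show f (τ S (τ S g), (τ S (τ S g))⁻¹ * τ S g) = 0
    rw [τ_τ, inv_mul_cancel, hf.map_one_snd, f11, map_zero]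
  refine ⟨c, fun g n hn => ?_⟩
  have key : ∀ t n, n ∈ S → (f + dd c) (τ S t, n) = 0 := fun t n hn => by
    simp only [Pi.add_apply, dd_apply, cS n hn, map_zero, cτ]
    show f (τ S t, n) + (0 - f (τ S (τ S t * n), (τ S (τ S t * n))⁻¹ * (τ S t * n)) + 0) = 0
    rw [τ_mul_mem _ hn, τ_τ, inv_mul_cancel_left]; abel
  have hc := hf.add (coc_dd c)
  have hS : ∀ s t, s ∈ S → t ∈ S → (f + dd c) (s, t) = 0 := fun s t hs ht => by
    simp only [Pi.add_apply, dd_apply, cS s hs, cS t ht, cS _ (S.mul_mem hs ht), h0 s t hs ht,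
      map_zero]; abel
  have := hc (τ S g) ((τ S g)⁻¹ * g) n
  rw [mul_inv_cancel_left, key g _ (τ_mem g), hS _ _ (τ_mem g) hn, map_zero,
    key g _ (S.mul_mem (τ_mem g) hn)] at this
  simpa using this


lemma Coc.right_inv {f : G × G → A} (hf : Coc f) (h0 : ∀ g n : G, n ∈ S → f (g, n) = 0)
    (g h : G) {n : G} (hn : n ∈ S) : f (g, h * n) = f (g, h) := by
  have := hf g h n
  rw [h0 _ _ hn, h0 _ _ hn, map_zero, zero_add, zero_add] at this
  exact this.symm

lemma Coc.right_inv_τ {f : G × G → A} (hf : Coc f) (h0 : ∀ g n : G, n ∈ S → f (g, n) = 0)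
    (g h : G) : f (g, τ S h) = f (g, h) := by
  have := hf.right_inv h0 g (τ S h) (τ_mem (S := S) h)
  rw [mul_inv_cancel_left] at this
  exact this.symm

lemma step2b [S.Normal] (hS1 : H1Vanish A S) {f : G × G → A} (hf : Coc f)
    (h0 : ∀ g n : G, n ∈ S → f (g, n) = 0) :
    ∃ c : G → A, (∀ g n : G, n ∈ S → (f - dd c) (g, n) = 0) ∧
      (∀ n h : G, n ∈ S → (f - dd c) (n, h) = 0) := by
  have hr := fun g h {n} (hn : n ∈ S) => hf.right_inv h0 g h hn
  -- for each h the function n ↦ f (n, h) is a 1-cocycle on S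
  have hcoc : ∀ h : G, ∀ s t : S, f ((s * t : S), h) = A.ρ s (f (t, h)) + f (s, h) := by
    intro h s t
    have := hf s t h
    rw [h0 _ _ t.2] at this
    have h2 : f ((s : G), (t : G) * h) = f (s, h) := by
      have : (t : G) * h = h * (h⁻¹ * t * h) := by group
      rw [this]
      exact hr _ _ (Subgroup.Normal.conj_mem' ‹_› _ t.2 h)
    rw [h2, add_zero] at this
    exact this
  choose B hB using fun h : G => hS1 (fun n : S => f (n, h)) (hcoc h)
  let b : G → A := fun h => B (τ S h) - B (τ S 1)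
  have hτ1 : τ S (1 : G) ∈ S := τ_mem_of_mem S.one_mem
  have hb : ∀ (h : G) (n : G) (hn : n ∈ S), A.ρ n (b h) - b h = f (n, h) := by
    intro h n hn
    have h1 := hB (τ S h) ⟨n, hn⟩
    have h2 := hB (τ S 1) ⟨n, hn⟩
    simp only at h1 h2
    rw [hf.right_inv_τ h0] at h1
    rw [h0 _ _ hτ1] at h2
    show A.ρ n (B (τ S h) - B (τ S 1)) - (B (τ S h) - B (τ S 1)) = f (n, h)
    rw [map_sub, h1]
    have : A.ρ n (B (τ S 1)) = B (τ S 1) := by
      rw [← sub_eq_zero]; exact h2.symm
    rw [this]; abel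
  have hbS : ∀ n, n ∈ S → b n = 0 := fun n hn => by
    show B (τ S n) - B (τ S 1) = 0
    have : τ S n = τ S 1 := by
      have := τ_mul_mem (S := S) 1 hn
      rwa [one_mul] at this
    rw [this, sub_self]
  have hbr : ∀ g n, n ∈ S → b (g * n) = b g := fun g n hn => by
    show B (τ S (g * n)) - _ = B (τ S g) - _
    rw [τ_mul_mem g hn]
  have hbl : ∀ n g, n ∈ S → b (n * g) = b g := fun n g hn => by
    show B (τ S (n * g)) - _ = B (τ S g) - _
    rw [τ_mem_left n g hn]
  refine ⟨b, fun g n hn => ?_, fun n h hn => ?_⟩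
  · simp only [Pi.sub_apply, dd_apply, h0 g n hn, hbS n hn, hbr g n hn, map_zero]; abel
  · simp only [Pi.sub_apply, dd_apply, hbS n hn, hbl n h hn, ← hb h n hn]; abel

lemma step3 [S.Normal] {f : G × G → A} (hf : Coc f)
    (h0 : ∀ g n : G, n ∈ S → f (g, n) = 0) (h1 : ∀ n h : G, n ∈ S → f (n, h) = 0) :
    (∀ g h n : G, n ∈ S → f (g, h * n) = f (g, h)) ∧
    (∀ g h n : G, n ∈ S → f (g * n, h) = f (g, h)) ∧
    (∀ g h n : G, n ∈ S → A.ρ n (f (g, h)) = f (g, h)) := by
  have hr := fun g h {n} (hn : n ∈ S) => hf.right_inv h0 g h hn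
  have hl : ∀ g h n : G, n ∈ S → f (g * n, h) = f (g, h) := by
    intro g h n hn
    have := hf g n h
    rw [h0 _ _ hn, h1 _ _ hn, map_zero, zero_add, add_zero] at this
    rw [this]
    have e : n * h = h * (h⁻¹ * n * h) := by group
    rw [e]
    exact hr _ _ (Subgroup.Normal.conj_mem' ‹_› _ hn h)
  refine ⟨fun g h n hn => hr g h hn, hl, fun g h n hn => ?_⟩
  have := hf n g h
  rw [h1 _ _ hn, h1 _ _ hn, add_zero, add_zero] at this
  rw [← this]
  have e : n * g = g * (g⁻¹ * n * g) := by group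
  rw [e]
  exact hl _ _ _ (Subgroup.Normal.conj_mem' ‹_› _ hn g)


lemma dd_add (c c' : G → A) : dd (c + c') = dd c + dd c' := by
  funext ⟨g, h⟩
  simp only [dd_apply, Pi.add_apply, map_add]; abel

lemma dd_sub (c c' : G → A) : dd (c - c') = dd c - dd c' := by
  funext ⟨g, h⟩
  simp only [dd_apply, Pi.sub_apply, map_sub]; abel

/-- Cocycle-level core of exactness of `H²(G/S, A^S) → H²(G, A) → H²(S, A)` when `H¹(S, A) = 0`:
a 2-cocycle of `G` whose restriction to `S` is a coboundary is cohomologous to a cocycle which is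
constant on cosets of `S` in both variables and has `S`-invariant values. -/
theorem exists_factor [S.Normal] (hS1 : H1Vanish A S) {f : G × G → A} (hf : Coc f)
    (u : S → A) (hu : ∀ s t : S, f (s, t) = A.ρ s (u t) - u (s * t) + u s) :
    ∃ c : G → A,
      (∀ g h n : G, n ∈ S → (f - dd c) (g, h * n) = (f - dd c) (g, h)) ∧
      (∀ g h n : G, n ∈ S → (f - dd c) (g * n, h) = (f - dd c) (g, h)) ∧
      (∀ g h n : G, n ∈ S → A.ρ n ((f - dd c) (g, h)) = (f - dd c) (g, h)) := by
  obtain ⟨c₁, h1⟩ := step1 u hu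
  have hf1 : Coc (f - dd c₁) := hf.sub (coc_dd c₁)
  obtain ⟨c₂, h2⟩ := step2a hf1 h1
  have hf2 : Coc (f - dd c₁ + dd c₂) := hf1.add (coc_dd c₂)
  obtain ⟨c₃, h3, h3'⟩ := step2b hS1 hf2 h2
  have hf3 : Coc (f - dd c₁ + dd c₂ - dd c₃) := hf2.sub (coc_dd c₃)
  have e : f - dd (c₁ - c₂ + c₃) = f - dd c₁ + dd c₂ - dd c₃ := by
    rw [dd_add, dd_sub]; abel
  refine ⟨c₁ - c₂ + c₃, ?_⟩
  rw [e]
  exact step3 hf3 h3 h3'


/-- Cocycle-level core of injectivity of inflation in degree 2 when `H¹(S, A) = 0`. -/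
theorem exists_descend [S.Normal] (hS1 : H1Vanish A S) {f : G × G → A} (hf : Coc f)
    (hr : ∀ g h n : G, n ∈ S → f (g, h * n) = f (g, h))
    (hl : ∀ g h n : G, n ∈ S → f (g * n, h) = f (g, h))
    (c : G → A) (hc : f = dd c) :
    ∃ c' : G → A, f = dd c' ∧ (∀ g n : G, n ∈ S → c' (g * n) = c' g) ∧
      (∀ g n : G, n ∈ S → A.ρ n (c' g) = c' g) := by
  set a₀ := f (1, 1) with ha₀
  have hSS : ∀ n m : G, n ∈ S → m ∈ S → f (n, m) = a₀ := fun n m hn hm => by
    have h1 := hl 1 m n hn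
    have h2 := hr 1 1 m hm
    rw [one_mul] at h1 h2
    rw [h1, h2]
  have ha₀inv : ∀ n : G, n ∈ S → A.ρ n a₀ = a₀ := fun n hn => by
    rw [← hf.map_one_snd n]
    have := hl 1 1 n hn
    rwa [one_mul] at this
  have hcoc : ∀ s t : S, (c ((s * t : S) : G) - a₀) = A.ρ s (c t - a₀) + (c s - a₀) := by
    intro s t
    have := hSS s t s.2 t.2
    rw [hc, dd_apply] at this
    rw [map_sub, ha₀inv s s.2, Subgroup.coe_mul]
    rw [← this]; abel
  obtain ⟨b, hb⟩ := hS1 (fun n : S => c n - a₀) hcoc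
  let c' : G → A := fun g => c g - (A.ρ g b - b)
  have hc'S : ∀ n : G, n ∈ S → c' n = a₀ := fun n hn => by
    have := hb ⟨n, hn⟩
    simp only at this
    show c n - (A.ρ n b - b) = a₀
    rw [← this]; abel
  have hdd : f = dd c' := by
    rw [hc]
    funext ⟨g, h⟩
    simp only [dd_apply, c', map_sub, map_mul, Module.End.mul_apply]
    abel
  have hc'r : ∀ g n : G, n ∈ S → c' (g * n) = c' g := fun g n hn => by
    have h1 : f (g, n) = A.ρ g a₀ := by
      have := hr g 1 n hn
      rw [one_mul] at this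
      rw [this, hf.map_one_snd]
    rw [hdd, dd_apply, hc'S n hn] at h1
    have : A.ρ g a₀ - c' (g * n) + c' g - A.ρ g a₀ = 0 := by rw [h1]; abel
    rw [eq_comm, ← sub_eq_zero]
    rw [← this]; abel
  refine ⟨c', hdd, hc'r, fun g n hn => ?_⟩
  have h1 : f (n, g) = a₀ := by
    have := hl 1 g n hn
    rw [one_mul] at this
    rw [this, hf.map_one_fst]
  rw [hdd, dd_apply, hc'S n hn] at h1
  have e : n * g = g * (g⁻¹ * n * g) := by group
  rw [e, hc'r _ _ (Subgroup.Normal.conj_mem' ‹_› _ hn g)] at h1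
  have : A.ρ n (c' g) - c' g + a₀ - a₀ = 0 := by rw [h1]; abel
  rw [← sub_eq_zero, ← this]; abel


section homology

open Limits

theorem map_one_two {H : Type u} [Group H] {A : Rep.{u} k H} {B : Rep.{u} k G}
    (φ : res (1 : G →* H) A ⟶ B) : map (1 : G →* H) φ 2 = 0 := by
  rw [← cancel_epi (H2π A)]
  ext x
  rw [H2π_comp_map, comp_zero]
  simp only [ModuleCat.hom_comp, LinearMap.coe_comp, Function.comp_apply, ModuleCat.hom_zero,
    LinearMap.zero_apply]
  rw [H2π_eq_zero_iff]
  refine ⟨fun _ => φ.hom (x (1, 1)), ?_⟩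
  funext ⟨g, h⟩
  have := hom_comm_apply φ g (x (1, 1))
  have e1 : ((res (1 : G →* H) A).ρ g) (x (1, 1)) = x (1, 1) := by
    show A.ρ ((1 : G →* H) g) (x (1, 1)) = x (1, 1)
    simp
  rw [e1] at this
  rw [d₁₂_hom_apply]
  simp only
  rw [← this]
  show _ = (cochainsMap₂ (1 : G →* H) φ x) (g, h)
  simp [cochainsMap₂]


variable (A : Rep.{u} k G) (S : Subgroup G) [S.Normal]

/-- The short complex `H²(G ⧸ S, A^S) ⟶ H²(G, A) ⟶ H²(S, A)`. -/
@[simps X₁ X₂ X₃ f g]
noncomputable def H2InfRes :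
    ShortComplex (ModuleCat k) where
  X₁ := groupCohomology (A.quotientToInvariants S) 2
  X₂ := groupCohomology A 2
  X₃ := groupCohomology (res S.subtype A) 2
  f := map (QuotientGroup.mk' S) (ofHom <| A.ρ.quotientToInvariants_lift S) 2
  g := map S.subtype (𝟙 _) 2
  zero := by
    rw [← map_comp, Category.comp_id, groupCohomology.congr (QuotientGroup.mk'_comp_subtype S)
      (fun f φ => map f φ 2), map_one_two]

omit [S.Normal] in
variable {A S} in
lemma h1Vanish_of_isZero (h : IsZero (H1 (res S.subtype A))) : H1Vanish A S := by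
  intro φ hφ
  have hmem : φ ∈ cocycles₁ (res S.subtype A) := (mem_cocycles₁_iff (A := res S.subtype A) φ).2 hφ
  have h0 : H1π (res S.subtype A) ⟨φ, hmem⟩ = 0 :=
    (ModuleCat.isZero_iff_subsingleton.1 h).elim _ _
  obtain ⟨b, hb⟩ := (H1π_eq_zero_iff _).1 h0
  refine ⟨b, fun s => ?_⟩
  have := congr_fun hb s
  exact this.symm


theorem H2InfRes_f_mono (h : IsZero (H1 (res S.subtype A))) : Mono (H2InfRes A S).f := by
  rw [ModuleCat.mono_iff_injective, injective_iff_map_eq_zero]
  intro x hx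
  induction x using H2_induction_on with | @h x =>
  have key := H2π_comp_map_apply (QuotientGroup.mk' S) (ofHom <| A.ρ.quotientToInvariants_lift S) x
  have hx' := key.symm.trans hx
  rcases (H2π_eq_zero_iff _).1 hx' with ⟨c, hc⟩
  have hc' : ∀ g h : G, A.ρ g (c h) - c (g * h) + c g
      = (x ((g : G ⧸ S), (h : G ⧸ S))).1 :=
    fun g h => congr_fun hc (g, h)
  let f : G × G → A := fun p => (x ((p.1 : G ⧸ S), (p.2 : G ⧸ S))).1
  have hf : Coc f := by
    intro g h j
    have := (mem_cocycles₂_iff (A := A.quotientToInvariants S) x).1 x.2 (g : G ⧸ S) h j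
    exact congrArg Subtype.val this
  have hr : ∀ g h n : G, n ∈ S → f (g, h * n) = f (g, h) := fun g h n hn => by
    show (x (_, ((h * n : G) : G ⧸ S))).1 = _
    rw [QuotientGroup.mk_mul_of_mem h hn]
  have hl : ∀ g h n : G, n ∈ S → f (g * n, h) = f (g, h) := fun g h n hn => by
    show (x (((g * n : G) : G ⧸ S), _)).1 = _
    rw [QuotientGroup.mk_mul_of_mem g hn]
  obtain ⟨c', hfc', hc'r, hc'inv⟩ := exists_descend (h1Vanish_of_isZero h) hf hr hl c
    (funext fun ⟨g, h⟩ => (hc' g h).symm)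
  refine (H2π_eq_zero_iff _).2 ?_
  refine ⟨fun q => ⟨c' (Quotient.out q), fun s => hc'inv _ _ s.2⟩, ?_⟩
  funext ⟨q₁, q₂⟩
  induction q₁ using QuotientGroup.induction_on with | @H g =>
  induction q₂ using QuotientGroup.induction_on with | @H h =>
  apply Subtype.ext
  have hout : ∀ g : G, c' (Quotient.out (g : G ⧸ S)) = c' g := fun g => by
    obtain ⟨n, hn⟩ := QuotientGroup.mk_out_eq_mul S g
    rw [hn, hc'r _ _ n.2]
  have := congr_fun hfc' (g, h)
  simp only [dd_apply] at this
  show A.ρ g (c' (Quotient.out (h : G ⧸ S))) - c' (Quotient.out ((g : G ⧸ S) * (h : G ⧸ S)))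
    + c' (Quotient.out (g : G ⧸ S)) = f (g, h)
  rw [← QuotientGroup.mk_mul, hout, hout, hout, this]


/-- Given a `G`-representation `A` and a normal subgroup `S ≤ G` with `H¹(S, A) = 0`, the short
complex `H²(G ⧸ S, A^S) ⟶ H²(G, A) ⟶ H²(S, A)` is exact. -/
theorem H2InfRes_exact (h : IsZero (H1 (res S.subtype A))) : (H2InfRes A S).Exact := by
  rw [ShortComplex.moduleCat_exact_iff_ker_sub_range]
  intro x hx
  induction x using H2_induction_on with | @h x =>
  have hx0 : (H2InfRes A S).g.hom (H2π A x) = 0 := LinearMap.mem_ker.1 hx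
  have key := H2π_comp_map_apply S.subtype (𝟙 (res S.subtype A)) x
  have hx' := key.symm.trans hx0
  rcases (H2π_eq_zero_iff _).1 hx' with ⟨u, hu⟩
  have hu' : ∀ s t : S, x ((s : G), (t : G)) = A.ρ s (u t) - u (s * t) + u s :=
    fun s t => (congr_fun hu (s, t)).symm
  have hf : Coc (A := A) x := (mem_cocycles₂_iff (A := A) x).1 x.2
  obtain ⟨c, hr, hl, hinv⟩ := exists_factor (h1Vanish_of_isZero h) hf u hu'
  let F : (G ⧸ S) × (G ⧸ S) → (A.quotientToInvariants S) := fun q =>
    ⟨(⇑x - dd c) (Quotient.out q.1, Quotient.out q.2), fun s => hinv _ _ _ s.2⟩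
  have hout : ∀ g h : G, (F ((g : G ⧸ S), (h : G ⧸ S))).1 = (⇑x - dd c) (g, h) := fun g h => by
    obtain ⟨n, hn⟩ := QuotientGroup.mk_out_eq_mul S g
    obtain ⟨m, hm⟩ := QuotientGroup.mk_out_eq_mul S h
    show (⇑x - dd c) (Quotient.out (g : G ⧸ S), Quotient.out (h : G ⧸ S)) = _
    rw [hn, hm, hr _ _ _ m.2, hl _ _ _ n.2]
  have hfc : Coc (⇑x - dd c) := hf.sub (coc_dd c)
  have hF : F ∈ cocycles₂ (A.quotientToInvariants S) := by
    rw [mem_cocycles₂_iff]
    intro q₁ q₂ q₃
    induction q₁ using QuotientGroup.induction_on with | @H g₁ =>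
    induction q₂ using QuotientGroup.induction_on with | @H g₂ =>
    induction q₃ using QuotientGroup.induction_on with | @H g₃ =>
    apply Subtype.ext
    have := hfc g₁ g₂ g₃
    rw [← hout, ← hout, ← hout, ← hout] at this
    exact this
  refine ⟨H2π _ ⟨F, hF⟩, ?_⟩
  have key2 := H2π_comp_map_apply (QuotientGroup.mk' S) (ofHom <| A.ρ.quotientToInvariants_lift S)
    ⟨F, hF⟩
  refine key2.trans ?_
  symm
  refine (H2π_eq_iff _ _).2 ⟨c, ?_⟩
  funext ⟨g, h⟩
  have := hout g h
  simp only [Pi.sub_apply, dd_apply] at this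
  show A.ρ g (c h) - c (g * h) + c g = x (g, h) - (F ((g : G ⧸ S), (h : G ⧸ S))).1
  rw [this]; abel


theorem H2InfRes_f_injective (h : IsZero (H1 (res S.subtype A))) :
    Function.Injective (H2InfRes A S).f.hom := by
  have := H2InfRes_f_mono A S h
  exact (ModuleCat.mono_iff_injective _).1 inferInstance

/-- Elementwise form of exactness: a class of `H²(G, A)` restricting to `0` on `S` is inflated
from `G ⧸ S`. -/
theorem exists_inf_eq_of_res_eq_zero (h : IsZero (H1 (res S.subtype A))) (x : H2 A)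
    (hx : (map S.subtype (𝟙 (res S.subtype A)) 2).hom x = 0) :
    ∃ y : H2 (A.quotientToInvariants S),
      (map (QuotientGroup.mk' S) (ofHom <| A.ρ.quotientToInvariants_lift S) 2).hom y = x := by
  have hex := H2InfRes_exact A S h
  rw [ShortComplex.moduleCat_exact_iff_ker_sub_range] at hex
  exact hex (LinearMap.mem_ker.2 hx)

end homology

section card

/-- For an exact sequence `0 → X → Y → Z` of additive groups with `X`, `Z` finite, `Y` is finite
and `#Y ∣ #X * #Z`. -/
theorem card_dvd_of_exact {X Y Z : Type*} [AddCommGroup X] [AddCommGroup Y] [AddCommGroup Z]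
    [Finite X] [Finite Z] (f : X →+ Y) (g : Y →+ Z) (hf : Function.Injective f)
    (hfg : ∀ y, g y = 0 → ∃ x, f x = y) :
    Finite Y ∧ Nat.card Y ∣ Nat.card X * Nat.card Z := by
  have hker : g.ker ≤ f.range := fun y hy => by
    obtain ⟨x, hx⟩ := hfg y (AddMonoidHom.mem_ker.1 hy)
    exact ⟨x, hx⟩
  have : Finite f.range := Finite.of_surjective f.rangeRestrict f.rangeRestrict_surjective
  have : Finite g.ker := Finite.of_injective (AddSubgroup.inclusion hker)
    (AddSubgroup.inclusion_injective hker)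
  have : Finite g.range := Finite.of_injective g.range.subtype g.range.subtype_injective
  have : Finite (Y ⧸ g.ker) := Finite.of_equiv _ (QuotientAddGroup.quotientKerEquivRange g).symm.toEquiv
  have hY : Finite Y :=
    Finite.of_equiv _ (AddSubgroup.addGroupEquivQuotientProdAddSubgroup (s := g.ker)).symm
  refine ⟨hY, ?_⟩
  have h1 : Nat.card Y = Nat.card (Y ⧸ g.ker) * Nat.card g.ker :=
    AddSubgroup.card_eq_card_quotient_mul_card_addSubgroup g.ker
  have h2 : Nat.card (Y ⧸ g.ker) = Nat.card g.range :=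
    Nat.card_congr (QuotientAddGroup.quotientKerEquivRange g).toEquiv
  have h3 : Nat.card g.range ∣ Nat.card Z := AddSubgroup.card_addSubgroup_dvd_card g.range
  have h4 : Nat.card g.ker ∣ Nat.card X := by
    have e : Nat.card f.range = Nat.card X :=
      Nat.card_congr (Equiv.ofInjective f hf).symm
    rw [← e]
    have := AddSubgroup.card_dvd_of_le hker
    exact this
  rw [h1, h2, mul_comm (Nat.card X)]
  exact Nat.mul_dvd_mul h3 h4

variable (A : Rep.{u} k G) (S : Subgroup G) [S.Normal]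

open Limits in
/-- `#H²(G, A) ∣ #H²(G ⧸ S, A^S) * #H²(S, A)` when `H¹(S, A) = 0` and the outer groups are
finite. -/
theorem card_H2_dvd (h : IsZero (H1 (res S.subtype A)))
    [Finite (H2 (A.quotientToInvariants S))] [Finite (H2 (res S.subtype A))] :
    Finite (H2 A) ∧
      Nat.card (H2 A) ∣ Nat.card (H2 (A.quotientToInvariants S)) * Nat.card (H2 (res S.subtype A)) := by
  refine card_dvd_of_exact (X := H2 (A.quotientToInvariants S)) (Y := H2 A)
    (Z := H2 (res S.subtype A)) (H2InfRes A S).f.hom.toAddMonoidHom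
    (H2InfRes A S).g.hom.toAddMonoidHom (H2InfRes_f_injective A S h) ?_
  intro y hy
  exact exists_inf_eq_of_res_eq_zero A S h y hy

end card

end Fermat.Agent.PT.FG.InfResTwo1
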