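/-
Program F (S55), chapter FG (used by GLOB-D1 and LOC), helper19:
**inflation–restriction in degrees 1 and 2 in "flexible" form**, i.e. for three *different* group
types `S --ι--> G --π--> Q` (`ι` injective, `π` surjective, `ι.range = π.ker`) and three
representations `B : Rep k Q`, `A : Rep k G`, `C : Rep k S` related by
`φ : res π B ⟶ A` (injective, with image the `ι(S)`-invariants) and `ψ : res ι A ⟶ C` (bijective).

The degree-2 statements are derived from the cocycle-level cores `exists_factor` /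
`exists_descend` of helper1's `PT/FG/InfResTwo1.lean`.

Main exports (namespace `Fermat.Agent.PT.FG.InfResFlex19`):
* `H1Vanishes A` (cocycle form of `H¹ = 0`), `h1Vanishes_iff_subsingleton`;
* `h1_flex` : `H¹(S, C) = 0` and `H¹(Q, B) = 0` imply `H¹(G, A) = 0`;
* `infRes2_flex` : if `H¹(S, C) = 0` then `map π φ 2` is injective and every class killed by
  `map ι ψ 2` is in the range of `map π φ 2`;
* `res_inf_eq_zero` : `map ι ψ 2 (map π φ 2 y) = 0`;
* `card_H2_dvd_flex` : `Finite (H2 A)` and `#H²(G, A) ∣ #H²(Q, B) * #H²(S, C)`.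
-/
import Mathlib
import Fermat.Agent.PT.FG.InfResTwo1

set_option autoImplicit false
set_option linter.style.longLine false
set_option linter.unusedSectionVars false

open CategoryTheory groupCohomology

namespace Fermat.Agent.PT.FG.InfResFlex19

open Fermat.Agent.PT.FG.InfResTwo1

variable {k G Q S : Type} [CommRing k] [Group G] [Group Q] [Group S]

/-- `H¹ = 0` in cocycle form. -/
def H1Vanishes {G : Type} [Group G] (A : Rep k G) : Prop :=
  ∀ f : cocycles₁ A, ∃ a : A.V, ∀ g : G, f g = A.ρ g a - a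

theorem h1Vanishes_iff_subsingleton {G : Type} [Group G] (A : Rep k G) :
    H1Vanishes A ↔ Subsingleton (H1 A) := by
  constructor
  · intro h
    refine ⟨fun x y => ?_⟩
    suffices ∀ z : H1 A, z = 0 by rw [this x, this y]
    intro z
    induction z using H1_induction_on with
    | h f =>
      rw [H1π_eq_zero_iff]
      obtain ⟨a, ha⟩ := h f
      exact ⟨a, funext fun g => (ha g).symm⟩
  · intro h f
    have : H1π A f = 0 := Subsingleton.elim _ _
    rw [H1π_eq_zero_iff] at this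
    obtain ⟨a, ha⟩ := this
    exact ⟨a, fun g => (congrFun ha g).symm⟩

/-- **Degree-1 dévissage, flexible form.** -/
theorem h1_flex (ι : S →* G) (π : G →* Q) (hπ : Function.Surjective π) (hex : ι.range = π.ker)
    (B : Rep k Q) (A : Rep k G) (C : Rep k S) (φ : Rep.res π B ⟶ A) (ψ : Rep.res ι A ⟶ C)
    (hψ : Function.Bijective ψ.hom) (hφ : Function.Injective φ.hom)
    (hφim : ∀ a : A.V, (∀ s : S, A.ρ (ι s) a = a) → ∃ b : B.V, φ.hom b = a)
    (hS : H1Vanishes C) (hQ : H1Vanishes B) : H1Vanishes A := by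
  intro f
  have hf : ∀ g h : G, f (g * h) = A.ρ g (f h) + f g := (mem_cocycles₁_iff (f : G → A.V)).mp f.2
  have hψc : ∀ (s : S) (a : A.V), ψ.hom (A.ρ (ι s) a) = C.ρ s (ψ.hom a) :=
    fun s a => Rep.hom_comm_apply ψ s a
  have hφc : ∀ (g : G) (b : B.V), φ.hom (B.ρ (π g) b) = A.ρ g (φ.hom b) :=
    fun g b => Rep.hom_comm_apply φ g b
  -- restrict to `S`
  have hfS : (fun s : S => ψ.hom (f (ι s))) ∈ cocycles₁ C := by
    rw [mem_cocycles₁_iff]
    intro s t
    simp only [map_mul, hf, map_add, hψc]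
  obtain ⟨c, hc⟩ := hS ⟨_, hfS⟩
  obtain ⟨a₀, rfl⟩ := hψ.2 c
  have hfι : ∀ s : S, f (ι s) = A.ρ (ι s) a₀ - a₀ := by
    intro s
    apply hψ.1
    have := hc s
    simp only [cocycles₁.coe_mk] at this
    rw [this, map_sub, hψc]
  -- modify `f` by a coboundary
  set f' : G → A.V := fun g => f g - (A.ρ g a₀ - a₀) with hf'
  have hf'c : ∀ g h : G, f' (g * h) = A.ρ g (f' h) + f' g := by
    intro g h
    simp only [hf', hf, map_mul, map_sub, Module.End.mul_apply]
    abel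
  have hf'ι : ∀ s : S, f' (ι s) = 0 := by
    intro s
    simp only [hf', hfι, sub_self]
  have hf'r : ∀ (g : G) (s : S), f' (g * ι s) = f' g := by
    intro g s
    rw [hf'c, hf'ι, map_zero, zero_add]
  have hf'inv : ∀ (g : G) (s : S), A.ρ (ι s) (f' g) = f' g := by
    intro g s
    have h1 : f' (ι s * g) = A.ρ (ι s) (f' g) := by rw [hf'c, hf'ι, add_zero]
    have h2 : g⁻¹ * ι s * g ∈ ι.range := by
      rw [hex, MonoidHom.mem_ker]
      have : ι s ∈ π.ker := hex ▸ ⟨s, rfl⟩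
      rw [MonoidHom.mem_ker] at this
      simp [this]
    obtain ⟨s', hs'⟩ := h2
    have h3 : ι s * g = g * ι s' := by rw [hs']; group
    rw [← h1, h3, hf'r]
  -- descend to `Q`
  have hker : ∀ g g' : G, π g = π g' → f' g = f' g' := by
    intro g g' h
    have : g'⁻¹ * g ∈ ι.range := by
      rw [hex, MonoidHom.mem_ker, map_mul, map_inv, h, inv_mul_cancel]
    obtain ⟨s, hs⟩ := this
    have : g = g' * ι s := by rw [hs]; group
    rw [this, hf'r]
  choose sec hsec using hπ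
  choose bb hbb using fun g : G => hφim (f' g) (hf'inv g)
  set F : Q → B.V := fun q => bb (sec q) with hF
  have hFφ : ∀ g : G, φ.hom (F (π g)) = f' g := by
    intro g
    rw [hF, hbb]
    exact hker _ _ (hsec (π g))
  have hFc : F ∈ cocycles₁ B := by
    rw [mem_cocycles₁_iff]
    intro q q'
    apply hφ
    obtain ⟨g, rfl⟩ : ∃ g, π g = q := ⟨sec q, hsec q⟩
    obtain ⟨g', rfl⟩ : ∃ g', π g' = q' := ⟨sec q', hsec q'⟩
    rw [← map_mul, hFφ, map_add, hφc, hFφ, hFφ, hf'c]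
  obtain ⟨b, hb⟩ := hQ ⟨F, hFc⟩
  refine ⟨φ.hom b + a₀, fun g => ?_⟩
  have h1 : f' g = A.ρ g (φ.hom b) - φ.hom b := by
    rw [← hFφ g]
    have := hb (π g)
    simp only [cocycles₁.coe_mk] at this
    rw [this, map_sub, hφc]
  have h2 : f g = f' g + (A.ρ g a₀ - a₀) := by simp only [hf']; abel
  rw [h2, h1, map_add]
  abel

/-- `H¹(S, C) = 0` (cocycle form) gives helper1's `H1Vanish A π.ker`. -/
theorem h1Vanish_ker (ι : S →* G) (π : G →* Q) (hex : ι.range = π.ker)
    (A : Rep k G) (C : Rep k S) (ψ : Rep.res ι A ⟶ C) (hψ : Function.Bijective ψ.hom)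
    (hS : H1Vanishes C) : H1Vanish A π.ker := by
  intro f₀ hf₀
  have hmem : ∀ s : S, ι s ∈ π.ker := fun s => hex ▸ ⟨s, rfl⟩
  have hψc : ∀ (s : S) (a : A.V), ψ.hom (A.ρ (ι s) a) = C.ρ s (ψ.hom a) :=
    fun s a => Rep.hom_comm_apply ψ s a
  have hc : (fun s : S => ψ.hom (f₀ ⟨ι s, hmem s⟩)) ∈ cocycles₁ C := by
    rw [mem_cocycles₁_iff]
    intro s t
    have h1 := hf₀ ⟨ι s, hmem s⟩ ⟨ι t, hmem t⟩
    have h2 : (⟨ι (s * t), hmem (s * t)⟩ : π.ker) = ⟨ι s, hmem s⟩ * ⟨ι t, hmem t⟩ :=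
      Subtype.ext (map_mul ι s t)
    show ψ.hom (f₀ ⟨ι (s * t), hmem (s * t)⟩) = _
    rw [h2, h1, map_add, hψc]
  obtain ⟨c, hc'⟩ := hS ⟨_, hc⟩
  obtain ⟨a₀, rfl⟩ := hψ.2 c
  refine ⟨a₀, fun n => ?_⟩
  obtain ⟨s, hs⟩ : (n : G) ∈ ι.range := by rw [hex]; exact n.2
  have hn : n = ⟨ι s, hmem s⟩ := Subtype.ext hs.symm
  apply hψ.1
  have := hc' s
  simp only [cocycles₁.coe_mk] at this
  rw [hn, this, map_sub]
  show _ = ψ.hom (A.ρ (ι s) a₀) - _
  rw [hψc]

/-- **Inflation is injective in degree 2** (flexible form) when `H¹(S, C) = 0`. -/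
theorem map_inf_injective (ι : S →* G) (π : G →* Q) (hπ : Function.Surjective π)
    (hex : ι.range = π.ker)
    (B : Rep k Q) (A : Rep k G) (C : Rep k S) (φ : Rep.res π B ⟶ A) (ψ : Rep.res ι A ⟶ C)
    (hψ : Function.Bijective ψ.hom) (hφ : Function.Injective φ.hom)
    (hφim : ∀ a : A.V, (∀ s : S, A.ρ (ι s) a = a) → ∃ b : B.V, φ.hom b = a)
    (hS : H1Vanishes C) : Function.Injective (groupCohomology.map π φ 2) := by
  have hN := h1Vanish_ker ι π hex A C ψ hψ hS
  have hmem : ∀ s : S, ι s ∈ π.ker := fun s => hex ▸ ⟨s, rfl⟩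
  have hφc : ∀ (g : G) (b : B.V), φ.hom (B.ρ (π g) b) = A.ρ g (φ.hom b) :=
    fun g b => Rep.hom_comm_apply φ g b
  rw [injective_iff_map_eq_zero]
  intro y hy
  induction y using H2_induction_on with | @h x =>
  have key := H2π_comp_map_apply π φ x
  have hx' := key.symm.trans hy
  rcases (H2π_eq_zero_iff _).1 hx' with ⟨c, hc⟩
  let f : G × G → A := fun p => φ.hom (x (π p.1, π p.2))
  have hc' : ∀ g h : G, A.ρ g (c h) - c (g * h) + c g = f (g, h) := fun g h => congr_fun hc (g, h)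
  have hf : Coc f := by
    intro g h j
    have := congrArg φ.hom ((mem_cocycles₂_iff (A := B) x).1 x.2 (π g) (π h) (π j))
    rw [map_add, map_add, hφc] at this
    show φ.hom (x (π (g * h), π j)) + φ.hom (x (π g, π h))
      = A.ρ g (φ.hom (x (π h, π j))) + φ.hom (x (π g, π (h * j)))
    rw [map_mul, map_mul]
    exact this
  have hr : ∀ g h n : G, n ∈ π.ker → f (g, h * n) = f (g, h) := fun g h n hn => by
    show φ.hom (x (π g, π (h * n))) = φ.hom (x (π g, π h))
    rw [map_mul, MonoidHom.mem_ker.1 hn, mul_one]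
  have hl : ∀ g h n : G, n ∈ π.ker → f (g * n, h) = f (g, h) := fun g h n hn => by
    show φ.hom (x (π (g * n), π h)) = φ.hom (x (π g, π h))
    rw [map_mul, MonoidHom.mem_ker.1 hn, mul_one]
  obtain ⟨c', hfc', hc'r, hc'inv⟩ := exists_descend hN hf hr hl c
    (funext fun ⟨g, h⟩ => (hc' g h).symm)
  have hinv : ∀ (g : G) (s : S), A.ρ (ι s) (c' g) = c' g := fun g s => hc'inv g (ι s) (hmem s)
  choose sec hsec using hπ
  choose bb hbb using fun g : G => hφim (c' g) (hinv g)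
  have hout : ∀ g : G, φ.hom (bb (sec (π g))) = c' g := fun g => by
    rw [hbb]
    have hn : g⁻¹ * sec (π g) ∈ π.ker := by
      rw [MonoidHom.mem_ker, map_mul, map_inv, hsec, inv_mul_cancel]
    have := hc'r g _ hn
    rwa [mul_inv_cancel_left] at this
  refine (H2π_eq_zero_iff _).2 ⟨fun q => bb (sec q), ?_⟩
  funext ⟨q₁, q₂⟩
  obtain ⟨g, rfl⟩ : ∃ g, π g = q₁ := ⟨sec q₁, hsec q₁⟩
  obtain ⟨h, rfl⟩ : ∃ h, π h = q₂ := ⟨sec q₂, hsec q₂⟩
  apply hφ
  have := congr_fun hfc' (g, h)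
  simp only [dd_apply] at this
  show φ.hom (B.ρ (π g) (bb (sec (π h))) - bb (sec (π g * π h)) + bb (sec (π g))) = f (g, h)
  rw [map_add, map_sub, hφc, ← map_mul, hout, hout, hout, this]

/-- **Exactness at `H²(G, A)`** (flexible form) when `H¹(S, C) = 0`: a class killed by
restriction is an inflation. -/
theorem exists_inf_eq_of_res_eq_zero (ι : S →* G) (π : G →* Q) (hι : Function.Injective ι)
    (hπ : Function.Surjective π) (hex : ι.range = π.ker)
    (B : Rep k Q) (A : Rep k G) (C : Rep k S) (φ : Rep.res π B ⟶ A) (ψ : Rep.res ι A ⟶ C)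
    (hψ : Function.Bijective ψ.hom) (hφ : Function.Injective φ.hom)
    (hφim : ∀ a : A.V, (∀ s : S, A.ρ (ι s) a = a) → ∃ b : B.V, φ.hom b = a)
    (hS : H1Vanishes C) (x : H2 A) (hx : groupCohomology.map ι ψ 2 x = 0) :
    ∃ y : H2 B, groupCohomology.map π φ 2 y = x := by
  have hN := h1Vanish_ker ι π hex A C ψ hψ hS
  have hmem : ∀ s : S, ι s ∈ π.ker := fun s => hex ▸ ⟨s, rfl⟩
  have hφc : ∀ (g : G) (b : B.V), φ.hom (B.ρ (π g) b) = A.ρ g (φ.hom b) :=
    fun g b => Rep.hom_comm_apply φ g b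
  have hψc : ∀ (s : S) (a : A.V), ψ.hom (A.ρ (ι s) a) = C.ρ s (ψ.hom a) :=
    fun s a => Rep.hom_comm_apply ψ s a
  induction x using H2_induction_on with | @h x =>
  have key := H2π_comp_map_apply ι ψ x
  have hx' := key.symm.trans hx
  rcases (H2π_eq_zero_iff _).1 hx' with ⟨u', hu'⟩
  have hu'' : ∀ s t : S, C.ρ s (u' t) - u' (s * t) + u' s = ψ.hom (x (ι s, ι t)) :=
    fun s t => congr_fun hu' (s, t)
  choose pre hpre using hψ.2
  have hιeq : ∀ n : π.ker, ∃ s : S, ι s = n := fun n => by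
    have : (n : G) ∈ ι.range := by rw [hex]; exact n.2
    exact this
  choose sN hsN using hιeq
  have hsNmul : ∀ s t : π.ker, sN (s * t) = sN s * sN t := fun s t => by
    apply hι
    rw [map_mul, hsN, hsN, hsN, Subgroup.coe_mul]
  let u : π.ker → A := fun n => pre (u' (sN n))
  have hu : ∀ s t : π.ker, x ((s : G), (t : G)) = A.ρ s (u t) - u (s * t) + u s := by
    intro s t
    apply hψ.1
    have h1 := hu'' (sN s) (sN t)
    rw [hsN, hsN] at h1
    rw [← h1, map_add, map_sub]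
    show _ = ψ.hom (A.ρ (s : G) (pre (u' (sN t)))) - ψ.hom (pre (u' (sN (s * t)))) +
      ψ.hom (pre (u' (sN s)))
    rw [hpre, hpre, hsNmul]
    conv_rhs => rw [← hsN s, hψc, hpre]
  have hf : Coc (A := A) x := (mem_cocycles₂_iff (A := A) x).1 x.2
  obtain ⟨c, hr, hl, hinv⟩ := exists_factor hN hf u hu
  have hfc : Coc (⇑x - dd c) := hf.sub (coc_dd c)
  choose sec hsec using hπ
  choose bb hbb using fun p : G × G => hφim ((⇑x - dd c) p)
    (fun s => hinv p.1 p.2 (ι s) (hmem s))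
  let F : Q × Q → B := fun q => bb (sec q.1, sec q.2)
  have hout : ∀ g h : G, φ.hom (F (π g, π h)) = (⇑x - dd c) (g, h) := fun g h => by
    show φ.hom (bb (sec (π g), sec (π h))) = _
    rw [hbb]
    have hn : g⁻¹ * sec (π g) ∈ π.ker := by
      rw [MonoidHom.mem_ker, map_mul, map_inv, hsec, inv_mul_cancel]
    have hm : h⁻¹ * sec (π h) ∈ π.ker := by
      rw [MonoidHom.mem_ker, map_mul, map_inv, hsec, inv_mul_cancel]
    have h1 := hl g (sec (π h)) _ hn
    have h2 := hr g h _ hm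
    rw [mul_inv_cancel_left] at h1 h2
    rw [h1, h2]
  have hF : F ∈ cocycles₂ B := by
    rw [mem_cocycles₂_iff]
    intro q₁ q₂ q₃
    obtain ⟨g₁, rfl⟩ : ∃ g, π g = q₁ := ⟨sec q₁, hsec q₁⟩
    obtain ⟨g₂, rfl⟩ : ∃ g, π g = q₂ := ⟨sec q₂, hsec q₂⟩
    obtain ⟨g₃, rfl⟩ : ∃ g, π g = q₃ := ⟨sec q₃, hsec q₃⟩
    apply hφ
    have := hfc g₁ g₂ g₃
    rw [← hout, ← hout, ← hout, ← hout, ← hφc, ← map_add φ.hom, ← map_add φ.hom, map_mul,
      map_mul] at this
    exact this
  refine ⟨H2π B ⟨F, hF⟩, ?_⟩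
  have key2 := H2π_comp_map_apply π φ ⟨F, hF⟩
  refine key2.trans ?_
  symm
  refine (H2π_eq_iff _ _).2 ⟨c, ?_⟩
  funext ⟨g, h⟩
  have := hout g h
  simp only [Pi.sub_apply, dd_apply] at this
  show A.ρ g (c h) - c (g * h) + c g = x (g, h) - φ.hom (F (π g, π h))
  rw [this]; abel

/-- **`res ∘ inf = 0` in degree 2** (flexible form). -/
theorem res_inf_eq_zero (ι : S →* G) (π : G →* Q) (hex : ι.range = π.ker)
    (B : Rep k Q) (A : Rep k G) (C : Rep k S) (φ : Rep.res π B ⟶ A) (ψ : Rep.res ι A ⟶ C)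
    (y : H2 B) : groupCohomology.map ι ψ 2 (groupCohomology.map π φ 2 y) = 0 := by
  have h1 : π.comp ι = 1 := by
    ext s
    have : ι s ∈ π.ker := hex ▸ ⟨s, rfl⟩
    simpa using MonoidHom.mem_ker.1 this
  have hcomp : groupCohomology.map π φ 2 ≫ groupCohomology.map ι ψ 2 = 0 := by
    rw [← groupCohomology.map_comp, groupCohomology.congr h1 (fun f φ => groupCohomology.map f φ 2),
      map_one_two]
  have := congrArg (fun m => m.hom y) hcomp
  simpa using this

/-- **Inflation–restriction in degree 2, flexible form** (the shape requested by LOC and GLOB):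
if `H¹(S, C) = 0` then `0 → H²(Q, B) → H²(G, A) → H²(S, C)` is exact. -/
theorem infRes2_flex (ι : S →* G) (π : G →* Q) (hι : Function.Injective ι)
    (hπ : Function.Surjective π) (hex : ι.range = π.ker)
    (B : Rep k Q) (A : Rep k G) (C : Rep k S) (φ : Rep.res π B ⟶ A) (ψ : Rep.res ι A ⟶ C)
    (hψ : Function.Bijective ψ.hom) (hφ : Function.Injective φ.hom)
    (hφim : ∀ a : A.V, (∀ s : S, A.ρ (ι s) a = a) → ∃ b : B.V, φ.hom b = a)
    (hS : ∀ f : cocycles₁ C, ∃ c : C.V, ∀ s : S, f s = C.ρ s c - c) :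
    Function.Injective (groupCohomology.map π φ 2) ∧
      ∀ x : H2 A, groupCohomology.map ι ψ 2 x = 0 → ∃ y : H2 B, groupCohomology.map π φ 2 y = x :=
  ⟨map_inf_injective ι π hπ hex B A C φ ψ hψ hφ hφim hS,
    exists_inf_eq_of_res_eq_zero ι π hι hπ hex B A C φ ψ hψ hφ hφim hS⟩

/-- **The "ugly step", flexible form**: `#H²(G, A) ∣ #H²(Q, B) · #H²(S, C)` (and `H²(G, A)` is
finite) when `H¹(S, C) = 0`. -/
theorem card_H2_dvd_flex (ι : S →* G) (π : G →* Q) (hι : Function.Injective ι)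
    (hπ : Function.Surjective π) (hex : ι.range = π.ker)
    (B : Rep k Q) (A : Rep k G) (C : Rep k S) (φ : Rep.res π B ⟶ A) (ψ : Rep.res ι A ⟶ C)
    (hψ : Function.Bijective ψ.hom) (hφ : Function.Injective φ.hom)
    (hφim : ∀ a : A.V, (∀ s : S, A.ρ (ι s) a = a) → ∃ b : B.V, φ.hom b = a)
    (hS : H1Vanishes C) [Finite (H2 B)] [Finite (H2 C)] :
    Finite (H2 A) ∧ Nat.card (H2 A) ∣ Nat.card (H2 B) * Nat.card (H2 C) := by
  obtain ⟨hinj, hexact⟩ := infRes2_flex ι π hι hπ hex B A C φ ψ hψ hφ hφim hS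
  exact card_dvd_of_exact (X := H2 B) (Y := H2 A) (Z := H2 C)
    (groupCohomology.map π φ 2).hom.toAddMonoidHom (groupCohomology.map ι ψ 2).hom.toAddMonoidHom
    hinj hexact

end Fermat.Agent.PT.FG.InfResFlex19
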