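/-
Program F (S55, Poitou–Tate), chapter FG, block (IRp): `p`-PRIMARY inflation–restriction in
degree 2, owner helper2.  Built on helper1's cocycle-level cores (`InfResTwo1`) and `Transfer2`.

Class-formation hypotheses (`Interface8.IsFundClass p`) give `H¹(H, C) = 0` only for `p`-subgroups
`H`; then `H¹(N, C)` is only known to have no `p`-primary torsion.  This file proves what survives:

* cores (plain functions, `Coc`/`dd` language of `InfResTwo1`): `H1Killed A S m`,
  `exists_descend_of_killed`, `exists_factor_of_killed`, `exists_descend_of_pPrimary` (the shape of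
  PRO's weakened `INJ2`), `exists_coprime_h1Killed`;
* (i) `nsmul_eq_zero_of_inf_eq_zero`: `m • H¹(S, A) = 0 ⇒ m` kills `ker (inf : H²(G/S, A^S) → H²(G, A))`;
* (ii) `exists_inf_eq_nsmul_of_res_eq_zero`: `res_S x = 0 ⇒ m • x ∈ range inf`;
* `h1_noPTorsion_of_pSubgroups`, `exists_coprime_nsmul_eq_zero`;
* `eq_zero_of_inf_eq_zero_of_pPrimary`, `exists_inf_eq_of_res_eq_zero_of_pPrimary`: exactness of
  `0 → H²(G/S, A^S) → H²(G, A) → H²(S, A)` on `p`-primary classes;
* `card_primaryTorsion_H2_dvd`: `#H²(G, A)(p) ∣ #H²(G/S, A^S)(p) * #H²(S, A)(p)`;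
* Interface8 shapes: `infRes2Primary : InfRes2Primary`, `uglyStepPrimary : UglyStepPrimary`,
  `infMap_ker_killed`.
-/
import Mathlib
import Fermat.Agent.PT.FG.InfResTwo1
import Fermat.Agent.PT.FG.Transfer2
import Fermat.Agent.PT.FG.Interface8

set_option autoImplicit false
set_option linter.unusedSectionVars false

open CategoryTheory groupCohomology Rep

universe u

namespace Fermat.Agent.PT.FG.InfResPrimary2

open Fermat.Agent.PT.FG.InfResTwo1

variable {k G : Type u} [CommRing k] [Group G] {A : Rep.{u} k G} {S : Subgroup G}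

/-! ### Cocycle-level cores with an explicit coboundary hypothesis -/

lemma coc_nsmul {f : G × G → A} (hf : Coc f) (m : ℕ) : Coc (m • f) := by
  intro g h j
  simp only [Pi.smul_apply, map_nsmul]
  rw [← smul_add, hf g h j, smul_add]

lemma dd_nsmul (c : G → A) (m : ℕ) : dd (m • c) = m • dd c := by
  funext ⟨g, h⟩
  simp only [dd_apply, Pi.smul_apply, map_nsmul, smul_add, smul_sub]

/-- `exists_descend` of `InfResTwo1` with the vanishing of `H¹(S, A)` replaced by the ONE
coboundary statement which its proof uses. -/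
theorem exists_descend_aux [S.Normal] {f : G × G → A} (hf : Coc f)
    (hr : ∀ g h n : G, n ∈ S → f (g, h * n) = f (g, h))
    (hl : ∀ g h n : G, n ∈ S → f (g * n, h) = f (g, h))
    (c : G → A) (hc : f = dd c)
    (hb : ∃ b : A, ∀ n : S, c n - f (1, 1) = A.ρ n b - b) :
    ∃ c' : G → A, f = dd c' ∧ (∀ g n : G, n ∈ S → c' (g * n) = c' g) ∧
      (∀ g n : G, n ∈ S → A.ρ n (c' g) = c' g) := by
  set a₀ := f (1, 1) with ha₀
  obtain ⟨b, hb⟩ := hb
  let c' : G → A := fun g => c g - (A.ρ g b - b)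
  have hc'S : ∀ n : G, n ∈ S → c' n = a₀ := fun n hn => by
    have := hb ⟨n, hn⟩
    simp only at this
    show c n - (A.ρ n b - b) = a₀
    rw [← this]; abel
  have hdd : f = dd c' := by
    rw [hc]
    funext ⟨g, h⟩
    simp only [dd_apply, c', map_sub, map_mul, Module.End.mul_apply]
    abel
  have hc'r : ∀ g n : G, n ∈ S → c' (g * n) = c' g := fun g n hn => by
    have h1 : f (g, n) = A.ρ g a₀ := by
      have := hr g 1 n hn
      rw [one_mul] at this
      rw [this, hf.map_one_snd]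
    rw [hdd, dd_apply, hc'S n hn] at h1
    have : A.ρ g a₀ - c' (g * n) + c' g - A.ρ g a₀ = 0 := by rw [h1]; abel
    rw [eq_comm, ← sub_eq_zero]
    rw [← this]; abel
  refine ⟨c', hdd, hc'r, fun g n hn => ?_⟩
  have h1 : f (n, g) = a₀ := by
    have := hl 1 g n hn
    rw [one_mul] at this
    rw [this, hf.map_one_fst]
  rw [hdd, dd_apply, hc'S n hn] at h1
  have e : n * g = g * (g⁻¹ * n * g) := by group
  rw [e, hc'r _ _ (Subgroup.Normal.conj_mem' ‹_› _ hn g)] at h1
  have : A.ρ n (c' g) - c' g + a₀ - a₀ = 0 := by rw [h1]; abel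
  rw [← sub_eq_zero, ← this]; abel


/-- `step2b` of `InfResTwo1` with an explicit coboundary hypothesis. -/
lemma step2b_aux [S.Normal] {f : G × G → A} (hf : Coc f)
    (h0 : ∀ g n : G, n ∈ S → f (g, n) = 0)
    (hB : ∀ h : G, ∃ b : A, ∀ n : S, f (n, h) = A.ρ n b - b) :
    ∃ c : G → A, (∀ g n : G, n ∈ S → (f - dd c) (g, n) = 0) ∧
      (∀ n h : G, n ∈ S → (f - dd c) (n, h) = 0) := by
  have hr := fun g h {n} (hn : n ∈ S) => hf.right_inv h0 g h hn
  choose B hB using hB
  let b : G → A := fun h => B (τ S h) - B (τ S 1)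
  have hτ1 : τ S (1 : G) ∈ S := τ_mem_of_mem S.one_mem
  have hb : ∀ (h : G) (n : G) (hn : n ∈ S), A.ρ n (b h) - b h = f (n, h) := by
    intro h n hn
    have h1 := hB (τ S h) ⟨n, hn⟩
    have h2 := hB (τ S 1) ⟨n, hn⟩
    simp only at h1 h2
    rw [hf.right_inv_τ h0] at h1
    rw [h0 _ _ hτ1] at h2
    show A.ρ n (B (τ S h) - B (τ S 1)) - (B (τ S h) - B (τ S 1)) = f (n, h)
    rw [map_sub, h1]
    have : A.ρ n (B (τ S 1)) = B (τ S 1) := by
      rw [← sub_eq_zero]; exact h2.symm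
    rw [this]; abel
  have hbS : ∀ n, n ∈ S → b n = 0 := fun n hn => by
    show B (τ S n) - B (τ S 1) = 0
    have : τ S n = τ S 1 := by
      have := τ_mul_mem (S := S) 1 hn
      rwa [one_mul] at this
    rw [this, sub_self]
  have hbr : ∀ g n, n ∈ S → b (g * n) = b g := fun g n hn => by
    show B (τ S (g * n)) - _ = B (τ S g) - _
    rw [τ_mul_mem g hn]
  have hbl : ∀ n g, n ∈ S → b (n * g) = b g := fun n g hn => by
    show B (τ S (n * g)) - _ = B (τ S g) - _
    rw [τ_mem_left n g hn]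
  refine ⟨b, fun g n hn => ?_, fun n h hn => ?_⟩
  · simp only [Pi.sub_apply, dd_apply, h0 g n hn, hbS n hn, hbr g n hn, map_zero]; abel
  · simp only [Pi.sub_apply, dd_apply, hbS n hn, hbl n h hn, ← hb h n hn]; abel

/-- Cocycle form of "`m` kills `H¹(S, A)`". -/
def H1Killed (A : Rep.{u} k G) (S : Subgroup G) (m : ℕ) : Prop :=
  ∀ φ : S → A, (∀ s t : S, φ (s * t) = A.ρ s (φ t) + φ s) →
    ∃ b : A, ∀ s : S, m • φ s = A.ρ s b - b

/-- **Core (i).** If `m` kills `H¹(S, A)`: a 2-cocycle `f` of `G` which is constant on cosets of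
`S` in both variables and is a coboundary `dd c`, has `m • f = dd c'` with `c'` constant on cosets
with `S`-invariant values. -/
theorem exists_descend_of_killed [S.Normal] {m : ℕ} (hS1 : H1Killed A S m) {f : G × G → A}
    (hf : Coc f)
    (hr : ∀ g h n : G, n ∈ S → f (g, h * n) = f (g, h))
    (hl : ∀ g h n : G, n ∈ S → f (g * n, h) = f (g, h))
    (c : G → A) (hc : f = dd c) :
    ∃ c' : G → A, m • f = dd c' ∧ (∀ g n : G, n ∈ S → c' (g * n) = c' g) ∧
      (∀ g n : G, n ∈ S → A.ρ n (c' g) = c' g) := by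
  set a₀ := f (1, 1) with ha₀
  have hSS : ∀ n n' : G, n ∈ S → n' ∈ S → f (n, n') = a₀ := fun n n' hn hn' => by
    have h1 := hl 1 n' n hn
    have h2 := hr 1 1 n' hn'
    rw [one_mul] at h1 h2
    rw [h1, h2]
  have ha₀inv : ∀ n : G, n ∈ S → A.ρ n a₀ = a₀ := fun n hn => by
    rw [← hf.map_one_snd n]
    have := hl 1 1 n hn
    rwa [one_mul] at this
  have hcoc : ∀ s t : S, (c ((s * t : S) : G) - a₀) = A.ρ s (c t - a₀) + (c s - a₀) := by
    intro s t
    have := hSS s t s.2 t.2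
    rw [hc, dd_apply] at this
    rw [map_sub, ha₀inv s s.2, Subgroup.coe_mul]
    rw [← this]; abel
  obtain ⟨b, hb⟩ := hS1 (fun n : S => c n - a₀) hcoc
  refine exists_descend_aux (coc_nsmul hf m) (fun g h n hn => ?_) (fun g h n hn => ?_) (m • c)
    (by rw [dd_nsmul, hc]) ⟨b, fun n => ?_⟩
  · simp only [Pi.smul_apply, hr g h n hn]
  · simp only [Pi.smul_apply, hl g h n hn]
  · have := hb n
    simp only [Pi.smul_apply]
    rw [← this, smul_sub]

/-- **Core (ii).** If `m` kills `H¹(S, A)`: for a 2-cocycle `f` of `G` whose restriction to `S` is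
a coboundary, `m • f` is cohomologous to a cocycle which is constant on cosets of `S` in both
variables and has `S`-invariant values. -/
theorem exists_factor_of_killed [S.Normal] {m : ℕ} (hS1 : H1Killed A S m) {f : G × G → A}
    (hf : Coc f) (u : S → A) (hu : ∀ s t : S, f (s, t) = A.ρ s (u t) - u (s * t) + u s) :
    ∃ c : G → A,
      (∀ g h n : G, n ∈ S → (m • f - dd c) (g, h * n) = (m • f - dd c) (g, h)) ∧
      (∀ g h n : G, n ∈ S → (m • f - dd c) (g * n, h) = (m • f - dd c) (g, h)) ∧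
      (∀ g h n : G, n ∈ S → A.ρ n ((m • f - dd c) (g, h)) = (m • f - dd c) (g, h)) := by
  obtain ⟨c₁, h1⟩ := step1 u hu
  have hf1 : Coc (f - dd c₁) := hf.sub (coc_dd c₁)
  obtain ⟨c₂, h2⟩ := step2a hf1 h1
  have hf2 : Coc (f - dd c₁ + dd c₂) := hf1.add (coc_dd c₂)
  set f₂ := f - dd c₁ + dd c₂ with hf₂
  have hr := fun g h {n} (hn : n ∈ S) => hf2.right_inv h2 g h hn
  -- for each `h` the function `n ↦ f₂ (n, h)` is a 1-cocycle on `S`
  have hcoc : ∀ h : G, ∀ s t : S, f₂ ((s * t : S), h) = A.ρ s (f₂ (t, h)) + f₂ (s, h) := by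
    intro h s t
    have := hf2 s t h
    rw [h2 _ _ t.2] at this
    have h2' : f₂ ((s : G), (t : G) * h) = f₂ (s, h) := by
      have : (t : G) * h = h * (h⁻¹ * t * h) := by group
      rw [this]
      exact hr _ _ (Subgroup.Normal.conj_mem' ‹_› _ t.2 h)
    rw [h2', add_zero] at this
    exact this
  have hm2 : Coc (m • f₂) := coc_nsmul hf2 m
  have hm0 : ∀ g n : G, n ∈ S → (m • f₂) (g, n) = 0 := fun g n hn => by
    simp only [Pi.smul_apply, h2 g n hn, smul_zero]
  obtain ⟨c₃, h3, h3'⟩ := step2b_aux hm2 hm0 (fun h => by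
    obtain ⟨b, hb⟩ := hS1 (fun n : S => f₂ (n, h)) (hcoc h)
    exact ⟨b, fun n => by simpa using hb n⟩)
  have hf3 : Coc (m • f₂ - dd c₃) := hm2.sub (coc_dd c₃)
  have e : m • f - dd (m • c₁ - m • c₂ + c₃) = m • f₂ - dd c₃ := by
    rw [dd_add, dd_sub, dd_nsmul, dd_nsmul, hf₂, smul_add, smul_sub]; abel
  refine ⟨m • c₁ - m • c₂ + c₃, ?_⟩
  rw [e]
  exact step3 hf3 h3 h3'


lemma dd_zsmul (c : G → A) (a : ℤ) : dd (a • c) = a • dd c := by
  funext ⟨g, h⟩
  simp only [dd_apply, Pi.smul_apply, map_zsmul, smul_add, smul_sub]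

/-- **Core (i), `p`-primary cochain form** (the shape of `INJ2` in PRO's `GlobalDuality20.Hyp`):
`m` prime to `p` kills `H¹(S, A)`; `f` is a 2-cocycle constant on cosets of `S`; `f = dd c` for an
arbitrary 1-cochain `c`; `p ^ j • f = dd w` with `w` constant on cosets with `S`-invariant values.
Then `f = dd c'` with `c'` constant on cosets with `S`-invariant values. -/
theorem exists_descend_of_pPrimary [S.Normal] {m p j : ℕ} (hS1 : H1Killed A S m)
    (hm : Nat.Coprime p m) {f : G × G → A} (hf : Coc f)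
    (hr : ∀ g h n : G, n ∈ S → f (g, h * n) = f (g, h))
    (hl : ∀ g h n : G, n ∈ S → f (g * n, h) = f (g, h))
    (c : G → A) (hc : f = dd c)
    (w : G → A) (hw : p ^ j • f = dd w)
    (hwr : ∀ g n : G, n ∈ S → w (g * n) = w g)
    (hwinv : ∀ g n : G, n ∈ S → A.ρ n (w g) = w g) :
    ∃ c' : G → A, f = dd c' ∧ (∀ g n : G, n ∈ S → c' (g * n) = c' g) ∧
      (∀ g n : G, n ∈ S → A.ρ n (c' g) = c' g) := by
  obtain ⟨c₁, hc₁, hc₁r, hc₁inv⟩ := exists_descend_of_killed hS1 hf hr hl c hc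
  have hcop : IsCoprime ((m : ℕ) : ℤ) (((p ^ j : ℕ) : ℤ)) := by
    rw [Nat.isCoprime_iff_coprime]
    exact (Nat.Coprime.pow_left j hm).symm
  obtain ⟨a, b, hab⟩ := hcop
  refine ⟨a • c₁ + b • w, ?_, fun g n hn => ?_, fun g n hn => ?_⟩
  · rw [dd_add, dd_zsmul, dd_zsmul, ← hc₁, ← hw]
    have h1 : a • (m • f) = (a * (m : ℤ)) • f := by rw [mul_smul, natCast_zsmul]
    have h2 : b • (p ^ j • f) = (b * ((p ^ j : ℕ) : ℤ)) • f := by rw [mul_smul, natCast_zsmul]
    rw [h1, h2, ← add_smul, hab, one_smul]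
  · simp only [Pi.add_apply, Pi.smul_apply, hc₁r g n hn, hwr g n hn]
  · simp only [Pi.add_apply, Pi.smul_apply, map_add, map_zsmul, hc₁inv g n hn, hwinv g n hn]

section homology

open Limits

variable (A : Rep.{u} k G) (S : Subgroup G)

variable {A S} in
lemma h1Killed_of_nsmul {m : ℕ} (h : ∀ y : H1 (res S.subtype A), m • y = 0) :
    H1Killed A S m := by
  intro φ hφ
  have hmem : φ ∈ cocycles₁ (res S.subtype A) :=
    (mem_cocycles₁_iff (A := res S.subtype A) φ).2 hφ
  have h0 : H1π (res S.subtype A) (m • (⟨φ, hmem⟩ : cocycles₁ (res S.subtype A))) = 0 := by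
    rw [map_nsmul]; exact h _
  obtain ⟨b, hb⟩ := (H1π_eq_zero_iff _).1 h0
  refine ⟨b, fun s => ?_⟩
  have := congr_fun hb s
  exact this.symm

variable [S.Normal]

/-- **(i)** If `m` kills `H¹(S, A)` then `m` kills the kernel of inflation
`H²(G ⧸ S, A^S) ⟶ H²(G, A)`. -/
theorem nsmul_eq_zero_of_inf_eq_zero {m : ℕ} (h : ∀ y : H1 (res S.subtype A), m • y = 0)
    (x : H2 (A.quotientToInvariants S)) (hx : (H2InfRes A S).f.hom x = 0) : m • x = 0 := by
  induction x using H2_induction_on with | @h x =>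
  have key := H2π_comp_map_apply (QuotientGroup.mk' S) (ofHom <| A.ρ.quotientToInvariants_lift S) x
  have hx' := key.symm.trans hx
  rcases (H2π_eq_zero_iff _).1 hx' with ⟨c, hc⟩
  have hc' : ∀ g h : G, A.ρ g (c h) - c (g * h) + c g
      = (x ((g : G ⧸ S), (h : G ⧸ S))).1 :=
    fun g h => congr_fun hc (g, h)
  let f : G × G → A := fun p => (x ((p.1 : G ⧸ S), (p.2 : G ⧸ S))).1
  have hf : Coc f := by
    intro g h j
    have := (mem_cocycles₂_iff (A := A.quotientToInvariants S) x).1 x.2 (g : G ⧸ S) h j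
    exact congrArg Subtype.val this
  have hr : ∀ g h n : G, n ∈ S → f (g, h * n) = f (g, h) := fun g h n hn => by
    show (x (_, ((h * n : G) : G ⧸ S))).1 = _
    rw [QuotientGroup.mk_mul_of_mem h hn]
  have hl : ∀ g h n : G, n ∈ S → f (g * n, h) = f (g, h) := fun g h n hn => by
    show (x (((g * n : G) : G ⧸ S), _)).1 = _
    rw [QuotientGroup.mk_mul_of_mem g hn]
  obtain ⟨c', hfc', hc'r, hc'inv⟩ := exists_descend_of_killed (h1Killed_of_nsmul h) hf hr hl c
    (funext fun ⟨g, h⟩ => (hc' g h).symm)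
  rw [← map_nsmul]
  refine (H2π_eq_zero_iff _).2 ?_
  refine ⟨fun q => ⟨c' (Quotient.out q), fun s => hc'inv _ _ s.2⟩, ?_⟩
  funext ⟨q₁, q₂⟩
  induction q₁ using QuotientGroup.induction_on with | @H g =>
  induction q₂ using QuotientGroup.induction_on with | @H h =>
  apply Subtype.ext
  have hout : ∀ g : G, c' (Quotient.out (g : G ⧸ S)) = c' g := fun g => by
    obtain ⟨n, hn⟩ := QuotientGroup.mk_out_eq_mul S g
    rw [hn, hc'r _ _ n.2]
  have := congr_fun hfc' (g, h)
  simp only [dd_apply] at this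
  show A.ρ g (c' (Quotient.out (h : G ⧸ S))) - c' (Quotient.out ((g : G ⧸ S) * (h : G ⧸ S)))
    + c' (Quotient.out (g : G ⧸ S)) = ((m • x : cocycles₂ (A.quotientToInvariants S)) :
      (G ⧸ S) × (G ⧸ S) → (A.quotientToInvariants S)) ((g : G ⧸ S), (h : G ⧸ S))
  rw [← QuotientGroup.mk_mul, hout, hout, hout, ← this]
  rfl


/-- **(ii)** If `m` kills `H¹(S, A)` then `m` times a class of `H²(G, A)` restricting to `0` on
`S` is inflated from `G ⧸ S`. -/
theorem exists_inf_eq_nsmul_of_res_eq_zero {m : ℕ} (h : ∀ y : H1 (res S.subtype A), m • y = 0)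
    (x : H2 A) (hx : (H2InfRes A S).g.hom x = 0) :
    ∃ z : H2 (A.quotientToInvariants S), (H2InfRes A S).f.hom z = m • x := by
  induction x using H2_induction_on with | @h x =>
  have key := H2π_comp_map_apply S.subtype (𝟙 (res S.subtype A)) x
  have hx' := key.symm.trans hx
  rcases (H2π_eq_zero_iff _).1 hx' with ⟨u, hu⟩
  have hu' : ∀ s t : S, x ((s : G), (t : G)) = A.ρ s (u t) - u (s * t) + u s :=
    fun s t => (congr_fun hu (s, t)).symm
  have hf : Coc (A := A) x := (mem_cocycles₂_iff (A := A) x).1 x.2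
  obtain ⟨c, hr, hl, hinv⟩ := exists_factor_of_killed (h1Killed_of_nsmul h) hf u hu'
  let F : (G ⧸ S) × (G ⧸ S) → (A.quotientToInvariants S) := fun q =>
    ⟨(m • ⇑x - dd c) (Quotient.out q.1, Quotient.out q.2), fun s => hinv _ _ _ s.2⟩
  have hout : ∀ g h : G, (F ((g : G ⧸ S), (h : G ⧸ S))).1 = (m • ⇑x - dd c) (g, h) := fun g h => by
    obtain ⟨n, hn⟩ := QuotientGroup.mk_out_eq_mul S g
    obtain ⟨n', hn'⟩ := QuotientGroup.mk_out_eq_mul S h
    show (m • ⇑x - dd c) (Quotient.out (g : G ⧸ S), Quotient.out (h : G ⧸ S)) = _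
    rw [hn, hn', hr _ _ _ n'.2, hl _ _ _ n.2]
  have hfc : Coc (m • ⇑x - dd c) := (coc_nsmul hf m).sub (coc_dd c)
  have hF : F ∈ cocycles₂ (A.quotientToInvariants S) := by
    rw [mem_cocycles₂_iff]
    intro q₁ q₂ q₃
    induction q₁ using QuotientGroup.induction_on with | @H g₁ =>
    induction q₂ using QuotientGroup.induction_on with | @H g₂ =>
    induction q₃ using QuotientGroup.induction_on with | @H g₃ =>
    apply Subtype.ext
    have := hfc g₁ g₂ g₃
    rw [← hout, ← hout, ← hout, ← hout] at this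
    exact this
  refine ⟨H2π _ ⟨F, hF⟩, ?_⟩
  have key2 := H2π_comp_map_apply (QuotientGroup.mk' S) (ofHom <| A.ρ.quotientToInvariants_lift S)
    ⟨F, hF⟩
  refine key2.trans ?_
  rw [← map_nsmul]
  symm
  refine (H2π_eq_iff _ _).2 ⟨c, ?_⟩
  funext ⟨g, h⟩
  have := hout g h
  simp only [Pi.sub_apply, dd_apply] at this
  show A.ρ g (c h) - c (g * h) + c g = (m • ⇑x) (g, h) - (F ((g : G ⧸ S), (h : G ⧸ S))).1
  rw [this]; abel

end homology


section pPrimary

open Limits Fermat.Agent.PT.FG.Transfer2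

variable (A : Rep.{u} k G) (S : Subgroup G) {p : ℕ} [Fact p.Prime]

/-- If `H¹(P, A) = 0` for the `p`-subgroups `P ≤ S` then `H¹(S, A)` has no `p`-primary torsion. -/
theorem h1_noPTorsion_of_pSubgroups [Finite S]
    (hS : ∀ P : Subgroup G, P ≤ S → IsPGroup p P → IsZero (H1 (res P.subtype A)))
    (y : H1 (res S.subtype A)) (hy : ∃ j : ℕ, p ^ j • y = 0) : y = 0 := by
  classical
  let P' : Sylow p S := default
  let Q : Subgroup G := (P' : Subgroup S).map S.subtype
  have hQS : Q ≤ S := Subgroup.map_subtype_le _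
  have hQ : IsPGroup p Q := P'.isPGroup'.map S.subtype
  let e : (P' : Subgroup S) ≃* Q :=
    Subgroup.equivMapOfInjective (P' : Subgroup S) S.subtype S.subtype_injective
  have iso : groupCohomology (res (P' : Subgroup S).subtype (res S.subtype A)) 1 ≅
      groupCohomology (res Q.subtype A) 1 :=
    groupCohomology.mapIso (A := res Q.subtype A)
      (B := res (P' : Subgroup S).subtype (res S.subtype A)) e (LinearEquiv.refl k A.V)
      (fun g => by
        ext a
        rfl) 1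
  have hz : IsZero (groupCohomology (res (P' : Subgroup S).subtype (res S.subtype A)) 1) :=
    (hS Q hQS hQ).of_iso iso
  exact eq_zero_of_isZero_sylow (res S.subtype A) P' 1 hz y hy

/-- If `H¹(S, A)` has no `p`-primary torsion (`S` finite), it is killed by an integer prime to
`p`. -/
theorem exists_coprime_nsmul_eq_zero [Finite S]
    (hp : ∀ y : H1 (res S.subtype A), (∃ j : ℕ, p ^ j • y = 0) → y = 0) :
    ∃ m : ℕ, Nat.Coprime p m ∧ ∀ y : H1 (res S.subtype A), m • y = 0 := by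
  have hpp : p.Prime := Fact.out
  obtain ⟨a, m, hm, hcard⟩ := Nat.exists_eq_pow_mul_and_not_dvd (Nat.card_pos (α := S)).ne' p
    hpp.ne_one
  refine ⟨m, (Nat.Prime.coprime_iff_not_dvd hpp).2 hm, fun y => hp _ ⟨a, ?_⟩⟩
  rw [← mul_smul, ← hcard]
  exact card_nsmul_eq_zero (res S.subtype A) 0 y

/-- Cocycle form: if `H¹(P, A) = 0` for the `p`-subgroups `P ≤ S` (`S` finite) then some `m` prime
to `p` kills `H¹(S, A)` in the sense of `H1Killed` (input of the cochain-level cores). -/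
theorem exists_coprime_h1Killed [Finite S]
    (hS : ∀ P : Subgroup G, P ≤ S → IsPGroup p P → IsZero (H1 (res P.subtype A))) :
    ∃ m : ℕ, Nat.Coprime p m ∧ H1Killed A S m := by
  obtain ⟨m, hm, hkill⟩ := exists_coprime_nsmul_eq_zero A S
    (h1_noPTorsion_of_pSubgroups A S hS)
  exact ⟨m, hm, h1Killed_of_nsmul hkill⟩

lemma eq_zero_of_coprime_nsmul {X : Type*} [AddCommGroup X] {m j : ℕ} (hm : Nat.Coprime p m)
    (x : X) (h1 : m • x = 0) (h2 : p ^ j • x = 0) : x = 0 := by
  have hcop : Nat.Coprime (p ^ j) m := Nat.Coprime.pow_left j hm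
  have h3 : addOrderOf x ∣ p ^ j := addOrderOf_dvd_of_nsmul_eq_zero h2
  have h4 : addOrderOf x ∣ m := addOrderOf_dvd_of_nsmul_eq_zero h1
  exact AddMonoid.addOrderOf_eq_one_iff.mp (Nat.eq_one_of_dvd_coprimes hcop h3 h4)

variable [S.Normal]

/-- **(i), `p`-primary form.** If `H¹(S, A)` has no `p`-primary torsion then inflation
`H²(G ⧸ S, A^S) ⟶ H²(G, A)` is injective on `p`-primary classes. -/
theorem eq_zero_of_inf_eq_zero_of_pPrimary [Finite S]
    (hp : ∀ y : H1 (res S.subtype A), (∃ j : ℕ, p ^ j • y = 0) → y = 0)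
    (x : H2 (A.quotientToInvariants S)) (hx : ∃ j : ℕ, p ^ j • x = 0)
    (h : (H2InfRes A S).f.hom x = 0) : x = 0 := by
  obtain ⟨m, hm, hkill⟩ := exists_coprime_nsmul_eq_zero A S hp
  obtain ⟨j, hj⟩ := hx
  exact eq_zero_of_coprime_nsmul hm x (nsmul_eq_zero_of_inf_eq_zero A S hkill x h) hj

/-- **(ii), `p`-primary form.** If `H¹(S, A)` has no `p`-primary torsion, a class of `H²(G, A)`
killed by `p ^ j` and restricting to `0` on `S` is the inflation of a class killed by `p ^ j`. -/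
theorem exists_inf_eq_of_res_eq_zero_of_pPrimary [Finite S]
    (hp : ∀ y : H1 (res S.subtype A), (∃ j : ℕ, p ^ j • y = 0) → y = 0)
    (x : H2 A) (j : ℕ) (hx : p ^ j • x = 0) (h : (H2InfRes A S).g.hom x = 0) :
    ∃ z : H2 (A.quotientToInvariants S), p ^ j • z = 0 ∧ (H2InfRes A S).f.hom z = x := by
  obtain ⟨m, hm, hkill⟩ := exists_coprime_nsmul_eq_zero A S hp
  obtain ⟨z₀, hz₀⟩ := exists_inf_eq_nsmul_of_res_eq_zero A S hkill x h
  let infL : H2 (A.quotientToInvariants S) →ₗ[k] H2 A := (H2InfRes A S).f.hom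
  have hz₀' : infL z₀ = m • x := hz₀
  -- `z₁ := m • z₀` is killed by `p ^ j` and inflates to `m² • x`
  have hz₁ : p ^ j • (m • z₀) = 0 := by
    have h0 : infL (p ^ j • z₀) = 0 := by
      rw [map_nsmul, hz₀', smul_comm, hx, smul_zero]
    have := nsmul_eq_zero_of_inf_eq_zero A S hkill _ h0
    rwa [smul_comm] at this
  have hinf₁ : infL (m • z₀) = (m * m) • x := by
    rw [map_nsmul, hz₀', mul_smul]
  -- Bezout: `a * m² + b * p ^ j = 1`
  have hcop : IsCoprime (((m * m : ℕ) : ℤ)) (((p ^ j : ℕ) : ℤ)) := by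
    rw [Nat.isCoprime_iff_coprime]
    exact (Nat.Coprime.pow_left j hm).symm.mul_left (Nat.Coprime.pow_left j hm).symm
  obtain ⟨a, b, hab⟩ := hcop
  refine ⟨a • (m • z₀), ?_, ?_⟩
  · rw [smul_comm, hz₁, smul_zero]
  · show infL (a • (m • z₀)) = x
    rw [map_zsmul, hinf₁]
    have h1 : (((m * m : ℕ) : ℤ)) • x = (m * m) • x := natCast_zsmul _ _
    have h2 : (((p ^ j : ℕ) : ℤ)) • x = 0 := by rw [natCast_zsmul, hx]
    calc a • ((m * m) • x) = (a * ((m * m : ℕ) : ℤ)) • x := by rw [mul_smul a, h1]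
      _ = (a * ((m * m : ℕ) : ℤ) + b * ((p ^ j : ℕ) : ℤ)) • x := by
          rw [add_smul, mul_smul b, h2, smul_zero, add_zero]
      _ = x := by rw [hab, one_smul]


omit [Fact p.Prime] [S.Normal] in
/-- The map induced on `p`-primary torsion subgroups. -/
def primaryMap {X Y : Type*} [AddCommGroup X] [AddCommGroup Y] (φ : X →+ Y) (p : ℕ) :
    primaryTorsion X p →+ primaryTorsion Y p :=
  (φ.comp (primaryTorsion X p).subtype).codRestrict (primaryTorsion Y p) (fun x => by
    obtain ⟨j, hj⟩ := x.2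
    exact ⟨j, by
      show p ^ j • φ x.1 = 0
      rw [← map_nsmul, hj, map_zero]⟩)

/-- **`p`-primary "ugly lemma" step**: if `H¹(S, A)` has no `p`-primary torsion then
`#H²(G, A)(p) ∣ #H²(G ⧸ S, A^S)(p) * #H²(S, A)(p)`. -/
theorem card_primaryTorsion_H2_dvd [Finite S]
    (hp : ∀ y : H1 (res S.subtype A), (∃ j : ℕ, p ^ j • y = 0) → y = 0)
    [Finite (primaryTorsion (H2 (A.quotientToInvariants S)) p)]
    [Finite (primaryTorsion (H2 (res S.subtype A)) p)] :
    Finite (primaryTorsion (H2 A) p) ∧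
      Nat.card (primaryTorsion (H2 A) p) ∣
        Nat.card (primaryTorsion (H2 (A.quotientToInvariants S)) p) *
          Nat.card (primaryTorsion (H2 (res S.subtype A)) p) := by
  let infL : H2 (A.quotientToInvariants S) →+ H2 A := (H2InfRes A S).f.hom.toAddMonoidHom
  let resL : H2 A →+ H2 (res S.subtype A) := (H2InfRes A S).g.hom.toAddMonoidHom
  refine card_dvd_of_exact (primaryMap infL p) (primaryMap resL p) ?_ ?_
  · rw [injective_iff_map_eq_zero]
    intro x hx
    apply Subtype.ext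
    exact eq_zero_of_inf_eq_zero_of_pPrimary A S hp x.1 x.2 (congrArg Subtype.val hx)
  · intro y hy
    obtain ⟨j, hj⟩ := y.2
    obtain ⟨z, hz, hzy⟩ := exists_inf_eq_of_res_eq_zero_of_pPrimary A S hp y.1 j hj
      (congrArg Subtype.val hy)
    exact ⟨⟨z, ⟨j, hz⟩⟩, Subtype.ext hzy⟩

end pPrimary


section interface

open Fermat.Agent.PT.FG.Interface8 Fermat.Agent.PT.FG.Transfer2

/-- **(IR2p) `p`-primary inflation–restriction in degree 2**, Interface8 shape: if `H¹(H, M) = 0`
for the `p`-subgroups `H ≤ N` (this is what `IsFundClass p` provides), then on `p`-primary classes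
`0 → H²(G/N, M^N) → H²(G, M) → H²(N, M)` is exact. -/
def InfRes2Primary : Prop :=
  ∀ (G : Type) [Group G] [Finite G] (p : ℕ) [Fact p.Prime] (M : Rep ℤ G) (N : Subgroup G)
    [N.Normal],
    (∀ H : Subgroup G, H ≤ N → IsPGroup p H → Subsingleton (H1 (resSub H M))) →
      (∀ x : H2 (M.quotientToInvariants N), IsPPrimary p x → infMap M N 2 x = 0 → x = 0) ∧
      (∀ x : H2 M, IsPPrimary p x → resMap N M 2 x = 0 →
        ∃ y : H2 (M.quotientToInvariants N), IsPPrimary p y ∧ infMap M N 2 y = x)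

theorem infRes2Primary : InfRes2Primary := by
  intro G _ _ p _ M N _ h1
  have hp : ∀ y : H1 (Rep.res N.subtype M), (∃ j : ℕ, p ^ j • y = 0) → y = 0 :=
    h1_noPTorsion_of_pSubgroups M N (fun P hPN hP =>
      @ModuleCat.isZero_of_subsingleton _ _ _ (h1 P hPN hP))
  refine ⟨fun x hx h => eq_zero_of_inf_eq_zero_of_pPrimary M N hp x hx h, fun x hx h => ?_⟩
  obtain ⟨j, hj⟩ := hx
  obtain ⟨z, hz, hzx⟩ := exists_inf_eq_of_res_eq_zero_of_pPrimary M N hp x j hj h
  exact ⟨z, ⟨j, hz⟩, hzx⟩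

/-- **(UGLYp) `p`-primary ugly-lemma step**, Interface8 shape. -/
def UglyStepPrimary : Prop :=
  ∀ (G : Type) [Group G] [Finite G] (p : ℕ) [Fact p.Prime] (M : Rep ℤ G) (N : Subgroup G)
    [N.Normal],
    (∀ H : Subgroup G, H ≤ N → IsPGroup p H → Subsingleton (H1 (resSub H M))) →
    Finite (primaryTorsion (H2 (M.quotientToInvariants N)) p) →
    Finite (primaryTorsion (H2 (resSub N M)) p) →
      Finite (primaryTorsion (H2 M) p) ∧
        Nat.card (primaryTorsion (H2 M) p) ∣
          Nat.card (primaryTorsion (H2 (M.quotientToInvariants N)) p) *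
            Nat.card (primaryTorsion (H2 (resSub N M)) p)

theorem uglyStepPrimary : UglyStepPrimary := by
  intro G _ _ p _ M N _ h1 hf1 hf2
  have hp : ∀ y : H1 (Rep.res N.subtype M), (∃ j : ℕ, p ^ j • y = 0) → y = 0 :=
    h1_noPTorsion_of_pSubgroups M N (fun P hPN hP =>
      @ModuleCat.isZero_of_subsingleton _ _ _ (h1 P hPN hP))
  exact card_primaryTorsion_H2_dvd M N hp

/-- Kernel of inflation is killed by any `m` killing `H¹(N, M)`, Interface8 shape. -/
theorem infMap_ker_killed (G : Type) [Group G] (M : Rep ℤ G) (N : Subgroup G) [N.Normal] (m : ℕ)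
    (hm : ∀ y : H1 (resSub N M), m • y = 0) (x : H2 (M.quotientToInvariants N))
    (hx : infMap M N 2 x = 0) : m • x = 0 :=
  nsmul_eq_zero_of_inf_eq_zero M N hm x hx

end interface

end Fermat.Agent.PT.FG.InfResPrimary2
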