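/-
Program F (S55, Poitou–Tate), chapter FG, helper8.

`InfResFlexPrimary8`: **`p`-primary inflation in degree 2, flexible form**: the flexible
three-group setting `S --ι--> G --π--> Q` of helper19's `InfResFlex19.map_inf_injective`, with the
hypothesis `H¹(S, C) = 0` weakened to "`m` kills `H¹(ker π, A)`" (helper2's
`InfResPrimary2.H1Killed`), resp. to "`H¹(P, A) = 0` for the `p`-subgroups `P ≤ ker π`":

* `nsmul_eq_zero_of_map_inf_eq_zero` : `m • H¹(ker π, A) = 0` and `inf y = 0` imply `m • y = 0`;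
* `eq_zero_of_map_inf_eq_zero_of_pPrimary` : if `H¹(P, A) = 0` for all `p`-subgroups `P ≤ ker π`
  (`ker π` finite) then inflation `H²(Q, B) → H²(G, A)` is injective on `p`-primary classes.
-/
import Mathlib
import Fermat.Agent.PT.FG.InfResFlex19
import Fermat.Agent.PT.FG.InfResPrimary2

set_option autoImplicit false
set_option linter.style.longLine false
set_option linter.unusedSectionVars false

open CategoryTheory groupCohomology

namespace Fermat.Agent.PT.FG.InfResFlexPrimary8

open Fermat.Agent.PT.FG.InfResTwo1 Fermat.Agent.PT.FG.InfResPrimary2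

variable {k G Q S : Type} [CommRing k] [Group G] [Group Q] [Group S]

/-- **Inflation in degree 2, flexible form, with `H¹` only killed by `m`**: if `m` kills
`H¹(ker π, A)` (cocycle form) then `m` kills the kernel of `map π φ 2 : H²(Q, B) → H²(G, A)`. -/
theorem nsmul_eq_zero_of_map_inf_eq_zero (ι : S →* G) (π : G →* Q) (hπ : Function.Surjective π)
    (hex : ι.range = π.ker) (B : Rep k Q) (A : Rep k G) (φ : Rep.res π B ⟶ A)
    (hφ : Function.Injective φ.hom)
    (hφim : ∀ a : A.V, (∀ s : S, A.ρ (ι s) a = a) → ∃ b : B.V, φ.hom b = a)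
    {m : ℕ} (hN : H1Killed A π.ker m) (y : H2 B) (hy : groupCohomology.map π φ 2 y = 0) :
    m • y = 0 := by
  have hmem : ∀ s : S, ι s ∈ π.ker := fun s => hex ▸ ⟨s, rfl⟩
  have hφc : ∀ (g : G) (b : B.V), φ.hom (B.ρ (π g) b) = A.ρ g (φ.hom b) :=
    fun g b => Rep.hom_comm_apply φ g b
  induction y using H2_induction_on with | @h x =>
  have key := H2π_comp_map_apply π φ x
  have hx' := key.symm.trans hy
  rcases (H2π_eq_zero_iff _).1 hx' with ⟨c, hc⟩
  let f : G × G → A := fun p => φ.hom (x (π p.1, π p.2))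
  have hc' : ∀ g h : G, A.ρ g (c h) - c (g * h) + c g = f (g, h) := fun g h => congr_fun hc (g, h)
  have hf : Coc f := by
    intro g h j
    have := congrArg φ.hom ((mem_cocycles₂_iff (A := B) x).1 x.2 (π g) (π h) (π j))
    rw [map_add, map_add, hφc] at this
    show φ.hom (x (π (g * h), π j)) + φ.hom (x (π g, π h))
      = A.ρ g (φ.hom (x (π h, π j))) + φ.hom (x (π g, π (h * j)))
    rw [map_mul, map_mul]
    exact this
  have hr : ∀ g h n : G, n ∈ π.ker → f (g, h * n) = f (g, h) := fun g h n hn => by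
    show φ.hom (x (π g, π (h * n))) = φ.hom (x (π g, π h))
    rw [map_mul, MonoidHom.mem_ker.1 hn, mul_one]
  have hl : ∀ g h n : G, n ∈ π.ker → f (g * n, h) = f (g, h) := fun g h n hn => by
    show φ.hom (x (π (g * n), π h)) = φ.hom (x (π g, π h))
    rw [map_mul, MonoidHom.mem_ker.1 hn, mul_one]
  obtain ⟨c', hfc', hc'r, hc'inv⟩ := exists_descend_of_killed hN hf hr hl c
    (funext fun ⟨g, h⟩ => (hc' g h).symm)
  have hinv : ∀ (g : G) (s : S), A.ρ (ι s) (c' g) = c' g := fun g s => hc'inv g (ι s) (hmem s)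
  choose sec hsec using hπ
  choose bb hbb using fun g : G => hφim (c' g) (hinv g)
  have hout : ∀ g : G, φ.hom (bb (sec (π g))) = c' g := fun g => by
    rw [hbb]
    have hn : g⁻¹ * sec (π g) ∈ π.ker := by
      rw [MonoidHom.mem_ker, map_mul, map_inv, hsec, inv_mul_cancel]
    have := hc'r g _ hn
    rwa [mul_inv_cancel_left] at this
  rw [← map_nsmul]
  refine (H2π_eq_zero_iff _).2 ⟨fun q => bb (sec q), ?_⟩
  funext ⟨q₁, q₂⟩
  obtain ⟨g, rfl⟩ : ∃ g, π g = q₁ := ⟨sec q₁, hsec q₁⟩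
  obtain ⟨h, rfl⟩ : ∃ h, π h = q₂ := ⟨sec q₂, hsec q₂⟩
  apply hφ
  have := congr_fun hfc' (g, h)
  simp only [dd_apply, Pi.smul_apply] at this
  show φ.hom (B.ρ (π g) (bb (sec (π h))) - bb (sec (π g * π h)) + bb (sec (π g)))
    = φ.hom ((m • x : cocycles₂ B) (π g, π h))
  rw [map_add, map_sub, hφc, ← map_mul, hout, hout, hout, ← this]
  show m • φ.hom (x (π g, π h)) = φ.hom (m • x (π g, π h))
  rw [map_nsmul]

/-- **`p`-primary inflation in degree 2, flexible form**: if `ker π` is finite and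
`H¹(P, A) = 0` for the `p`-subgroups `P ≤ ker π`, then `map π φ 2 : H²(Q, B) → H²(G, A)` is
injective on `p`-primary classes. -/
theorem eq_zero_of_map_inf_eq_zero_of_pPrimary (ι : S →* G) (π : G →* Q)
    (hπ : Function.Surjective π) (hex : ι.range = π.ker) (B : Rep k Q) (A : Rep k G)
    (φ : Rep.res π B ⟶ A) (hφ : Function.Injective φ.hom)
    (hφim : ∀ a : A.V, (∀ s : S, A.ρ (ι s) a = a) → ∃ b : B.V, φ.hom b = a)
    {p : ℕ} [Fact p.Prime] [Finite π.ker]
    (hP : ∀ P : Subgroup G, P ≤ π.ker → IsPGroup p P → Limits.IsZero (H1 (Rep.res P.subtype A)))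
    (y : H2 B) (hy : ∃ j : ℕ, p ^ j • y = 0) (h0 : groupCohomology.map π φ 2 y = 0) : y = 0 := by
  obtain ⟨m, hm, hN⟩ := exists_coprime_h1Killed A π.ker hP
  obtain ⟨j, hj⟩ := hy
  exact eq_zero_of_coprime_nsmul hm y
    (nsmul_eq_zero_of_map_inf_eq_zero ι π hπ hex B A φ hφ hφim hN y h0) hj

end Fermat.Agent.PT.FG.InfResFlexPrimary8
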