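/-
Program F (S55, Poitou–Tate), chapter FG, leaf "Herbrand quotient ↔ Mathlib group cohomology of a
finite cyclic group" (helper18).

For `A : Rep k G` and `g : G` (`G` finite commutative) we define the Herbrand pair
`repPair A g` on the abelian group `A.V` with `f = ρ(g) - 1`, `g = N = ∑_{x : G} ρ(x)`.
When `g` generates `G`:

* `repPair_eq_cyc`: it is the cyclic pair `cyc (ρ g) (Nat.card G)` of `HerbrandQuot18`
  (so all results there apply);
* `evenEquiv : (repPair A g).H ≃+ groupCohomology A i` for `i ≠ 0` even (`Ĥ⁰`-model `= H², H⁴, …`),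
* `oddEquiv : (repPair A g).swap.H ≃+ groupCohomology A i` for `i` odd (`Ĥ⁻¹`-model `= H¹, H³, …`),
  with explicit formulas on classes (`evenEquiv_cls`, `oddEquiv_cls`: they are Mathlib's
  `groupCohomologyπEven/Odd`);
* `card_H2_eq`, `card_H1_eq`, and the Herbrand quotient in Mathlib's terms:
  `hq (repPair A g) = #H²(G, A) / #H¹(G, A)`;
* `repShortExact`: a short exact sequence in `Rep k G` gives a short exact sequence of pairs, hence
  `card_identity_rep` / `hq_mul_rep`.
-/
import Mathlib
import Fermat.Agent.PT.FG.HerbrandQuot18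

set_option autoImplicit false

namespace Fermat.Agent.PT.FG.CyclicBridge18

open CategoryTheory
open Fermat.Agent.CFT.Herbrand
open Fermat.Agent.CFT.HerbrandAbstract (normEnd)
open Fermat.Agent.PT.FG.HerbrandQuot18

universe u

noncomputable section

variable {k G : Type u} [CommRing k] [CommGroup G] [Fintype G]

/-- The Herbrand pair of a representation of a finite commutative group and an element `g`:
`f = ρ(g) - 1`, `g = N = ∑_{x : G} ρ(x)`. -/
def repPair (A : Rep.{u} k G) (g : G) : Pair A.V where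
  f := (A.ρ g - 1 : A.V →ₗ[k] A.V).toAddMonoidHom
  g := (A.ρ.norm : A.V →ₗ[k] A.V).toAddMonoidHom
  fg := fun a => by
    show A.ρ g (A.ρ.norm a) - A.ρ.norm a = 0
    rw [sub_eq_zero]
    exact Representation.self_norm_apply A.ρ g a
  gf := fun a => by
    show A.ρ.norm (A.ρ g a - a) = 0
    rw [map_sub, sub_eq_zero]
    exact Representation.norm_self_apply A.ρ g a

@[simp] lemma repPair_f_apply (A : Rep.{u} k G) (g : G) (x : A.V) :
    (repPair A g).f x = A.ρ g x - x := rfl

@[simp] lemma repPair_g_apply (A : Rep.{u} k G) (g : G) (x : A.V) :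
    (repPair A g).g x = A.ρ.norm x := rfl

lemma mem_ker_repPair_f {A : Rep.{u} k G} {g : G} {x : A.V} :
    x ∈ (repPair A g).f.ker ↔ A.ρ g x = x := by
  rw [AddMonoidHom.mem_ker, repPair_f_apply, sub_eq_zero]

lemma mem_ker_repPair_g {A : Rep.{u} k G} {g : G} {x : A.V} :
    x ∈ (repPair A g).g.ker ↔ A.ρ.norm x = 0 := by
  rw [AddMonoidHom.mem_ker, repPair_g_apply]

/-! ### Comparison with the cyclic pair -/

/-- `ρ(g)` as a `ℤ`-linear endomorphism. -/
def rhoInt (A : Rep.{u} k G) (g : G) : Module.End ℤ A.V := (A.ρ g).toAddMonoidHom.toIntLinearMap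

@[simp] lemma rhoInt_apply (A : Rep.{u} k G) (g : G) (x : A.V) : rhoInt A g x = A.ρ g x := rfl

lemma rhoInt_pow_apply (A : Rep.{u} k G) (g : G) (i : ℕ) (x : A.V) :
    (rhoInt A g ^ i) x = A.ρ (g ^ i) x := by
  induction i generalizing x with
  | zero => simp
  | succ i ih =>
    rw [pow_succ, Module.End.mul_apply, ih, rhoInt_apply, pow_succ, map_mul]
    rfl

lemma rhoInt_pow_card (A : Rep.{u} k G) (g : G) : rhoInt A g ^ Nat.card G = 1 := by
  ext x
  rw [rhoInt_pow_apply, pow_card_eq_one', map_one]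
  rfl

/-- For a generator `g`, the norm is `1 + ρ(g) + ⋯ + ρ(g)^(n-1)`. -/
lemma norm_apply_eq_sum_pow (A : Rep.{u} k G) (g : G) (hg : ∀ x, x ∈ Subgroup.zpowers g) (x : A.V) :
    A.ρ.norm x = ∑ i ∈ Finset.range (Nat.card G), A.ρ (g ^ i) x := by
  classical
  have hcard : orderOf g = Nat.card G := orderOf_eq_card_of_forall_mem_zpowers hg
  have himg : Finset.image (fun i => g ^ i) (Finset.range (orderOf g)) = Finset.univ :=
    IsCyclic.image_range_orderOf hg
  rw [Representation.norm, LinearMap.sum_apply, ← himg, Finset.sum_image, hcard]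
  intro i hi j hj hij
  exact pow_injOn_Iio_orderOf (by simpa using hi) (by simpa using hj) hij

/-- When `g` generates `G`, `repPair A g` is the cyclic pair of `ρ(g)`. -/
theorem repPair_eq_cyc (A : Rep.{u} k G) (g : G) (hg : ∀ x, x ∈ Subgroup.zpowers g) :
    repPair A g = cyc (rhoInt A g) (Nat.card G) (rhoInt_pow_card A g) := by
  have hf : (repPair A g).f = (cyc (rhoInt A g) (Nat.card G) (rhoInt_pow_card A g)).f := by
    ext x; rfl
  have hgg : (repPair A g).g = (cyc (rhoInt A g) (Nat.card G) (rhoInt_pow_card A g)).g := by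
    ext x
    rw [repPair_g_apply, cyc_g_apply, norm_apply_eq_sum_pow A g hg]
    exact Finset.sum_congr rfl fun i _ => (rhoInt_pow_apply A g i x).symm
  cases hP : repPair A g with
  | mk f1 g1 fg1 gf1 =>
    cases hQ : cyc (rhoInt A g) (Nat.card G) (rhoInt_pow_card A g) with
    | mk f2 g2 fg2 gf2 =>
      rw [hP, hQ] at hf hgg
      simp only at hf hgg
      subst hf hgg
      rfl

/-! ### Comparison with Mathlib's group cohomology of a finite cyclic group -/

section Coh

open Rep.FiniteCyclicGroup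

variable (A : Rep.{u} k G) (g : G)

/-- cycles of the pair → kernel of `ρ(g) - 1` in Mathlib's form. -/
def toKerSub : (repPair A g).f.ker →+
    LinearMap.ker (Rep.applyAsHom A g - 𝟙 A).hom.toLinearMap where
  toFun x := ⟨x.1, x.2⟩
  map_zero' := rfl
  map_add' _ _ := rfl

/-- cycles of the swapped pair → kernel of the norm in Mathlib's form. -/
def toKerNorm : (repPair A g).swap.f.ker →+ LinearMap.ker A.norm.hom.toLinearMap where
  toFun x := ⟨x.1, x.2⟩
  map_zero' := rfl
  map_add' _ _ := rfl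

lemma toKerSub_surjective : Function.Surjective (toKerSub A g) := by
  rintro ⟨x, hx⟩
  refine ⟨⟨x, ?_⟩, rfl⟩
  rw [mem_ker_repPair_f]
  have : A.ρ g x - x = 0 := by simpa [Rep.sub_hom, Rep.applyAsHom_apply] using hx
  exact sub_eq_zero.1 this

lemma toKerNorm_surjective : Function.Surjective (toKerNorm A g) := by
  rintro ⟨x, hx⟩
  refine ⟨⟨x, ?_⟩, rfl⟩
  rw [Pair.swap_f, mem_ker_repPair_g]
  simpa [Rep.norm_apply] using hx

/-- The surjection from the cycles `ker (ρ(g) - 1)` of the pair onto `Hⁱ(G, A)`, `i ≠ 0` even. -/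
def evenHom (hg : ∀ x, x ∈ Subgroup.zpowers g) (i : ℕ) [NeZero i] (hi : Even i) : (repPair A g).f.ker →+ groupCohomology A i :=
  (groupCohomologyπEven A g hg i hi).hom.toAddMonoidHom.comp (toKerSub A g)

/-- The surjection from the cycles `ker N` of the swapped pair onto `Hⁱ(G, A)`, `i` odd. -/
def oddHom (hg : ∀ x, x ∈ Subgroup.zpowers g) (i : ℕ) (hi : Odd i) : (repPair A g).swap.f.ker →+ groupCohomology A i :=
  (groupCohomologyπOdd A g hg i hi).hom.toAddMonoidHom.comp (toKerNorm A g)

lemma evenHom_surjective (hg : ∀ x, x ∈ Subgroup.zpowers g) (i : ℕ) [NeZero i] (hi : Even i) :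
    Function.Surjective (evenHom A g hg i hi) := by
  have h1 : Function.Surjective (groupCohomologyπEven A g hg i hi) := by
    rw [← ModuleCat.epi_iff_surjective]
    infer_instance
  exact h1.comp (toKerSub_surjective A g)

lemma oddHom_surjective (hg : ∀ x, x ∈ Subgroup.zpowers g) (i : ℕ) (hi : Odd i) :
    Function.Surjective (oddHom A g hg i hi) := by
  have h1 : Function.Surjective (groupCohomologyπOdd A g hg i hi) := by
    rw [← ModuleCat.epi_iff_surjective]
    infer_instance
  exact h1.comp (toKerNorm_surjective A g)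

lemma ker_evenHom (hg : ∀ x, x ∈ Subgroup.zpowers g) (i : ℕ) [NeZero i] (hi : Even i) :
    (evenHom A g hg i hi).ker = (repPair A g).bdry := by
  ext x
  rw [AddMonoidHom.mem_ker, Pair.mem_bdry_iff]
  show groupCohomologyπEven A g hg i hi (toKerSub A g x) = 0 ↔ _
  rw [groupCohomologyπEven_eq_zero_iff]
  constructor
  · rintro ⟨y, hy⟩
    exact ⟨y, hy⟩
  · rintro ⟨y, hy⟩
    exact ⟨y, hy⟩

lemma ker_oddHom (hg : ∀ x, x ∈ Subgroup.zpowers g) (i : ℕ) (hi : Odd i) :
    (oddHom A g hg i hi).ker = (repPair A g).swap.bdry := by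
  ext x
  rw [AddMonoidHom.mem_ker, Pair.mem_bdry_iff]
  show groupCohomologyπOdd A g hg i hi (toKerNorm A g x) = 0 ↔ _
  rw [groupCohomologyπOdd_eq_zero_iff]
  constructor
  · rintro ⟨y, hy⟩
    exact ⟨y, hy⟩
  · rintro ⟨y, hy⟩
    exact ⟨y, hy⟩

/-- `ker (ρ(g) - 1) / im N ≃ Hⁱ(G, A)` for `i ≠ 0` even. -/
def evenEquiv (hg : ∀ x, x ∈ Subgroup.zpowers g) (i : ℕ) [NeZero i] (hi : Even i) : (repPair A g).H ≃+ groupCohomology A i :=
  (QuotientAddGroup.quotientAddEquivOfEq (ker_evenHom A g hg i hi)).symm.trans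
    (QuotientAddGroup.quotientKerEquivOfSurjective _ (evenHom_surjective A g hg i hi))

/-- `ker N / im (ρ(g) - 1) ≃ Hⁱ(G, A)` for `i` odd. -/
def oddEquiv (hg : ∀ x, x ∈ Subgroup.zpowers g) (i : ℕ) (hi : Odd i) : (repPair A g).swap.H ≃+ groupCohomology A i :=
  (QuotientAddGroup.quotientAddEquivOfEq (ker_oddHom A g hg i hi)).symm.trans
    (QuotientAddGroup.quotientKerEquivOfSurjective _ (oddHom_surjective A g hg i hi))

lemma evenEquiv_cls (hg : ∀ x, x ∈ Subgroup.zpowers g) (i : ℕ) [NeZero i] (hi : Even i) (x : (repPair A g).f.ker) :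
    evenEquiv A g hg i hi ((repPair A g).cls x) =
      groupCohomologyπEven A g hg i hi (toKerSub A g x) := rfl

lemma oddEquiv_cls (hg : ∀ x, x ∈ Subgroup.zpowers g) (i : ℕ) (hi : Odd i) (x : (repPair A g).swap.f.ker) :
    oddEquiv A g hg i hi ((repPair A g).swap.cls x) =
      groupCohomologyπOdd A g hg i hi (toKerNorm A g x) := rfl

theorem card_even_eq (hg : ∀ x, x ∈ Subgroup.zpowers g) (i : ℕ) [NeZero i] (hi : Even i) :
    Nat.card (groupCohomology A i) = Nat.card (repPair A g).H :=
  (Nat.card_congr (evenEquiv A g hg i hi).toEquiv).symm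

theorem card_odd_eq (hg : ∀ x, x ∈ Subgroup.zpowers g) (i : ℕ) (hi : Odd i) :
    Nat.card (groupCohomology A i) = Nat.card (repPair A g).swap.H :=
  (Nat.card_congr (oddEquiv A g hg i hi).toEquiv).symm

theorem card_H2_eq (hg : ∀ x, x ∈ Subgroup.zpowers g) : Nat.card (groupCohomology.H2 A) = Nat.card (repPair A g).H :=
  card_even_eq A g hg 2 (by decide)

theorem card_H1_eq (hg : ∀ x, x ∈ Subgroup.zpowers g) : Nat.card (groupCohomology.H1 A) = Nat.card (repPair A g).swap.H :=
  card_odd_eq A g hg 1 (by decide)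

theorem isFin_iff (hg : ∀ x, x ∈ Subgroup.zpowers g) : IsFin (repPair A g) ↔
    Finite (groupCohomology.H2 A) ∧ Finite (groupCohomology.H1 A) := by
  unfold IsFin
  rw [(evenEquiv A g hg 2 (by decide)).toEquiv.finite_iff,
    (oddEquiv A g hg 1 (by decide)).toEquiv.finite_iff]

/-- The Herbrand quotient in Mathlib's terms: `h(A) = #H²(G, A) / #H¹(G, A)`. -/
theorem hq_eq (hg : ∀ x, x ∈ Subgroup.zpowers g) : hq (repPair A g) =
    (Nat.card (groupCohomology.H2 A) : ℚ) / (Nat.card (groupCohomology.H1 A) : ℚ) := by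
  unfold hq
  rw [card_H2_eq A g hg, card_H1_eq A g hg]

/-- Periodicity: all even (resp. odd) positive degrees have the same cardinality. -/
theorem card_even_eq_card_H2 (hg : ∀ x, x ∈ Subgroup.zpowers g) (i : ℕ) [NeZero i] (hi : Even i) :
    Nat.card (groupCohomology A i) = Nat.card (groupCohomology.H2 A) := by
  rw [card_even_eq A g hg i hi, card_H2_eq A g hg]

theorem card_odd_eq_card_H1 (hg : ∀ x, x ∈ Subgroup.zpowers g) (i : ℕ) (hi : Odd i) :
    Nat.card (groupCohomology A i) = Nat.card (groupCohomology.H1 A) := by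
  rw [card_odd_eq A g hg i hi, card_H1_eq A g hg]

end Coh

/-! ### Functoriality and short exact sequences -/

section Functoriality

/-- A morphism of representations induces a morphism of Herbrand pairs. -/
def repHom {A B : Rep.{u} k G} (φ : A ⟶ B) (g : G) : Hom (repPair A g) (repPair B g) where
  φ := φ.hom.toLinearMap.toAddMonoidHom
  comm_f := fun a => by
    show φ.hom (A.ρ g a - a) = B.ρ g (φ.hom a) - φ.hom a
    rw [map_sub, Rep.hom_comm_apply]
  comm_g := fun a => by
    show φ.hom (A.ρ.norm a) = B.ρ.norm (φ.hom a)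
    have := congrArg (fun ψ : A ⟶ B => ψ.hom a) (Rep.norm_comm φ)
    simpa [Rep.norm_apply] using this.symm

@[simp] lemma repHom_φ_apply {A B : Rep.{u} k G} (φ : A ⟶ B) (g : G) (a : A.V) :
    (repHom φ g).φ a = φ.hom a := rfl

/-- A short exact sequence of representations gives a short exact sequence of Herbrand pairs. -/
def repShortExact {S : ShortComplex (Rep.{u} k G)} (hS : S.ShortExact) (g : G) :
    ShortExact (repPair S.X₁ g) (repPair S.X₂ g) (repPair S.X₃ g) where
  ι := repHom S.f g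
  π := repHom S.g g
  inj := (Rep.mono_iff_injective S.f).1 hS.mono_f
  surj := (Rep.epi_iff_surjective S.g).1 hS.epi_g
  exact := fun b => by
    have h : LinearMap.range S.f.hom.toLinearMap = LinearMap.ker S.g.hom.toLinearMap :=
      (hS.exact.map (forget₂ (Rep k G) (ModuleCat k))).moduleCat_range_eq_ker
    have hb : b ∈ LinearMap.ker S.g.hom.toLinearMap ↔ b ∈ LinearMap.range S.f.hom.toLinearMap := by
      rw [h]
    exact hb

/-- Multiplicativity of the Herbrand quotient `#H²/#H¹` for a finite cyclic group, in hexagon form: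
`#H²(X₁) * #H²(X₃) * #H¹(X₂) = #H²(X₂) * #H¹(X₁) * #H¹(X₃)`. -/
theorem card_identity_rep {S : ShortComplex (Rep.{u} k G)} (hS : S.ShortExact) (g : G)
    (hg : ∀ x, x ∈ Subgroup.zpowers g) :
    Nat.card (groupCohomology.H2 S.X₁) * Nat.card (groupCohomology.H2 S.X₃) *
        Nat.card (groupCohomology.H1 S.X₂) =
      Nat.card (groupCohomology.H2 S.X₂) * Nat.card (groupCohomology.H1 S.X₁) *
        Nat.card (groupCohomology.H1 S.X₃) := by
  rw [card_H2_eq _ g hg, card_H2_eq _ g hg, card_H2_eq _ g hg, card_H1_eq _ g hg,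
    card_H1_eq _ g hg, card_H1_eq _ g hg]
  exact ShortExact.card_identity (repShortExact hS g)

theorem hq_mul_rep {S : ShortComplex (Rep.{u} k G)} (hS : S.ShortExact) (g : G)
    (h1 : IsFin (repPair S.X₁ g)) (h3 : IsFin (repPair S.X₃ g)) :
    hq (repPair S.X₂ g) = hq (repPair S.X₁ g) * hq (repPair S.X₃ g) :=
  ShortExact.hq_mul (repShortExact hS g) h1 h3

end Functoriality

end

end Fermat.Agent.PT.FG.CyclicBridge18
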