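/-
Program F (S55, Poitou–Tate), chapter FG, leaf "Herbrand quotient" (helper18).

On top of helper17's hexagon (`Fermat.Agent.CFT.Herbrand`: a *Herbrand pair* is an abelian group `A`
with endomorphisms `f g`, `f ∘ g = 0 = g ∘ f`; `P.H = ker f / im g`, `P.swap.H = ker g / im f`) we prove

* `card_hexagon`: the cardinality identity for a cyclic exact hexagon (holds unconditionally with
  `Nat.card`), and `finite_mid_of_exact`;
* `ShortExact.card_identity`: for a short exact sequence of pairs `0 → P → Q → R → 0`,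
  `#H(P) * #H(R) * #H'(Q) = #H(Q) * #H'(P) * #H'(R)`;
* `IsFin` ("both groups finite"), two-out-of-three, and the Herbrand quotient `hq P : ℚ` with
  `hq_mul : hq Q = hq P * hq R`;
* `card_H_eq_of_finite`: a finite group has Herbrand quotient `1`;
* sub/quotient pairs for a stable subgroup and `hq_eq_of_finite_quotient` (finite-index subpairs have the
  same Herbrand quotient), `hq_eq_of_finite_sub`;
* the cyclic pair `cyc σ n` (`f = σ - 1`, `g = 1 + σ + ⋯ + σ^(n-1)` for `σ ^ n = 1`), for which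
  `(cyc σ n).H` is the Tate `Ĥ⁰`-model `ker (σ - 1) / im N` and `(cyc σ n).swap.H` is the
  `Ĥ⁻¹ ≅ H¹`-model `ker N / im (σ - 1)`; `hq (cyc 1 n on ℤ) = n`.
-/
import Mathlib
import Fermat.Agent.CFT.Herbrand
import Fermat.Agent.CFT.HerbrandAbstract

set_option autoImplicit false

namespace Fermat.Agent.PT.FG.HerbrandQuot18

open Fermat.Agent.CFT.Herbrand
open Fermat.Agent.CFT.HerbrandAbstract (normEnd herbrand_main)

universe u v w

/-! ### Counting in exact sequences -/

section Counting

lemma card_eq_ker_mul_range {G H : Type*} [AddGroup G] [AddGroup H] (φ : G →+ H) :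
    Nat.card G = Nat.card φ.ker * Nat.card φ.range := by
  rw [← AddSubgroup.index_ker, AddSubgroup.card_mul_index]

lemma ker_eq_range_of_exact {G H K : Type*} [AddGroup G] [AddGroup H] [AddGroup K]
    (φ : G →+ H) (ψ : H →+ K) (h : ∀ y, ψ y = 0 ↔ ∃ x, φ x = y) : ψ.ker = φ.range := by
  ext y
  rw [AddMonoidHom.mem_ker, h y, AddMonoidHom.mem_range]

lemma card_ker_eq_card_range {G H K : Type*} [AddGroup G] [AddGroup H] [AddGroup K]
    (φ : G →+ H) (ψ : H →+ K) (h : ∀ y, ψ y = 0 ↔ ∃ x, φ x = y) :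
    Nat.card ψ.ker = Nat.card φ.range := by
  rw [ker_eq_range_of_exact φ ψ h]

/-- In an exact sequence `G → H → K` with `G`, `K` finite, `H` is finite. -/
lemma finite_mid_of_exact {G H K : Type*} [AddGroup G] [AddGroup H] [AddGroup K]
    (φ : G →+ H) (ψ : H →+ K) (h : ∀ y, ψ y = 0 ↔ ∃ x, φ x = y) [Finite G] [Finite K] :
    Finite H := by
  apply Nat.finite_of_card_ne_zero
  rw [card_eq_ker_mul_range ψ, card_ker_eq_card_range φ ψ h]
  have : Finite φ.range := Finite.of_surjective φ.rangeRestrict φ.rangeRestrict_surjective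
  exact Nat.mul_ne_zero Nat.card_pos.ne' Nat.card_pos.ne'

/-- Cardinalities in a cyclic exact hexagon (true unconditionally with `Nat.card`). -/
theorem card_hexagon {G1 G2 G3 G4 G5 G6 : Type*} [AddGroup G1] [AddGroup G2] [AddGroup G3]
    [AddGroup G4] [AddGroup G5] [AddGroup G6]
    (φ1 : G1 →+ G2) (φ2 : G2 →+ G3) (φ3 : G3 →+ G4) (φ4 : G4 →+ G5) (φ5 : G5 →+ G6)
    (φ6 : G6 →+ G1)
    (e2 : ∀ y, φ2 y = 0 ↔ ∃ x, φ1 x = y) (e3 : ∀ y, φ3 y = 0 ↔ ∃ x, φ2 x = y)
    (e4 : ∀ y, φ4 y = 0 ↔ ∃ x, φ3 x = y) (e5 : ∀ y, φ5 y = 0 ↔ ∃ x, φ4 x = y)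
    (e6 : ∀ y, φ6 y = 0 ↔ ∃ x, φ5 x = y) (e1 : ∀ y, φ1 y = 0 ↔ ∃ x, φ6 x = y) :
    Nat.card G1 * Nat.card G3 * Nat.card G5 = Nat.card G2 * Nat.card G4 * Nat.card G6 := by
  rw [card_eq_ker_mul_range φ1, card_eq_ker_mul_range φ2, card_eq_ker_mul_range φ3,
    card_eq_ker_mul_range φ4, card_eq_ker_mul_range φ5, card_eq_ker_mul_range φ6,
    card_ker_eq_card_range φ1 φ2 e2, card_ker_eq_card_range φ2 φ3 e3,
    card_ker_eq_card_range φ3 φ4 e4, card_ker_eq_card_range φ4 φ5 e5,
    card_ker_eq_card_range φ5 φ6 e6, card_ker_eq_card_range φ6 φ1 e1]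
  ring

end Counting

/-! ### Herbrand quotient of a pair -/

section Quot

variable {A : Type u} {B : Type v} {C : Type w}
  [AddCommGroup A] [AddCommGroup B] [AddCommGroup C]

/-- Both groups `H(P) = ker f / im g` and `H(P.swap) = ker g / im f` are finite. -/
def IsFin (P : Pair A) : Prop := Finite P.H ∧ Finite P.swap.H

lemma IsFin.swap {P : Pair A} (h : IsFin P) : IsFin P.swap := ⟨h.2, h.1⟩

/-- The Herbrand quotient `#H(P) / #H(P.swap)` (meaningful when `IsFin P`). -/
noncomputable def hq (P : Pair A) : ℚ := (Nat.card P.H : ℚ) / (Nat.card P.swap.H : ℚ)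

lemma hq_swap (P : Pair A) : hq P.swap = (hq P)⁻¹ := by
  unfold hq
  rw [inv_div]
  rfl

lemma IsFin.card_H_ne_zero {P : Pair A} (h : IsFin P) : Nat.card P.H ≠ 0 :=
  haveI := h.1; Nat.card_pos.ne'

lemma IsFin.card_swap_H_ne_zero {P : Pair A} (h : IsFin P) : Nat.card P.swap.H ≠ 0 :=
  haveI := h.2; Nat.card_pos.ne'

lemma IsFin.hq_ne_zero {P : Pair A} (h : IsFin P) : hq P ≠ 0 := by
  unfold hq
  exact div_ne_zero (by exact_mod_cast h.card_H_ne_zero) (by exact_mod_cast h.card_swap_H_ne_zero)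

lemma IsFin.hq_pos {P : Pair A} (h : IsFin P) : 0 < hq P := by
  unfold hq
  exact div_pos (by exact_mod_cast Nat.pos_of_ne_zero h.card_H_ne_zero)
    (by exact_mod_cast Nat.pos_of_ne_zero h.card_swap_H_ne_zero)

/-- `hq P = a / b` from `#H(P) * b = #H(P.swap) * a`-type identities. -/
lemma hq_eq_div_of {P : Pair A} (h : IsFin P) {a b : ℕ} (hb : b ≠ 0)
    (hab : Nat.card P.H * b = Nat.card P.swap.H * a) : hq P = (a : ℚ) / b := by
  unfold hq
  rw [div_eq_div_iff (by exact_mod_cast h.card_swap_H_ne_zero) (by exact_mod_cast hb), mul_comm (a : ℚ)]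
  exact_mod_cast hab

namespace ShortExact

variable {P : Pair A} {Q : Pair B} {R : Pair C}

/-- The hexagon identity `#H(P) * #H(R) * #H'(Q) = #H(Q) * #H'(P) * #H'(R)`. -/
theorem card_identity (S : ShortExact P Q R) :
    Nat.card P.H * Nat.card R.H * Nat.card Q.swap.H =
      Nat.card Q.H * Nat.card P.swap.H * Nat.card R.swap.H :=
  card_hexagon S.ι.mapH S.π.mapH S.δ S.ι.swap.mapH S.π.swap.mapH S.δ'
    S.exact_mid S.exact_right S.exact_left S.exact_mid' S.exact_right' S.exact_left'

theorem isFin_mid (S : ShortExact P Q R) (hP : IsFin P) (hR : IsFin R) : IsFin Q := by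
  have := hP.1; have := hP.2; have := hR.1; have := hR.2
  exact ⟨finite_mid_of_exact S.ι.mapH S.π.mapH S.exact_mid,
    finite_mid_of_exact S.ι.swap.mapH S.π.swap.mapH S.exact_mid'⟩

theorem isFin_right (S : ShortExact P Q R) (hP : IsFin P) (hQ : IsFin Q) : IsFin R := by
  have := hP.1; have := hP.2; have := hQ.1; have := hQ.2
  exact ⟨finite_mid_of_exact S.π.mapH S.δ S.exact_right,
    finite_mid_of_exact S.π.swap.mapH S.δ' S.exact_right'⟩

theorem isFin_left (S : ShortExact P Q R) (hQ : IsFin Q) (hR : IsFin R) : IsFin P := by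
  have := hQ.1; have := hQ.2; have := hR.1; have := hR.2
  exact ⟨finite_mid_of_exact S.δ' S.ι.mapH S.exact_left',
    finite_mid_of_exact S.δ S.ι.swap.mapH S.exact_left⟩

/-- Multiplicativity of the Herbrand quotient. -/
theorem hq_mul (S : ShortExact P Q R) (hP : IsFin P) (hR : IsFin R) : hq Q = hq P * hq R := by
  have hQ := isFin_mid S hP hR
  unfold hq
  rw [div_mul_div_comm, div_eq_div_iff (by exact_mod_cast hQ.card_swap_H_ne_zero)
    (mul_ne_zero (by exact_mod_cast hP.card_swap_H_ne_zero)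
      (by exact_mod_cast hR.card_swap_H_ne_zero))]
  have := card_identity S
  have h2 : ((Nat.card P.H * Nat.card R.H * Nat.card Q.swap.H : ℕ) : ℚ) =
      ((Nat.card Q.H * Nat.card P.swap.H * Nat.card R.swap.H : ℕ) : ℚ) := by rw [this]
  push_cast at h2
  linear_combination -h2

theorem hq_mul_of_left_mid (S : ShortExact P Q R) (hP : IsFin P) (hQ : IsFin Q) : hq Q = hq P * hq R :=
  hq_mul S hP (isFin_right S hP hQ)

theorem hq_mul_of_mid_right (S : ShortExact P Q R) (hQ : IsFin Q) (hR : IsFin R) : hq Q = hq P * hq R :=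
  hq_mul S (isFin_left S hQ hR) hR

end ShortExact

/-! ### Finite groups have trivial Herbrand quotient -/

/-- `#H(P) * #im g = #ker f` (unconditional). -/
lemma card_H_mul_card_range (P : Pair A) :
    Nat.card P.H * Nat.card P.g.range = Nat.card P.f.ker := by
  have hle : P.g.range ≤ P.f.ker := by
    rintro _ ⟨a, rfl⟩
    exact P.fg a
  have h1 := AddSubgroup.card_eq_card_quotient_mul_card_addSubgroup P.bdry
  have h2 : Nat.card P.bdry = Nat.card P.g.range :=
    Nat.card_congr (AddSubgroup.addSubgroupOfEquivOfLe hle).toEquiv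
  rw [h1, h2]

theorem isFin_of_finite (P : Pair A) [Finite A] : IsFin P :=
  ⟨inferInstance, inferInstance⟩

/-- A finite group has `#H(P) = #H(P.swap)`. -/
theorem card_H_eq_of_finite (P : Pair A) [Finite A] : Nat.card P.H = Nat.card P.swap.H := by
  have h1 := card_H_mul_card_range P
  have h2 := card_H_mul_card_range P.swap
  have h3 := card_eq_ker_mul_range P.f
  have h4 := card_eq_ker_mul_range P.g
  simp only [Pair.swap_f, Pair.swap_g] at h2
  have hf : Nat.card P.f.range ≠ 0 := Nat.card_pos.ne'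
  have hg : Nat.card P.g.range ≠ 0 := Nat.card_pos.ne'
  have : Nat.card P.H * (Nat.card P.g.range * Nat.card P.f.range) =
      Nat.card P.swap.H * (Nat.card P.g.range * Nat.card P.f.range) := by
    calc Nat.card P.H * (Nat.card P.g.range * Nat.card P.f.range)
        = (Nat.card P.H * Nat.card P.g.range) * Nat.card P.f.range := by ring
      _ = Nat.card A := by rw [h1, ← h3]
      _ = (Nat.card P.swap.H * Nat.card P.f.range) * Nat.card P.g.range := by rw [h2, ← h4]
      _ = _ := by ring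
  exact Nat.eq_of_mul_eq_mul_right (Nat.pos_of_ne_zero (Nat.mul_ne_zero hg hf)) this

theorem hq_eq_one_of_finite (P : Pair A) [Finite A] : hq P = 1 := by
  unfold hq
  rw [card_H_eq_of_finite P]
  exact div_self (by exact_mod_cast (isFin_of_finite P).card_swap_H_ne_zero)

/-! ### Isomorphic pairs -/

/-- An isomorphism of pairs induces a bijection on `H`. -/
lemma mapH_bijective_of_bijective {P : Pair A} {Q : Pair B} (h : Hom P Q)
    (hb : Function.Bijective h.φ) : Function.Bijective h.mapH := by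
  constructor
  · rw [injective_iff_map_eq_zero]
    intro x
    obtain ⟨x, rfl⟩ := P.cls_surjective x
    intro hx
    rw [Hom.mapH_mk, Pair.cls_eq_zero_iff'] at hx
    obtain ⟨b, hb'⟩ := hx
    obtain ⟨a, rfl⟩ := hb.2 b
    rw [Pair.cls_eq_zero_iff']
    refine ⟨a, hb.1 ?_⟩
    rw [h.comm_g, hb', Hom.coe_onKer]
  · intro y
    obtain ⟨y, rfl⟩ := Q.cls_surjective y
    obtain ⟨a, ha⟩ := hb.2 (y : B)
    have hfa : P.f a = 0 := by
      apply hb.1
      rw [h.comm_f, ha, map_zero]
      exact y.2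
    refine ⟨P.cls ⟨a, hfa⟩, ?_⟩
    rw [Hom.mapH_mk]
    congr 1
    exact Subtype.ext ha

lemma card_H_eq_of_bijective {P : Pair A} {Q : Pair B} (h : Hom P Q)
    (hb : Function.Bijective h.φ) : Nat.card P.H = Nat.card Q.H :=
  Nat.card_congr (Equiv.ofBijective _ (mapH_bijective_of_bijective h hb))

lemma isFin_iff_of_bijective {P : Pair A} {Q : Pair B} (h : Hom P Q)
    (hb : Function.Bijective h.φ) : IsFin P ↔ IsFin Q := by
  have e1 := Equiv.ofBijective _ (mapH_bijective_of_bijective h hb)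
  have e2 := Equiv.ofBijective _ (mapH_bijective_of_bijective h.swap hb)
  unfold IsFin
  rw [e1.finite_iff, e2.finite_iff]

lemma hq_eq_of_bijective {P : Pair A} {Q : Pair B} (h : Hom P Q)
    (hb : Function.Bijective h.φ) : hq P = hq Q := by
  unfold hq
  rw [card_H_eq_of_bijective h hb, card_H_eq_of_bijective h.swap hb]

/-! ### Sub- and quotient pairs -/

/-- A subgroup stable under both endomorphisms of the pair. -/
structure Stable (P : Pair A) (A' : AddSubgroup A) : Prop where
  f_mem : ∀ a ∈ A', P.f a ∈ A'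
  g_mem : ∀ a ∈ A', P.g a ∈ A'

/-- The pair induced on a stable subgroup. -/
def subPair (P : Pair A) (A' : AddSubgroup A) (h : Stable P A') : Pair A' where
  f := (P.f.comp A'.subtype).codRestrict A' (fun a => h.f_mem a a.2)
  g := (P.g.comp A'.subtype).codRestrict A' (fun a => h.g_mem a a.2)
  fg := fun a => Subtype.ext (P.fg a)
  gf := fun a => Subtype.ext (P.gf a)

/-- The pair induced on the quotient by a stable subgroup. -/
def quotPair (P : Pair A) (A' : AddSubgroup A) (h : Stable P A') : Pair (A ⧸ A') where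
  f := QuotientAddGroup.map A' A' P.f (fun a ha => h.f_mem a ha)
  g := QuotientAddGroup.map A' A' P.g (fun a ha => h.g_mem a ha)
  fg := fun a => by
    induction a using QuotientAddGroup.induction_on with
    | H a =>
      show ((P.f (P.g a) : A) : A ⧸ A') = 0
      rw [P.fg]; rfl
  gf := fun a => by
    induction a using QuotientAddGroup.induction_on with
    | H a =>
      show ((P.g (P.f a) : A) : A ⧸ A') = 0
      rw [P.gf]; rfl

/-- `0 → A' → A → A/A' → 0` as a short exact sequence of pairs. -/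
def subQuotShortExact (P : Pair A) (A' : AddSubgroup A) (h : Stable P A') :
    ShortExact (subPair P A' h) P (quotPair P A' h) where
  ι := ⟨A'.subtype, fun _ => rfl, fun _ => rfl⟩
  π := ⟨QuotientAddGroup.mk' A', fun _ => rfl, fun _ => rfl⟩
  inj := Subtype.val_injective
  surj := QuotientAddGroup.mk'_surjective _
  exact := fun b => by
    rw [QuotientAddGroup.mk'_apply, QuotientAddGroup.eq_zero_iff]
    exact ⟨fun hb => ⟨⟨b, hb⟩, rfl⟩, by rintro ⟨a, rfl⟩; exact a.2⟩

/-- A stable subgroup of finite index has the same Herbrand quotient. -/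
theorem isFin_sub_iff_of_finite_quotient (P : Pair A) (A' : AddSubgroup A) (h : Stable P A')
    [Finite (A ⧸ A')] : IsFin (subPair P A' h) ↔ IsFin P :=
  ⟨fun h' => ShortExact.isFin_mid (subQuotShortExact P A' h) h' (isFin_of_finite _),
    fun h' => ShortExact.isFin_left (subQuotShortExact P A' h) h' (isFin_of_finite _)⟩

theorem hq_sub_eq_of_finite_quotient (P : Pair A) (A' : AddSubgroup A) (h : Stable P A')
    [Finite (A ⧸ A')] (hP : IsFin P) : hq (subPair P A' h) = hq P := by
  rw [ShortExact.hq_mul_of_mid_right (subQuotShortExact P A' h) hP (isFin_of_finite _),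
    hq_eq_one_of_finite (quotPair P A' h), mul_one]

/-- Dividing by a finite stable subgroup does not change the Herbrand quotient. -/
theorem isFin_quot_iff_of_finite_sub (P : Pair A) (A' : AddSubgroup A) (h : Stable P A')
    [Finite A'] : IsFin (quotPair P A' h) ↔ IsFin P :=
  ⟨fun h' => ShortExact.isFin_mid (subQuotShortExact P A' h) (isFin_of_finite _) h',
    fun h' => ShortExact.isFin_right (subQuotShortExact P A' h) (isFin_of_finite _) h'⟩

theorem hq_quot_eq_of_finite_sub (P : Pair A) (A' : AddSubgroup A) (h : Stable P A')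
    [Finite A'] (hP : IsFin P) : hq (quotPair P A' h) = hq P := by
  rw [ShortExact.hq_mul_of_left_mid (subQuotShortExact P A' h) (isFin_of_finite _) hP,
    hq_eq_one_of_finite (subPair P A' h), one_mul]

/-! ### Morphisms with finite kernel and cokernel -/

lemma stable_ker {P : Pair A} {Q : Pair B} (h : Hom P Q) : Stable P h.φ.ker where
  f_mem := fun a ha => by
    rw [AddMonoidHom.mem_ker] at ha ⊢
    rw [h.comm_f, ha, map_zero]
  g_mem := fun a ha => by
    rw [AddMonoidHom.mem_ker] at ha ⊢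
    rw [h.comm_g, ha, map_zero]

lemma stable_range {P : Pair A} {Q : Pair B} (h : Hom P Q) : Stable Q h.φ.range where
  f_mem := by
    rintro _ ⟨a, rfl⟩
    exact ⟨P.f a, h.comm_f a⟩
  g_mem := by
    rintro _ ⟨a, rfl⟩
    exact ⟨P.g a, h.comm_g a⟩

/-- `0 → ker φ → A → im φ → 0` as a short exact sequence of pairs. -/
def kerRangeShortExact {P : Pair A} {Q : Pair B} (h : Hom P Q) :
    ShortExact (subPair P h.φ.ker (stable_ker h)) P (subPair Q h.φ.range (stable_range h)) where
  ι := ⟨h.φ.ker.subtype, fun _ => rfl, fun _ => rfl⟩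
  π := ⟨h.φ.rangeRestrict, fun a => Subtype.ext (h.comm_f a), fun a => Subtype.ext (h.comm_g a)⟩
  inj := Subtype.val_injective
  surj := h.φ.rangeRestrict_surjective
  exact := fun b => by
    constructor
    · intro hb
      have : h.φ b = 0 := congrArg Subtype.val hb
      exact ⟨⟨b, this⟩, rfl⟩
    · rintro ⟨a, rfl⟩
      exact Subtype.ext a.2

/-- A morphism of pairs with finite kernel and finite cokernel preserves finiteness of `H`. -/
theorem isFin_iff_of_finite_ker_coker {P : Pair A} {Q : Pair B} (h : Hom P Q)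
    [Finite h.φ.ker] [Finite (B ⧸ h.φ.range)] : IsFin P ↔ IsFin Q := by
  rw [← isFin_sub_iff_of_finite_quotient Q h.φ.range (stable_range h)]
  exact ⟨fun hP => ShortExact.isFin_right (kerRangeShortExact h) (isFin_of_finite _) hP,
    fun hR => ShortExact.isFin_mid (kerRangeShortExact h) (isFin_of_finite _) hR⟩

/-- A morphism of pairs with finite kernel and finite cokernel preserves the Herbrand quotient. -/
theorem hq_eq_of_finite_ker_coker {P : Pair A} {Q : Pair B} (h : Hom P Q)
    [Finite h.φ.ker] [Finite (B ⧸ h.φ.range)] (hP : IsFin P) : hq P = hq Q := by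
  have hQ : IsFin Q := (isFin_iff_of_finite_ker_coker h).1 hP
  rw [← hq_sub_eq_of_finite_quotient Q h.φ.range (stable_range h) hQ,
    ShortExact.hq_mul_of_left_mid (kerRangeShortExact h) (isFin_of_finite _) hP,
    hq_eq_one_of_finite (subPair P h.φ.ker (stable_ker h)), one_mul]

/-! ### Products -/

/-- The product of two pairs. -/
def prodPair (P : Pair A) (Q : Pair B) : Pair (A × B) where
  f := P.f.prodMap Q.f
  g := P.g.prodMap Q.g
  fg := fun x => Prod.ext (P.fg x.1) (Q.fg x.2)
  gf := fun x => Prod.ext (P.gf x.1) (Q.gf x.2)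

/-- `0 → A → A × B → B → 0` as a short exact sequence of pairs. -/
def prodShortExact (P : Pair A) (Q : Pair B) : ShortExact P (prodPair P Q) Q where
  ι := ⟨AddMonoidHom.inl A B, fun a => Prod.ext rfl (by simp [prodPair]),
    fun a => Prod.ext rfl (by simp [prodPair])⟩
  π := ⟨AddMonoidHom.snd A B, fun _ => rfl, fun _ => rfl⟩
  inj := fun a a' h => congrArg Prod.fst h
  surj := fun b => ⟨(0, b), rfl⟩
  exact := fun x => by
    constructor
    · intro hx
      exact ⟨x.1, Prod.ext rfl hx.symm⟩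
    · rintro ⟨a, rfl⟩
      rfl

theorem isFin_prod {P : Pair A} {Q : Pair B} (hP : IsFin P) (hQ : IsFin Q) :
    IsFin (prodPair P Q) :=
  ShortExact.isFin_mid (prodShortExact P Q) hP hQ

theorem hq_prod {P : Pair A} {Q : Pair B} (hP : IsFin P) (hQ : IsFin Q) :
    hq (prodPair P Q) = hq P * hq Q :=
  ShortExact.hq_mul (prodShortExact P Q) hP hQ

end Quot

/-! ### The cyclic pair -/

section Cyclic

variable {M : Type u} [AddCommGroup M]

/-- The cyclic Herbrand pair attached to a `ℤ`-linear endomorphism `σ` with `σ ^ n = 1`: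
`f = σ - 1`, `g = N = 1 + σ + ⋯ + σ^(n-1)` (`normEnd σ n`).  Thus `(cyc σ n h).H = ker (σ - 1) / im N`
is (a model of) Tate's `Ĥ⁰` and `(cyc σ n h).swap.H = ker N / im (σ - 1)` is (a model of) `Ĥ⁻¹ ≅ H¹` of
the cyclic group generated by `σ`. -/
noncomputable def cyc (σ : Module.End ℤ M) (n : ℕ) (h : σ ^ n = 1) : Pair M where
  f := (σ - 1).toAddMonoidHom
  g := (normEnd σ n).toAddMonoidHom
  fg := fun a => by
    have : (σ - 1) * normEnd σ n = 0 := by rw [normEnd, mul_geom_sum, h, sub_self]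
    exact LinearMap.congr_fun this a
  gf := fun a => by
    have : normEnd σ n * (σ - 1) = 0 := by rw [normEnd, geom_sum_mul, h, sub_self]
    exact LinearMap.congr_fun this a

@[simp] lemma cyc_f_apply (σ : Module.End ℤ M) (n : ℕ) (h : σ ^ n = 1) (x : M) :
    (cyc σ n h).f x = σ x - x := rfl

lemma normEnd_apply (σ : Module.End ℤ M) (n : ℕ) (x : M) :
    normEnd σ n x = ∑ i ∈ Finset.range n, (σ ^ i) x := by
  rw [normEnd, LinearMap.sum_apply]

lemma cyc_g_apply' (σ : Module.End ℤ M) (n : ℕ) (h : σ ^ n = 1) (x : M) :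
    (cyc σ n h).g x = normEnd σ n x := rfl

@[simp] lemma cyc_g_apply (σ : Module.End ℤ M) (n : ℕ) (h : σ ^ n = 1) (x : M) :
    (cyc σ n h).g x = ∑ i ∈ Finset.range n, (σ ^ i) x := normEnd_apply σ n x

lemma mem_ker_cyc_f {σ : Module.End ℤ M} {n : ℕ} {h : σ ^ n = 1} {x : M} :
    x ∈ (cyc σ n h).f.ker ↔ σ x = x := by
  rw [AddMonoidHom.mem_ker, cyc_f_apply, sub_eq_zero]

lemma mem_ker_cyc_g {σ : Module.End ℤ M} {n : ℕ} {h : σ ^ n = 1} {x : M} :
    x ∈ (cyc σ n h).g.ker ↔ ∑ i ∈ Finset.range n, (σ ^ i) x = 0 := by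
  rw [AddMonoidHom.mem_ker, cyc_g_apply]

lemma pow_apply_of_fixed {σ : Module.End ℤ M} {x : M} (hx : σ x = x) (k : ℕ) :
    (σ ^ k) x = x := by
  induction k with
  | zero => rfl
  | succ k ih => rw [pow_succ, Module.End.mul_apply, hx, ih]

/-- On the fixed points the norm is multiplication by `n`. -/
lemma normEnd_apply_of_fixed {σ : Module.End ℤ M} {x : M} (hx : σ x = x) (n : ℕ) :
    normEnd σ n x = n • x := by
  rw [normEnd_apply]
  simp [pow_apply_of_fixed hx]

/-- `#H(P)` as a relative index. -/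
lemma card_H_eq_relIndex {A : Type u} [AddCommGroup A] (P : Pair A) :
    Nat.card P.H = P.g.range.relIndex P.f.ker := rfl

/-! #### Functoriality of the cyclic pair -/

variable {M' : Type v} [AddCommGroup M'] {M'' : Type w} [AddCommGroup M'']

/-- An equivariant homomorphism induces a morphism of cyclic pairs. -/
noncomputable def cycHom {σ : Module.End ℤ M} {σ' : Module.End ℤ M'} {n : ℕ} (h : σ ^ n = 1)
    (h' : σ' ^ n = 1) (φ : M →+ M') (hφ : ∀ x, φ (σ x) = σ' (φ x)) :
    Hom (cyc σ n h) (cyc σ' n h') where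
  φ := φ
  comm_f := fun a => by
    rw [cyc_f_apply, cyc_f_apply, map_sub, hφ]
  comm_g := fun a => by
    have hpow : ∀ (i : ℕ) (x : M), φ ((σ ^ i) x) = (σ' ^ i) (φ x) := by
      intro i
      induction i with
      | zero => intro x; rfl
      | succ i ih =>
        intro x
        rw [pow_succ, pow_succ, Module.End.mul_apply, Module.End.mul_apply, ih, hφ]
    rw [cyc_g_apply, cyc_g_apply, map_sum]
    exact Finset.sum_congr rfl fun i _ => hpow i a

@[simp] lemma cycHom_φ {σ : Module.End ℤ M} {σ' : Module.End ℤ M'} {n : ℕ} (h : σ ^ n = 1)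
    (h' : σ' ^ n = 1) (φ : M →+ M') (hφ : ∀ x, φ (σ x) = σ' (φ x)) :
    (cycHom h h' φ hφ).φ = φ := rfl

/-- A short exact sequence of equivariant homomorphisms gives a short exact sequence of cyclic
pairs. -/
noncomputable def cycShortExact {σ : Module.End ℤ M} {σ' : Module.End ℤ M'}
    {σ'' : Module.End ℤ M''} {n : ℕ} (h : σ ^ n = 1) (h' : σ' ^ n = 1) (h'' : σ'' ^ n = 1)
    (ι : M →+ M') (π : M' →+ M'') (hι : ∀ x, ι (σ x) = σ' (ι x)) (hπ : ∀ x, π (σ' x) = σ'' (π x))
    (inj : Function.Injective ι) (surj : Function.Surjective π)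
    (exact : ∀ b, π b = 0 ↔ ∃ a, ι a = b) :
    ShortExact (cyc σ n h) (cyc σ' n h') (cyc σ'' n h'') where
  ι := cycHom h h' ι hι
  π := cycHom h' h'' π hπ
  inj := inj
  surj := surj
  exact := exact

/-! #### `ℤ` with trivial action -/

lemma cyc_int_one_f (n : ℕ) : (cyc (1 : Module.End ℤ ℤ) n (one_pow n)).f = 0 := by
  ext; simp

lemma cyc_int_one_g_apply (n : ℕ) (x : ℤ) :
    (cyc (1 : Module.End ℤ ℤ) n (one_pow n)).g x = n * x := by
  rw [cyc_g_apply', normEnd_apply_of_fixed (σ := (1 : Module.End ℤ ℤ)) rfl, nsmul_eq_mul]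

/-- `Ĥ⁰(C_n, ℤ) = ℤ/n`. -/
theorem card_H_cyc_int (n : ℕ) :
    Nat.card (cyc (1 : Module.End ℤ ℤ) n (one_pow n)).H = n := by
  rw [card_H_eq_relIndex]
  have h1 : (cyc (1 : Module.End ℤ ℤ) n (one_pow n)).f.ker = ⊤ := by
    rw [cyc_int_one_f]; exact AddMonoidHom.ker_zero
  have h2 : (cyc (1 : Module.End ℤ ℤ) n (one_pow n)).g.range = AddSubgroup.zmultiples (n : ℤ) := by
    ext x
    rw [AddMonoidHom.mem_range, AddSubgroup.mem_zmultiples_iff]
    constructor
    · rintro ⟨y, rfl⟩
      exact ⟨y, by rw [cyc_int_one_g_apply, smul_eq_mul, mul_comm]⟩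
    · rintro ⟨y, rfl⟩
      exact ⟨y, by rw [cyc_int_one_g_apply, smul_eq_mul, mul_comm]⟩
  rw [h1, h2, AddSubgroup.relIndex_top_right, Int.index_zmultiples, Int.natAbs_natCast]

/-- `Ĥ⁻¹(C_n, ℤ) = 0`. -/
theorem card_swap_H_cyc_int (n : ℕ) (hn : n ≠ 0) :
    Nat.card (cyc (1 : Module.End ℤ ℤ) n (one_pow n)).swap.H = 1 := by
  have : Subsingleton (cyc (1 : Module.End ℤ ℤ) n (one_pow n)).swap.f.ker := by
    constructor
    rintro ⟨x, hx⟩ ⟨y, hy⟩
    apply Subtype.ext
    show x = y
    rw [AddMonoidHom.mem_ker, Pair.swap_f, cyc_int_one_g_apply] at hx hy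
    have hn' : (n : ℤ) ≠ 0 := by exact_mod_cast hn
    rw [(mul_eq_zero.1 hx).resolve_left hn', (mul_eq_zero.1 hy).resolve_left hn']
  have : Subsingleton (cyc (1 : Module.End ℤ ℤ) n (one_pow n)).swap.H :=
    (QuotientAddGroup.mk'_surjective _).subsingleton
  exact Nat.card_unique

theorem isFin_cyc_int (n : ℕ) (hn : n ≠ 0) : IsFin (cyc (1 : Module.End ℤ ℤ) n (one_pow n)) :=
  ⟨Nat.finite_of_card_ne_zero (by rw [card_H_cyc_int]; exact hn),
    Nat.finite_of_card_ne_zero (by rw [card_swap_H_cyc_int n hn]; exact one_ne_zero)⟩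

/-- The Herbrand quotient of `ℤ` with trivial action of a cyclic group of order `n` is `n`. -/
theorem hq_cyc_int (n : ℕ) (hn : n ≠ 0) : hq (cyc (1 : Module.End ℤ ℤ) n (one_pow n)) = n := by
  unfold hq
  rw [card_H_cyc_int, card_swap_H_cyc_int n hn, Nat.cast_one, div_one]

/-! #### Relatively projective modules have trivial cohomology -/

/-- If the identity of `M` is a norm (`∑ σ^i e σ^(-i) = 1` for some additive endomorphism `e`), then
`ker (σ - 1) = im N`. This covers induced modules (`e` = projection to one factor), modules on which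
`n` is invertible (`e = 1/n`), and additive groups of Galois extensions (`e` = multiplication by an
element of trace `1`). -/
theorem subsingleton_H_of_norm_eq_one {σ : Module.End ℤ M} {n : ℕ} (h : σ ^ n = 1)
    (e : Module.End ℤ M) (he : ∑ i ∈ Finset.range n, σ ^ i * e * σ ^ (n - i) = 1) :
    Subsingleton (cyc σ n h).H := by
  have key : ∀ x : (cyc σ n h).f.ker, (cyc σ n h).cls x = 0 := by
    intro x
    rw [Pair.cls_eq_zero_iff']
    have hx : σ (x : M) = x := mem_ker_cyc_f.1 x.2
    refine ⟨e (x : M), ?_⟩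
    rw [cyc_g_apply]
    have h1 : ((∑ i ∈ Finset.range n, σ ^ i * e * σ ^ (n - i) : Module.End ℤ M)) (x : M) = x := by
      rw [he]; rfl
    rw [LinearMap.sum_apply] at h1
    refine Eq.trans (Finset.sum_congr rfl fun i _ => ?_) h1
    rw [Module.End.mul_apply, Module.End.mul_apply, pow_apply_of_fixed hx]
  constructor
  intro a b
  obtain ⟨a, rfl⟩ := (cyc σ n h).cls_surjective a
  obtain ⟨b, rfl⟩ := (cyc σ n h).cls_surjective b
  rw [key a, key b]

/-- If the identity of `M` is a norm, then `ker N = im (σ - 1)`. -/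
theorem subsingleton_swap_H_of_norm_eq_one {σ : Module.End ℤ M} {n : ℕ} (h : σ ^ n = 1)
    (e : Module.End ℤ M) (he : ∑ i ∈ Finset.range n, σ ^ i * e * σ ^ (n - i) = 1) :
    Subsingleton (cyc σ n h).swap.H := by
  -- `∑ σ^(n-i) = σ * N`
  have hN' : ∑ i ∈ Finset.range n, σ ^ (n - i) = σ * normEnd σ n := by
    rw [normEnd, Finset.mul_sum, ← Finset.sum_range_reflect]
    refine Finset.sum_congr rfl fun i hi => ?_
    rw [← pow_succ']
    congr 1
    have := Finset.mem_range.1 hi
    omega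
  -- the ring identity `(σ - 1) * Y + e * σ * N = 1`
  have hring : (σ - 1) * (∑ i ∈ Finset.range n, (∑ j ∈ Finset.range i, σ ^ j) * e * σ ^ (n - i)) +
        e * (σ * normEnd σ n) = 1 := by
    rw [← hN', Finset.mul_sum, Finset.mul_sum, ← Finset.sum_add_distrib]
    refine Eq.trans (Finset.sum_congr rfl fun i _ => ?_) he
    rw [← mul_assoc, ← mul_assoc, mul_geom_sum]
    noncomm_ring
  have key : ∀ x : (cyc σ n h).swap.f.ker, (cyc σ n h).swap.cls x = 0 := by
    intro x
    rw [Pair.cls_eq_zero_iff']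
    have hx : normEnd σ n (x : M) = 0 := x.2
    refine ⟨(∑ i ∈ Finset.range n, (∑ j ∈ Finset.range i, σ ^ j) * e * σ ^ (n - i) :
      Module.End ℤ M) (x : M), ?_⟩
    have h1 := LinearMap.congr_fun hring (x : M)
    rw [LinearMap.add_apply, Module.End.mul_apply, Module.End.mul_apply, Module.End.mul_apply, hx,
      map_zero, map_zero, add_zero, Module.End.one_apply] at h1
    exact h1
  constructor
  intro a b
  obtain ⟨a, rfl⟩ := (cyc σ n h).swap.cls_surjective a
  obtain ⟨b, rfl⟩ := (cyc σ n h).swap.cls_surjective b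
  rw [key a, key b]

theorem hq_eq_one_of_norm_eq_one {σ : Module.End ℤ M} {n : ℕ} (h : σ ^ n = 1)
    (e : Module.End ℤ M) (he : ∑ i ∈ Finset.range n, σ ^ i * e * σ ^ (n - i) = 1) :
    IsFin (cyc σ n h) ∧ hq (cyc σ n h) = 1 := by
  have h1 := subsingleton_H_of_norm_eq_one h e he
  have h2 := subsingleton_swap_H_of_norm_eq_one h e he
  refine ⟨⟨inferInstance, inferInstance⟩, ?_⟩
  unfold hq
  rw [Nat.card_unique, Nat.card_unique]
  simp

/-! #### Prime cyclic groups and finitely generated modules: the rank formula -/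

/-- **Herbrand quotient from ranks** (restatement of `HerbrandAbstract.herbrand_main`): for a cyclic
group of prime order `p` acting on a finitely generated abelian group `M` with
`rank M^G = a` and `rank M = a + (p - 1) b`, both `Ĥ⁰` and `Ĥ⁻¹` are finite and `h(M) = p^a / p^b`. -/
theorem hq_cyc_prime_of_finrank [Module.Finite ℤ M] (p : ℕ) [Fact p.Prime] (σ : Module.End ℤ M)
    (hσ : σ ^ p = 1) (a b : ℕ)
    (ha : Module.finrank ℤ (LinearMap.ker (σ - 1)) = a)
    (hr : Module.finrank ℤ M = a + (p - 1) * b) :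
    IsFin (cyc σ p hσ) ∧ hq (cyc σ p hσ) = (p : ℚ) ^ a / (p : ℚ) ^ b := by
  obtain ⟨h1, h2, h3⟩ := herbrand_main p σ hσ a b ha hr
  have e1 : Nat.card (cyc σ p hσ).H = (LinearMap.range (normEnd σ p)).toAddSubgroup.relIndex
      (LinearMap.ker (σ - 1)).toAddSubgroup := rfl
  have e2 : Nat.card (cyc σ p hσ).swap.H = (LinearMap.range (σ - 1)).toAddSubgroup.relIndex
      (LinearMap.ker (normEnd σ p)).toAddSubgroup := rfl
  rw [← e1] at h1 h2
  rw [← e2] at h1 h3
  have hfin : IsFin (cyc σ p hσ) :=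
    ⟨Nat.finite_of_card_ne_zero h2, Nat.finite_of_card_ne_zero h3⟩
  refine ⟨hfin, ?_⟩
  have hp : (p : ℚ) ≠ 0 := by exact_mod_cast (Fact.out : p.Prime).ne_zero
  unfold hq
  rw [div_eq_div_iff (by exact_mod_cast h3) (pow_ne_zero _ hp), mul_comm ((p : ℚ) ^ a)]
  exact_mod_cast h1

end Cyclic

end Fermat.Agent.PT.FG.HerbrandQuot18
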