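/-
Program F (S55), chapter FG/GLOB, helper19: the **"same image" lemma** of the class-formation
construction (Cassels–Fröhlich VII.11.2 / Artin–Tate), in the flexible three-group shape of
`InfResFlex19`.

Situation: a big group `GM` (`= Gal(M/K)`) with two quotients `πL : GM → GL` (`= Gal(L/K)`) and
`πK : GM → GK` (`= Gal(K'/K)`, the cyclic cyclotomic layer), `SL = ker πL` (`= Gal(M/L)`);
modules `AL`, `AK`, `AM`, `C = AM|_{SL}`.  If
* `H¹(SL, C) = 0`,
* `H²(GL, AL)` is finite of order dividing `n`, `H²(GK, AK)` has order exactly `n`,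
* inflation `H²(GK, AK) → H²(GM, AM)` is injective,
* `res_{SL} ∘ inf_{K'} = 0` on `H²(GK, AK)`,
then `inf_L` and `inf_{K'}` have the same image in `H²(GM, AM)`; hence `#H²(GL, AL) = n` and there
is a canonical isomorphism `H²(GK, AK) ≃+ H²(GL, AL)` compatible with the inflations
(`sameImageEquiv`, `inf_sameImageEquiv`).
-/
import Mathlib
import Fermat.Agent.PT.FG.InfResFlex19

set_option autoImplicit false
set_option linter.style.longLine false
set_option linter.unusedSectionVars false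

open CategoryTheory groupCohomology

namespace Fermat.Agent.PT.FG.SameImage19

open Fermat.Agent.PT.FG.InfResFlex19

section abstract

variable {X Y Z : Type*} [AddCommGroup X] [AddCommGroup Y] [AddCommGroup Z]

/-- Two injective homomorphisms `iX : X → Z`, `iY : Y → Z` with `range iX ⊆ range iY`,
`#X = n`, `#Y ∣ n`: then `X ≃+ Y` compatibly with the maps to `Z`. -/
theorem exists_addEquiv_of_range_le (iX : X →+ Z) (iY : Y →+ Z) (hX : Function.Injective iX)
    (hY : Function.Injective iY) (hle : ∀ x : X, ∃ y : Y, iY y = iX x) (n : ℕ) (hn : 0 < n)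
    [Finite Y] (hYn : Nat.card Y ∣ n) (hXn : Nat.card X = n) :
    ∃ e : X ≃+ Y, ∀ x : X, iY (e x) = iX x := by
  choose θ hθ using hle
  have hθadd : ∀ a b : X, θ (a + b) = θ a + θ b := fun a b => hY (by
    rw [map_add, hθ, hθ, hθ, map_add])
  let Θ : X →+ Y := AddMonoidHom.mk' θ hθadd
  have hΘinj : Function.Injective Θ := fun a b hab => hX (by
    have : θ a = θ b := hab
    rw [← hθ a, ← hθ b, this])
  have h1 : Nat.card X ≤ Nat.card Y := Nat.card_le_card_of_injective Θ hΘinj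
  have h2 : Nat.card Y ≤ n := Nat.le_of_dvd hn hYn
  have h3 : Nat.card Y ≤ Nat.card X := by rw [hXn]; exact h2
  have hbij : Function.Bijective Θ :=
    Function.Injective.bijective_of_nat_card_le hΘinj h3
  exact ⟨AddEquiv.ofBijective Θ hbij, fun x => hθ x⟩

end abstract

section coh

variable {k Gm Gl Gk Sl : Type} [CommRing k] [Group Gm] [Group Gl] [Group Gk] [Group Sl]

/-- **Same image lemma.** -/
theorem exists_equiv_of_res_inf_eq_zero (ιL : Sl →* Gm) (πL : Gm →* Gl) (πK : Gm →* Gk)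
    (hιL : Function.Injective ιL) (hπL : Function.Surjective πL) (hexL : ιL.range = πL.ker)
    (AL : Rep k Gl) (AK : Rep k Gk) (AM : Rep k Gm) (C : Rep k Sl)
    (φL : Rep.res πL AL ⟶ AM) (φK : Rep.res πK AK ⟶ AM) (ψL : Rep.res ιL AM ⟶ C)
    (hψL : Function.Bijective ψL.hom) (hφL : Function.Injective φL.hom)
    (hφLim : ∀ a : AM.V, (∀ s : Sl, AM.ρ (ιL s) a = a) → ∃ b : AL.V, φL.hom b = a)
    (hS : H1Vanishes C)
    (n : ℕ) (hn : 0 < n) [Finite (H2 AL)] (hLn : Nat.card (H2 AL) ∣ n)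
    (hKn : Nat.card (H2 AK) = n)
    (hinjK : Function.Injective (groupCohomology.map πK φK 2))
    (hres : ∀ x : H2 AK, groupCohomology.map ιL ψL 2 (groupCohomology.map πK φK 2 x) = 0) :
    ∃ e : H2 AK ≃+ H2 AL,
      ∀ x : H2 AK, groupCohomology.map πL φL 2 (e x) = groupCohomology.map πK φK 2 x := by
  obtain ⟨hinjL, hexact⟩ := infRes2_flex ιL πL hιL hπL hexL AL AM C φL ψL hψL hφL hφLim hS
  exact exists_addEquiv_of_range_le (X := H2 AK) (Y := H2 AL) (Z := H2 AM)
    (groupCohomology.map πK φK 2).hom.toAddMonoidHom (groupCohomology.map πL φL 2).hom.toAddMonoidHom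
    hinjK hinjL (fun x => hexact _ (hres x)) n hn hLn hKn

/-- Consequence: `#H²(Gl, AL) = n`. -/
theorem card_H2_eq_of_res_inf_eq_zero (ιL : Sl →* Gm) (πL : Gm →* Gl) (πK : Gm →* Gk)
    (hιL : Function.Injective ιL) (hπL : Function.Surjective πL) (hexL : ιL.range = πL.ker)
    (AL : Rep k Gl) (AK : Rep k Gk) (AM : Rep k Gm) (C : Rep k Sl)
    (φL : Rep.res πL AL ⟶ AM) (φK : Rep.res πK AK ⟶ AM) (ψL : Rep.res ιL AM ⟶ C)
    (hψL : Function.Bijective ψL.hom) (hφL : Function.Injective φL.hom)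
    (hφLim : ∀ a : AM.V, (∀ s : Sl, AM.ρ (ιL s) a = a) → ∃ b : AL.V, φL.hom b = a)
    (hS : H1Vanishes C)
    (n : ℕ) (hn : 0 < n) [Finite (H2 AL)] (hLn : Nat.card (H2 AL) ∣ n)
    (hKn : Nat.card (H2 AK) = n)
    (hinjK : Function.Injective (groupCohomology.map πK φK 2))
    (hres : ∀ x : H2 AK, groupCohomology.map ιL ψL 2 (groupCohomology.map πK φK 2 x) = 0) :
    Nat.card (H2 AL) = n := by
  obtain ⟨e, -⟩ := exists_equiv_of_res_inf_eq_zero ιL πL πK hιL hπL hexL AL AK AM C φL φK ψL hψL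
    hφL hφLim hS n hn hLn hKn hinjK hres
  rw [← Nat.card_congr e.toEquiv, hKn]

end coh

end Fermat.Agent.PT.FG.SameImage19
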