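/-
Program F (S55, Poitou–Tate), chapter FG, leaf (CYC2) `Interface8.CyclicH2` (helper18).

`H²` of a finite cyclic group `G = ⟨s⟩` of order `n` with explicit cocycles: for an invariant `a` the
"carry cocycle" `(sⁱ, sʲ) ↦ [i + j ≥ n] a` (`0 ≤ i, j < n`) is a 2-cocycle, its class vanishes iff `a`
is a norm, and every class of `H²(G, M)` is the class of a carry cocycle.  Everything is proved by hand
on inhomogeneous cochains (Mathlib's `cocycles₂`, `H2π`), generically in the coefficient ring `k`.
-/
import Mathlib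
import Fermat.Agent.PT.FG.Interface8

set_option autoImplicit false

namespace Fermat.Agent.PT.FG.CyclicH2_18

open CategoryTheory groupCohomology Finset

noncomputable section

/-! ### The exponent function of a finite cyclic group -/

section Expo

variable {G : Type} [Group G] [Finite G] (s : G)

open Classical in
/-- The exponent `0 ≤ e < orderOf s` with `s ^ e = g` (junk `0` if `g ∉ ⟨s⟩`). -/
def expo (g : G) : ℕ :=
  if h : ∃ i, i < orderOf s ∧ s ^ i = g then Classical.choose h else 0

variable {s}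

lemma orderOf_pos' : 0 < orderOf s := orderOf_pos s

lemma exists_lt_pow_eq (hs : ∀ g : G, g ∈ Subgroup.zpowers s) (g : G) :
    ∃ i, i < orderOf s ∧ s ^ i = g := by
  have h1 : g ∈ Submonoid.powers s := (mem_powers_iff_mem_zpowers).2 (hs g)
  obtain ⟨i, rfl⟩ := h1
  refine ⟨i % orderOf s, Nat.mod_lt _ (orderOf_pos s), ?_⟩
  exact pow_mod_orderOf s i

lemma expo_lt (g : G) : expo s g < orderOf s := by
  unfold expo
  split_ifs with h
  · exact (Classical.choose_spec h).1
  · exact orderOf_pos s

lemma pow_expo (hs : ∀ g : G, g ∈ Subgroup.zpowers s) (g : G) : s ^ expo s g = g := by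
  unfold expo
  rw [dif_pos (exists_lt_pow_eq hs g)]
  exact (Classical.choose_spec (exists_lt_pow_eq hs g)).2

lemma expo_eq_of_pow_eq {g : G} {i : ℕ} (hi : i < orderOf s) (h : s ^ i = g) : expo s g = i := by
  have h1 : ∃ i, i < orderOf s ∧ s ^ i = g := ⟨i, hi, h⟩
  have h2 : s ^ expo s g = g := by
    unfold expo
    rw [dif_pos h1]
    exact (Classical.choose_spec h1).2
  exact pow_injOn_Iio_orderOf (expo_lt g) hi (h2.trans h.symm)

lemma expo_pow (i : ℕ) : expo s (s ^ i) = i % orderOf s :=
  expo_eq_of_pow_eq (Nat.mod_lt _ (orderOf_pos s)) (pow_mod_orderOf s i)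

lemma expo_pow_of_lt {i : ℕ} (hi : i < orderOf s) : expo s (s ^ i) = i := by
  rw [expo_pow, Nat.mod_eq_of_lt hi]

lemma expo_one : expo s (1 : G) = 0 :=
  expo_eq_of_pow_eq (orderOf_pos s) (pow_zero s)

lemma expo_mul (hs : ∀ g : G, g ∈ Subgroup.zpowers s) (g h : G) :
    expo s (g * h) = (expo s g + expo s h) % orderOf s := by
  conv_lhs => rw [← pow_expo hs g, ← pow_expo hs h, ← pow_add]
  exact expo_pow _

lemma mod_add_of_lt {n x y : ℕ} (hx : x < n) (hy : y < n) :
    (x + y) % n = if x + y < n then x + y else x + y - n := by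
  split_ifs with h
  · exact Nat.mod_eq_of_lt h
  · rw [Nat.mod_eq_sub_mod (by omega), Nat.mod_eq_of_lt (by omega)]

end Expo

/-! ### The carry cocycle -/

section Carry

variable {k : Type} [CommRing k] {G : Type} [Group G] [Finite G] (M : Rep.{0} k G) (s : G)

/-- The carry `[x + y ≥ n]` as a natural number. -/
def cr (n x y : ℕ) : ℕ := if x + y < n then 0 else 1

lemma cr_identity {n x y z : ℕ} (hx : x < n) (hy : y < n) (hz : z < n) :
    cr n ((x + y) % n) z + cr n x y = cr n y z + cr n x ((y + z) % n) := by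
  rw [mod_add_of_lt hx hy, mod_add_of_lt hy hz]
  unfold cr
  split_ifs <;> omega

/-- The carry cochain `(g, h) ↦ [e(g) + e(h) ≥ n] a`. -/
def carry (a : M.V) : G × G → M.V := fun p =>
  if expo s p.1 + expo s p.2 < orderOf s then 0 else a

lemma carry_eq_smul (a : M.V) (g h : G) :
    carry M s a (g, h) = cr (orderOf s) (expo s g) (expo s h) • a := by
  unfold carry cr
  split_ifs <;> simp

lemma carry_pow_pow (a : M.V) {i j : ℕ} (hi : i < orderOf s) (hj : j < orderOf s) :
    carry M s a (s ^ i, s ^ j) = if i + j < orderOf s then 0 else a := by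
  unfold carry
  simp only [expo_pow_of_lt hi, expo_pow_of_lt hj]

variable {M s}

lemma rho_carry {a : M.V} (ha : ∀ g : G, M.ρ g a = a) (g h j : G) :
    M.ρ g (carry M s a (h, j)) = carry M s a (h, j) := by
  rw [carry_eq_smul, map_nsmul, ha]

/-- For invariant `a`, the carry cochain is a 2-cocycle. -/
lemma carry_mem_cocycles₂ (hs : ∀ g : G, g ∈ Subgroup.zpowers s) {a : M.V}
    (ha : ∀ g : G, M.ρ g a = a) : carry M s a ∈ cocycles₂ M := by
  rw [mem_cocycles₂_iff]
  intro g h j
  rw [rho_carry ha, carry_eq_smul, carry_eq_smul, carry_eq_smul, carry_eq_smul, ← add_smul,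
    ← add_smul, expo_mul hs, expo_mul hs, cr_identity (expo_lt g) (expo_lt h) (expo_lt j)]

/-- Partial norms `∑_{m < i} s^m y`. -/
def psum (M : Rep.{0} k G) (s : G) (y : M.V) (i : ℕ) : M.V := ∑ m ∈ range i, M.ρ (s ^ m) y

lemma psum_zero (y : M.V) : psum M s y 0 = 0 := by simp [psum]

lemma psum_add (y : M.V) (i j : ℕ) :
    psum M s y (i + j) = psum M s y i + M.ρ (s ^ i) (psum M s y j) := by
  unfold psum
  rw [sum_range_add, map_sum]
  congr 1
  refine sum_congr rfl fun m _ => ?_
  rw [pow_add, map_mul]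
  rfl

lemma psum_orderOf_add (y : M.V) (j : ℕ) :
    psum M s y (orderOf s + j) = psum M s y (orderOf s) + psum M s y j := by
  rw [psum_add, pow_orderOf_eq_one, map_one]
  rfl

/-- The norm is the full partial sum. -/
lemma sum_rho_eq_psum [Fintype G] (hs : ∀ g : G, g ∈ Subgroup.zpowers s) (y : M.V) :
    ∑ g : G, M.ρ g y = psum M s y (orderOf s) := by
  classical
  have himg : Finset.image (fun i => s ^ i) (Finset.range (orderOf s)) = Finset.univ :=
    IsCyclic.image_range_orderOf hs
  unfold psum
  rw [← himg, Finset.sum_image]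
  intro i hi j hj hij
  exact pow_injOn_Iio_orderOf (by simpa using hi) (by simpa using hj) hij

/-- If `a = N y` then the carry cochain of `a` is the coboundary of `g ↦ ∑_{m < e(g)} s^m y`. -/
lemma d₁₂_psum_eq_carry (hs : ∀ g : G, g ∈ Subgroup.zpowers s) (y : M.V) :
    (d₁₂ M).hom (fun g => psum M s y (expo s g)) = carry M s (psum M s y (orderOf s)) := by
  funext ⟨g, h⟩
  rw [d₁₂_hom_apply]
  show M.ρ g (psum M s y (expo s h)) - psum M s y (expo s (g * h)) + psum M s y (expo s g) = _
  have hg : M.ρ g = M.ρ (s ^ expo s g) := by rw [pow_expo hs]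
  have h1 : psum M s y (expo s g) + M.ρ g (psum M s y (expo s h)) =
      psum M s y (expo s g + expo s h) := by
    rw [psum_add, hg]
  rw [expo_mul hs, mod_add_of_lt (expo_lt g) (expo_lt h)]
  unfold carry
  split_ifs with hlt
  · rw [← h1]; abel
  · have h2 : expo s g + expo s h = orderOf s + (expo s g + expo s h - orderOf s) := by omega
    have h3 := h1
    rw [h2, psum_orderOf_add] at h3
    show M.ρ g (psum M s y (expo s h)) - psum M s y (expo s g + expo s h - orderOf s) +
      psum M s y (expo s g) = psum M s y (orderOf s)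
    rw [← sub_eq_zero]
    have h4 : psum M s y (expo s g) + M.ρ g (psum M s y (expo s h)) -
        (psum M s y (orderOf s) + psum M s y (expo s g + expo s h - orderOf s)) = 0 :=
      sub_eq_zero.2 h3
    rw [← h4]
    abel

/-- If the carry cochain of `a` is a coboundary then `a` is a norm. -/
lemma exists_psum_eq_of_d₁₂_eq_carry (a : M.V) (b : G → M.V)
    (h : (d₁₂ M).hom b = carry M s a) : ∃ y : M.V, psum M s y (orderOf s) = a := by
  by_cases hn : orderOf s = 1
  · refine ⟨a, ?_⟩
    rw [hn]
    simp [psum]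
  · have hn2 : 2 ≤ orderOf s := by
      have := orderOf_pos s
      omega
    refine ⟨b s, ?_⟩
    have key : ∀ i ∈ range (orderOf s),
        M.ρ (s ^ i) (b s) = (b (s ^ (i + 1)) - b (s ^ i)) +
          (if i + 1 < orderOf s then 0 else a) := by
      intro i hi
      have hi' : i < orderOf s := mem_range.1 hi
      have h1 := congrFun h (s ^ i, s)
      rw [d₁₂_hom_apply] at h1
      have h2 : carry M s a (s ^ i, s) = if i + 1 < orderOf s then 0 else a := by
        have := carry_pow_pow M s a hi' (show 1 < orderOf s by omega)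
        rwa [pow_one] at this
      rw [h2] at h1
      simp only at h1
      rw [← pow_succ] at h1
      rw [← h1]
      abel
    unfold psum
    rw [sum_congr rfl key, sum_add_distrib, Finset.sum_range_sub (fun i => b (s ^ i))]
    rw [pow_orderOf_eq_one, pow_zero, sub_self, zero_add]
    rw [sum_eq_single (orderOf s - 1)]
    · rw [if_neg (by omega)]
    · intro i hi hne
      have := mem_range.1 hi
      rw [if_pos (by omega)]
    · intro hh
      exact absurd (mem_range.2 (by omega)) hh

/-- A cocycle vanishing at `(1, 1)` is normalised. -/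
lemma cocycle_apply_one_right {F : G × G → M.V} (hF : F ∈ cocycles₂ M) (h11 : F (1, 1) = 0)
    (g : G) : F (g, 1) = 0 := by
  have := cocycles₂_map_one_snd (⟨F, hF⟩ : cocycles₂ M) g
  rw [cocycles₂.coe_mk] at this
  rw [this, h11, map_zero]

lemma cocycle_apply_one_left {F : G × G → M.V} (hF : F ∈ cocycles₂ M) (h11 : F (1, 1) = 0)
    (g : G) : F (1, g) = 0 := by
  have := cocycles₂_map_one_fst (⟨F, hF⟩ : cocycles₂ M) g
  rw [cocycles₂.coe_mk] at this
  rw [this, h11]

/-- A normalised cocycle whose column `F(sⁱ, s)` is the carry column is the carry cocycle, and `a`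
is invariant. -/
lemma carry_form_of_column (hs : ∀ g : G, g ∈ Subgroup.zpowers s) {F : G × G → M.V}
    (hF : F ∈ cocycles₂ M) (h11 : F (1, 1) = 0) (a : M.V)
    (hcol : ∀ i, i < orderOf s → F (s ^ i, s) = if i + 1 < orderOf s then 0 else a) :
    (∀ i j, i < orderOf s → j < orderOf s →
      F (s ^ i, s ^ j) = if i + j < orderOf s then 0 else a) ∧ (∀ g : G, M.ρ g a = a) := by
  have hn := orderOf_pos s
  have hcol' : ∀ i, F (s ^ i, s) = if i % orderOf s + 1 < orderOf s then 0 else a := by
    intro i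
    rw [← pow_mod_orderOf]
    exact hcol _ (Nat.mod_lt _ hn)
  have main : ∀ j, j < orderOf s → ∀ i, i < orderOf s →
      F (s ^ i, s ^ j) = if i + j < orderOf s then 0 else a := by
    intro j
    induction j with
    | zero =>
      intro _ i hi
      rw [pow_zero, cocycle_apply_one_right hF h11, if_pos (by omega)]
    | succ j ih =>
      intro hj i hi
      have h1 := (mem_cocycles₂_iff F).1 hF (s ^ i) (s ^ j) s
      rw [← pow_add, ← pow_succ, hcol j (by omega), if_pos hj, map_zero, zero_add,
        hcol' (i + j), ih (by omega) i hi, mod_add_of_lt hi (show j < orderOf s by omega)] at h1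
      rw [← h1]
      split_ifs <;> first | omega | simp
  refine ⟨fun i j hi hj => main j hj i hi, ?_⟩
  have hinv : ∀ i, i < orderOf s → M.ρ (s ^ i) a = a := by
    intro i hi
    rcases Nat.eq_zero_or_pos i with rfl | hpos
    · rw [pow_zero, map_one]; rfl
    · have h1 := (mem_cocycles₂_iff F).1 hF (s ^ i) (s ^ (orderOf s - 1)) s
      have e1 : F (s ^ i * s ^ (orderOf s - 1), s) = 0 := by
        have hmod : (i + (orderOf s - 1)) % orderOf s = i - 1 := by
          rw [mod_add_of_lt hi (show orderOf s - 1 < orderOf s by omega), if_neg (by omega)]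
          omega
        rw [← pow_add, hcol' (i + (orderOf s - 1)), hmod, if_pos (by omega)]
      have e2 : F (s ^ i, s ^ (orderOf s - 1)) = a := by
        rw [main (orderOf s - 1) (by omega) i hi, if_neg (by omega)]
      have e3 : F (s ^ (orderOf s - 1), s) = a := by
        rw [hcol (orderOf s - 1) (by omega), if_neg (by omega)]
      have e4 : F (s ^ i, s ^ (orderOf s - 1) * s) = 0 := by
        rw [← pow_succ, show orderOf s - 1 + 1 = orderOf s by omega, pow_orderOf_eq_one,
          cocycle_apply_one_right hF h11]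
      rw [e1, e2, e3, e4, zero_add, add_zero] at h1
      exact h1.symm
  intro g
  rw [← pow_expo hs g]
  exact hinv _ (expo_lt g)

/-- Every class has a representative vanishing at `(1, 1)`. -/
lemma exists_normalised (f : cocycles₂ M) :
    ∃ f₀ : cocycles₂ M, H2π M f₀ = H2π M f ∧ (f₀ : G × G → M.V) (1, 1) = 0 := by
  set m : M.V := (f : G × G → M.V) (1, 1) with hm
  have hmem : (f : G × G → M.V) - (d₁₂ M).hom (fun _ => m) ∈ cocycles₂ M :=
    sub_mem f.2 (d₁₂_apply_mem_cocycles₂ _)
  refine ⟨⟨_, hmem⟩, ?_, ?_⟩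
  · rw [H2π_eq_iff]
    refine ⟨fun _ => -m, ?_⟩
    funext ⟨g, h⟩
    simp [d₁₂_hom_apply]
  · show (f : G × G → M.V) (1, 1) - (d₁₂ M).hom (fun _ => m) (1, 1) = 0
    rw [d₁₂_hom_apply]
    simp [hm]

/-- **Every class of `H²(⟨s⟩, M)` is the class of a carry cocycle.** -/
theorem exists_carry_rep (hs : ∀ g : G, g ∈ Subgroup.zpowers s) (x : H2 M) :
    ∃ (a : M.V) (c : cocycles₂ M), (∀ g : G, M.ρ g a = a) ∧ H2π M c = x ∧
      ∀ i j : ℕ, i < orderOf s → j < orderOf s →
        (c : G × G → M.V) (s ^ i, s ^ j) = if i + j < orderOf s then 0 else a := by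
  induction x using H2_induction_on with
  | h f =>
  obtain ⟨f₀, hf₀, h11⟩ := exists_normalised f
  have hn := orderOf_pos s
  -- partial sums of the column
  set q : ℕ → M.V := fun i => ∑ t ∈ range i, (f₀ : G × G → M.V) (s ^ t, s) with hq
  have hq0 : q 0 = 0 := by simp [hq]
  have hqs : ∀ i, q (i + 1) = q i + (f₀ : G × G → M.V) (s ^ i, s) := fun i => sum_range_succ _ _
  set b : G → M.V := fun g => -q (expo s g) with hb
  have hF : (f₀ : G × G → M.V) - (d₁₂ M).hom b ∈ cocycles₂ M :=
    sub_mem f₀.2 (d₁₂_apply_mem_cocycles₂ _)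
  have hb1 : b 1 = 0 := by simp [hb, expo_one, hq0]
  have hbs : b s = 0 := by
    have h1 : expo s s = 1 % orderOf s := by
      have := expo_pow (s := s) 1
      rwa [pow_one] at this
    have h2 : expo s s = 0 ∨ expo s s = 1 := by
      have : 1 % orderOf s ≤ 1 := Nat.mod_le _ _
      omega
    rcases h2 with h2 | h2
    · simp [hb, h2, hq0]
    · have : q 1 = 0 := by
        rw [hqs 0, hq0, zero_add, pow_zero]
        exact cocycle_apply_one_left f₀.2 h11 s
      simp [hb, h2, this]
  have hF11 : ((f₀ : G × G → M.V) - (d₁₂ M).hom b) (1, 1) = 0 := by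
    show (f₀ : G × G → M.V) (1, 1) - (d₁₂ M).hom b (1, 1) = 0
    rw [d₁₂_hom_apply, h11]
    simp [hb1]
  have hcol : ∀ i, i < orderOf s → ((f₀ : G × G → M.V) - (d₁₂ M).hom b) (s ^ i, s) =
      if i + 1 < orderOf s then 0 else q (orderOf s) := by
    intro i hi
    show (f₀ : G × G → M.V) (s ^ i, s) - (d₁₂ M).hom b (s ^ i, s) = _
    rw [d₁₂_hom_apply]
    simp only
    rw [hbs, map_zero, zero_sub, ← pow_succ]
    have hbi : b (s ^ i) = -q i := by simp only [hb, expo_pow_of_lt hi]
    have hbi1 : b (s ^ (i + 1)) = -q ((i + 1) % orderOf s) := by simp only [hb, expo_pow]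
    rw [hbi, hbi1]
    split_ifs with hlt
    · rw [Nat.mod_eq_of_lt hlt, hqs i]
      abel
    · have hin : i + 1 = orderOf s := by omega
      rw [hin, Nat.mod_self, hq0, ← hin, hqs i]
      abel
  obtain ⟨hform, hinv⟩ := carry_form_of_column hs hF hF11 (q (orderOf s)) hcol
  refine ⟨q (orderOf s), ⟨_, hF⟩, hinv, ?_, hform⟩
  rw [← hf₀, H2π_eq_iff]
  refine ⟨-b, ?_⟩
  rw [map_neg]
  funext p
  simp

end Carry

/-! ### The interface statement -/

section Final

variable {k : Type} [CommRing k] {G : Type} [Group G] [Finite G] (M : Rep.{0} k G) (s : G)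

/-- The norm with the instance `Fintype.ofFinite`, generic in `k`. -/
def normMapK (M : Rep.{0} k G) : M.V → M.V :=
  letI := Fintype.ofFinite G
  fun x => ∑ g : G, M.ρ g x

lemma normMapK_eq_psum (hs : ∀ g : G, g ∈ Subgroup.zpowers s) (y : M.V) :
    normMapK M y = psum M s y (orderOf s) := by
  let _ := Fintype.ofFinite G
  exact sum_rho_eq_psum hs y

/-- The class of the carry cocycle of an invariant `a` vanishes iff `a` is a norm. -/
theorem H2π_carry_eq_zero_iff (hs : ∀ g : G, g ∈ Subgroup.zpowers s) {a : M.V}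
    (ha : ∀ g : G, M.ρ g a = a) :
    H2π M ⟨carry M s a, carry_mem_cocycles₂ hs ha⟩ = 0 ↔ ∃ y : M.V, normMapK M y = a := by
  rw [H2π_eq_zero_iff]
  constructor
  · rintro ⟨b, hb⟩
    obtain ⟨y, hy⟩ := exists_psum_eq_of_d₁₂_eq_carry a b hb
    exact ⟨y, by rw [normMapK_eq_psum M s hs, hy]⟩
  · rintro ⟨y, hy⟩
    refine ⟨fun g => psum M s y (expo s g), ?_⟩
    rw [d₁₂_psum_eq_carry hs y, ← normMapK_eq_psum M s hs, hy]
    rfl

end Final

/-- **(CYC2)** `Interface8.CyclicH2`. -/
theorem cyclicH2 : Interface8.CyclicH2 := by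
  intro G _ _ M s hs
  have hcard : orderOf s = Nat.card G := orderOf_eq_card_of_forall_mem_zpowers hs
  refine ⟨fun a ha => ?_, fun x => ?_⟩
  · refine ⟨⟨carry M s a, carry_mem_cocycles₂ hs ha⟩, ?_, ?_⟩
    · intro i j hi hj
      rw [← hcard] at hi hj ⊢
      exact carry_pow_pow M s a hi hj
    · exact H2π_carry_eq_zero_iff M s hs ha
  · obtain ⟨a, c, ha, hc, hform⟩ := exists_carry_rep hs x
    refine ⟨a, c, ha, hc, ?_⟩
    rw [← hcard]
    exact hform

end

end Fermat.Agent.PT.FG.CyclicH2_18
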