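/-
Program F (S55, Poitou–Tate), chapter FG: **transfer of fundamental classes** along a pair of
morphisms `i : C' ⟶ C`, `j : C ⟶ C'` with `i ≫ j = m`, `j ≫ i = m`, `m` prime to `p`
(helper21's GLUE request: `C' = (C_S)^{U_L}`, `C = CT S L`, `m` = prime-to-`p` part of the
`S`-class number).  Owner helper2.

* `nsmul_bijective_of_coprime`: on a group killed by `p ^ a`, multiplication by `m` is bijective;
* `push_bijective_of_pGroup`: for a finite `p`-group `G`, `j_* : Hⁿ⁺¹(G, A) → Hⁿ⁺¹(G, A')` is
  bijective (any `k`, `{k G : Type u}`);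
* `push_res_comm`: push-forward commutes with restriction to a subgroup;
* `isFundClass_transfer`: `Interface8.IsFundClass p C u → Interface8.IsFundClass p C' (pushH 2 j u)`.
-/
import Mathlib
import Fermat.Agent.PT.FG.Transfer2
import Fermat.Agent.PT.FG.Interface8

set_option autoImplicit false
set_option linter.unusedSectionVars false

open CategoryTheory groupCohomology Rep

universe u

namespace Fermat.Agent.PT.FG.FundClassTransfer2

open Fermat.Agent.PT.FG.Transfer2

section core

variable {k G : Type u} [CommRing k] [Group G]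

/-- On an abelian group killed by `p ^ a`, multiplication by `m` prime to `p` is bijective. -/
lemma nsmul_bijective_of_coprime {X : Type*} [AddCommGroup X] {p a m : ℕ} (hm : Nat.Coprime p m)
    (hX : ∀ x : X, p ^ a • x = 0) : Function.Bijective (fun x : X => m • x) := by
  have hcop : IsCoprime ((m : ℕ) : ℤ) (((p ^ a : ℕ) : ℤ)) := by
    rw [Nat.isCoprime_iff_coprime]
    exact (Nat.Coprime.pow_left a hm).symm
  obtain ⟨c, d, hcd⟩ := hcop
  have key : ∀ x : X, c • (m • x) = x := fun x => by
    have h1 : c • (m • x) = (c * (m : ℤ)) • x := by rw [mul_smul, natCast_zsmul]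
    have h2 : (d * ((p ^ a : ℕ) : ℤ)) • x = 0 := by rw [mul_smul, natCast_zsmul, hX, smul_zero]
    calc c • (m • x) = (c * (m : ℤ)) • x + (d * ((p ^ a : ℕ) : ℤ)) • x := by rw [h1, h2, add_zero]
      _ = x := by rw [← add_smul, hcd, one_smul]
  constructor
  · intro x y hxy
    have := congrArg (fun z => c • z) hxy
    simp only [key] at this
    exact this
  · intro y
    refine ⟨c • y, ?_⟩
    show m • c • y = y
    rw [smul_comm]
    exact key y

/-- **Core.**  `G` a finite `p`-group, `i : A' ⟶ A`, `j : A ⟶ A'` with `i ≫ j = m`, `j ≫ i = m`,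
`m` prime to `p`.  Then `j_* : Hⁿ⁺¹(G, A) → Hⁿ⁺¹(G, A')` is bijective. -/
theorem push_bijective_of_pGroup [Finite G] {p : ℕ} [Fact p.Prime] (hG : IsPGroup p G)
    {A A' : Rep.{u} k G} (i : A' ⟶ A) (j : A ⟶ A') (m : ℕ) (hm : Nat.Coprime p m)
    (hij : i ≫ j = m • 𝟙 A') (hji : j ≫ i = m • 𝟙 A) (n : ℕ) :
    Function.Bijective (groupCohomology.map (MonoidHom.id G) j (n + 1)).hom := by
  obtain ⟨a, ha⟩ := hG.exists_card_eq
  have hkA : ∀ x : groupCohomology A (n + 1), p ^ a • x = 0 := fun x => by
    rw [← ha]; exact card_nsmul_eq_zero A n x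
  have hkA' : ∀ x : groupCohomology A' (n + 1), p ^ a • x = 0 := fun x => by
    rw [← ha]; exact card_nsmul_eq_zero A' n x
  have h1 : ∀ x : groupCohomology A' (n + 1),
      (groupCohomology.map (MonoidHom.id G) j (n + 1)).hom
        ((groupCohomology.map (MonoidHom.id G) i (n + 1)).hom x) = m • x := fun x => by
    have h := congrArg (fun φ : A' ⟶ A' => groupCohomology.map (MonoidHom.id G) φ (n + 1)) hij
    rw [groupCohomology.map_id_comp, map_nsmul_id] at h
    have h2 := congrArg (fun f => f.hom x) h
    simpa using h2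
  have h2 : ∀ x : groupCohomology A (n + 1),
      (groupCohomology.map (MonoidHom.id G) i (n + 1)).hom
        ((groupCohomology.map (MonoidHom.id G) j (n + 1)).hom x) = m • x := fun x => by
    have h := congrArg (fun φ : A ⟶ A => groupCohomology.map (MonoidHom.id G) φ (n + 1)) hji
    rw [groupCohomology.map_id_comp, map_nsmul_id] at h
    have h2 := congrArg (fun f => f.hom x) h
    simpa using h2
  have bA := nsmul_bijective_of_coprime hm hkA
  have bA' := nsmul_bijective_of_coprime hm hkA'
  constructor
  · intro x y hxy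
    apply bA.1
    show m • x = m • y
    rw [← h2 x, ← h2 y, hxy]
  · intro y
    obtain ⟨y', hy'⟩ := bA'.2 y
    exact ⟨(groupCohomology.map (MonoidHom.id G) i (n + 1)).hom y', (h1 y').trans hy'⟩

end core


section naturality

variable {k G : Type u} [CommRing k] [Group G]

/-- Push-forward commutes with restriction to a subgroup. -/
lemma push_res_comm (H : Subgroup G) {A A' : Rep.{u} k G} (j : A ⟶ A') (n : ℕ) :
    groupCohomology.map (MonoidHom.id G) j n ≫
        groupCohomology.map H.subtype (𝟙 (res H.subtype A')) n =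
      groupCohomology.map H.subtype (𝟙 (res H.subtype A)) n ≫
        groupCohomology.map (MonoidHom.id H) ((resFunctor H.subtype).map j) n := by
  rw [← groupCohomology.map_comp, ← groupCohomology.map_comp]
  exact groupCohomology.map_congr rfl rfl n

end naturality

section transfer

open Fermat.Agent.PT.FG.Interface8

variable {G : Type} [Group G] [Finite G]

/-- **Transfer of fundamental classes** along a pair of morphisms `i : C' ⟶ C`, `j : C ⟶ C'` with
`i ≫ j = m`, `j ≫ i = m`, `m` prime to `p`: if `(C, u)` satisfies the `p`-class-formation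
hypotheses then so does `(C', j_* u)`. -/
theorem isFundClass_transfer (p : ℕ) [Fact p.Prime] (C C' : Rep ℤ G) (i : C' ⟶ C) (j : C ⟶ C')
    (m : ℕ) (hm : Nat.Coprime p m) (hij : i ≫ j = m • 𝟙 C') (hji : j ≫ i = m • 𝟙 C)
    (u : H2 C) (hu : IsFundClass p C u) : IsFundClass p C' (pushH 2 j u) := by
  have key : ∀ (H : Subgroup G), IsPGroup p H → ∀ n : ℕ, Function.Bijective
      (groupCohomology.map (A := res H.subtype C) (B := res H.subtype C') (MonoidHom.id H)
        ((resFunctor H.subtype).map j) (n + 1)).hom := by
    intro H hH n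
    refine push_bijective_of_pGroup hH ((resFunctor H.subtype).map i)
      ((resFunctor H.subtype).map j) m hm ?_ ?_ n
    · rw [← Functor.map_comp, hij, Functor.map_nsmul, CategoryTheory.Functor.map_id]
    · rw [← Functor.map_comp, hji, Functor.map_nsmul, CategoryTheory.Functor.map_id]
  refine ⟨fun H hH => ?_, fun H hH => ?_, fun H hH => ?_⟩
  · have := hu.h1 H hH
    exact (key H hH 0).2.subsingleton
  · rw [← hu.card H hH]
    exact (Nat.card_congr (Equiv.ofBijective _ (key H hH 1))).symm
  · rw [← hu.order H hH]
    have hnat := congrArg (fun f => f.hom u) (push_res_comm H j 2)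
    simp only [ModuleCat.hom_comp, LinearMap.coe_comp, Function.comp_apply] at hnat
    show addOrderOf ((groupCohomology.map H.subtype (𝟙 (res H.subtype C')) 2).hom
      ((groupCohomology.map (MonoidHom.id G) j 2).hom u)) = _
    rw [hnat]
    exact addOrderOf_injective
      (groupCohomology.map (A := res H.subtype C) (B := res H.subtype C') (MonoidHom.id H)
        ((resFunctor H.subtype).map j) 2).hom.toAddMonoidHom
      (key H hH 1).1 _

end transfer

end Fermat.Agent.PT.FG.FundClassTransfer2
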