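/-
Program F (S55, Poitou–Tate), chapter FG: complements to `FundClassTransfer2` (helper21's GLUE
request), owner helper2.

* `map_equiv_bijective`: for a group isomorphism `e : G' ≃* G` and `φ : Res_e C ≅ C'`,
  `groupCohomology.map e φ.hom n` is bijective (generic `k`);
* `imageEquiv`, `resIso`, `map_imageEquiv_bijective`, `map_equiv_res_comm`: the same on subgroups,
  compatibly with restriction;
* `isFundClass_of_equiv`: `Interface8.IsFundClass p C u → IsFundClass p C' (map e φ.hom 2 u)`
  (transport of fundamental classes along an isomorphism of pairs, e.g. `Γ ⧸ U_L ≅ Gal(L/ℚ)`);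
* `isFundClass_transfer'` (elementwise hypotheses `i (j x) = m • x`, `j (i y) = m • y`),
  `push_push_eq_nsmul`, `push_res_bijective`.
-/
import Mathlib
import Fermat.Agent.PT.FG.FundClassTransfer2

set_option autoImplicit false
set_option linter.unusedSectionVars false

open CategoryTheory groupCohomology Rep

universe u

namespace Fermat.Agent.PT.FG.FundClassTransferB2

open Fermat.Agent.PT.FG.Transfer2 Fermat.Agent.PT.FG.FundClassTransfer2

section equiv

variable {k G G' : Type u} [CommRing k] [Group G] [Group G'] (e : G' ≃* G)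
  (C : Rep.{u} k G) (C' : Rep.{u} k G') (φ : res e.toMonoidHom C ≅ C')

/-- `map e φ.hom` is bijective in every degree. -/
theorem map_equiv_bijective (n : ℕ) :
    Function.Bijective (groupCohomology.map e.toMonoidHom φ.hom n).hom := by
  -- inverse: `map e.symm ψ` with `ψ := φ.inv` regarded as `res e.symm C' ⟶ C`
  let ψ : res e.symm.toMonoidHom C' ⟶ C :=
    Rep.ofHom ⟨φ.inv.hom.toLinearMap, fun g => by
      have h := φ.inv.hom.isIntertwining' (e.symm g)
      ext x
      have h' := LinearMap.congr_fun h x
      simp only [LinearMap.coe_comp, Function.comp_apply] at h' ⊢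
      refine h'.trans ?_
      show (C.ρ (e (e.symm g))) _ = _
      rw [e.apply_symm_apply]⟩
  have h1 : groupCohomology.map e.toMonoidHom φ.hom n ≫ groupCohomology.map e.symm.toMonoidHom ψ n
      = 𝟙 _ := by
    rw [← groupCohomology.map_comp, ← groupCohomology.map_id]
    refine groupCohomology.map_congr (by ext; simp) ?_ n
    ext x
    exact congrArg (fun f => f.hom x) φ.hom_inv_id
  have h2 : groupCohomology.map e.symm.toMonoidHom ψ n ≫ groupCohomology.map e.toMonoidHom φ.hom n
      = 𝟙 _ := by
    rw [← groupCohomology.map_comp, ← groupCohomology.map_id]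
    refine groupCohomology.map_congr (by ext; simp) ?_ n
    ext x
    exact congrArg (fun f => f.hom x) φ.inv_hom_id
  constructor
  · intro x y hxy
    have := congrArg (groupCohomology.map e.symm.toMonoidHom ψ n).hom hxy
    have e1 := congrArg (fun f => f.hom x) h1
    have e2 := congrArg (fun f => f.hom y) h1
    simp only [ModuleCat.hom_comp, LinearMap.coe_comp, Function.comp_apply, ModuleCat.hom_id,
      LinearMap.id_coe, id_eq] at e1 e2
    rw [← e1, ← e2, this]
  · intro y
    refine ⟨(groupCohomology.map e.symm.toMonoidHom ψ n).hom y, ?_⟩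
    have e2 := congrArg (fun f => f.hom y) h2
    simpa using e2


variable (H' : Subgroup G')

/-- The image subgroup and the restricted group isomorphism. -/
noncomputable abbrev imageEquiv : H' ≃* H'.map e.toMonoidHom :=
  Subgroup.equivMapOfInjective H' e.toMonoidHom e.injective

/-- The restriction of `φ` to `H'`, as an isomorphism
`res e_H (res H.subtype C) ≅ res H'.subtype C'`. -/
noncomputable def resIso :
    res (imageEquiv e H').toMonoidHom (res (H'.map e.toMonoidHom).subtype C) ≅
      res H'.subtype C' :=
  (resFunctor H'.subtype).mapIso φ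

/-- The comparison map `Hⁿ(e H', C) → Hⁿ(H', C')` is bijective. -/
theorem map_imageEquiv_bijective (n : ℕ) :
    Function.Bijective (groupCohomology.map (imageEquiv e H').toMonoidHom
      (resIso e C C' φ H').hom n).hom :=
  map_equiv_bijective (imageEquiv e H') (res (H'.map e.toMonoidHom).subtype C)
    (res H'.subtype C') (resIso e C C' φ H') n

/-- Naturality: transport then restrict = restrict then transport. -/
lemma map_equiv_res_comm (n : ℕ) :
    groupCohomology.map e.toMonoidHom φ.hom n ≫
        groupCohomology.map H'.subtype (𝟙 (res H'.subtype C')) n =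
      groupCohomology.map (H'.map e.toMonoidHom).subtype
          (𝟙 (res (H'.map e.toMonoidHom).subtype C)) n ≫
        groupCohomology.map (imageEquiv e H').toMonoidHom (resIso e C C' φ H').hom n := by
  rw [← groupCohomology.map_comp, ← groupCohomology.map_comp]
  exact groupCohomology.map_congr rfl rfl n

end equiv

section transport

open Fermat.Agent.PT.FG.Interface8

variable {G G' : Type} [Group G] [Group G']

/-- **Transport of fundamental classes along an isomorphism of groups** `e : G' ≃* G` and an
isomorphism of `G'`-modules `φ : Res_e C ≅ C'`. -/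
theorem isFundClass_of_equiv (p : ℕ) [Fact p.Prime] (e : G' ≃* G) (C : Rep ℤ G) (C' : Rep ℤ G')
    (φ : Rep.res e.toMonoidHom C ≅ C') (u : H2 C) (hu : IsFundClass p C u) :
    IsFundClass p C' (groupCohomology.map e.toMonoidHom φ.hom 2 u) := by
  have hP : ∀ H' : Subgroup G', IsPGroup p H' → IsPGroup p (H'.map e.toMonoidHom) :=
    fun H' hH' => hH'.map _
  have hcard : ∀ H' : Subgroup G', Nat.card (H'.map e.toMonoidHom) = Nat.card H' :=
    fun H' => (Nat.card_congr (imageEquiv e H').toEquiv).symm
  refine ⟨fun H' hH' => ?_, fun H' hH' => ?_, fun H' hH' => ?_⟩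
  · have := hu.h1 _ (hP H' hH')
    exact (map_imageEquiv_bijective e C C' φ H' 1).2.subsingleton
  · rw [← hcard H', ← hu.card _ (hP H' hH')]
    exact (Nat.card_congr (Equiv.ofBijective _ (map_imageEquiv_bijective e C C' φ H' 2))).symm
  · rw [← hcard H', ← hu.order _ (hP H' hH')]
    have hnat := congrArg (fun f => f.hom u) (map_equiv_res_comm e C C' φ H' 2)
    simp only [ModuleCat.hom_comp, LinearMap.coe_comp, Function.comp_apply] at hnat
    show addOrderOf ((groupCohomology.map H'.subtype (𝟙 (res H'.subtype C')) 2).hom
      ((groupCohomology.map e.toMonoidHom φ.hom 2).hom u)) = _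
    rw [hnat]
    exact addOrderOf_injective
      (groupCohomology.map (imageEquiv e H').toMonoidHom
        (resIso e C C' φ H').hom 2).hom.toAddMonoidHom
      (map_imageEquiv_bijective e C C' φ H' 2).1 _


/-- From the elementwise identity `j (i y) = m • y` to the identity of morphisms. -/
lemma comp_eq_nsmul_of_apply {k : Type} [CommRing k] {A B : Rep.{0} k G} (i : A ⟶ B) (j : B ⟶ A)
    (m : ℕ) (h : ∀ y : A.V, j.hom (i.hom y) = m • y) : i ≫ j = m • 𝟙 A := by
  apply Rep.hom_ext
  ext y
  rw [Rep.nsmul_hom]
  exact h y

variable [Finite G]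

/-- `isFundClass_transfer` with the hypotheses on `i`, `j` stated elementwise
(helper21's shape). -/
theorem isFundClass_transfer' (p : ℕ) [Fact p.Prime] (C C' : Rep ℤ G) (i : C' ⟶ C) (j : C ⟶ C')
    (m : ℕ) (hm : Nat.Coprime p m) (hij : ∀ x : C.V, i.hom (j.hom x) = m • x)
    (hji : ∀ y : C'.V, j.hom (i.hom y) = m • y) (u : H2 C) (hu : IsFundClass p C u) :
    IsFundClass p C' (pushH 2 j u) :=
  isFundClass_transfer p C C' i j m hm (comp_eq_nsmul_of_apply i j m hji)
    (comp_eq_nsmul_of_apply j i m hij) u hu

omit [Finite G] in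
/-- `i_* (j_* u) = m • u`. -/
theorem push_push_eq_nsmul (C C' : Rep ℤ G) (i : C' ⟶ C) (j : C ⟶ C') (m : ℕ)
    (hij : ∀ x : C.V, i.hom (j.hom x) = m • x) (n : ℕ) (u : groupCohomology C n) :
    pushH n i (pushH n j u) = m • u := by
  have h := congrArg (fun φ : C ⟶ C => groupCohomology.map (MonoidHom.id G) φ n)
    (comp_eq_nsmul_of_apply j i m hij)
  rw [groupCohomology.map_id_comp, map_nsmul_id] at h
  have h2 := congrArg (fun f => f.hom u) h
  simpa using h2

/-- (3) of helper21's request: for every `p`-subgroup `H`, the push-forwards along the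
restrictions of `i` and `j` are bijective on `Hⁿ⁺¹(H, -)`. -/
theorem push_res_bijective (p : ℕ) [Fact p.Prime] (C C' : Rep ℤ G) (i : C' ⟶ C) (j : C ⟶ C')
    (m : ℕ) (hm : Nat.Coprime p m) (hij : ∀ x : C.V, i.hom (j.hom x) = m • x)
    (hji : ∀ y : C'.V, j.hom (i.hom y) = m • y) (H : Subgroup G) (hH : IsPGroup p H) (n : ℕ) :
    Function.Bijective (groupCohomology.map (A := res H.subtype C) (B := res H.subtype C')
        (MonoidHom.id H) ((resFunctor H.subtype).map j) (n + 1)).hom ∧
      Function.Bijective (groupCohomology.map (A := res H.subtype C') (B := res H.subtype C)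
        (MonoidHom.id H) ((resFunctor H.subtype).map i) (n + 1)).hom := by
  have e1 : (resFunctor H.subtype).map i ≫ (resFunctor H.subtype).map j =
      m • 𝟙 (res H.subtype C') := by
    rw [← Functor.map_comp, comp_eq_nsmul_of_apply i j m hji, Functor.map_nsmul,
      CategoryTheory.Functor.map_id]
  have e2 : (resFunctor H.subtype).map j ≫ (resFunctor H.subtype).map i =
      m • 𝟙 (res H.subtype C) := by
    rw [← Functor.map_comp, comp_eq_nsmul_of_apply j i m hij, Functor.map_nsmul,
      CategoryTheory.Functor.map_id]
  exact ⟨push_bijective_of_pGroup hH _ _ m hm e1 e2 n, push_bijective_of_pGroup hH _ _ m hm e2 e1 n⟩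

end transport

end Fermat.Agent.PT.FG.FundClassTransferB2
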