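/-
Program F (S55, Poitou–Tate), chapter FG: (ABS) transfer of fundamental classes to a SUBMODULE of
prime-to-`p` "index" (helper21's GLUE leaf), owner helper2.

* `divHom C C' i hi m hr : C ⟶ C'` (`j := i⁻¹ ∘ m`), `i_divHom`, `divHom_i` (generic `k`);
* `exists_isFundClass_of_injective'` / `exists_isFundClass_of_injective`: `i : C' ⟶ C` injective,
  `m • C ⊆ i(C')`, `p ∤ m`, `IsFundClass p C u ⇒ ∃ u', IsFundClass p C' u' (∧ i_* u' = m • u)`;
* `homOfLin`, `linOfAdd` (an additive map between `ℤ`-representations is linear for the module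
  structures carried by the `Rep`s);
* `exists_isFundClass_of_equiv_injective`: the same along a group isomorphism `e : G' ≃* G` and an
  injective equivariant ADDITIVE map `f : C'.V →+ C.V`.
-/
import Mathlib
import Fermat.Agent.PT.FG.FundClassTransferB2

set_option autoImplicit false
set_option linter.unusedSectionVars false

open CategoryTheory groupCohomology Rep

namespace Fermat.Agent.PT.FG.FundClassSub2

open Fermat.Agent.PT.FG.Interface8 Fermat.Agent.PT.FG.FundClassTransfer2
  Fermat.Agent.PT.FG.FundClassTransferB2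

section divHom

variable {k : Type} [CommRing k] {G : Type} [Group G] (C C' : Rep.{0} k G) (i : C' ⟶ C)
  (hi : Function.Injective i.hom) (m : ℕ) (hr : ∀ x : C.V, ∃ y : C'.V, i.hom y = m • x)

/-- "Division by `i` after multiplication by `m`": the morphism `j : C ⟶ C'` with
`i (j x) = m • x`. -/
noncomputable def divHom : C ⟶ C' :=
  Rep.ofHom ⟨{ toFun := fun x => (hr x).choose
               map_add' := fun x y => by
                 apply hi
                 rw [map_add, (hr x).choose_spec, (hr y).choose_spec, (hr (x + y)).choose_spec,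
                   smul_add]
               map_smul' := fun a x => by
                 apply hi
                 rw [RingHom.id_apply, map_smul, (hr x).choose_spec, (hr (a • x)).choose_spec,
                   smul_comm] },
    fun g => by
      ext x
      apply hi
      simp only [LinearMap.coe_comp, LinearMap.coe_mk, AddHom.coe_mk, Function.comp_apply]
      rw [(hr (C.ρ g x)).choose_spec]
      have h1 := Rep.hom_comm_apply i g (hr x).choose
      rw [h1, (hr x).choose_spec, map_nsmul]⟩

lemma i_divHom (x : C.V) : i.hom ((divHom C C' i hi m hr).hom x) = m • x :=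
  (hr x).choose_spec

lemma divHom_i (y : C'.V) : (divHom C C' i hi m hr).hom (i.hom y) = m • y := by
  apply hi
  rw [i_divHom, map_nsmul]

end divHom


section main

variable {G : Type} [Group G] [Finite G]

/-- **(ABS)** If `i : C' ⟶ C` is injective with `m • C ⊆ i(C')`, `m` prime to `p`, and `(C, u)`
satisfies the `p`-class-formation hypotheses, then so does `(C', u')` for the class
`u' := j_* u`, `j := i⁻¹ ∘ m`; moreover `i_* u' = m • u`. -/
theorem exists_isFundClass_of_injective' (p : ℕ) [Fact p.Prime] (C C' : Rep ℤ G) (i : C' ⟶ C)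
    (hi : Function.Injective i.hom) (m : ℕ) (hm : Nat.Coprime p m)
    (hr : ∀ x : C.V, ∃ y : C'.V, i.hom y = m • x) (u : H2 C) (hu : IsFundClass p C u) :
    ∃ u' : H2 C', IsFundClass p C' u' ∧ pushH 2 i u' = m • u :=
  ⟨pushH 2 (divHom C C' i hi m hr) u,
    isFundClass_transfer' p C C' i (divHom C C' i hi m hr) m hm (i_divHom C C' i hi m hr)
      (divHom_i C C' i hi m hr) u hu,
    push_push_eq_nsmul C C' i (divHom C C' i hi m hr) m (i_divHom C C' i hi m hr) 2 u⟩

theorem exists_isFundClass_of_injective (p : ℕ) [Fact p.Prime] (C C' : Rep ℤ G) (i : C' ⟶ C)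
    (hi : Function.Injective i.hom) (m : ℕ) (hm : Nat.Coprime p m)
    (hr : ∀ x : C.V, ∃ y : C'.V, i.hom y = m • x) (u : H2 C) (hu : IsFundClass p C u) :
    ∃ u' : H2 C', IsFundClass p C' u' := by
  obtain ⟨u', hu', -⟩ := exists_isFundClass_of_injective' p C C' i hi m hm hr u hu
  exact ⟨u', hu'⟩

end main

section homOfLin

variable {k : Type} [CommRing k] {G' : Type} [Group G']

/-- A morphism of representations from an equivariant linear map (generic in `k`; specialise
`k := ℤ` by application to avoid the `ℤ`-module diamond). -/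
def homOfLin (A B : Rep.{0} k G') (l : A.V →ₗ[k] B.V)
    (h : ∀ (g : G') (y : A.V), l (A.ρ g y) = B.ρ g (l y)) : A ⟶ B :=
  Rep.ofHom ⟨l, fun g => by
    ext y
    exact h g y⟩

lemma homOfLin_hom_apply (A B : Rep.{0} k G') (l : A.V →ₗ[k] B.V)
    (h : ∀ (g : G') (y : A.V), l (A.ρ g y) = B.ρ g (l y)) (y : A.V) :
    (homOfLin A B l h).hom y = l y := rfl

end homOfLin

section equiv

variable {G G' : Type} [Group G] [Finite G] [Group G'] [Finite G']

/-- An additive map between the underlying groups of two `ℤ`-representations is `ℤ`-linear for the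
(a priori non-canonical) module structures carried by the `Rep`s. -/
def linOfAdd (C : Rep ℤ G) (C' : Rep ℤ G') (f : C'.V →+ C.V) :
    @LinearMap ℤ ℤ _ _ (RingHom.id ℤ) C'.V C.V _ _ C'.hV2 C.hV2 :=
  @LinearMap.mk ℤ ℤ _ _ (RingHom.id ℤ) C'.V C.V _ _ C'.hV2 C.hV2
    ⟨f, f.map_add⟩ (fun n x => by
      show f (@SMul.smul ℤ C'.V C'.hV2.toSMul n x) = @SMul.smul ℤ C.V C.hV2.toSMul n (f x)
      rw [int_smul_eq_zsmul C'.hV2, int_smul_eq_zsmul C.hV2, map_zsmul])

lemma linOfAdd_apply (C : Rep ℤ G) (C' : Rep ℤ G') (f : C'.V →+ C.V) (y : C'.V) :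
    linOfAdd C C' f y = f y := rfl

/-- **(ABS), group-change form** (the form GLUE calls). -/
theorem exists_isFundClass_of_equiv_injective (p : ℕ) [Fact p.Prime] (e : G' ≃* G) (C : Rep ℤ G)
    (C' : Rep ℤ G') (f : C'.V →+ C.V) (hf : Function.Injective f)
    (hequiv : ∀ (g : G') (y : C'.V), f (C'.ρ g y) = C.ρ (e g) (f y))
    (m : ℕ) (hm : Nat.Coprime p m) (hr : ∀ x : C.V, ∃ y : C'.V, f y = m • x)
    (u : H2 C) (hu : IsFundClass p C u) : ∃ u' : H2 C', IsFundClass p C' u' := by
  -- transport to `G'`
  have hu₁ : IsFundClass p (Rep.res e.toMonoidHom C)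
      (groupCohomology.map e.toMonoidHom (Iso.refl (Rep.res e.toMonoidHom C)).hom 2 u) :=
    isFundClass_of_equiv p e C (Rep.res e.toMonoidHom C) (Iso.refl _) u hu
  -- the morphism `i : C' ⟶ Res_e C` built from `f`
  let i : C' ⟶ Rep.res e.toMonoidHom C :=
    homOfLin C' (Rep.res e.toMonoidHom C) (linOfAdd C C' f) (fun g y => hequiv g y)
  have hi : Function.Injective i.hom := fun a b hab => hf hab
  exact exists_isFundClass_of_injective p (Rep.res e.toMonoidHom C) C' i hi m hm
    (fun x => hr x) _ hu₁

end equiv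

end Fermat.Agent.PT.FG.FundClassSub2
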