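/-
Program F (S55, Poitou–Tate), chapter FG, block (R2): the transfer argument in ALL Tate degrees
(Mathlib `tateCohomology M n`, `n : ℤ`), owner helper2.

For a subgroup `S ≤ G` of a finite group and a `G`-module `B`:
* `tate_index_nsmul_eq_zero_of_isZero`: `Ĥⁿ(S, B) = 0 ⇒ [G : S] • Ĥⁿ(G, B) = 0` (all `n : ℤ`);
* `tate_eq_zero_of_isZero_of_coprime`, `tate_eq_zero_of_isZero_sylow`: if `p ∤ [G : S]` (e.g. `S` a
  Sylow `p`-subgroup) and `Ĥⁿ(S, B) = 0`, then `Ĥⁿ(G, B)` has no `p`-primary torsion;
* `tate_isZero_of_subsingleton`: Tate cohomology of the trivial group vanishes;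
* `tate_card_nsmul_eq_zero`: `|G| • Ĥⁿ(G, B) = 0`.
Degrees `n ≥ 1`: `Transfer2` (Mathlib's Shapiro); degrees `n ≤ -2`: Mathlib's Shapiro for homology
and `Ind ≅ Coind`; degrees `0, -1`: by hand on helper3's models `M^G / N M`, `ker N / I_G M`.
-/
import Mathlib
import Fermat.Agent.PT.FG.Transfer2
import Fermat.Agent.PT.FG.TateLow3

set_option autoImplicit false
set_option linter.unusedSectionVars false
set_option linter.style.haveILetI false

namespace Fermat.Agent.PT.FG.TransferTate2

open CategoryTheory Rep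
open Fermat.Agent.PT.FG.TateLow3

universe u

section cosets

variable {G : Type*} [Group G] (S : Subgroup G)

/-- `(G ⧸ S) × S ≃ G`, `(c, s) ↦ c.out * s`. -/
noncomputable def cosetProdEquiv : (G ⧸ S) × S ≃ G where
  toFun p := p.1.out * p.2
  invFun g := ⟨QuotientGroup.mk g, ⟨(QuotientGroup.mk g : G ⧸ S).out⁻¹ * g, by
    rw [← QuotientGroup.eq]; simp⟩⟩
  left_inv := by
    rintro ⟨c, s⟩
    have h1 : (QuotientGroup.mk (c.out * (s : G)) : G ⧸ S) = c := by
      rw [QuotientGroup.mk_mul_of_mem _ s.2]; simp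
    ext
    · exact h1
    · simp only [h1]; simp
  right_inv g := by simp

lemma sum_eq_sum_cosets [Fintype G] [Fintype S] [Fintype (G ⧸ S)] {M : Type*} [AddCommMonoid M]
    (F : G → M) : ∑ g, F g = ∑ c : G ⧸ S, ∑ s : S, F (c.out * s) := by
  rw [← Fintype.sum_prod_type']
  exact (Fintype.sum_equiv (cosetProdEquiv S) _ _ (fun _ => rfl)).symm

end cosets


section low

variable {k G : Type u} [CommRing k] [Group G] [Fintype G] (S : Subgroup G) [Fintype S]
  (B : Rep.{u} k G)

attribute [local instance] Subgroup.fintypeQuotientOfFiniteIndex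

lemma res_norm_apply (y : B.V) :
    (res S.subtype B).ρ.norm y = ∑ s : S, B.ρ (s : G) y := by
  simp [Representation.norm, LinearMap.sum_apply]

lemma norm_eq_sum_cosets (y : B.V) :
    B.ρ.norm y = ∑ c : G ⧸ S, B.ρ c.out ((res S.subtype B).ρ.norm y) := by
  rw [Representation.norm, LinearMap.sum_apply, sum_eq_sum_cosets S]
  refine Finset.sum_congr rfl fun c _ => ?_
  rw [res_norm_apply, map_sum]
  refine Finset.sum_congr rfl fun s _ => ?_
  rw [map_mul]
  rfl

/-- Degree `0`: if `Ĥ⁰(S, B) = 0` then `[G : S]` kills `Ĥ⁰(G, B)`. -/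
theorem tate_zero_index_nsmul (h : Limits.IsZero (tateCohomology (res S.subtype B) 0))
    (x : tateCohomology B 0) : S.index • x = 0 := by
  obtain ⟨b, rfl⟩ := zeroπ_surjective B x
  rw [← map_nsmul, zeroπ_eq_zero_iff]
  have hbS : b.1 ∈ (res S.subtype B).ρ.invariants := fun s => b.2 s
  obtain ⟨y, hy⟩ := (isZero_tate_zero_iff _).1 h b.1 hbS
  refine ⟨y, ?_⟩
  rw [norm_eq_sum_cosets S B y, hy]
  have : ∀ c : G ⧸ S, B.ρ c.out b.1 = b.1 := fun c => b.2 _
  simp only [this, Finset.sum_const, Finset.card_univ]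
  rw [Subgroup.index_eq_card, Nat.card_eq_fintype_card]
  rfl


omit [Fintype G] [Fintype S] in
lemma coinvariantsKer_res_le :
    Representation.Coinvariants.ker (res S.subtype B).ρ ≤ Representation.Coinvariants.ker B.ρ := by
  refine Submodule.span_le.2 ?_
  rintro _ ⟨⟨s, x⟩, rfl⟩
  exact Representation.Coinvariants.sub_mem_ker (s : G) x

/-- `N_G b = N_S (∑_{c} c.out⁻¹ • b)`. -/
lemma norm_eq_res_norm_sum (b : B.V) :
    B.ρ.norm b = (res S.subtype B).ρ.norm (∑ c : G ⧸ S, B.ρ (c.out⁻¹) b) := by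
  rw [Representation.norm, LinearMap.sum_apply]
  rw [← Equiv.sum_comp (Equiv.inv G) (fun g => B.ρ g b), sum_eq_sum_cosets S]
  rw [res_norm_apply, Finset.sum_comm]
  simp_rw [map_sum]
  refine Fintype.sum_equiv (Equiv.inv S) _ _ fun s => ?_
  refine Finset.sum_congr rfl fun c _ => ?_
  simp only [Equiv.inv_apply, mul_inv_rev, map_mul, InvMemClass.coe_inv]
  rfl

/-- Degree `-1`: if `Ĥ⁻¹(S, B) = 0` then `[G : S]` kills `Ĥ⁻¹(G, B)`. -/
theorem tate_negOne_index_nsmul (h : Limits.IsZero (tateCohomology (res S.subtype B) (-1)))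
    (x : tateCohomology B (-1)) : S.index • x = 0 := by
  obtain ⟨b, rfl⟩ := negOneπ_surjective B x
  rw [← map_nsmul, negOneπ_eq_zero_iff]
  have hb : B.ρ.norm b.1 = 0 := b.2
  set b' : B.V := ∑ c : G ⧸ S, B.ρ (c.out⁻¹) b.1 with hb'
  have h1 : (res S.subtype B).ρ.norm b' = 0 := by
    rw [← norm_eq_res_norm_sum S B b.1, hb]
  have h2 : b' ∈ Representation.Coinvariants.ker B.ρ :=
    coinvariantsKer_res_le S B ((isZero_tate_neg_one_iff _).1 h b' h1)
  have h3 : S.index • b.1 - b' ∈ Representation.Coinvariants.ker B.ρ := by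
    have : S.index • b.1 - b' = ∑ c : G ⧸ S, (b.1 - B.ρ (c.out⁻¹) b.1) := by
      rw [Finset.sum_sub_distrib, Finset.sum_const, Finset.card_univ, Subgroup.index_eq_card,
        Nat.card_eq_fintype_card]
    rw [this]
    refine Submodule.sum_mem _ fun c _ => ?_
    have := Representation.Coinvariants.sub_mem_ker (ρ := B.ρ) (c.out⁻¹) b.1
    rw [← neg_sub]
    exact Submodule.neg_mem _ this
  have := Submodule.add_mem _ h3 h2
  rwa [sub_add_cancel] at this

end low

section general

open Fermat.Agent.PT.FG.Transfer2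

variable {k G : Type u} [CommRing k] [Group G] [Fintype G] (S : Subgroup G) [Fintype S]
  (B : Rep.{u} k G)

instance tateCohomologyFunctor_additive (n : ℤ) :
    (tateCohomologyFunctor (R := k) (G := G) n).Additive := by
  unfold tateCohomologyFunctor; infer_instance

/-- `[G : S] • x = Ĥⁿ(trace) (Ĥⁿ(unit) x)` in every Tate degree. -/
lemma tate_index_nsmul_eq (n : ℤ) (x : tateCohomology B n) :
    S.index • x = ((tateCohomologyFunctor n).map (traceCoind S B)).hom
      (((tateCohomologyFunctor n).map (unitCoind S B)).hom x) := by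
  have h1 : (tateCohomologyFunctor n).map (unitCoind S B ≫ traceCoind S B) =
      S.index • 𝟙 ((tateCohomologyFunctor n).obj B) := by
    rw [unitCoind_comp_traceCoind, Functor.map_nsmul, CategoryTheory.Functor.map_id]
  rw [Functor.map_comp] at h1
  have h2 := congrArg (fun f => f.hom x) h1
  simpa using h2.symm

/-- If `Ĥⁿ(G, Coind_S^G Res_S B) = 0` then `[G : S]` kills `Ĥⁿ(G, B)`. -/
lemma tate_index_nsmul_of_isZero_coind (n : ℤ)
    (h : Limits.IsZero (tateCohomology (coind S.subtype (res S.subtype B)) n))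
    (x : tateCohomology B n) : S.index • x = 0 := by
  rw [tate_index_nsmul_eq S B n x]
  have := ModuleCat.subsingleton_of_isZero h
  rw [Subsingleton.elim (((tateCohomologyFunctor n).map (unitCoind S B)).hom x) 0, map_zero]

/-- Shapiro (vanishing form) in Tate degrees `≤ -2`. -/
lemma tate_coind_isZero_neg (A : Rep.{u} k S) (n : ℤ) (m : ℕ) (hmn : n = -((m + 1 : ℕ) + 1))
    (h : Limits.IsZero (tateCohomology A n)) :
    Limits.IsZero (tateCohomology (coind S.subtype A) n) := by
  classical
  have e1 := (TateCohomology.isoGroupHomology (R := k) (G := S) n (m + 1) hmn).app A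
  have e2 := groupHomology.indIso S A (m + 1)
  have e3 := (groupHomology.functor k G (m + 1)).mapIso (indCoindIso A)
  have e4 := (TateCohomology.isoGroupHomology (R := k) (G := G) n (m + 1) hmn).app
    (coind S.subtype A)
  exact ((h.of_iso e1.symm).of_iso e2).of_iso (e4 ≪≫ e3.symm)


/-- **(a), all Tate degrees.** If `Ĥⁿ(S, B) = 0` then `Ĥⁿ(G, B)` is killed by `[G : S]`. -/
theorem tate_index_nsmul_eq_zero_of_isZero (n : ℤ)
    (h : Limits.IsZero (tateCohomology (res S.subtype B) n)) (x : tateCohomology B n) :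
    S.index • x = 0 := by
  rcases n with (_ | m) | (_ | m)
  · exact tate_zero_index_nsmul S B h x
  · -- degree `m + 1 ≥ 1`
    have e := (TateCohomology.isoGroupCohomology (R := k) (G := G) (m + 1)).app B
    have eS := (TateCohomology.isoGroupCohomology (R := k) (G := S) (m + 1)).app
      (res S.subtype B)
    have h' : Limits.IsZero (groupCohomology (res S.subtype B) (m + 1)) := h.of_iso eS.symm
    have h1 := index_nsmul_eq_zero_of_isZero S B (m + 1) h' (e.hom.hom x)
    have hinj : Function.Injective e.hom.hom := (ModuleCat.mono_iff_injective _).1 inferInstance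
    apply hinj
    rw [map_nsmul, map_zero]
    exact h1
  · exact tate_negOne_index_nsmul S B h x
  · -- degree `-(m + 2) ≤ -2`
    exact tate_index_nsmul_of_isZero_coind S B _
      (tate_coind_isZero_neg S (res S.subtype B) _ m (by rw [Int.negSucc_eq]) h) x


omit [Fintype S] in
/-- Tate cohomology of the trivial group vanishes in every degree. -/
theorem tate_isZero_of_subsingleton [Subsingleton G] (A : Rep.{u} k G) (n : ℤ) :
    Limits.IsZero (tateCohomology A n) := by
  have hnorm : ∀ a : A.V, A.ρ.norm a = a := by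
    intro a
    have : ∀ g : G, g = 1 := fun g => Subsingleton.elim _ _
    rw [Representation.norm, LinearMap.sum_apply, Fintype.sum_eq_single (1 : G)]
    · simp
    · intro g hg; exact absurd (this g) hg
  rcases n with (_ | m) | (_ | m)
  · exact (isZero_tate_zero_iff A).2 fun a _ => ⟨a, hnorm a⟩
  · exact (isZero_groupCohomology_succ_of_subsingleton A m).of_iso
      ((TateCohomology.isoGroupCohomology (R := k) (G := G) (m + 1)).app A)
  · refine (isZero_tate_neg_one_iff A).2 fun a ha => ?_
    rw [hnorm a] at ha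
    rw [ha]
    exact Submodule.zero_mem _
  · exact (isZero_groupHomology_succ_of_subsingleton A m).of_iso
      ((TateCohomology.isoGroupHomology (R := k) (G := G) (Int.negSucc (m + 1)) (m + 1)
        (by rw [Int.negSucc_eq])).app A)

omit [Fintype S] in
/-- **(d), all Tate degrees.** `Ĥⁿ(G, B)` is killed by `|G|`. -/
theorem tate_card_nsmul_eq_zero (n : ℤ) (x : tateCohomology B n) : Nat.card G • x = 0 := by
  letI : Fintype (⊥ : Subgroup G) := Fintype.ofFinite _
  have h := tate_index_nsmul_eq_zero_of_isZero (⊥ : Subgroup G) B n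
    (tate_isZero_of_subsingleton _ n) x
  rwa [Subgroup.index_bot] at h

/-- **Sylow form.** If `Ĥⁿ(P, B) = 0` for ONE Sylow `p`-subgroup `P` then `Ĥⁿ(G, B)` has no
`p`-primary torsion. -/
theorem tate_eq_zero_of_isZero_sylow {p : ℕ} [Fact p.Prime] (P : Sylow p G)
    [Fintype (P : Subgroup G)] (n : ℤ)
    (h : Limits.IsZero (tateCohomology (res (P : Subgroup G).subtype B) n))
    (x : tateCohomology B n) (hx : ∃ m : ℕ, p ^ m • x = 0) : x = 0 := by
  obtain ⟨m, hm⟩ := hx
  have h1 := tate_index_nsmul_eq_zero_of_isZero (P : Subgroup G) B n h x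
  have hcop : Nat.Coprime (p ^ m) (P : Subgroup G).index :=
    Nat.Coprime.pow_left m (sylow_coprime_index P)
  have h2 : addOrderOf x ∣ p ^ m := addOrderOf_dvd_of_nsmul_eq_zero hm
  have h3 : addOrderOf x ∣ (P : Subgroup G).index := addOrderOf_dvd_of_nsmul_eq_zero h1
  exact AddMonoid.addOrderOf_eq_one_iff.mp (Nat.eq_one_of_dvd_coprimes hcop h2 h3)

/-- More generally: if `p ∤ [G : S]` and `Ĥⁿ(S, B) = 0` then `Ĥⁿ(G, B)` has no `p`-primary
torsion. -/
theorem tate_eq_zero_of_isZero_of_coprime {p : ℕ} (hp : Nat.Coprime p S.index) (n : ℤ)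
    (h : Limits.IsZero (tateCohomology (res S.subtype B) n))
    (x : tateCohomology B n) (hx : ∃ m : ℕ, p ^ m • x = 0) : x = 0 := by
  obtain ⟨m, hm⟩ := hx
  have h1 := tate_index_nsmul_eq_zero_of_isZero S B n h x
  have hcop : Nat.Coprime (p ^ m) S.index := Nat.Coprime.pow_left m hp
  have h2 : addOrderOf x ∣ p ^ m := addOrderOf_dvd_of_nsmul_eq_zero hm
  have h3 : addOrderOf x ∣ S.index := addOrderOf_dvd_of_nsmul_eq_zero h1
  exact AddMonoid.addOrderOf_eq_one_iff.mp (Nat.eq_one_of_dvd_coprimes hcop h2 h3)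

end general

end Fermat.Agent.PT.FG.TransferTate2
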