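/-
PROGRAM F (S55), chapter FG.  helper9.
**(T−2) reciprocity / Nakayama map** in the shape of `Interface8.TateMinusTwo`: for a 2-cocycle `σ`
of `C` whose class is a fundamental class at `p` (`IsFundClass p C [σ]`), the map
`ν : g ↦ ∑ₕ σ(h, g)` induces a bijection `G^ab(p) ≅ (C^G / N C)(p)`:
* (injective) if `g` is `p`-primary in `G^ab` and `ν(g)` is a norm then `g ∈ [G, G]`;
* (surjective) every invariant `c` whose class in `C^G / N C` is `p`-primary is `≡ ν(g)` mod norms.

Proof (Tate–Nakayama, concrete): the splitting module `C(σ) = C × I_G` of helper8 (`SplitModule8`)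
has no `p`-torsion in its Tate cohomology (`SplitCoh8.isCohTrivial_res_split` + helper2's Sylow
transfer `TransferTate2`); its norm is `N(c, y) = (N c + ∑ₕ y(h) ν(h), 0)` (`norm_split`);
`ν` is a homomorphism modulo norms (`nu_mul`, `nuHom`); and `I_G / I_G² → G^ab`, `g - 1 ↦ [g]`
(`abMap`, `pow_mem_commutator_of_smul_augGen_mem`).  Degrees `-1`, `0` of Tate cohomology are used
through helper3's concrete models (`TateLow3.negOneπ`, `zeroπ`).
-/
import Mathlib
import Fermat.Agent.PT.FG.Interface8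
import Fermat.Agent.PT.FG.SplitModule8
import Fermat.Agent.PT.FG.SplitCoh8
import Fermat.Agent.PT.FG.TateLow3
import Fermat.Agent.PT.FG.TransferTate2
import Fermat.Agent.PT.FG.TensorCohTriv9

set_option autoImplicit false
set_option linter.unusedSectionVars false
set_option linter.style.haveILetI false

namespace Fermat.Agent.PT.FG.TateMinusTwo9

open CategoryTheory groupCohomology Representation
open Fermat.Agent.PT.FG.Interface8 Fermat.Agent.PT.FG.SplitModule8 Fermat.Agent.PT.FG.TateLow3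
open Fermat.Agent.PT.FG

noncomputable section

variable {G : Type} [Group G]

/-! ### Part A: the map `ℤ[G] → G^ab` -/

/-- `∑ n_g g ↦ ∏ [g]^{n_g}`, additively. -/
def abMap (G : Type) [Group G] : (G →₀ ℤ) →+ Additive (Abelianization G) :=
  Finsupp.liftAddHom fun g : G => zmultiplesHom _ (Additive.ofMul (Abelianization.of g))

@[simp] theorem abMap_single (g : G) (n : ℤ) :
    abMap G (Finsupp.single g n) = n • Additive.ofMul (Abelianization.of g) := by
  simp [abMap]

theorem abMap_reg (g : G) (y : G →₀ ℤ) :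
    abMap G (reg ℤ G g y) = eps ℤ G y • Additive.ofMul (Abelianization.of g) + abMap G y := by
  induction y using Finsupp.induction_linear with
  | zero => simp
  | add y z hy hz =>
    simp only [map_add, hy, hz, add_smul]
    abel
  | single h n =>
    rw [reg_single, abMap_single, abMap_single, eps_single, map_mul, ofMul_mul, smul_add]

/-- `abMap` restricted to `I_G`, as a `ℤ`-linear map. -/
def abMapAug (G : Type) [Group G] : AugV ℤ G →ₗ[ℤ] Additive (Abelianization G) where
  toFun y := abMap G (AugV.val y)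
  map_add' y z := by rw [map_add, map_add]
  map_smul' n y := by rw [map_smul, map_zsmul]; rfl

theorem abMapAug_apply (y : AugV ℤ G) : abMapAug G y = abMap G (AugV.val y) := rfl

theorem abMapAug_augGen (g : G) : abMapAug G (augGen ℤ g) = Additive.ofMul (Abelianization.of g) := by
  rw [abMapAug_apply, val_augGen, map_sub, abMap_single, abMap_single, one_smul, one_smul, map_one,
    ofMul_one, sub_zero]

theorem abMapAug_augRho (g : G) (y : AugV ℤ G) : abMapAug G (augRho ℤ G g y) = abMapAug G y := by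
  rw [abMapAug_apply, abMapAug_apply, val_augRho, abMap_reg, AugV.eps_val, zero_smul, zero_add]

/-- `abMap` kills `I_G · I_G`. -/
theorem abMapAug_eq_zero_of_mem_coinvKer (y : AugV ℤ G)
    (hy : y ∈ Coinvariants.ker (augRho ℤ G)) : abMapAug G y = 0 := by
  have h := Coinvariants.lift_mk (augRho ℤ G) (abMapAug G)
    (fun g => LinearMap.ext fun y => abMapAug_augRho g y) y
  rw [(Coinvariants.mk_eq_zero _).2 hy, map_zero] at h
  exact h.symm

/-- If `m • (g - 1) ∈ I_G · I_G` then `g ^ m ∈ [G, G]`. -/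
theorem pow_mem_commutator_of_smul_augGen_mem (g : G) (m : ℕ)
    (h : m • augGen ℤ g ∈ Coinvariants.ker (augRho ℤ G)) : g ^ m ∈ commutator G := by
  have h1 := abMapAug_eq_zero_of_mem_coinvKer _ h
  rw [map_nsmul, abMapAug_augGen, ← ofMul_pow, ← map_pow] at h1
  have h2 : Abelianization.of (g ^ m) = 1 := h1
  exact (QuotientGroup.eq_one_iff _).1 h2

/-! ### Part B: the Nakayama map `ν(g) = ∑ₕ σ(h, g)` and the norm of the splitting module -/

section Nu

variable {k : Type} [CommRing k] {G : Type} [Group G] [Fintype G] {C : Rep.{0} k G}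
  (σ : cocycles₂ C)

/-- `ν(g) = ∑ₕ σ(h, g)`. -/
def nu (g : G) : C.V := ∑ h : G, (σ : G × G → C.V) (h, g)

theorem norm_apply (M : Rep.{0} k G) (x : M.V) : M.ρ.norm x = ∑ g : G, M.ρ g x := by
  simp [Representation.norm]

/-- `ν(c) + ν(b) = N σ(b, c) + ν(bc)`. -/
theorem nu_mul (b c : G) : nu σ c + nu σ b = C.ρ.norm ((σ : G × G → C.V) (b, c)) + nu σ (b * c) := by
  have hc := fun g => (mem_cocycles₂_iff (σ : G × G → C.V)).1 σ.2 g b c
  have h1 : ∑ g : G, ((σ : G × G → C.V) (g * b, c) + (σ : G × G → C.V) (g, b)) =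
      ∑ g : G, (C.ρ g ((σ : G × G → C.V) (b, c)) + (σ : G × G → C.V) (g, b * c)) :=
    Finset.sum_congr rfl fun g _ => hc g
  rw [Finset.sum_add_distrib, Finset.sum_add_distrib] at h1
  have h2 : ∑ g : G, (σ : G × G → C.V) (g * b, c) = nu σ c :=
    Fintype.sum_equiv (Equiv.mulRight b) _ _ (fun g => rfl)
  rw [h2] at h1
  rw [norm_apply]
  exact h1

theorem nu_one : nu σ 1 = C.ρ.norm ((σ : G × G → C.V) (1, 1)) := by
  rw [norm_apply]
  refine Finset.sum_congr rfl fun g _ => ?_
  rw [rho_sigma_one, mul_one]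

/-- `∑_g τ_g(y) = ∑ₕ y(h) ν(h)`. -/
theorem sum_tau (y : G →₀ k) :
    ∑ g : G, tau C (σ : G × G → C.V) g y = Finsupp.linearCombination k (nu σ) y := by
  induction y using Finsupp.induction_linear with
  | zero => simp
  | add y z hy hz => simp only [map_add, Finset.sum_add_distrib, hy, hz]
  | single h a =>
    simp only [tau_single, Finsupp.linearCombination_single]
    rw [← Finset.smul_sum]
    rfl

/-- `∑_g g • y = ε(y) • ∑_g δ_g` in `k[G]`. -/
theorem sum_reg (y : G →₀ k) :
    ∑ g : G, reg k G g y = eps k G y • ∑ g : G, Finsupp.single g (1 : k) := by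
  induction y using Finsupp.induction_linear with
  | zero => simp
  | add y z hy hz => simp only [map_add, Finset.sum_add_distrib, hy, hz, add_smul]
  | single h a =>
    simp only [reg_single, eps_single]
    rw [Finset.smul_sum]
    have : ∑ g : G, Finsupp.single (g * h) a = ∑ g : G, Finsupp.single g a :=
      Fintype.sum_equiv (Equiv.mulRight h) _ _ (fun g => rfl)
    rw [this]
    refine Finset.sum_congr rfl fun g _ => ?_
    rw [Finsupp.smul_single, smul_eq_mul, mul_one]

/-- The norm of the splitting module: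
`N(c, y) = (N c + ∑ₕ y(h) ν(h), 0)`. -/
theorem norm_split (x : SplitV C) :
    (split σ).ρ.norm x =
      SplitV.mk (C := C) (C.ρ.norm (SplitV.fst x) +
        Finsupp.linearCombination k (nu σ) (AugV.val (SplitV.snd x))) 0 := by
  refine (norm_apply (split σ) x).trans ?_
  show (∑ g : G, splitFun (σ : G × G → C.V) g x : SplitV C) = _
  refine SplitV.ext (C := C) ?_ ?_
  · rw [map_sum]
    simp only [fst_splitFun, Finset.sum_add_distrib, SplitV.fst_mk]
    rw [sum_tau, norm_apply C]
  · rw [map_sum, SplitV.snd_mk]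
    refine AugV.val_injective ?_
    rw [map_sum, map_zero]
    simp only [snd_splitFun, val_augRho]
    rw [sum_reg, AugV.eps_val, zero_smul]

end Nu

section NuHom

variable {k : Type} [CommRing k] {G : Type} [Group G] [Fintype G] {C : Rep.{0} k G}
  (σ : cocycles₂ C)

/-- The norm submodule `N C`. -/
def normRange (C : Rep.{0} k G) : Submodule k C.V := LinearMap.range C.ρ.norm

/-- The Nakayama map `G → C / N C` as a homomorphism. -/
def nuHom : G →* Multiplicative (C.V ⧸ normRange C) where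
  toFun g := Multiplicative.ofAdd ((normRange C).mkQ (nu σ g))
  map_one' := by
    rw [nu_one]
    have : (normRange C).mkQ (C.ρ.norm ((σ : G × G → C.V) (1, 1))) = 0 :=
      (Submodule.Quotient.mk_eq_zero _).2 ⟨_, rfl⟩
    rw [this]
    rfl
  map_mul' b c := by
    have h := congrArg (normRange C).mkQ (nu_mul σ b c)
    rw [map_add, map_add] at h
    have h0 : (normRange C).mkQ (C.ρ.norm ((σ : G × G → C.V) (b, c))) = 0 :=
      (Submodule.Quotient.mk_eq_zero _).2 ⟨_, rfl⟩
    rw [h0, zero_add] at h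
    rw [← h, add_comm]
    rfl

theorem nuHom_apply (g : G) :
    nuHom σ g = Multiplicative.ofAdd ((normRange C).mkQ (nu σ g)) := rfl

/-- **(hB)** For `k = ℤ` (or a quotient of `ℤ`): `∑ₕ y(h) ν(h) ≡ ν(∏ h^{y(h)})` modulo norms. -/
theorem exists_nu_eq (hk : ∀ a : k, ∃ n : ℤ, a = (n : k)) (y : G →₀ k) :
    ∃ g : G, ∃ d : C.V, C.ρ.norm d = Finsupp.linearCombination k (nu σ) y - nu σ g := by
  suffices h : ∃ g : G, (normRange C).mkQ (Finsupp.linearCombination k (nu σ) y) =
      Multiplicative.toAdd (nuHom σ g) by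
    obtain ⟨g, hg⟩ := h
    refine ⟨g, ?_⟩
    have h1 : (normRange C).mkQ (Finsupp.linearCombination k (nu σ) y - nu σ g) = 0 := by
      rw [map_sub, hg, nuHom_apply, toAdd_ofAdd, sub_self]
    obtain ⟨d, hd⟩ := (Submodule.Quotient.mk_eq_zero _).1 h1
    exact ⟨d, hd⟩
  induction y using Finsupp.induction_linear with
  | zero => exact ⟨1, by rw [map_zero, map_zero, map_one, toAdd_one]⟩
  | add y z hy hz =>
    obtain ⟨g, hg⟩ := hy
    obtain ⟨g', hg'⟩ := hz
    exact ⟨g * g', by rw [map_add, map_add, hg, hg', map_mul, toAdd_mul]⟩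
  | single h a =>
    obtain ⟨n, rfl⟩ := hk a
    refine ⟨h ^ n, ?_⟩
    rw [Finsupp.linearCombination_single, map_zpow, toAdd_zpow, nuHom_apply, toAdd_ofAdd,
      Int.cast_smul_eq_zsmul, map_zsmul]

end NuHom

section LowDegrees

variable {k : Type} [CommRing k] {G : Type} [Group G] [Fintype G] {p : ℕ} [Fact p.Prime]

/-- `|G| = p^a * m` with `m` prime to `p`; if `Ĥⁿ` has no `p`-torsion then `m` kills it. -/
theorem exists_coprime_nsmul_tate_eq_zero (M : Rep.{0} k G) (n : ℤ)
    (hnp : ∀ x : tateCohomology M n, (∃ m : ℕ, p ^ m • x = 0) → x = 0) :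
    ∃ m : ℕ, m.Coprime p ∧ ∀ x : tateCohomology M n, m • x = 0 := by
  have hp : p.Prime := Fact.out
  obtain ⟨a, m, hm, hcard⟩ :=
    Nat.exists_eq_pow_mul_and_not_dvd (Nat.card_pos (α := G)).ne' p hp.ne_one
  refine ⟨m, ((Nat.Prime.coprime_iff_not_dvd hp).2 hm).symm, fun x => ?_⟩
  refine hnp _ ⟨a, ?_⟩
  rw [← mul_smul, ← hcard]
  exact TransferTate2.tate_card_nsmul_eq_zero M n x

/-- Degree `-1`: if `Ĥ⁻¹(G, M)` has no `p`-torsion, then every element of norm `0` has a multiple
prime to `p` in `I_G M`. -/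
theorem exists_coprime_nsmul_mem_coinvKer (M : Rep.{0} k G)
    (hnp : ∀ x : tateCohomology M (-1), (∃ m : ℕ, p ^ m • x = 0) → x = 0)
    (y : M.V) (hy : M.ρ.norm y = 0) :
    ∃ m : ℕ, m.Coprime p ∧ m • y ∈ Coinvariants.ker M.ρ := by
  obtain ⟨m, hm, h⟩ := exists_coprime_nsmul_tate_eq_zero M (-1) hnp
  refine ⟨m, hm, ?_⟩
  have h1 := h (negOneπ M ⟨y, LinearMap.mem_ker.2 hy⟩)
  rw [← map_nsmul, negOneπ_eq_zero_iff] at h1
  exact h1

/-- Degree `0`: if `Ĥ⁰(G, M)` has no `p`-torsion, then every invariant element has a multiple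
prime to `p` which is a norm. -/
theorem exists_coprime_nsmul_eq_norm (M : Rep.{0} k G)
    (hnp : ∀ x : tateCohomology M 0, (∃ m : ℕ, p ^ m • x = 0) → x = 0)
    (z : M.V) (hz : z ∈ M.ρ.invariants) :
    ∃ m : ℕ, m.Coprime p ∧ ∃ w : M.V, M.ρ.norm w = m • z := by
  obtain ⟨m, hm, h⟩ := exists_coprime_nsmul_tate_eq_zero M 0 hnp
  refine ⟨m, hm, ?_⟩
  have h1 := h (zeroπ M ⟨z, hz⟩)
  rw [← map_nsmul, zeroπ_eq_zero_iff] at h1
  exact h1

end LowDegrees

theorem mem_of_pow_mem_of_coprime {G : Type*} [Group G] (N : Subgroup G) (g : G) (m n : ℕ)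
    (hmn : m.Coprime n) (h1 : g ^ m ∈ N) (h2 : g ^ n ∈ N) : g ∈ N := by
  have h := Nat.gcd_eq_gcd_ab m n
  rw [hmn.gcd_eq_one, Nat.cast_one] at h
  have h3 : g = (g ^ m) ^ (Nat.gcdA m n) * (g ^ n) ^ (Nat.gcdB m n) := by
    rw [← zpow_natCast g m, ← zpow_natCast g n, ← zpow_mul, ← zpow_mul, ← zpow_add, ← h, zpow_one]
  rw [h3]
  exact N.mul_mem (N.zpow_mem h1 _) (N.zpow_mem h2 _)

section Main

variable {k : Type} [CommRing k] {G : Type} [Group G] [Fintype G] {C : Rep.{0} k G}
  (σ : cocycles₂ C) {p : ℕ} [Fact p.Prime]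

/-- The norm of the fundamental cochain: `N(x_g) = ν(g)`; more precisely
`N(x_g - ι c) = ι (ν(g) - N c)`. -/
theorem norm_fundCochain_sub (g : G) (c : C.V) :
    (split σ).ρ.norm (SplitV.mk (C := C) ((σ : G × G → C.V) (g, 1) - c) (augGen k g)) =
      SplitV.mk (C := C) (nu σ g - C.ρ.norm c) 0 := by
  rw [norm_split]
  congr 1
  have hσ : (σ : G × G → C.V) (g, 1) = C.ρ g ((σ : G × G → C.V) (1, 1)) := by
    have := rho_sigma_one σ g 1
    rw [mul_one] at this
    exact this.symm
  rw [SplitV.fst_mk, SplitV.snd_mk, val_augGen, map_sub, map_sub, Finsupp.linearCombination_single,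
    Finsupp.linearCombination_single, one_smul, one_smul, nu_one, hσ,
    Representation.norm_self_apply]
  abel

/-- **(T−2), injectivity**, generic coefficients. -/
theorem nakayama_injective
    (hA : ∀ (g : G) (m : ℕ), m • augGen k g ∈ Coinvariants.ker (augRho k G) → g ^ m ∈ commutator G)
    (hnp : ∀ x : tateCohomology (split σ) (-1), (∃ m : ℕ, p ^ m • x = 0) → x = 0)
    (g : G) (hg : ∃ j : ℕ, g ^ p ^ j ∈ commutator G) (c : C.V) (hc : C.ρ.norm c = nu σ g) :
    g ∈ commutator G := by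
  obtain ⟨j, hj⟩ := hg
  have hN := norm_fundCochain_sub σ g c
  rw [hc, sub_self] at hN
  obtain ⟨m, hm, hmem⟩ := exists_coprime_nsmul_mem_coinvKer (split σ) hnp _ hN
  -- project to `I_G`
  have h1 : Coinvariants.mk (augRho k G) (m • augGen k g) = 0 := by
    have h2 := (Coinvariants.mk_eq_zero _).2 hmem
    have h3 := congrArg (Coinvariants.map _ _ (splitProj σ).hom) h2
    rw [map_zero] at h3
    exact h3
  have h4 := hA g m ((Coinvariants.mk_eq_zero _).1 h1)
  exact mem_of_pow_mem_of_coprime _ g m (p ^ j) (Nat.Coprime.pow_right j hm) h4 hj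

/-- `ι c` is invariant in `C(σ)` for `c` invariant. -/
theorem splitIncl_mem_invariants (c : C.V) (hc : c ∈ C.ρ.invariants) :
    (splitIncl σ).hom c ∈ (split σ).ρ.invariants :=
  map_mem_invariants (splitIncl σ) hc

theorem norm_splitIncl (c : C.V) :
    (split σ).ρ.norm ((splitIncl σ).hom c) = (splitIncl σ).hom (C.ρ.norm c) := by
  have h := congr(($(Rep.norm_comm (splitIncl σ))).hom c)
  change (split σ).ρ.norm ((splitIncl σ).hom c) = (splitIncl σ).hom (C.ρ.norm c) at h
  exact h

/-- **(T−2), surjectivity**, generic coefficients. -/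
theorem nakayama_surjective (hk : ∀ a : k, ∃ n : ℤ, a = (n : k))
    (hnp : ∀ x : tateCohomology (split σ) 0, (∃ m : ℕ, p ^ m • x = 0) → x = 0)
    (c : C.V) (hc : c ∈ C.ρ.invariants) (j : ℕ) (c₀ : C.V) (hc₀ : C.ρ.norm c₀ = p ^ j • c) :
    ∃ g : G, ∃ d : C.V, C.ρ.norm d = c - nu σ g := by
  obtain ⟨m, hm, w, hw⟩ := exists_coprime_nsmul_eq_norm (split σ) hnp _
    (splitIncl_mem_invariants σ c hc)
  -- Bezout
  have hb := Nat.gcd_eq_gcd_ab m (p ^ j)
  rw [(Nat.Coprime.pow_right j hm).gcd_eq_one, Nat.cast_one] at hb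
  set a := Nat.gcdA m (p ^ j)
  set b := Nat.gcdB m (p ^ j)
  -- `ι c = N (a • w + b • ι c₀)`
  have hz : ∀ z : (split σ).V, a • (m • z) + b • (p ^ j • z) = z := by
    intro z
    have : (a * (m : ℤ) + b * ((p ^ j : ℕ) : ℤ)) • z = z := by
      rw [mul_comm a, mul_comm b, ← hb, one_zsmul]
    rw [add_zsmul, mul_zsmul, mul_zsmul, natCast_zsmul, natCast_zsmul] at this
    exact this
  have h1 : (split σ).ρ.norm (a • w + b • (splitIncl σ).hom c₀) = (splitIncl σ).hom c := by
    rw [map_add, map_zsmul, map_zsmul, hw, norm_splitIncl, hc₀, map_nsmul]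
    exact hz _
  -- unfold the norm
  have h2 := norm_split σ (a • w + b • (splitIncl σ).hom c₀)
  rw [h1] at h2
  have h3 := congrArg (SplitV.fst (C := C)) h2
  rw [SplitV.fst_mk] at h3
  obtain ⟨g, d, hd⟩ := exists_nu_eq σ hk
    (AugV.val (SplitV.snd (C := C) (a • w + b • (splitIncl σ).hom c₀)))
  refine ⟨g, SplitV.fst (C := C) (a • w + b • (splitIncl σ).hom c₀) + d, ?_⟩
  rw [map_add, hd]
  have h4 : SplitV.fst (C := C) ((splitIncl σ).hom c) = c := rfl
  rw [h4] at h3
  rw [h3]
  abel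

end Main

section Final

/-- `Interface8.normMap` is Mathlib's `Representation.norm` (any `Fintype` instance). -/
theorem normMap_eq_norm {G : Type} [Group G] [Fintype G] (M : Rep.{0} ℤ G) (x : M.V) :
    normMap M x = ∑ g : G, M.ρ g x := by
  unfold normMap
  congr 1
  exact congrArg (@Finset.univ G) (Subsingleton.elim _ _)

theorem isNorm_iff {k : Type} [CommRing k] {G : Type} [Group G] [Fintype G] (M : Rep.{0} k G)
    (x : M.V) : (∃ y : M.V, ∑ g : G, M.ρ g y = x) ↔ ∃ y : M.V, M.ρ.norm y = x := by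
  constructor
  · rintro ⟨y, hy⟩
    exact ⟨y, by rw [norm_apply, hy]⟩
  · rintro ⟨y, hy⟩
    exact ⟨y, by rw [← norm_apply, hy]⟩

/-- **(T−2) reciprocity / Nakayama map**, in the shape of `Interface8`. -/
theorem tateMinusTwo : Interface8.TateMinusTwo := by
  intro G _ _ p _ C σ hfund
  -- `C(σ)` has no `p`-torsion in its Tate cohomology
  have hnp : ∀ (n : ℤ) (x : tateCohomology (split σ) n), (∃ m : ℕ, p ^ m • x = 0) → x = 0 := by
    intro n x hx
    let P : Sylow p G := default
    letI : Fintype (P : Subgroup G) := Fintype.ofFinite _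
    have hP := SplitCoh8.isCohTrivial_res_split σ hfund (P : Subgroup G) P.isPGroup'
    exact TransferTate2.tate_eq_zero_of_isZero_sylow (split σ) P n
      (TensorCohTriv9.isZero_tate_of_isCohTrivial hP n) x hx
  constructor
  · intro g hg hnorm
    obtain ⟨c, hc⟩ := hnorm
    rw [normMap_eq_norm] at hc
    refine nakayama_injective σ (fun g m h => pow_mem_commutator_of_smul_augGen_mem g m h)
      (hnp (-1)) g hg c ?_
    rw [norm_apply]
    exact hc
  · intro c hc hpp
    obtain ⟨j, c₀, hc₀⟩ := hpp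
    rw [normMap_eq_norm] at hc₀
    obtain ⟨g, d, hd⟩ := nakayama_surjective σ (fun a => ⟨a, by simp⟩) (hnp 0) c
      (fun g => hc g) j c₀ (by rw [norm_apply]; exact hc₀)
    refine ⟨g, d, ?_⟩
    rw [normMap_eq_norm, ← norm_apply]
    exact hd

end Final

end

end Fermat.Agent.PT.FG.TateMinusTwo9
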