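/-
Program F (S55), chapter FG/GLOB, helper19: the **Nakayama map** `g ↦ n(g) = ∑ₕ σ(h, g)` of a
2-cocycle `σ` and the consequences of `Interface8.TateMinusTwo` for a finite abelian group of
exponent `p` (used by GLOB-REC, leaf (REC-T2)).

* `nak σ g`, `nak_fixed` (`n(g)` is `G`-invariant), `nak_mul` (`n(hj) = n(h) + n(j) - N σ(h,j)`),
  `nak_one`, `isNorm_nak_mul`, `isNorm_nak_pow`;
* `normMap_add/neg/sub/zero/nsmul`, `isNorm_add/neg/sub/zero/nsmul`, `normMap_of_fixed`;
* `t2_abelian` : for `G` abelian of exponent `p`, `IsFundClass p C [σ]` and `TateMinusTwo`: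
  `n` is injective modulo norms, surjective onto `C^G` modulo norms, and `p • c` is a norm for
  every invariant `c`.
-/
import Mathlib
import Fermat.Agent.PT.FG.Interface8

set_option autoImplicit false
set_option linter.style.longLine false
set_option linter.unusedSectionVars false

open CategoryTheory groupCohomology

namespace Fermat.Agent.PT.FG.NakayamaMap19

open Fermat.Agent.PT.FG.Interface8

variable {G : Type} [Group G] [Fintype G] (C : Rep ℤ G)

/-- `normMap` with the ambient `Fintype` instance. -/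
theorem normMap_eq_sum (x : C.V) : normMap C x = ∑ g : G, C.ρ g x := by
  unfold normMap
  convert rfl

theorem normMap_add (x y : C.V) : normMap C (x + y) = normMap C x + normMap C y := by
  simp only [normMap_eq_sum, map_add, Finset.sum_add_distrib]

theorem normMap_zero : normMap C 0 = 0 := by
  simp only [normMap_eq_sum, map_zero, Finset.sum_const_zero]

theorem normMap_neg (x : C.V) : normMap C (-x) = - normMap C x := by
  simp only [normMap_eq_sum, map_neg, Finset.sum_neg_distrib]

theorem normMap_sub (x y : C.V) : normMap C (x - y) = normMap C x - normMap C y := by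
  rw [sub_eq_add_neg, normMap_add, normMap_neg, ← sub_eq_add_neg]

theorem normMap_nsmul (k : ℕ) (x : C.V) : normMap C (k • x) = k • normMap C x := by
  induction k with
  | zero => simp [normMap_zero]
  | succ k ih => rw [succ_nsmul, normMap_add, ih, succ_nsmul]

theorem normMap_sum {ι : Type*} (s : Finset ι) (f : ι → C.V) :
    normMap C (∑ i ∈ s, f i) = ∑ i ∈ s, normMap C (f i) := by
  classical
  induction s using Finset.induction_on with
  | empty => simp [normMap_zero]
  | insert a s ha ih => rw [Finset.sum_insert ha, normMap_add, ih, Finset.sum_insert ha]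

variable {C}

theorem isNorm_add {x y : C.V} (hx : IsNorm C x) (hy : IsNorm C y) : IsNorm C (x + y) := by
  obtain ⟨a, rfl⟩ := hx
  obtain ⟨b, rfl⟩ := hy
  exact ⟨a + b, normMap_add C a b⟩

theorem isNorm_neg {x : C.V} (hx : IsNorm C x) : IsNorm C (-x) := by
  obtain ⟨a, rfl⟩ := hx
  exact ⟨-a, normMap_neg C a⟩

theorem isNorm_sub {x y : C.V} (hx : IsNorm C x) (hy : IsNorm C y) : IsNorm C (x - y) := by
  rw [sub_eq_add_neg]
  exact isNorm_add hx (isNorm_neg hy)

theorem isNorm_zero : IsNorm C (0 : C.V) := ⟨0, normMap_zero C⟩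

theorem isNorm_nsmul {x : C.V} (hx : IsNorm C x) (k : ℕ) : IsNorm C (k • x) := by
  obtain ⟨a, rfl⟩ := hx
  exact ⟨k • a, normMap_nsmul C k a⟩

/-- A norm is invariant. -/
theorem rho_normMap (g : G) (x : C.V) : C.ρ g (normMap C x) = normMap C x := by
  rw [normMap_eq_sum, map_sum]
  refine (Finset.sum_congr rfl fun h _ => ?_).trans
    (Fintype.sum_equiv (Equiv.mulLeft g) (fun h => C.ρ (g * h) x) (fun h => C.ρ h x) fun h => rfl)
  rw [map_mul]
  rfl

/-- The norm of an invariant element is `#G • c`. -/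
theorem normMap_of_fixed {c : C.V} (hc : ∀ g : G, C.ρ g c = c) :
    normMap C c = Nat.card G • c := by
  rw [normMap_eq_sum]
  simp only [hc]
  rw [Finset.sum_const, Finset.card_univ, Nat.card_eq_fintype_card]

variable (σ : cocycles₂ C)

/-- The Nakayama map `g ↦ ∑ₕ σ(h, g)`. -/
def nak (g : G) : C.V := ∑ h : G, (σ : G × G → C.V) (h, g)

theorem coc (g h j : G) :
    (σ : G × G → C.V) (g * h, j) + (σ : G × G → C.V) (g, h) =
      C.ρ g ((σ : G × G → C.V) (h, j)) + (σ : G × G → C.V) (g, h * j) :=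
  (mem_cocycles₂_iff (A := C) σ).1 σ.2 g h j

/-- `n(g)` is `G`-invariant. -/
theorem nak_fixed (x g : G) : C.ρ x (nak σ g) = nak σ g := by
  unfold nak
  rw [map_sum]
  have h1 : ∀ h : G, C.ρ x ((σ : G × G → C.V) (h, g)) =
      (σ : G × G → C.V) (x * h, g) + (σ : G × G → C.V) (x, h) - (σ : G × G → C.V) (x, h * g) :=
    fun h => by rw [coc σ x h g]; abel
  simp only [h1]
  rw [Finset.sum_sub_distrib, Finset.sum_add_distrib]
  have e1 : ∑ h : G, (σ : G × G → C.V) (x * h, g) = ∑ h : G, (σ : G × G → C.V) (h, g) :=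
    Fintype.sum_equiv (Equiv.mulLeft x) _ _ fun h => rfl
  have e2 : ∑ h : G, (σ : G × G → C.V) (x, h * g) = ∑ h : G, (σ : G × G → C.V) (x, h) :=
    Fintype.sum_equiv (Equiv.mulRight g) _ _ fun h => rfl
  rw [e1, e2]
  abel

/-- `n(h j) = n(h) + n(j) - N σ(h, j)`. -/
theorem nak_mul (h j : G) :
    nak σ (h * j) = nak σ h + nak σ j - normMap C ((σ : G × G → C.V) (h, j)) := by
  unfold nak
  rw [normMap_eq_sum]
  have h1 : ∀ g : G, (σ : G × G → C.V) (g, h * j) =
      (σ : G × G → C.V) (g * h, j) + (σ : G × G → C.V) (g, h) -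
        C.ρ g ((σ : G × G → C.V) (h, j)) :=
    fun g => by rw [coc σ g h j]; abel
  simp only [h1]
  rw [Finset.sum_sub_distrib, Finset.sum_add_distrib]
  have e1 : ∑ g : G, (σ : G × G → C.V) (g * h, j) = ∑ g : G, (σ : G × G → C.V) (g, j) :=
    Fintype.sum_equiv (Equiv.mulRight h) _ _ fun g => rfl
  rw [e1]
  abel

theorem nak_one : nak σ 1 = normMap C ((σ : G × G → C.V) (1, 1)) := by
  have := nak_mul σ 1 1
  rw [mul_one] at this
  exact (add_left_cancel (eq_sub_iff_add_eq.mp this)).symm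

/-- `n` is a homomorphism modulo norms. -/
theorem isNorm_nak_mul (h j : G) : IsNorm C (nak σ (h * j) - (nak σ h + nak σ j)) := by
  rw [nak_mul]
  have : nak σ h + nak σ j - normMap C ((σ : G × G → C.V) (h, j)) - (nak σ h + nak σ j) =
      normMap C (-(σ : G × G → C.V) (h, j)) := by rw [normMap_neg]; abel
  rw [this]
  exact ⟨_, rfl⟩

theorem isNorm_nak_one : IsNorm C (nak σ 1) := ⟨_, (nak_one σ).symm⟩

theorem isNorm_nak_pow (g : G) (k : ℕ) : IsNorm C (nak σ (g ^ k) - k • nak σ g) := by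
  induction k with
  | zero => simpa using isNorm_nak_one σ
  | succ k ih =>
    have h1 := isNorm_nak_mul σ (g ^ k) g
    have : nak σ (g ^ (k + 1)) - (k + 1) • nak σ g =
        (nak σ (g ^ k * g) - (nak σ (g ^ k) + nak σ g)) + (nak σ (g ^ k) - k • nak σ g) := by
      rw [pow_succ, succ_nsmul]; abel
    rw [this]
    exact isNorm_add h1 ih

theorem isNorm_nak_inv (g : G) : IsNorm C (nak σ g⁻¹ + nak σ g) := by
  have h1 := isNorm_nak_mul σ g⁻¹ g
  rw [inv_mul_cancel] at h1
  have : nak σ g⁻¹ + nak σ g = nak σ 1 - (nak σ 1 - (nak σ g⁻¹ + nak σ g)) := by abel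
  rw [this]
  exact isNorm_sub (isNorm_nak_one σ) h1

/-- **Consequences of (T−2) for an abelian group of exponent `p`**: the Nakayama map is injective
modulo norms, surjective onto the invariants modulo norms, and `p • c` is a norm for every
invariant `c`. -/
theorem t2_abelian (hT2 : TateMinusTwo) (p : ℕ) [hp : Fact p.Prime]
    (hab : ∀ s t : G, s * t = t * s) (hexp : ∀ s : G, s ^ p = 1)
    (hu : IsFundClass p C (H2π C σ)) :
    (∀ g g' : G, IsNorm C (nak σ g - nak σ g') → g = g') ∧
    (∀ c : C.V, (∀ g : G, C.ρ g c = c) → ∃ g : G, IsNorm C (c - nak σ g)) ∧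
    (∀ c : C.V, (∀ g : G, C.ρ g c = c) → IsNorm C (p • c)) := by
  obtain ⟨hinj, hsurj⟩ := hT2 G p C σ hu
  have hcomm : commutator G = ⊥ := by
    rw [commutator_eq_bot_iff_center_eq_top, eq_top_iff]
    intro g _
    rw [Subgroup.mem_center_iff]
    intro h
    exact hab h g
  have hpG : IsPGroup p G := fun g => ⟨1, by rw [pow_one]; exact hexp g⟩
  obtain ⟨k, hk⟩ := IsPGroup.iff_card.mp hpG
  have hprim : ∀ c : C.V, (∀ g : G, C.ρ g c = c) → IsPPrimaryModNorm p C c := fun c hc =>
    ⟨k, c, by rw [normMap_of_fixed hc, hk]⟩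
  have hsurj' : ∀ c : C.V, (∀ g : G, C.ρ g c = c) → ∃ g : G, IsNorm C (c - nak σ g) :=
    fun c hc => hsurj c hc (hprim c hc)
  refine ⟨fun g g' h => ?_, hsurj', fun c hc => ?_⟩
  · have h1 : IsNorm C (nak σ (g * g'⁻¹)) := by
      have e : nak σ (g * g'⁻¹) = (nak σ (g * g'⁻¹) - (nak σ g + nak σ g'⁻¹)) +
          ((nak σ g - nak σ g') + (nak σ g'⁻¹ + nak σ g')) := by abel
      rw [e]
      exact isNorm_add (isNorm_nak_mul σ g g'⁻¹) (isNorm_add h (isNorm_nak_inv σ g'))
    have h2 := hinj (g * g'⁻¹) ⟨1, by rw [pow_one, hexp]; exact Subgroup.one_mem _⟩ h1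
    rw [hcomm, Subgroup.mem_bot, mul_inv_eq_one] at h2
    exact h2
  · obtain ⟨g, hg⟩ := hsurj' c hc
    have e : p • c = p • (c - nak σ g) + (nak σ (g ^ p) - (nak σ (g ^ p) - p • nak σ g)) := by
      rw [nsmul_sub]; abel
    rw [e]
    refine isNorm_add (isNorm_nsmul hg p) (isNorm_sub ?_ (isNorm_nak_pow σ g p))
    rw [hexp]
    exact isNorm_nak_one σ

end Fermat.Agent.PT.FG.NakayamaMap19
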