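/-
Program F (S55, Poitou–Tate), chapter FG, leaf (D0) "`Ĥ⁰`-duality for lattices" (helper18).

`G` a finite group of order `n`, `V` a finitely generated free `ℤ`-module with a representation `ρ`.
The pairing `Ĥ⁰(G, V) × Ĥ⁰(G, V^*) → ℤ/n`, `(m, φ) ↦ φ(m)`, is nondegenerate on both sides:

* `d0a`: an invariant `m` with `n ∣ φ m` for every invariant functional `φ` is a norm;
* `d0b`: an invariant functional `φ` with `n ∣ φ m` for every invariant `m` is a norm
  (`φ = ∑_g ψ ∘ ρ(g⁻¹)`).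

`d0a`, `d0b` are stated for the canonical `ℤ`-module structure of an `AddCommGroup`; `d0a'`, `d0b'` take
an ARBITRARY instance `[Module ℤ V]` (so that they apply verbatim to `M.ρ` for an abstract `M : Rep ℤ G`,
whose `ℤ`-module instance is not syntactically the canonical one).  All take an arbitrary `[Fintype G]`.
-/
import Mathlib

set_option autoImplicit false

namespace Fermat.Agent.PT.FG.H0Dual18

open Finset

/-- In a finitely generated free `ℤ`-module, an element on which all functionals take values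
divisible by `n` is divisible by `n`. -/
lemma exists_smul_eq_of_forall_dvd {X : Type*} [AddCommGroup X] [Module.Free ℤ X]
    [Module.Finite ℤ X] (n : ℤ) (x : X) (h : ∀ χ : X →ₗ[ℤ] ℤ, n ∣ χ x) : ∃ z : X, x = n • z := by
  classical
  let b := Module.Free.chooseBasis ℤ X
  have hc : ∀ i, ∃ c : ℤ, b.repr x i = n * c := fun i => h (b.coord i)
  choose c hc using hc
  refine ⟨∑ i, c i • b i, ?_⟩
  conv_lhs => rw [← b.sum_repr x]
  rw [smul_sum]
  refine sum_congr rfl fun i _ => ?_
  rw [hc i, mul_smul]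

section

variable {G : Type*} [Group G] [Fintype G] {V : Type*} [AddCommGroup V]
  (ρ : Representation ℤ G V)

lemma norm_apply (v : V) : ρ.norm v = ∑ g : G, ρ g v := by
  rw [Representation.norm, LinearMap.sum_apply]

lemma norm_apply_of_invariant {m : V} (hm : ∀ g, ρ g m = m) :
    ρ.norm m = (Nat.card G : ℤ) • m := by
  rw [norm_apply, sum_congr rfl fun g _ => hm g, sum_const, card_univ, Nat.card_eq_fintype_card,
    natCast_zsmul]

lemma functional_norm_apply {φ : V →ₗ[ℤ] ℤ} (hφ : ∀ g, φ ∘ₗ ρ g = φ) (v : V) :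
    φ (ρ.norm v) = (Nat.card G : ℤ) * φ v := by
  rw [norm_apply, map_sum]
  have : ∀ g ∈ (univ : Finset G), φ (ρ g v) = φ v := fun g _ => LinearMap.congr_fun (hφ g) v
  rw [sum_congr rfl this, sum_const, card_univ, Nat.card_eq_fintype_card, nsmul_eq_mul]

lemma card_ne_zero : (Nat.card G : ℤ) ≠ 0 := by
  exact_mod_cast Nat.card_pos.ne'

variable [Module.Free ℤ V] [Module.Finite ℤ V]

/-- **(D0a)** An invariant element on which every invariant functional takes a value divisible by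
`#G` is a norm. -/
theorem d0a (m : V) (hm : ∀ g, ρ g m = m)
    (h : ∀ φ : V →ₗ[ℤ] ℤ, (∀ g, φ ∘ₗ ρ g = φ) → (Nat.card G : ℤ) ∣ φ m) :
    ∃ y : V, ∑ g : G, ρ g y = m := by
  -- `X = N V`, a finitely generated free module
  let NR : V →ₗ[ℤ] LinearMap.range ρ.norm := ρ.norm.rangeRestrict
  have hdiv : ∀ χ : LinearMap.range ρ.norm →ₗ[ℤ] ℤ, (Nat.card G : ℤ) ∣ χ (NR m) := by
    intro χ
    refine h (χ ∘ₗ NR) fun g => ?_
    ext v
    show χ (NR (ρ g v)) = χ (NR v)
    congr 1
    apply Subtype.ext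
    exact Representation.norm_self_apply ρ g v
  obtain ⟨z, hz⟩ := exists_smul_eq_of_forall_dvd (Nat.card G : ℤ) (NR m) hdiv
  obtain ⟨y, hy⟩ := z.2
  refine ⟨y, ?_⟩
  rw [← norm_apply]
  have h1 : ρ.norm m = (Nat.card G : ℤ) • ρ.norm y := by
    have := congrArg Subtype.val hz
    rw [hy]
    exact this
  rw [norm_apply_of_invariant ρ hm] at h1
  exact ((smul_right_injective V (card_ne_zero (G := G))) h1).symm

/-- The quotient of a lattice by its invariants is torsion-free. -/
lemma isTorsionFree_quotient_invariants : Module.IsTorsionFree ℤ (V ⧸ ρ.invariants) where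
  isSMulRegular r hr := by
    have hr0 : r ≠ 0 := hr.ne_zero
    intro a b hab
    obtain ⟨v, rfl⟩ := Submodule.Quotient.mk_surjective _ a
    obtain ⟨w, rfl⟩ := Submodule.Quotient.mk_surjective _ b
    rw [Submodule.Quotient.eq]
    have h1 : r • (v - w) ∈ ρ.invariants := by
      rw [← Submodule.Quotient.mk_eq_zero, Submodule.Quotient.mk_smul, Submodule.Quotient.mk_sub,
        smul_sub, sub_eq_zero]
      exact hab
    rw [Representation.mem_invariants] at h1 ⊢
    intro g
    have h2 := h1 g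
    rw [map_smul] at h2
    exact smul_right_injective V hr0 h2

/-- **(D0b)** An invariant functional taking values divisible by `#G` on all invariants is a norm
in the dual lattice. -/
theorem d0b (φ : V →ₗ[ℤ] ℤ) (hφ : ∀ g, φ ∘ₗ ρ g = φ)
    (h : ∀ m : V, (∀ g, ρ g m = m) → (Nat.card G : ℤ) ∣ φ m) :
    ∃ ψ : V →ₗ[ℤ] ℤ, φ = ∑ g : G, ψ ∘ₗ ρ g⁻¹ := by
  classical
  set W : Submodule ℤ V := ρ.invariants with hW
  -- `V / W` is free, hence the quotient map splits
  have : Module.IsTorsionFree ℤ (V ⧸ W) := isTorsionFree_quotient_invariants ρ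
  obtain ⟨σ, hσ⟩ := LinearMap.exists_rightInverse_of_surjective W.mkQ (Submodule.range_mkQ W)
  -- the projection onto `W`
  let p : V →ₗ[ℤ] W := (LinearMap.id - σ ∘ₗ W.mkQ).codRestrict W (fun v => by
    rw [← Submodule.Quotient.mk_eq_zero]
    show W.mkQ ((LinearMap.id - σ ∘ₗ W.mkQ : V →ₗ[ℤ] V) v) = 0
    rw [LinearMap.sub_apply, map_sub, LinearMap.id_apply, LinearMap.comp_apply]
    have := LinearMap.congr_fun hσ (W.mkQ v)
    rw [LinearMap.comp_apply, LinearMap.id_apply] at this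
    rw [this, sub_self])
  have hp : ∀ w : W, p w = w := by
    intro w
    apply Subtype.ext
    show (LinearMap.id - σ ∘ₗ W.mkQ : V →ₗ[ℤ] V) (w : V) = w
    rw [LinearMap.sub_apply, LinearMap.id_apply, LinearMap.comp_apply]
    have : W.mkQ (w : V) = 0 := (Submodule.Quotient.mk_eq_zero W).2 w.2
    rw [this, map_zero, sub_zero]
  have hWdvd : ∀ w : W, (Nat.card G : ℤ) ∣ φ (w : V) := fun w =>
    h w (fun g => (Representation.mem_invariants ρ _).1 w.2 g)
  -- `ψ_W = φ / n` on `W`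
  let ψW : W →ₗ[ℤ] ℤ :=
    { toFun := fun w => φ (w : V) / (Nat.card G : ℤ)
      map_add' := fun w w' => by
        show φ ((w + w' : W) : V) / _ = _
        rw [Submodule.coe_add, map_add, Int.add_ediv_of_dvd_left (hWdvd w)]
      map_smul' := fun c w => by
        show φ ((c • w : W) : V) / _ = c • (φ (w : V) / _)
        rw [Submodule.coe_smul, map_smul, smul_eq_mul, smul_eq_mul, Int.mul_ediv_assoc _ (hWdvd w)] }
  refine ⟨ψW ∘ₗ p, ?_⟩
  ext v
  rw [LinearMap.sum_apply]
  have hsum : ∑ g : G, (ψW ∘ₗ p ∘ₗ ρ g⁻¹) v = (ψW ∘ₗ p) (ρ.norm v) := by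
    rw [norm_apply, map_sum]
    exact Equiv.sum_comp (Equiv.inv G) (fun g => (ψW ∘ₗ p) (ρ g v))
  have hsum' : ∑ g : G, ((ψW ∘ₗ p) ∘ₗ ρ g⁻¹) v = (ψW ∘ₗ p) (ρ.norm v) := hsum
  rw [hsum']
  have hNv : ρ.norm v ∈ W := by
    rw [hW, Representation.mem_invariants]
    intro g
    exact Representation.self_norm_apply ρ g v
  have h1 : p (ρ.norm v) = ⟨ρ.norm v, hNv⟩ := hp ⟨ρ.norm v, hNv⟩
  rw [LinearMap.comp_apply, h1]
  show φ v = φ (ρ.norm v) / (Nat.card G : ℤ)
  rw [functional_norm_apply ρ hφ, Int.mul_ediv_cancel_left _ (card_ne_zero (G := G))]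

end

/-! ### Versions for an arbitrary `ℤ`-module instance -/

section Arbitrary

variable {G : Type*} [Group G] [Fintype G] {V : Type*} [AddCommGroup V]

/-- `d0a` for an arbitrary instance `Module ℤ V` (e.g. `M.ρ` for `M : Rep ℤ G`). -/
theorem d0a' [inst : Module ℤ V] [Module.Free ℤ V] [Module.Finite ℤ V]
    (ρ : Representation ℤ G V) (m : V) (hm : ∀ g, ρ g m = m)
    (h : ∀ φ : V →ₗ[ℤ] ℤ, (∀ g, φ ∘ₗ ρ g = φ) → (Nat.card G : ℤ) ∣ φ m) :
    ∃ y : V, ∑ g : G, ρ g y = m := by
  have hinst : inst = AddCommGroup.toIntModule V := Subsingleton.elim _ _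
  subst hinst
  exact d0a ρ m hm h

/-- `d0b` for an arbitrary instance `Module ℤ V`. -/
theorem d0b' [inst : Module ℤ V] [Module.Free ℤ V] [Module.Finite ℤ V]
    (ρ : Representation ℤ G V) (φ : V →ₗ[ℤ] ℤ) (hφ : ∀ g, φ ∘ₗ ρ g = φ)
    (h : ∀ m : V, (∀ g, ρ g m = m) → (Nat.card G : ℤ) ∣ φ m) :
    ∃ ψ : V →ₗ[ℤ] ℤ, φ = ∑ g : G, ψ ∘ₗ ρ g⁻¹ := by
  have hinst : inst = AddCommGroup.toIntModule V := Subsingleton.elim _ _
  subst hinst
  exact d0b ρ φ hφ h

end Arbitrary

/-! ### Instance-free versions: additive actions and additive functionals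

These avoid every `Module ℤ _` instance in the statement (for an abstract `M : Rep ℤ G` the instance
`M.hV2` is not syntactically the canonical `ℤ`-module structure found by type class search). -/

section Additive

variable {G : Type*} [Group G] [Fintype G] {V : Type*} [AddCommGroup V]

/-- The `ℤ`-linear representation attached to an additive action. -/
def repOfAdd (a : G →* AddMonoid.End V) : Representation ℤ G V where
  toFun g := (show V →+ V from a g).toIntLinearMap
  map_one' := by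
    ext v
    show (a 1) v = v
    rw [map_one]; rfl
  map_mul' g h := by
    ext v
    show (a (g * h)) v = (a g) ((a h) v)
    rw [map_mul]; rfl

@[simp] lemma repOfAdd_apply (a : G →* AddMonoid.End V) (g : G) (v : V) :
    repOfAdd a g v = a g v := rfl

/-- **(D0a)**, additive form. -/
theorem d0a_add [Module.Free ℤ V] [Module.Finite ℤ V] (a : G →* AddMonoid.End V) (m : V)
    (hm : ∀ g, a g m = m)
    (h : ∀ φ : V →+ ℤ, (∀ g v, φ (a g v) = φ v) → (Nat.card G : ℤ) ∣ φ m) :
    ∃ y : V, ∑ g : G, a g y = m := by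
  obtain ⟨y, hy⟩ := d0a (repOfAdd a) m hm (fun φ hφ =>
    h φ.toAddMonoidHom (fun g v => LinearMap.congr_fun (hφ g) v))
  exact ⟨y, hy⟩

/-- **(D0b)**, additive form. -/
theorem d0b_add [Module.Free ℤ V] [Module.Finite ℤ V] (a : G →* AddMonoid.End V) (φ : V →+ ℤ)
    (hφ : ∀ g v, φ (a g v) = φ v)
    (h : ∀ m : V, (∀ g, a g m = m) → (Nat.card G : ℤ) ∣ φ m) :
    ∃ ψ : V →+ ℤ, ∀ v, φ v = ∑ g : G, ψ (a g⁻¹ v) := by
  obtain ⟨ψ, hψ⟩ := d0b (repOfAdd a) φ.toIntLinearMap
    (fun g => LinearMap.ext fun v => hφ g v) (fun m hm => h m hm)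
  refine ⟨ψ.toAddMonoidHom, fun v => ?_⟩
  have := LinearMap.congr_fun hψ v
  rw [LinearMap.sum_apply] at this
  exact this

end Additive

/-! ### Versions for `M : Rep ℤ G` -/

section RepForm

variable {G : Type} [Group G] [Fintype G]

/-- The additive action underlying a representation over any ring. -/
def addAction {k : Type} [CommRing k] (M : Rep.{0} k G) : G →* AddMonoid.End M.V where
  toFun g := (M.ρ g).toAddMonoidHom
  map_one' := by
    ext v
    show M.ρ 1 v = v
    rw [map_one]; rfl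
  map_mul' g h := by
    ext v
    show M.ρ (g * h) v = M.ρ g (M.ρ h v)
    rw [map_mul]; rfl

@[simp] lemma addAction_apply {k : Type} [CommRing k] (M : Rep.{0} k G) (g : G) (v : M.V) :
    addAction M g v = M.ρ g v := rfl

/-- **(D0a)** for `M : Rep ℤ G` (functionals as additive maps). -/
theorem d0a_rep (M : Rep.{0} ℤ G) (hfree : Module.Free ℤ M.V) (hfin : Module.Finite ℤ M.V)
    (m : M.V) (hm : ∀ g, M.ρ g m = m)
    (h : ∀ φ : M.V →+ ℤ, (∀ g v, φ (M.ρ g v) = φ v) → (Nat.card G : ℤ) ∣ φ m) :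
    ∃ y : M.V, ∑ g : G, M.ρ g y = m :=
  d0a_add (addAction M) m hm h

/-- **(D0b)** for `M : Rep ℤ G` (functionals as additive maps). -/
theorem d0b_rep (M : Rep.{0} ℤ G) (hfree : Module.Free ℤ M.V) (hfin : Module.Finite ℤ M.V)
    (φ : M.V →+ ℤ) (hφ : ∀ g v, φ (M.ρ g v) = φ v)
    (h : ∀ m : M.V, (∀ g, M.ρ g m = m) → (Nat.card G : ℤ) ∣ φ m) :
    ∃ ψ : M.V →+ ℤ, ∀ v, φ v = ∑ g : G, ψ (M.ρ g⁻¹ v) :=
  d0b_add (addAction M) φ hφ h

end RepForm

end Fermat.Agent.PT.FG.H0Dual18
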