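/-
Program F (S55, Poitou–Tate), chapter FG, block "Tate infrastructure" (helper3).

Bridge between helper9's model of induced modules (`PGroupFree9.indRep B` on `G →₀ B`,
`g • single h b = single (g * h) b`) and `TateInduced3.coind₁` (functions `G → B`,
`(g • f) x = f (x * g)`): for `G` finite they are isomorphic via `φ ↦ (x ↦ φ x⁻¹)`.
Consequence: `indTateAcyclic : CohTriv9.IndTateAcyclic k`, the interface statement on which
`CohTriv9` is conditional.
-/
import Mathlib
import Fermat.Agent.PT.FG.TateInduced3
import Fermat.Agent.PT.FG.CohTriv9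

set_option autoImplicit false

namespace Fermat.Agent.PT.FG.InducedBridge3

open CategoryTheory Limits
open Fermat.Agent.PT.FG.TateInduced3 Fermat.Agent.PT.FG.PGroupFree9 Fermat.Agent.PT.FG.CohTriv9

universe u

variable {k : Type u} [CommRing k] (G : Type u) [Group G] [Finite G]
  (B : Type u) [AddCommGroup B] [Module k B]

/-- `(G →₀ B) ≃ (G → B)`, `φ ↦ (x ↦ φ x⁻¹)`. -/
noncomputable def bridgeLinearEquiv : (G →₀ B) ≃ₗ[k] (G → B) :=
  (Finsupp.linearEquivFunOnFinite k B G).trans
    (LinearEquiv.funCongrLeft k B (Equiv.inv G))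

lemma bridgeLinearEquiv_apply (φ : G →₀ B) (x : G) :
    bridgeLinearEquiv (k := k) G B φ x = φ x⁻¹ := rfl

/-- helper9's induced module is `coind₁`. -/
noncomputable def indRepIsoCoind₁ :
    Rep.of (indRep (k := k) (G := G) B) ≅ coind₁ k G B :=
  Rep.mkIso (Representation.Equiv.mk (bridgeLinearEquiv (k := k) G B) (fun g => by
    ext h b x
    classical
    simp only [LinearMap.coe_comp, LinearEquiv.coe_coe, Function.comp_apply,
      Finsupp.lsingle_apply, indRep_single, bridgeLinearEquiv_apply, coind₁Rep_apply,
      Finsupp.single_apply]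
    congr 1
    rw [eq_iff_iff]
    constructor
    · intro hx
      rw [mul_inv_rev, ← hx]
      simp
    · intro hx
      rw [mul_inv_rev] at hx
      rw [hx]
      simp))

/-- The interface statement of `CohTriv9`: induced modules are Tate-acyclic. -/
theorem indTateAcyclic : IndTateAcyclic k := by
  intro G _ _ B _ _ n
  exact TateInduced3.isZero_tate_of_iso (indRepIsoCoind₁ G B) n (isZero_tate_coind₁ G B n)

end Fermat.Agent.PT.FG.InducedBridge3
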