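import Fermat.Agent.PT.FG.InfResFlex1
import Fermat.Agent.PT.FG.Interface8

/-
Program F (S55), chapter FG, block (I): the three interface statements of `Interface8` owned by
helper1: `infRes2 : Interface8.InfRes2`, `uglyStep : Interface8.UglyStep`,
`h1Devissage : Interface8.H1Devissage`.  (Flexible forms for towers of fields with three different
group types: `InfResFlex1.infRes₂_flex`, `InfResFlex1.infRes₂_flex'`.)
-/

set_option autoImplicit false

open CategoryTheory groupCohomology

namespace Fermat.Agent.PT.FG.InfResFinal1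

open Fermat.Agent.PT.FG Fermat.Agent.PT.FG.Interface8

/-- **(IR2)** inflation–restriction in degree 2. -/
theorem infRes2 : Interface8.InfRes2 := by
  intro G _ _ M N _ h1
  have hz : Limits.IsZero (H1 (Rep.res N.subtype M)) := ModuleCat.isZero_iff_subsingleton.2 h1
  refine ⟨InfResTwo1.H2InfRes_f_injective M N hz, fun x hx => ?_⟩
  exact InfResTwo1.exists_inf_eq_of_res_eq_zero M N hz x hx

/-- **(UGLY)** one step of the ugly lemma. -/
theorem uglyStep : Interface8.UglyStep := by
  intro G _ _ M N _ h1 hf1 hf2
  have hz : Limits.IsZero (H1 (Rep.res N.subtype M)) := ModuleCat.isZero_iff_subsingleton.2 h1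
  exact InfResTwo1.card_H2_dvd M N hz

/-- **(IR1')** vanishing of `H¹` by dévissage. -/
theorem h1Devissage : Interface8.H1Devissage := by
  intro G _ _ M N _ h1 h2
  have hex := H1InfRes_exact M N
  rw [ShortComplex.moduleCat_exact_iff_ker_sub_range] at hex
  have hx0 : ∀ z : H1 M, z = 0 := fun z => by
    have hz : (H1InfRes M N).g.hom z = 0 := h1.elim _ _
    obtain ⟨w, hw⟩ := hex (LinearMap.mem_ker.2 hz)
    have : w = 0 := h2.elim _ _
    rw [← hw, this]
    exact map_zero _
  exact ⟨fun x y => by rw [hx0 x, hx0 y]⟩

end Fermat.Agent.PT.FG.InfResFinal1
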