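import Fermat.Agent.PT.FG.InfResTwo1

/-
Program F (S55), chapter FG, block (I1'): FLEXIBLE form of degree-2 inflation–restriction
(requested by helper12 (LOC) and helper19 (GLOB)).  Owner: helper1.

Three groups of different types `S --ι--> G --π--> Q` (`ι` injective, `π` surjective,
`ι.range = π.ker`), modules `B : Rep k Q`, `A : Rep k G`, `C : Rep k S`, a morphism
`φ : res π B ⟶ A` which is injective with image the `S`-invariants of `A`, a bijective morphism
`ψ : res ι A ⟶ C`, and `H¹(S, C) = 0` (cocycle form).  Then `map π φ 2 : H²(Q, B) → H²(G, A)` is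
injective and its image is the kernel of `map ι ψ 2 : H²(G, A) → H²(S, C)`.

Main exports (namespace `Fermat.Agent.PT.FG.InfResFlex1`):
* `infRes₂_flex` (helper12's statement, universe polymorphic: `k G Q S : Type u`);
* `infRes₂_flex'` : the same with hypothesis `Subsingleton (H1 C)`.
-/

set_option autoImplicit false

open CategoryTheory groupCohomology Rep

universe u

namespace Fermat.Agent.PT.FG.InfResFlex1

open Fermat.Agent.PT.FG.InfResTwo1

section

variable {k G Q S : Type u} [CommRing k] [Group G] [Group Q] [Group S]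
  (ι : S →* G) (π : G →* Q)
  {B : Rep.{u} k Q} {A : Rep.{u} k G} {C : Rep.{u} k S}
  (φ : res π B ⟶ A) (ψ : res ι A ⟶ C)

omit [Group Q] in
lemma psi_comm (s : S) (a : A) : ψ.hom (A.ρ (ι s) a) = C.ρ s (ψ.hom a) :=
  hom_comm_apply ψ s a

omit [Group S] in
lemma phi_comm (g : G) (b : B) : φ.hom (B.ρ (π g) b) = A.ρ g (φ.hom b) :=
  hom_comm_apply φ g b

variable {ι π}

/-- `H¹(S, C) = 0` (cocycle form) transports to `H1Vanish A π.ker`. -/
lemma h1Vanish_ker (hex : ι.range = π.ker) (hψ : Function.Bijective ψ.hom)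
    (h1 : ∀ f : cocycles₁ C, ∃ c : C, ∀ s : S, f s = C.ρ s c - c) :
    H1Vanish A π.ker := by
  intro φ' hφ'
  have hmem : ∀ s : S, ι s ∈ π.ker := fun s => by rw [← hex]; exact ⟨s, rfl⟩
  let f : S → C := fun s => ψ.hom (φ' ⟨ι s, hmem s⟩)
  have hf : f ∈ cocycles₁ C := by
    rw [mem_cocycles₁_iff]
    intro s t
    have := hφ' ⟨ι s, hmem s⟩ ⟨ι t, hmem t⟩
    have e : (⟨ι (s * t), hmem (s * t)⟩ : π.ker) = ⟨ι s, hmem s⟩ * ⟨ι t, hmem t⟩ := by
      apply Subtype.ext; simp
    show ψ.hom (φ' ⟨ι (s * t), hmem (s * t)⟩) = C.ρ s (ψ.hom (φ' ⟨ι t, hmem t⟩)) + _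
    rw [e, this, map_add, psi_comm]
  obtain ⟨c, hc⟩ := h1 ⟨f, hf⟩
  obtain ⟨b, rfl⟩ := hψ.2 c
  refine ⟨b, fun n => ?_⟩
  obtain ⟨s, hs⟩ : (n : G) ∈ ι.range := by rw [hex]; exact n.2
  have hn : n = ⟨ι s, hmem s⟩ := Subtype.ext hs.symm
  have := hc s
  apply hψ.1
  rw [hn, map_sub, psi_comm]
  exact this

end

section main

variable {k G Q S : Type u} [CommRing k] [Group G] [Group Q] [Group S]

/-- **Flexible degree-2 inflation–restriction** (shape requested by LOC/GLOB). -/
theorem infRes₂_flex (ι : S →* G) (π : G →* Q) (hι : Function.Injective ι)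
    (hπ : Function.Surjective π) (hex : ι.range = π.ker)
    (B : Rep.{u} k Q) (A : Rep.{u} k G) (C : Rep.{u} k S)
    (φ : Rep.res π B ⟶ A) (ψ : Rep.res ι A ⟶ C) (hψ : Function.Bijective ψ.hom)
    (hφ : Function.Injective φ.hom)
    (hφim : ∀ a : A, (∀ s : S, A.ρ (ι s) a = a) → ∃ b : B, φ.hom b = a)
    (h1 : ∀ f : groupCohomology.cocycles₁ C, ∃ c : C, ∀ s : S, f s = C.ρ s c - c) :
    Function.Injective (groupCohomology.map π φ 2) ∧
      ∀ x : groupCohomology.H2 A, groupCohomology.map ι ψ 2 x = 0 →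
        ∃ y : groupCohomology.H2 B, groupCohomology.map π φ 2 y = x := by
  have _ := hι
  have hV : H1Vanish A π.ker := h1Vanish_ker ψ hex hψ h1
  -- invariants under `π.ker` come from `B`
  have hlift : ∀ a : A, (∀ n : G, n ∈ π.ker → A.ρ n a = a) → ∃ b : B, φ.hom b = a :=
    fun a ha => hφim a fun s => ha _ (by rw [← hex]; exact ⟨s, rfl⟩)
  have hker_mul : ∀ (g n : G), n ∈ π.ker → π (g * n) = π g := fun g n hn => by
    rw [map_mul, MonoidHom.mem_ker.1 hn, mul_one]
  -- two elements with the same image differ by an element of the kernel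
  have hdiff : ∀ g g' : G, π g = π g' → ∃ n ∈ π.ker, g' = g * n := fun g g' h =>
    ⟨g⁻¹ * g', by rw [MonoidHom.mem_ker, map_mul, map_inv, h, inv_mul_cancel], by group⟩
  let σ : Q → G := Function.surjInv hπ
  have hσ : ∀ q, π (σ q) = q := Function.surjInv_eq hπ
  refine ⟨?_, ?_⟩
  · -- injectivity
    rw [injective_iff_map_eq_zero]
    intro y hy
    induction y using H2_induction_on with | @h y =>
    have key := H2π_comp_map_apply π φ y
    have hy' := key.symm.trans hy
    rcases (H2π_eq_zero_iff _).1 hy' with ⟨c, hc⟩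
    have hc' : ∀ g h : G, A.ρ g (c h) - c (g * h) + c g = φ.hom (y (π g, π h)) :=
      fun g h => congr_fun hc (g, h)
    let f : G × G → A := fun p => φ.hom (y (π p.1, π p.2))
    have hf : Coc f := by
      intro g h j
      have := (mem_cocycles₂_iff (A := B) y).1 y.2 (π g) (π h) (π j)
      show φ.hom (y (π (g * h), π j)) + φ.hom (y (π g, π h))
        = A.ρ g (φ.hom (y (π h, π j))) + φ.hom (y (π g, π (h * j)))
      rw [map_mul, map_mul, ← map_add, this, map_add, phi_comm]
    have hr : ∀ g h n : G, n ∈ π.ker → f (g, h * n) = f (g, h) := fun g h n hn => by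
      show φ.hom (y (π g, π (h * n))) = _
      rw [hker_mul h n hn]
    have hl : ∀ g h n : G, n ∈ π.ker → f (g * n, h) = f (g, h) := fun g h n hn => by
      show φ.hom (y (π (g * n), π h)) = _
      rw [hker_mul g n hn]
    obtain ⟨c', hfc', hc'r, hc'inv⟩ := exists_descend hV hf hr hl c
      (funext fun ⟨g, h⟩ => (hc' g h).symm)
    choose cb hcb using fun g : G => hlift (c' g) (fun n hn => hc'inv g n hn)
    refine (H2π_eq_zero_iff _).2 ⟨fun q => cb (σ q), ?_⟩
    funext ⟨q₁, q₂⟩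
    apply hφ
    have hcq : ∀ g : G, φ.hom (cb (σ (π g))) = c' g := fun g => by
      obtain ⟨n, hn, e⟩ := hdiff (σ (π g)) g (hσ _)
      rw [hcb]
      conv_rhs => rw [e, hc'r _ _ hn]
    obtain ⟨g, rfl⟩ := hπ q₁
    obtain ⟨h, rfl⟩ := hπ q₂
    have := congr_fun hfc' (g, h)
    simp only [dd_apply] at this
    show φ.hom (B.ρ (π g) (cb (σ (π h))) - cb (σ (π g * π h)) + cb (σ (π g))) = f (g, h)
    rw [map_add, map_sub, phi_comm, ← map_mul, hcq, hcq, hcq, this]
  · -- exactness
    intro x hx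
    induction x using H2_induction_on with | @h x =>
    have key := H2π_comp_map_apply ι ψ x
    have hx' := key.symm.trans hx
    rcases (H2π_eq_zero_iff _).1 hx' with ⟨u', hu'⟩
    have hu'' : ∀ s t : S, C.ρ s (u' t) - u' (s * t) + u' s = ψ.hom (x (ι s, ι t)) :=
      fun s t => congr_fun hu' (s, t)
    -- transport `u'` to `π.ker`
    have hmem : ∀ s : S, ι s ∈ π.ker := fun s => by rw [← hex]; exact ⟨s, rfl⟩
    have hsur : ∀ n : π.ker, ∃ s : S, ι s = n := fun n => by
      obtain ⟨s, hs⟩ : (n : G) ∈ ι.range := by rw [hex]; exact n.2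
      exact ⟨s, hs⟩
    choose sec hsec using hsur
    choose ψinv hψinv using hψ.2
    let u : π.ker → A := fun n => ψinv (u' (sec n))
    have hf : Coc (A := A) x := (mem_cocycles₂_iff (A := A) x).1 x.2
    have hu : ∀ s t : π.ker, x ((s : G), (t : G)) = A.ρ s (u t) - u (s * t) + u s := by
      intro s t
      apply hψ.1
      have e : sec (s * t) = sec s * sec t := by
        apply hι
        rw [map_mul, hsec, hsec, hsec, Subgroup.coe_mul]
      have := hu'' (sec s) (sec t)
      rw [hsec, hsec] at this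
      rw [← this, map_add, map_sub]
      have e2 : ψ.hom (A.ρ (s : G) (u t)) = C.ρ (sec s) (u' (sec t)) := by
        have := psi_comm ι ψ (sec s) (u t)
        rw [hsec] at this
        rw [this, hψinv]
      rw [e2, hψinv, hψinv, e]
    obtain ⟨c, hr, hl, hinv⟩ := exists_factor hV hf u hu
    choose Fb hFb using fun p : G × G => hlift ((⇑x - dd c) p) (fun n hn => hinv p.1 p.2 n hn)
    have hFq : ∀ g h : G, φ.hom (Fb (σ (π g), σ (π h))) = (⇑x - dd c) (g, h) := fun g h => by
      obtain ⟨n, hn, e⟩ := hdiff (σ (π g)) g (hσ _)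
      obtain ⟨m, hm, e'⟩ := hdiff (σ (π h)) h (hσ _)
      rw [hFb]
      conv_rhs => rw [e, e', hr _ _ _ hm, hl _ _ _ hn]
    have hfc : Coc (⇑x - dd c) := hf.sub (coc_dd c)
    let F : Q × Q → B := fun q => Fb (σ q.1, σ q.2)
    have hF : F ∈ cocycles₂ B := by
      rw [mem_cocycles₂_iff]
      intro q₁ q₂ q₃
      obtain ⟨g₁, rfl⟩ := hπ q₁
      obtain ⟨g₂, rfl⟩ := hπ q₂
      obtain ⟨g₃, rfl⟩ := hπ q₃
      apply hφ
      have := hfc g₁ g₂ g₃
      show φ.hom (Fb (σ (π g₁ * π g₂), σ (π g₃)) + Fb (σ (π g₁), σ (π g₂)))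
        = φ.hom (B.ρ (π g₁) (Fb (σ (π g₂), σ (π g₃))) + Fb (σ (π g₁), σ (π g₂ * π g₃)))
      rw [map_add, map_add, phi_comm, ← map_mul, ← map_mul, hFq, hFq, hFq, hFq]
      exact this
    refine ⟨H2π _ ⟨F, hF⟩, ?_⟩
    have key2 := H2π_comp_map_apply π φ ⟨F, hF⟩
    refine key2.trans ?_
    symm
    refine (H2π_eq_iff _ _).2 ⟨c, ?_⟩
    funext ⟨g, h⟩
    have := hFq g h
    simp only [Pi.sub_apply, dd_apply] at this
    show A.ρ g (c h) - c (g * h) + c g = x (g, h) - φ.hom (Fb (σ (π g), σ (π h)))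
    rw [this]; abel

/-- Variant of `infRes₂_flex` with hypothesis `Subsingleton (H1 C)`. -/
theorem infRes₂_flex' (ι : S →* G) (π : G →* Q) (hι : Function.Injective ι)
    (hπ : Function.Surjective π) (hex : ι.range = π.ker)
    (B : Rep.{u} k Q) (A : Rep.{u} k G) (C : Rep.{u} k S)
    (φ : Rep.res π B ⟶ A) (ψ : Rep.res ι A ⟶ C) (hψ : Function.Bijective ψ.hom)
    (hφ : Function.Injective φ.hom)
    (hφim : ∀ a : A, (∀ s : S, A.ρ (ι s) a = a) → ∃ b : B, φ.hom b = a)
    (h1 : Subsingleton (groupCohomology.H1 C)) :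
    Function.Injective (groupCohomology.map π φ 2) ∧
      ∀ x : groupCohomology.H2 A, groupCohomology.map ι ψ 2 x = 0 →
        ∃ y : groupCohomology.H2 B, groupCohomology.map π φ 2 y = x := by
  refine infRes₂_flex ι π hι hπ hex B A C φ ψ hψ hφ hφim fun f => ?_
  have h0 : H1π C f = 0 := Subsingleton.elim _ _
  obtain ⟨b, hb⟩ := (H1π_eq_zero_iff _).1 h0
  exact ⟨b, fun s => (congr_fun hb s).symm⟩

end main

end Fermat.Agent.PT.FG.InfResFlex1
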