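/-
PROGRAM F (S55), chapter FG.  helper9.
(CT1) Nakayama–Tate in the `p`-primary form of `Interface8.NakayamaTate`: if two consecutive Tate
groups of a Sylow `p`-subgroup vanish then all Tate groups of all subgroups have trivial
`p`-primary part.  Conditional on ONE interface statement `SylowTate` (helper2's (R2)).
Steps: p-group theorem (`IndAcyclic9.isCohTrivial_int`) for the Sylow subgroup; transport to all
`p`-subgroups by Sylow conjugacy (`TateTransport9`); `SylowTate` for an arbitrary subgroup.
-/
import Mathlib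
import Fermat.Agent.PT.FG.IndAcyclic9
import Fermat.Agent.PT.FG.TateTransport9
import Fermat.Agent.PT.FG.Interface8

set_option autoImplicit false
set_option linter.style.haveILetI false

namespace Fermat.Agent.PT.FG.NakayamaTate9

open Function CategoryTheory Representation CategoryTheory.Limits
open Fermat.Agent.PT.FG.PGroupMod9 Fermat.Agent.PT.FG.PGroupFree9 Fermat.Agent.PT.FG.CohTriv9
open Fermat.Agent.PT.FG.IndAcyclic9 Fermat.Agent.PT.FG.TateTransport9

universe u
variable {k G : Type u} [CommRing k] [Group G]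

/-- `ρ g` as a linear equivalence. -/
noncomputable def rhoEquiv (M : Rep.{u} k G) (g : G) : M.V ≃ₗ[k] M.V :=
  LinearEquiv.ofLinearMap (M.ρ g) (M.ρ g⁻¹)
    (by rw [← Module.End.mul_eq_comp, ← map_mul, mul_inv_cancel, map_one]; rfl)
    (by rw [← Module.End.mul_eq_comp, ← map_mul, inv_mul_cancel, map_one]; rfl)

@[simp] theorem rhoEquiv_apply (M : Rep.{u} k G) (g : G) (m : M.V) : rhoEquiv M g m = M.ρ g m := rfl

/-- If `M` restricted to the subgroup `P` is cohomologically trivial, then the Tate cohomology of
`M` vanishes on every subgroup `Q` which is conjugate into `P`. -/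
theorem isZero_tate_of_conj_le (M : Rep.{u} k G) (P : Subgroup G)
    (hP : IsCohTrivial (Rep.res P.subtype M)) (Q : Subgroup G) [Fintype Q] (g : G)
    (hQ : ∀ x ∈ Q, g⁻¹ * x * g ∈ P) (n : ℤ) :
    IsZero (tateCohomology (Rep.res Q.subtype M) n) := by
  classical
  -- the embedding `Q → P`, `x ↦ g⁻¹ x g`
  let φ : Q →* P :=
    { toFun := fun x => ⟨g⁻¹ * x * g, hQ x x.2⟩
      map_one' := by ext; simp
      map_mul' := fun x y => by ext; simp [mul_assoc] }
  have hφ : Injective φ := by
    intro x y hxy
    have := congrArg (fun z : P => (z : G)) hxy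
    simp only [φ, MonoidHom.coe_mk, OneHom.coe_mk] at this
    ext
    simpa using this
  let Q' : Subgroup P := φ.range
  let e : Q ≃* Q' := MonoidHom.ofInjective hφ
  haveI : Fintype Q' := Fintype.ofEquiv Q e.toEquiv
  have hA := hP Q' n
  refine isZero_tate_of_equiv e (Rep.res Q'.subtype (Rep.res P.subtype M)) (Rep.res Q.subtype M)
    (rhoEquiv M g⁻¹) ?_ n hA
  intro x
  ext m
  show M.ρ g⁻¹ (M.ρ (x : G) m) = M.ρ (g⁻¹ * x * g) (M.ρ g⁻¹ m)
  rw [← Module.End.mul_apply, ← map_mul, ← Module.End.mul_apply, ← map_mul]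
  congr 2
  group

variable {p : ℕ} [Fact p.Prime]

/-- If `M` restricted to a Sylow `p`-subgroup is cohomologically trivial, then the Tate cohomology
of `M` vanishes on every `p`-subgroup. -/
theorem isZero_tate_of_isPGroup [Finite G] (M : Rep.{u} k G) (P : Sylow p G)
    (hP : IsCohTrivial (Rep.res (P : Subgroup G).subtype M)) (Q : Subgroup G) [Fintype Q]
    (hQ : IsPGroup p Q) (n : ℤ) : IsZero (tateCohomology (Rep.res Q.subtype M) n) := by
  obtain ⟨P', hP'⟩ := hQ.exists_le_sylow
  obtain ⟨g, hg⟩ := MulAction.exists_smul_eq G P P'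
  refine isZero_tate_of_conj_le M (P : Subgroup G) hP Q g ?_ n
  intro x hx
  have hx' : x ∈ (P' : Subgroup G) := hP' hx
  rw [← hg, Sylow.coe_subgroup_smul, Subgroup.mem_pointwise_smul_iff_inv_smul_mem] at hx'
  simpa [MulAut.smul_def, MulAut.conj_inv_apply] using hx'

/-- INTERFACE (helper2's (R2), `TransferTate2`): vanishing of a Tate group on a Sylow `p`-subgroup
kills the `p`-primary torsion of the Tate group of the whole group. -/
def SylowTate (k : Type u) [CommRing k] : Prop :=
  ∀ (G : Type u) [Group G] [Fintype G] (p : ℕ) [Fact p.Prime] (B : Rep.{u} k G) (P : Sylow p G)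
    [Fintype P] (n : ℤ),
    IsZero (tateCohomology (Rep.res (P : Subgroup G).subtype B) n) →
      ∀ x : tateCohomology B n, (∃ m : ℕ, p ^ m • x = 0) → x = 0

/-- If the Tate cohomology of `M` vanishes on all `p`-subgroups, then all Tate groups of all
subgroups have trivial `p`-primary part. -/
theorem eq_zero_of_pPrimary (hR2 : SylowTate k) [Finite G] (M : Rep.{u} k G)
    (hPT : ∀ (Q : Subgroup G) [Fintype Q], IsPGroup p Q → ∀ n : ℤ,
      IsZero (tateCohomology (Rep.res Q.subtype M) n))
    (H : Subgroup G) [Fintype H] (n : ℤ) (x : tateCohomology (Rep.res H.subtype M) n)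
    (hx : ∃ m : ℕ, p ^ m • x = 0) : x = 0 := by
  classical
  let P' : Sylow p H := default
  haveI : Fintype P' := Fintype.ofFinite _
  let Q : Subgroup G := (P' : Subgroup H).map H.subtype
  haveI : Fintype Q := Fintype.ofFinite _
  have hQ : IsPGroup p Q := P'.isPGroup'.map H.subtype
  let e : P' ≃* Q := Subgroup.equivMapOfInjective (P' : Subgroup H) H.subtype H.subtype_injective
  have h0 : IsZero (tateCohomology
      (Rep.res (P' : Subgroup H).subtype (Rep.res H.subtype M)) n) := by
    refine isZero_tate_of_equiv e (Rep.res Q.subtype M)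
      (Rep.res (P' : Subgroup H).subtype (Rep.res H.subtype M)) (LinearEquiv.refl k M.V) ?_ n
      (hPT Q hQ n)
    intro y
    rfl
  exact hR2 H p (Rep.res H.subtype M) P' n h0 x hx

/-- **(CT1)** in the shape of `Interface8`, conditional on helper2's (R2). -/
theorem nakayamaTate_of (hR2 : SylowTate.{0} ℤ) : Interface8.NakayamaTate := by
  intro G _ _ p _ M P n h0 h1 H m x hx
  letI : Fintype (P : Subgroup G) := Fintype.ofFinite _
  have hi : IsZero (tateCohomology (Rep.res (P : Subgroup G).subtype M) n) :=
    @ModuleCat.isZero_of_subsingleton _ _ _ h0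
  have hi' : IsZero (tateCohomology (Rep.res (P : Subgroup G).subtype M) (n + 1)) :=
    @ModuleCat.isZero_of_subsingleton _ _ _ h1
  have hP : IsCohTrivial (Rep.res (P : Subgroup G).subtype M) :=
    isCohTrivial_int (p := p) P.isPGroup' _ n hi hi'
  letI : Fintype H := Fintype.ofFinite _
  exact eq_zero_of_pPrimary hR2 M (fun Q _ hQ j => isZero_tate_of_isPGroup M P hP Q hQ j) H m x hx

end Fermat.Agent.PT.FG.NakayamaTate9
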