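/-
Program F (S55), chapter FG: **(CT1) Nakayama–Tate, unconditional**, in the shape of
`Interface8.NakayamaTate`.  Glue of helper9's `NakayamaTate9.nakayamaTate_of` (conditional on the
interface statement `SylowTate`) with helper2's `TransferTate2.tate_eq_zero_of_isZero_sylow`.
-/
import Mathlib
import Fermat.Agent.PT.FG.NakayamaTate9
import Fermat.Agent.PT.FG.TransferTate2

set_option autoImplicit false

namespace Fermat.Agent.PT.FG.NakayamaTateFinal2

universe u

/-- helper9's interface statement `SylowTate` (vanishing of a Tate group on a Sylow `p`-subgroup
kills the `p`-primary part of the Tate group of the whole group), for every commutative ring. -/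
theorem sylowTate (k : Type u) [CommRing k] : NakayamaTate9.SylowTate k :=
  fun _ _ _ _ _ B P _ n h x hx => TransferTate2.tate_eq_zero_of_isZero_sylow B P n h x hx

/-- **(CT1) Nakayama–Tate criterion**, `p`-primary form, unconditional. -/
theorem nakayamaTate : Interface8.NakayamaTate :=
  NakayamaTate9.nakayamaTate_of (sylowTate ℤ)

end Fermat.Agent.PT.FG.NakayamaTateFinal2
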