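/-
Program F (S55, Poitou–Tate), chapter FG, leaf (S) "splitting module" (helper18).

For a group `G`, a commutative ring `k`, `C : Rep k G` and a 2-cocycle `u : cocycles₂ C` (not necessarily
normalised) we construct, in Mathlib's language,

* `augRep k G` — the augmentation ideal `I_G ⊆ k[G]` as a representation, with the short exact sequence
  `augSeq : 0 ⟶ I_G ⟶ k[G] ⟶ k ⟶ 0` (`augSeq_shortExact`);
* `splitRep C u` — the splitting module `C(u) = C × I_G` with
  `σ (c, y) = (σ c + ∑_τ y(τ) u(σ, τ), σ y)`, with the short exact sequence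
  `splitSeq : 0 ⟶ C ⟶ C(u) ⟶ I_G ⟶ 0` (`splitSeq_shortExact`);
* for every subgroup `S ≤ G` the restricted sequences and the connecting maps:
  `δ₀_one_eq_augClass : δ⁰(1) = [s ↦ [s] - [1]] ∈ H¹(S, I_G)` and
  `δ₁_augClass_eq_res : δ¹[s ↦ [s] - [1]] = res_S [u] ∈ H²(S, C)`.
-/
import Mathlib

set_option autoImplicit false

namespace Fermat.Agent.PT.FG.SplitModule18

open CategoryTheory groupCohomology
open scoped MonoidAlgebra

universe u

noncomputable section

variable (k G : Type u) [CommRing k] [Group G]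

/-- The augmentation `k[G] ⟶ k` as a morphism of representations. -/
abbrev augHom : Rep.leftRegular k G ⟶ Rep.trivial k G k :=
  Rep.leftRegularHom (Rep.trivial k G k) (1 : k)

/-- The augmentation as a linear map. -/
def augLin : k[G] →ₗ[k] k := (augHom k G).hom.toLinearMap

lemma augLin_single (g : G) (r : k) : augLin k G (MonoidAlgebra.single g r) = r := by
  show (augHom k G).hom (MonoidAlgebra.single g r) = r
  rw [Rep.leftRegularHom_hom_single]
  simp

lemma augLin_leftRegular (g : G) (y : k[G]) :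
    augLin k G (Representation.leftRegular k G g y) = augLin k G y := by
  have := Rep.hom_comm_apply (augHom k G) g y
  exact this

/-- The augmentation ideal as a submodule of `k[G]`. -/
def augSubmodule : Submodule k (Rep.leftRegular k G) := LinearMap.ker (augLin k G)

lemma mem_augSubmodule {y : k[G]} : y ∈ augSubmodule k G ↔ augLin k G y = 0 := Iff.rfl

lemma augSubmodule_le_comap (g : G) :
    augSubmodule k G ≤ (augSubmodule k G).comap ((Rep.leftRegular k G).ρ g) := by
  intro y hy
  rw [Submodule.mem_comap, mem_augSubmodule]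
  rw [mem_augSubmodule] at hy
  rw [← hy]
  exact augLin_leftRegular k G g y

/-- The augmentation ideal `I_G` as a representation. -/
abbrev augRep : Rep k G :=
  Rep.subrepresentation (Rep.leftRegular k G) (augSubmodule k G) (augSubmodule_le_comap k G)

lemma augRep_ρ_coe (g : G) (y : augRep k G) :
    (((augRep k G).ρ g y : augRep k G) : k[G]) = Representation.leftRegular k G g (y : k[G]) := rfl

/-- `0 ⟶ I_G ⟶ k[G] ⟶ k ⟶ 0`. -/
def augSeq : ShortComplex (Rep k G) where
  X₁ := augRep k G
  X₂ := Rep.leftRegular k G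
  X₃ := Rep.trivial k G k
  f := Rep.subtype _ _ _
  g := augHom k G
  zero := by
    ext y
    exact y.2

lemma augSeq_shortExact : (augSeq k G).ShortExact where
  exact := by
    apply (forget₂ _ (ModuleCat k)).reflects_exact_of_faithful
    rw [ShortComplex.moduleCat_exact_iff_range_eq_ker]
    ext y
    constructor
    · rintro ⟨x, rfl⟩
      exact x.2
    · intro hy
      exact ⟨⟨y, hy⟩, rfl⟩
  mono_f := by
    rw [Rep.mono_iff_injective]
    exact Subtype.val_injective
  epi_g := by
    rw [Rep.epi_iff_surjective]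
    intro r
    exact ⟨MonoidAlgebra.single 1 r, augLin_single k G 1 r⟩

variable {k G}
variable (C : Rep.{u} k G)

/-- `Φ_σ(y) = ∑_τ y(τ) u(σ, τ)`. -/
def phi (u : G × G → C.V) (σ : G) : k[G] →ₗ[k] C.V :=
  Finsupp.linearCombination k (fun τ => u (σ, τ)) ∘ₗ (MonoidAlgebra.coeffLinearEquiv k).toLinearMap

lemma phi_single (u : G × G → C.V) (σ τ : G) (r : k) :
    phi C u σ (MonoidAlgebra.single τ r) = r • u (σ, τ) := by
  simp [phi]

lemma phi_mul (u : cocycles₂ C) (ρ σ : G) (y : k[G]) :
    phi C u (ρ * σ) y + augLin k G y • (u : G × G → C.V) (ρ, σ) =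
      C.ρ ρ (phi C u σ y) + phi C u ρ (Representation.leftRegular k G σ y) := by
  induction y using MonoidAlgebra.induction_linear with
  | zero => simp
  | add x y hx hy =>
    simp only [map_add, add_smul]
    rw [add_add_add_comm, hx, hy, add_add_add_comm]
  | single τ r =>
    rw [phi_single, phi_single, augLin_single, Representation.ofMulAction_single, phi_single,
      map_smul, ← smul_add, ← smul_add, smul_eq_mul]
    congr 1
    exact (mem_cocycles₂_iff (u : G × G → C.V)).1 u.2 ρ σ τ

lemma phi_one (u : cocycles₂ C) (y : k[G]) :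
    phi C u 1 y = augLin k G y • (u : G × G → C.V) (1, 1) := by
  induction y using MonoidAlgebra.induction_linear with
  | zero => simp
  | add x y hx hy => simp only [map_add, add_smul, hx, hy]
  | single τ r =>
    rw [phi_single, augLin_single, cocycles₂_map_one_fst]

/-- The linear map `(c, y) ↦ (σ c + ∑_τ y(τ) u(σ, τ), σ y)` on `C × I_G`. -/
def splitLin (u : cocycles₂ C) (σ : G) :
    C.V × (augRep k G).V →ₗ[k] C.V × (augRep k G).V :=
  (LinearMap.coprod (C.ρ σ) (phi C u σ ∘ₗ (augSubmodule k G).subtype)).prod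
    ((augRep k G).ρ σ ∘ₗ LinearMap.snd k C.V (augRep k G).V)

lemma splitLin_apply (u : cocycles₂ C) (σ : G) (c : C.V) (y : (augRep k G).V) :
    splitLin C u σ (c, y) = (C.ρ σ c + phi C u σ (y : k[G]), (augRep k G).ρ σ y) := rfl

/-- The action on the splitting module `C × I_G`:
`σ (c, y) = (σ c + ∑_τ y(τ) u(σ, τ), σ y)`. -/
def splitRho (u : cocycles₂ C) : Representation k G (C.V × (augRep k G).V) where
  toFun σ := splitLin C u σ
  map_one' := by
    refine LinearMap.ext fun ⟨c, y⟩ => ?_
    rw [splitLin_apply, phi_one, (mem_augSubmodule k G).1 y.2, zero_smul, add_zero, map_one,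
      map_one]
    rfl
  map_mul' ρ σ := by
    refine LinearMap.ext fun ⟨c, y⟩ => ?_
    rw [Module.End.mul_apply, splitLin_apply, splitLin_apply, splitLin_apply]
    have h := phi_mul C u ρ σ (y : k[G])
    rw [(mem_augSubmodule k G).1 y.2, zero_smul, add_zero] at h
    rw [augRep_ρ_coe, h, map_mul, map_mul, map_add]
    refine Prod.ext ?_ rfl
    exact (add_assoc _ _ _).symm

/-- The splitting module `C(u)` of a 2-cocycle `u`. -/
abbrev splitRep (u : cocycles₂ C) : Rep k G := Rep.of (splitRho C u)

lemma splitRep_ρ_apply (u : cocycles₂ C) (σ : G) (c : C.V) (y : (augRep k G).V) :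
    (splitRep C u).ρ σ (c, y) = (C.ρ σ c + phi C u σ (y : k[G]), (augRep k G).ρ σ y) := rfl

/-- The inclusion `C ⟶ C(u)`. -/
def splitIncl (u : cocycles₂ C) : C ⟶ splitRep C u :=
  Rep.ofHom ⟨LinearMap.inl k C.V (augRep k G).V, fun σ => by
    refine LinearMap.ext fun c => ?_
    show (C.ρ σ c, 0) = ((splitRep C u).ρ σ) (c, 0)
    rw [splitRep_ρ_apply]
    simp⟩

/-- The projection `C(u) ⟶ I_G`. -/
def splitProj (u : cocycles₂ C) : splitRep C u ⟶ augRep k G :=
  Rep.ofHom ⟨LinearMap.snd k C.V (augRep k G).V, fun σ => by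
    refine LinearMap.ext fun ⟨c, y⟩ => ?_
    rfl⟩

@[simp] lemma splitIncl_apply (u : cocycles₂ C) (c : C.V) :
    (splitIncl C u).hom c = ((c, 0) : C.V × (augRep k G).V) := rfl

@[simp] lemma splitProj_apply (u : cocycles₂ C) (x : C.V × (augRep k G).V) :
    (splitProj C u).hom x = x.2 := rfl

/-- `0 ⟶ C ⟶ C(u) ⟶ I_G ⟶ 0`. -/
def splitSeq (u : cocycles₂ C) : ShortComplex (Rep k G) where
  X₁ := C
  X₂ := splitRep C u
  X₃ := augRep k G
  f := splitIncl C u
  g := splitProj C u
  zero := by
    ext c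
    rfl

lemma splitSeq_shortExact (u : cocycles₂ C) : (splitSeq C u).ShortExact where
  exact := by
    apply (forget₂ _ (ModuleCat k)).reflects_exact_of_faithful
    rw [ShortComplex.moduleCat_exact_iff_range_eq_ker]
    ext x
    constructor
    · rintro ⟨c, rfl⟩
      rfl
    · intro hx
      obtain ⟨c, y⟩ := x
      have hy : y = 0 := hx
      subst hy
      exact ⟨c, rfl⟩
  mono_f := by
    rw [Rep.mono_iff_injective]
    intro c c' h
    exact congrArg Prod.fst h
  epi_g := by
    rw [Rep.epi_iff_surjective]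
    intro y
    exact ⟨(0, y), rfl⟩

/-! ### Restriction to subgroups and the connecting maps -/

section Delta

variable (k G)

/-- The basic 1-cocycle `g ↦ [g] - [1]` with values in `I_G`. -/
def augCocycleFun : G → (augRep k G).V := fun g =>
  ⟨MonoidAlgebra.single g 1 - MonoidAlgebra.single 1 1, by
    rw [mem_augSubmodule, map_sub, augLin_single, augLin_single, sub_self]⟩

lemma augCocycleFun_coe (g : G) : ((augCocycleFun k G g : (augRep k G).V) : k[G]) =
    MonoidAlgebra.single g 1 - MonoidAlgebra.single 1 1 := rfl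

variable (S : Subgroup G)

/-- `0 ⟶ I_G ⟶ k[G] ⟶ k ⟶ 0` restricted to a subgroup. -/
abbrev augSeqRes : ShortComplex (Rep k S) := (augSeq k G).map (Rep.resFunctor S.subtype)

lemma augSeqRes_shortExact : (augSeqRes k G S).ShortExact :=
  (Rep.shortExact_res S.subtype).2 (augSeq_shortExact k G)

lemma one_mem_invariants_res_trivial :
    (1 : k) ∈ (Rep.res S.subtype (Rep.trivial k G k)).ρ.invariants := fun _ => rfl

lemma augCocycle_comp_eq_d₀₁ :
    (augSeqRes k G S).f.hom ∘ (fun s : S => augCocycleFun k G (s : G)) =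
      d₀₁ (augSeqRes k G S).X₂ (MonoidAlgebra.single (1 : G) (1 : k)) := by
  funext s
  show MonoidAlgebra.single (s : G) (1 : k) - MonoidAlgebra.single 1 1 =
    Representation.leftRegular k G (s : G) (MonoidAlgebra.single 1 1) - MonoidAlgebra.single 1 1
  rw [Representation.ofMulAction_single, smul_eq_mul, mul_one]

/-- The restriction of the basic cocycle to a subgroup is a 1-cocycle. -/
lemma augCocycle_mem_cocycles₁ :
    (fun s : S => augCocycleFun k G (s : G)) ∈ cocycles₁ (augSeqRes k G S).X₁ :=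
  mem_cocycles₁_of_comp_eq_d₀₁ (augSeqRes_shortExact k G S) (augCocycle_comp_eq_d₀₁ k G S)

/-- The class of `s ↦ [s] - [1]` in `H¹(S, I_G)`. -/
def augClass : H1 (augSeqRes k G S).X₁ :=
  H1π _ ⟨fun s : S => augCocycleFun k G (s : G), augCocycle_mem_cocycles₁ k G S⟩

/-- `δ⁰(1) = [s ↦ [s] - [1]]`. -/
theorem δ₀_one_eq_augClass :
    δ (augSeqRes_shortExact k G S) 0 1 rfl
      ((H0Iso (augSeqRes k G S).X₃).inv ⟨(1 : k), one_mem_invariants_res_trivial k G S⟩) =
      augClass k G S :=
  δ₀_apply (augSeqRes_shortExact k G S) ⟨(1 : k), one_mem_invariants_res_trivial k G S⟩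
    (MonoidAlgebra.single (1 : G) (1 : k)) (augLin_single k G 1 1)
    (fun s : S => augCocycleFun k G (s : G)) (augCocycle_comp_eq_d₀₁ k G S)

variable {k G}
variable (C : Rep.{u} k G) (u : cocycles₂ C)

/-- `0 ⟶ C ⟶ C(u) ⟶ I_G ⟶ 0` restricted to a subgroup. -/
abbrev splitSeqRes : ShortComplex (Rep k S) := (splitSeq C u).map (Rep.resFunctor S.subtype)

lemma splitSeqRes_shortExact : (splitSeqRes S C u).ShortExact :=
  (Rep.shortExact_res S.subtype).2 (splitSeq_shortExact C u)

/-- The lift `s ↦ (0, [s] - [1])` of the basic cocycle to `C(u)`. -/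
def augLift : S → (splitSeqRes S C u).X₂ := fun s => ((0 : C.V), augCocycleFun k G (s : G))

/-- The 2-cocycle `(s, t) ↦ u(s, t) - s u(1, 1)` (cohomologous to `res_S u`). -/
def splitCocycleFun : S × S → (splitSeqRes S C u).X₁ := fun st =>
  (u : G × G → C.V) ((st.1 : G), (st.2 : G)) - C.ρ (st.1 : G) ((u : G × G → C.V) (1, 1))

lemma phi_augCocycle (σ τ : G) :
    phi C u σ ((augCocycleFun k G τ : (augRep k G).V) : k[G]) =
      (u : G × G → C.V) (σ, τ) - C.ρ σ ((u : G × G → C.V) (1, 1)) := by
  rw [augCocycleFun_coe, map_sub, phi_single, phi_single, one_smul, one_smul,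
    cocycles₂_map_one_snd]

lemma splitCocycle_comp_eq_d₁₂ :
    (splitSeqRes S C u).f.hom ∘ splitCocycleFun S C u =
      d₁₂ (splitSeqRes S C u).X₂ (augLift S C u) := by
  funext ⟨s, t⟩
  show ((splitCocycleFun S C u (s, t), 0) : C.V × (augRep k G).V) =
    (splitRep C u).ρ (s : G) ((0 : C.V), augCocycleFun k G (t : G)) -
      ((0 : C.V), augCocycleFun k G ((s * t : S) : G)) + ((0 : C.V), augCocycleFun k G (s : G))
  rw [splitRep_ρ_apply, phi_augCocycle, map_zero, zero_add]
  refine Prod.ext ?_ ?_
  · show splitCocycleFun S C u (s, t) = _ - 0 + 0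
    rw [sub_zero, add_zero]
    rfl
  · show (0 : (augRep k G).V) = (augRep k G).ρ (s : G) (augCocycleFun k G (t : G)) -
      augCocycleFun k G ((s * t : S) : G) + augCocycleFun k G (s : G)
    apply Subtype.ext
    show (0 : k[G]) = Representation.leftRegular k G (s : G)
      (MonoidAlgebra.single (t : G) 1 - MonoidAlgebra.single 1 1) -
        (MonoidAlgebra.single ((s * t : S) : G) 1 - MonoidAlgebra.single 1 1) +
        (MonoidAlgebra.single (s : G) 1 - MonoidAlgebra.single 1 1)
    rw [map_sub, Representation.ofMulAction_single, Representation.ofMulAction_single,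
      smul_eq_mul, smul_eq_mul, mul_one, Subgroup.coe_mul]
    abel

/-- `δ¹[s ↦ [s] - [1]]` is the class of `(s, t) ↦ u(s, t) - s u(1, 1)`. -/
theorem δ₁_augClass_eq :
    δ (splitSeqRes_shortExact S C u) 1 2 rfl (augClass k G S) =
      H2π (splitSeqRes S C u).X₁ ⟨splitCocycleFun S C u,
        mem_cocycles₂_of_comp_eq_d₁₂ (splitSeqRes_shortExact S C u)
          (splitCocycle_comp_eq_d₁₂ S C u)⟩ :=
  δ₁_apply (splitSeqRes_shortExact S C u)
    ⟨fun s : S => augCocycleFun k G (s : G), augCocycle_mem_cocycles₁ k G S⟩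
    (augLift S C u) rfl (splitCocycleFun S C u) (splitCocycle_comp_eq_d₁₂ S C u)

/-- The restriction of the class of `u` to `S`. -/
def resClass : H2 (Rep.res S.subtype C) :=
  groupCohomology.map S.subtype (𝟙 (Rep.res S.subtype C)) 2 (H2π C u)

lemma resClass_eq :
    resClass S C u = H2π (Rep.res S.subtype C)
      (mapCocycles₂ S.subtype (𝟙 (Rep.res S.subtype C)) u) := by
  unfold resClass
  exact H2π_comp_map_apply S.subtype (𝟙 (Rep.res S.subtype C)) u

/-- **The connecting map of the splitting module**: `δ¹[s ↦ [s] - [1]] = res_S [u]`. -/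
theorem δ₁_augClass_eq_res :
    δ (splitSeqRes_shortExact S C u) 1 2 rfl (augClass k G S) = resClass S C u := by
  rw [δ₁_augClass_eq, resClass_eq]
  show H2π (Rep.res S.subtype C) _ = _
  rw [H2π_eq_iff]
  refine ⟨fun _ => -(u : G × G → C.V) (1, 1), ?_⟩
  funext ⟨s, t⟩
  show (Rep.res S.subtype C).ρ s (-(u : G × G → C.V) (1, 1)) - (-(u : G × G → C.V) (1, 1)) +
      (-(u : G × G → C.V) (1, 1)) =
    ((u : G × G → C.V) ((s : G), (t : G)) - C.ρ (s : G) ((u : G × G → C.V) (1, 1))) -
      (u : G × G → C.V) ((s : G), (t : G))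
  rw [map_neg]
  show -(C.ρ (s : G) ((u : G × G → C.V) (1, 1))) - _ + _ = _
  abel

end Delta

end

end Fermat.Agent.PT.FG.SplitModule18
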