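/-
Program F (S55, Poitou–Tate), chapter FG, block "Tate infrastructure" (helper3), file T3.

Explicit connecting homomorphisms of Mathlib's Tate cohomology in low degrees, and compatibility
of Mathlib's comparison `TateCohomology.isoGroupCohomology` with cocycle classes and with `δ`.

* `zeroπ_eq_homologyπ`, `negOneπ_eq_homologyπ`: the maps `zeroπ`, `negOneπ` of `TateLow3` are
  "class of the cycle `(cochainsIso₀ M).inv m`, resp. `(chainsIso₀ M).inv m`" in the Tate complex.
* `δ_negOneπ hS m y hy x hx : δ hS (-1) (negOneπ X₃ m) = zeroπ X₁ ⟨x, _⟩` whenever `g y = m`,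
  `f x = N y`   (`Ĥ⁻¹(X₃) → Ĥ⁰(X₁)`, `[m] ↦ [N m̃]`).
* `δ_zeroπ hS z y hy x hx : isoGroupCohomology 1 (δ hS 0 (zeroπ X₃ z)) = H1π X₁ ⟨x, _⟩` whenever
  `g y = z`, `f ∘ x = d₀₁ y`   (`Ĥ⁰(X₃) → Ĥ¹(X₁) = H¹(X₁)`, `z ↦ [g ↦ g z̃ - z̃]`), and
  `δ_zeroπ_eq_δ₀ : … = groupCohomology.δ hS 0 1 rfl ((H0Iso X₃).inv z)`;
  `δ_zeroπ_tate` is the same statement inside the Tate complex.
* `isoGroupCohomology_hom_π_cyclesMk`: Mathlib's `Ĥⁿ ≅ Hⁿ` (`n ≥ 1`) sends the class of a cocycle
  to the class of the same cocycle; `homologyIsoPos_hom_π_cyclesMk` is the general statement for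
  `CochainComplex.ConnectData`.
* `isoGroupCohomology_δ`: for `n ≥ 1`,
  `isoGroupCohomology (n+1) (δ_Tate hS n a) = groupCohomology.δ hS n (n+1) rfl (isoGroupCohomology n a)`.
-/
import Mathlib
import Fermat.Agent.PT.FG.TateLow3

set_option autoImplicit false

namespace Fermat.Agent.PT.FG.TateDelta3

open CategoryTheory Limits groupCohomology groupHomology
open Fermat.Agent.PT.FG.TateLow3

universe u v

section ConnectPos

open HomologicalComplex

variable {R : Type u} [Ring R] {K : ChainComplex (ModuleCat.{v} R) ℕ}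
  {L : CochainComplex (ModuleCat.{v} R) ℕ} (h : CochainComplex.ConnectData K L)

lemma homologyπ_homologyIsoPos_hom (n : ℕ) [NeZero n] (m : ℤ) (hm : m = n) :
    h.cochainComplex.homologyπ m ≫ (h.homologyIsoPos n m hm).hom =
      (h.cochainComplex.restrictionCyclesIso (ComplexShape.embeddingUpIntGE 0) n (n + 1)
        (by simp) (j' := m) (k' := m + 1) (by simp [hm]) (by simp [hm]) (by simp)).inv ≫
      HomologicalComplex.cyclesMap h.restrictionGEIso.hom n ≫ L.homologyπ n := by
  dsimp only [CochainComplex.ConnectData.homologyIsoPos, Iso.trans_hom, Iso.symm_hom]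
  rw [homologyπ_restrictionHomologyIso_inv_assoc]
  simp

/-- `homologyIsoPos` on classes of cocycles. -/
lemma homologyIsoPos_hom_π_cyclesMk (n : ℕ) [NeZero n] (c : L.X n)
    (hc : (L.d n (n + 1)).hom c = 0) (hc' : (h.cochainComplex.d n ((n : ℤ) + 1)).hom c = 0) :
    (h.homologyIsoPos n n rfl).hom.hom ((h.cochainComplex.homologyπ n).hom
      (h.cochainComplex.cyclesMk c ((n : ℤ) + 1) (by simp) hc')) =
    (L.homologyπ n).hom (L.cyclesMk c (n + 1) (by simp) hc) := by
  have e1 : (ComplexShape.up ℕ).next n = n + 1 := by simp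
  have e2 : (ComplexShape.embeddingUpIntGE 0).f n = (n : ℤ) := by simp
  have e3 : (ComplexShape.embeddingUpIntGE 0).f (n + 1) = (n : ℤ) + 1 := by simp
  have e4 : (ComplexShape.up ℤ).next (n : ℤ) = (n : ℤ) + 1 := by simp
  have h1 := congr(($(homologyπ_homologyIsoPos_hom h n n rfl)).hom
    (h.cochainComplex.cyclesMk c ((n : ℤ) + 1) e4 hc'))
  refine h1.trans ?_
  change (L.homologyπ n).hom ((HomologicalComplex.cyclesMap h.restrictionGEIso.hom n).hom _) = _
  congr 1
  have hinj : Function.Injective (L.iCycles n).hom :=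
    (ModuleCat.mono_iff_injective _).1 inferInstance
  apply hinj
  have h2 := L.i_cyclesMk (i := n) c (n + 1) e1 hc
  refine Eq.trans ?_ h2.symm
  have h3 := congr(($(HomologicalComplex.cyclesMap_i h.restrictionGEIso.hom n)).hom
    ((h.cochainComplex.restrictionCyclesIso (ComplexShape.embeddingUpIntGE 0) n (n + 1)
        e1 e2 e3 e4).inv.hom (h.cochainComplex.cyclesMk c ((n : ℤ) + 1) e4 hc')))
  refine h3.trans ?_
  have h4 := congr(($(h.cochainComplex.restrictionCyclesIso_inv_iCycles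
    (ComplexShape.embeddingUpIntGE 0) n (n + 1) e1 e2 e3 e4)).hom
      (h.cochainComplex.cyclesMk c ((n : ℤ) + 1) e4 hc'))
  have h5 := h.cochainComplex.i_cyclesMk (i := (n : ℤ)) c ((n : ℤ) + 1) e4 hc'
  have h4' : ((h.cochainComplex.restriction (ComplexShape.embeddingUpIntGE 0)).iCycles n).hom
      ((h.cochainComplex.restrictionCyclesIso (ComplexShape.embeddingUpIntGE 0) n (n + 1)
        e1 e2 e3 e4).inv.hom (h.cochainComplex.cyclesMk c ((n : ℤ) + 1) e4 hc')) =
      (h.cochainComplex.restrictionXIso (ComplexShape.embeddingUpIntGE 0) e2).inv.hom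
        ((h.cochainComplex.iCycles n).hom (h.cochainComplex.cyclesMk c ((n : ℤ) + 1) e4 hc')) := h4
  have h5' : (h.cochainComplex.iCycles n).hom
      (h.cochainComplex.cyclesMk c ((n : ℤ) + 1) e4 hc') = c := h5
  change (h.restrictionGEIso.hom.f n).hom
    (((h.cochainComplex.restriction (ComplexShape.embeddingUpIntGE 0)).iCycles n).hom _) = c
  rw [h4', h5', CochainComplex.ConnectData.restrictionGEIso_hom_f]
  exact (h.cochainComplex.restrictionXIso (ComplexShape.embeddingUpIntGE 0) e2).inv_hom_id_apply c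

end ConnectPos

variable {R G : Type u} [CommRing R] [Group G] [Fintype G] (M : Rep.{u} R G)

/-- The comparison of short complexes underlying `tateZeroIso`. -/
noncomputable def scIsoZero : (tateComplex M).sc 0 ≅ scZero M :=
  (tateComplex M).isoSc' (-1) 0 1 (by simp) (by simp) ≪≫ isoScZero M

lemma tateZeroIso_hom :
    (tateZeroIso M).hom = ShortComplex.homologyMap (scIsoZero M).hom := by
  simp [tateZeroIso, tateZeroNatIso, scIsoZero, HomologicalComplex.homologyFunctorIso',
    ShortComplex.homologyMap_comp]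
  rfl

lemma scIsoZero_hom_τ₂ : (scIsoZero M).hom.τ₂ = (cochainsIso₀ M).hom := by
  simp [scIsoZero, isoScZero]
  rfl

/-- A `0`-cocycle of the Tate complex from an invariant. -/
lemma tate_d_zero_one_of_invariant (m : M.ρ.invariants) :
    ((tateComplex M).d 0 1).hom ((cochainsIso₀ M).inv.hom m.1) = 0 := by
  have h2 := congr(($(eq_d₀₁_comp_inv M)).hom m.1)
  change ((inhomogeneousCochains M).d 0 1).hom ((cochainsIso₀ M).inv.hom m.1) =
    (cochainsIso₁ M).inv.hom ((d₀₁ M).hom m.1) at h2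
  have h3 : (d₀₁ M).hom m.1 = 0 := (mem_ker_scZero_g_iff M m.1).2 m.2
  exact h2.trans ((congrArg (cochainsIso₁ M).inv.hom h3).trans (map_zero _))

/-- The `0`-cycle of the Tate complex attached to an invariant element. -/
noncomputable def tateCycleZero (m : M.ρ.invariants) : (tateComplex M).cycles 0 :=
  (tateComplex M).cyclesMk ((cochainsIso₀ M).inv.hom m.1) 1 (by simp)
    (tate_d_zero_one_of_invariant M m)

lemma iCycles_tateCycleZero (m : M.ρ.invariants) :
    ((tateComplex M).iCycles 0).hom (tateCycleZero M m) = (cochainsIso₀ M).inv.hom m.1 :=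
  (tateComplex M).i_cyclesMk (i := 0) _ 1 (by simp) (tate_d_zero_one_of_invariant M m)

theorem zeroπ_eq_homologyπ (m : M.ρ.invariants) :
    zeroπ M m = ((tateComplex M).homologyπ 0).hom (tateCycleZero M m) := by
  have hinj : Function.Injective (tateZeroIso M).hom.hom :=
    (ModuleCat.mono_iff_injective _).1 inferInstance
  apply hinj
  -- left side
  have hL : (tateZeroIso M).hom.hom (zeroπ M m) =
      (scZero M).homologyπ.hom ((scZero M).moduleCatCyclesIso.inv.hom
        ⟨m.1, (mem_ker_scZero_g_iff M m.1).2 m.2⟩) :=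
    ((tateZeroIso M).inv_hom_id_apply _).trans (homologyMk_eq_π _ _)
  -- right side
  have h1 := congr(($(ShortComplex.homologyπ_naturality (scIsoZero M).hom)).hom
    (tateCycleZero M m))
  have hR : (tateZeroIso M).hom.hom (((tateComplex M).homologyπ 0).hom (tateCycleZero M m)) =
      (scZero M).homologyπ.hom ((ShortComplex.cyclesMap (scIsoZero M).hom).hom
        (tateCycleZero M m)) := by
    rw [tateZeroIso_hom]
    exact h1
  refine hL.trans (Eq.trans ?_ hR.symm)
  congr 1
  have hinj2 : Function.Injective (scZero M).iCycles.hom :=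
    (ModuleCat.mono_iff_injective _).1 inferInstance
  apply hinj2
  have h2 := congr(($((scZero M).moduleCatCyclesIso_inv_iCycles)).hom
    ⟨m.1, (mem_ker_scZero_g_iff M m.1).2 m.2⟩)
  have h3 := congr(($(ShortComplex.cyclesMap_i (scIsoZero M).hom)).hom (tateCycleZero M m))
  refine h2.trans (Eq.trans ?_ h3.symm)
  change m.1 = (scIsoZero M).hom.τ₂.hom (((tateComplex M).iCycles 0).hom (tateCycleZero M m))
  rw [iCycles_tateCycleZero, scIsoZero_hom_τ₂]
  exact ((cochainsIso₀ M).inv_hom_id_apply m.1).symm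

/-! ### Degree `-1` -/

/-- The comparison of short complexes underlying `tateNegOneIso`. -/
noncomputable def scIsoNegOne : (tateComplex M).sc (-1) ≅ scNegOne M :=
  (tateComplex M).isoSc' (-2) (-1) 0 (by simp) (by simp) ≪≫ isoScNegOne M

lemma tateNegOneIso_hom :
    (tateNegOneIso M).hom = ShortComplex.homologyMap (scIsoNegOne M).hom := by
  simp [tateNegOneIso, tateNegOneNatIso, scIsoNegOne, HomologicalComplex.homologyFunctorIso',
    ShortComplex.homologyMap_comp]
  rfl

lemma scIsoNegOne_hom_τ₂ : (scIsoNegOne M).hom.τ₂ = (chainsIso₀ M).hom := by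
  simp [scIsoNegOne, isoScNegOne]
  rfl

lemma tateNorm_chainsIso₀_inv (y : M.V) :
    ((tateComplex M).d (-1) 0).hom ((chainsIso₀ M).inv.hom y) =
      (cochainsIso₀ M).inv.hom (M.ρ.norm y) := by
  change (M.tateNorm).hom ((chainsIso₀ M).inv.hom y) = _
  change (cochainsIso₀ M).inv.hom (M.ρ.norm ((chainsIso₀ M).hom.hom ((chainsIso₀ M).inv.hom y))) = _
  rw [(chainsIso₀ M).inv_hom_id_apply]

lemma tate_d_neg_one_zero_of_mem_ker (m : LinearMap.ker M.ρ.norm) :
    ((tateComplex M).d (-1) 0).hom ((chainsIso₀ M).inv.hom m.1) = 0 :=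
  (tateNorm_chainsIso₀_inv M m.1).trans
    ((congrArg (cochainsIso₀ M).inv.hom (LinearMap.mem_ker.1 m.2)).trans (map_zero _))

/-- The `(-1)`-cycle of the Tate complex attached to an element of norm `0`. -/
noncomputable def tateCycleNegOne (m : LinearMap.ker M.ρ.norm) : (tateComplex M).cycles (-1) :=
  (tateComplex M).cyclesMk ((chainsIso₀ M).inv.hom m.1) 0 (by simp)
    (tate_d_neg_one_zero_of_mem_ker M m)

lemma iCycles_tateCycleNegOne (m : LinearMap.ker M.ρ.norm) :
    ((tateComplex M).iCycles (-1)).hom (tateCycleNegOne M m) = (chainsIso₀ M).inv.hom m.1 :=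
  (tateComplex M).i_cyclesMk (i := -1) _ 0 (by simp) (tate_d_neg_one_zero_of_mem_ker M m)

theorem negOneπ_eq_homologyπ (m : LinearMap.ker M.ρ.norm) :
    negOneπ M m = ((tateComplex M).homologyπ (-1)).hom (tateCycleNegOne M m) := by
  have hinj : Function.Injective (tateNegOneIso M).hom.hom :=
    (ModuleCat.mono_iff_injective _).1 inferInstance
  apply hinj
  have hL : (tateNegOneIso M).hom.hom (negOneπ M m) =
      (scNegOne M).homologyπ.hom ((scNegOne M).moduleCatCyclesIso.inv.hom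
        ⟨m.1, (mem_ker_scNegOne_g_iff M m.1).2 m.2⟩) :=
    ((tateNegOneIso M).inv_hom_id_apply _).trans (homologyMk_eq_π _ _)
  have h1 := congr(($(ShortComplex.homologyπ_naturality (scIsoNegOne M).hom)).hom
    (tateCycleNegOne M m))
  have hR : (tateNegOneIso M).hom.hom
      (((tateComplex M).homologyπ (-1)).hom (tateCycleNegOne M m)) =
      (scNegOne M).homologyπ.hom ((ShortComplex.cyclesMap (scIsoNegOne M).hom).hom
        (tateCycleNegOne M m)) := by
    rw [tateNegOneIso_hom]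
    exact h1
  refine hL.trans (Eq.trans ?_ hR.symm)
  congr 1
  have hinj2 : Function.Injective (scNegOne M).iCycles.hom :=
    (ModuleCat.mono_iff_injective _).1 inferInstance
  apply hinj2
  have h2 := congr(($((scNegOne M).moduleCatCyclesIso_inv_iCycles)).hom
    ⟨m.1, (mem_ker_scNegOne_g_iff M m.1).2 m.2⟩)
  have h3 := congr(($(ShortComplex.cyclesMap_i (scIsoNegOne M).hom)).hom (tateCycleNegOne M m))
  refine h2.trans (Eq.trans ?_ h3.symm)
  change m.1 = (scIsoNegOne M).hom.τ₂.hom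
    (((tateComplex M).iCycles (-1)).hom (tateCycleNegOne M m))
  rw [iCycles_tateCycleNegOne, scIsoNegOne_hom_τ₂]
  exact ((chainsIso₀ M).inv_hom_id_apply m.1).symm

/-! ### The connecting homomorphism `Ĥ⁻¹(X₃) → Ĥ⁰(X₁)` -/

section Delta

variable {S : ShortComplex (Rep.{u} R G)} (hS : S.ShortExact)

lemma chainsIso₀_inv_naturality {X Y : Rep.{u} R G} (f : X ⟶ Y) (y : X.V) :
    ((tateComplex.map f).f (-1)).hom ((chainsIso₀ X).inv.hom y) =
      (chainsIso₀ Y).inv.hom (f.hom y) := by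
  have h := congr(($(chainsMap_f_0_comp_chainsIso₀ (MonoidHom.id G) f)).hom
    ((chainsIso₀ X).inv.hom y))
  have hinj : Function.Injective (chainsIso₀ Y).hom.hom :=
    (ModuleCat.mono_iff_injective _).1 inferInstance
  apply hinj
  refine Eq.trans h ?_
  change f.hom ((chainsIso₀ X).hom.hom ((chainsIso₀ X).inv.hom y)) =
    (chainsIso₀ Y).hom.hom ((chainsIso₀ Y).inv.hom (f.hom y))
  rw [(chainsIso₀ X).inv_hom_id_apply, (chainsIso₀ Y).inv_hom_id_apply]

lemma cochainsIso₀_inv_naturality {X Y : Rep.{u} R G} (f : X ⟶ Y) (y : X.V) :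
    ((tateComplex.map f).f 0).hom ((cochainsIso₀ X).inv.hom y) =
      (cochainsIso₀ Y).inv.hom (f.hom y) := by
  have h := congr(($(cochainsMap_f_0_comp_cochainsIso₀ (MonoidHom.id G) f)).hom
    ((cochainsIso₀ X).inv.hom y))
  have hinj : Function.Injective (cochainsIso₀ Y).hom.hom :=
    (ModuleCat.mono_iff_injective _).1 inferInstance
  apply hinj
  refine Eq.trans h ?_
  change f.hom ((cochainsIso₀ X).hom.hom ((cochainsIso₀ X).inv.hom y)) =
    (cochainsIso₀ Y).hom.hom ((cochainsIso₀ Y).inv.hom (f.hom y))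
  rw [(cochainsIso₀ X).inv_hom_id_apply, (cochainsIso₀ Y).inv_hom_id_apply]

include hS in
/-- If `f x = N y` then `x` is invariant. -/
lemma mem_invariants_of_f_eq_norm (y : S.X₂.V) (x : S.X₁.V) (hx : S.f.hom x = S.X₂.ρ.norm y) :
    x ∈ S.X₁.ρ.invariants := by
  intro g
  have hinj : Function.Injective S.f.hom := (Rep.mono_iff_injective S.f).1 hS.mono_f
  apply hinj
  rw [Rep.hom_comm_apply, hx, Representation.self_norm_apply]

/-- The connecting homomorphism `Ĥ⁻¹(X₃) → Ĥ⁰(X₁)`: `[m] ↦ [x]` where `g y = m`, `f x = N y`. -/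
theorem δ_negOneπ (m : LinearMap.ker S.X₃.ρ.norm) (y : S.X₂.V) (hy : S.g.hom y = m.1)
    (x : S.X₁.V) (hx : S.f.hom x = S.X₂.ρ.norm y) :
    (TateCohomology.δ hS (-1)).hom (negOneπ S.X₃ m) =
      zeroπ S.X₁ ⟨x, mem_invariants_of_f_eq_norm hS y x hx⟩ := by
  rw [negOneπ_eq_homologyπ, zeroπ_eq_homologyπ]
  exact (TateCohomology.map_tateComplexFunctor_shortExact hS).δ_apply (-1) 0 (by simp)
    ((chainsIso₀ S.X₃).inv.hom m.1) (tate_d_neg_one_zero_of_mem_ker S.X₃ m)
    ((chainsIso₀ S.X₂).inv.hom y)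
    ((chainsIso₀_inv_naturality S.g y).trans (congrArg _ hy))
    ((cochainsIso₀ S.X₁).inv.hom x)
    ((cochainsIso₀_inv_naturality S.f x).trans
      ((congrArg _ hx).trans (tateNorm_chainsIso₀_inv S.X₂ y).symm))
    1 (by simp)

/-! ### The connecting homomorphism `Ĥ⁰(X₃) → Ĥ¹(X₁)` -/

lemma cochainsIso₁_inv_naturality {X Y : Rep.{u} R G} (f : X ⟶ Y) (c : G → X.V) :
    ((tateComplex.map f).f 1).hom ((cochainsIso₁ X).inv.hom c) =
      (cochainsIso₁ Y).inv.hom (fun g => f.hom (c g)) := by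
  have h := congr(($(cochainsMap_f_1_comp_cochainsIso₁ (MonoidHom.id G) f)).hom
    ((cochainsIso₁ X).inv.hom c))
  have hinj : Function.Injective (cochainsIso₁ Y).hom.hom :=
    (ModuleCat.mono_iff_injective _).1 inferInstance
  apply hinj
  refine Eq.trans h ?_
  change (cochainsMap₁ (MonoidHom.id G) f).hom
    ((cochainsIso₁ X).hom.hom ((cochainsIso₁ X).inv.hom c)) =
    (cochainsIso₁ Y).hom.hom ((cochainsIso₁ Y).inv.hom _)
  rw [(cochainsIso₁ X).inv_hom_id_apply, (cochainsIso₁ Y).inv_hom_id_apply]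
  rfl

lemma tate_d_zero_one_cochainsIso₀_inv (M : Rep.{u} R G) (y : M.V) :
    ((tateComplex M).d 0 1).hom ((cochainsIso₀ M).inv.hom y) =
      (cochainsIso₁ M).inv.hom ((d₀₁ M).hom y) :=
  congr(($(eq_d₀₁_comp_inv M)).hom y)

/-- The connecting homomorphism `Ĥ⁰(X₃) → Ĥ¹(X₁)` on the level of the Tate complex:
`[z] ↦ [x]` where `g y = z`, `f ∘ x = d₀₁ y`. -/
theorem δ_zeroπ_tate (z : S.X₃.ρ.invariants) (y : S.X₂.V) (hy : S.g.hom y = z.1)
    (x : G → S.X₁.V) (hx : (fun g => S.f.hom (x g)) = (d₀₁ S.X₂).hom y) :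
    (TateCohomology.δ hS 0).hom (zeroπ S.X₃ z) =
      ((tateComplex S.X₁).homologyπ 1).hom
        ((tateComplex S.X₁).cyclesMk ((cochainsIso₁ S.X₁).inv.hom x) 2 (by simp)
          ((TateCohomology.map_tateComplexFunctor_shortExact hS).d_eq_zero_of_f_eq_d_apply 0 1
            ((cochainsIso₀ S.X₂).inv.hom y) ((cochainsIso₁ S.X₁).inv.hom x)
            ((cochainsIso₁_inv_naturality S.f x).trans
              ((congrArg _ hx).trans (tate_d_zero_one_cochainsIso₀_inv S.X₂ y).symm)) 2)) := by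
  rw [zeroπ_eq_homologyπ]
  exact (TateCohomology.map_tateComplexFunctor_shortExact hS).δ_apply 0 1 (by simp)
    ((cochainsIso₀ S.X₃).inv.hom z.1) (tate_d_zero_one_of_invariant S.X₃ z)
    ((cochainsIso₀ S.X₂).inv.hom y)
    ((cochainsIso₀_inv_naturality S.g y).trans (congrArg _ hy))
    ((cochainsIso₁ S.X₁).inv.hom x)
    ((cochainsIso₁_inv_naturality S.f x).trans
      ((congrArg _ hx).trans (tate_d_zero_one_cochainsIso₀_inv S.X₂ y).symm))
    2 (by simp)

/-- Mathlib's comparison `Ĥⁿ ≅ Hⁿ` (`n ≥ 1`) on classes of cocycles. -/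
lemma isoGroupCohomology_hom_π_cyclesMk (M : Rep.{u} R G) (n : ℕ) [NeZero n]
    (c : (inhomogeneousCochains M).X n)
    (hc : ((inhomogeneousCochains M).d n (n + 1)).hom c = 0)
    (hc' : ((tateComplex M).d n ((n : ℤ) + 1)).hom c = 0) :
    ((TateCohomology.isoGroupCohomology n).hom.app M).hom
      (((tateComplex M).homologyπ n).hom
        ((tateComplex M).cyclesMk c ((n : ℤ) + 1) (by simp) hc')) =
    ((inhomogeneousCochains M).homologyπ n).hom
      ((inhomogeneousCochains M).cyclesMk c (n + 1) (by simp) hc) :=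
  homologyIsoPos_hom_π_cyclesMk (tateComplexConnectData M) n c hc hc'

/-- The connecting homomorphism `Ĥ⁰(X₃) → Ĥ¹(X₁) ≅ H¹(X₁)`: `[z] ↦ [x]` where `g y = z`,
`f ∘ x = d₀₁ y` (same shape as Mathlib's `groupCohomology.δ₀_apply`). -/
theorem δ_zeroπ (z : S.X₃.ρ.invariants) (y : S.X₂.V) (hy : S.g.hom y = z.1)
    (x : G → S.X₁.V) (hx : S.f.hom ∘ x = d₀₁ S.X₂ y) :
    ((TateCohomology.isoGroupCohomology 1).hom.app S.X₁).hom
      ((TateCohomology.δ hS 0).hom (zeroπ S.X₃ z)) =
      H1π S.X₁ ⟨x, mem_cocycles₁_of_comp_eq_d₀₁ hS hx⟩ := by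
  rw [δ_zeroπ_tate hS z y hy x hx]
  refine (isoGroupCohomology_hom_π_cyclesMk S.X₁ 1 _ ?_ _).trans ?_
  · have := (TateCohomology.map_tateComplexFunctor_shortExact hS).d_eq_zero_of_f_eq_d_apply 0 1
      ((cochainsIso₀ S.X₂).inv.hom y) ((cochainsIso₁ S.X₁).inv.hom x)
      ((cochainsIso₁_inv_naturality S.f x).trans
        ((congrArg _ hx).trans (tate_d_zero_one_cochainsIso₀_inv S.X₂ y).symm)) 2
    exact this
  · have h1 := cocyclesMk₁_eq S.X₁ ⟨x, mem_cocycles₁_of_comp_eq_d₀₁ hS hx⟩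
    change (groupCohomology.π S.X₁ 1).hom _ = (groupCohomology.π S.X₁ 1).hom
      ((isoCocycles₁ S.X₁).inv.hom _)
    exact congrArg _ h1

/-- The Tate connecting homomorphism `Ĥ⁰(X₃) → Ĥ¹(X₁)` is induced by the ordinary connecting
homomorphism `H⁰(X₃) → H¹(X₁)`. -/
theorem δ_zeroπ_eq_δ₀ (z : S.X₃.ρ.invariants) :
    ((TateCohomology.isoGroupCohomology 1).hom.app S.X₁).hom
      ((TateCohomology.δ hS 0).hom (zeroπ S.X₃ z)) =
      groupCohomology.δ hS 0 1 rfl ((groupCohomology.H0Iso S.X₃).inv z) := by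
  obtain ⟨y, hy⟩ := (Rep.epi_iff_surjective S.g).1 hS.epi_g z.1
  have hex : ∀ g : G, ∃ x : S.X₁.V, S.f.hom x = (d₀₁ S.X₂).hom y g := by
    intro g
    have h1 : S.g.hom ((d₀₁ S.X₂).hom y g) = 0 := by
      change S.g.hom (S.X₂.ρ g y - y) = 0
      rw [map_sub, Rep.hom_comm_apply, hy, z.2 g, sub_self]
    exact (ShortComplex.moduleCat_exact_iff _).1
      (hS.exact.map (forget₂ (Rep.{u} R G) (ModuleCat R))) _ h1
  choose x hx using hex
  rw [δ_zeroπ hS z y hy x (funext hx), groupCohomology.δ₀_apply hS z y hy x (funext hx)]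

/-! ### Compatibility of the connecting homomorphisms in positive degrees -/

/-- Every cycle is `cyclesMk` of its underlying chain. -/
lemma eq_cyclesMk_iCycles {ι : Type*} {c : ComplexShape ι}
    (K : HomologicalComplex (ModuleCat.{u} R) c) (i j : ι) (hj : c.next i = j) (w : K.cycles i) :
    ∃ h : (K.d i j).hom ((K.iCycles i).hom w) = 0,
      w = K.cyclesMk ((K.iCycles i).hom w) j hj h := by
  have h : (K.d i j).hom ((K.iCycles i).hom w) = 0 := by
    have := congr(($(K.iCycles_d i j)).hom w)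
    exact this
  refine ⟨h, ?_⟩
  have hinj : Function.Injective (K.iCycles i).hom :=
    (ModuleCat.mono_iff_injective _).1 inferInstance
  apply hinj
  exact (K.i_cyclesMk (i := i) _ j hj h).symm

/-- Mathlib's `Ĥⁿ ≅ Hⁿ` (`n ≥ 1`) is compatible with the connecting homomorphisms. -/
theorem isoGroupCohomology_δ (n : ℕ) [NeZero n] (a : tateCohomology S.X₃ n) :
    ((TateCohomology.isoGroupCohomology (n + 1)).hom.app S.X₁).hom
      ((TateCohomology.δ hS n).hom a) =
      groupCohomology.δ hS n (n + 1) rfl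
        (((TateCohomology.isoGroupCohomology n).hom.app S.X₃).hom a) := by
  have hS' := TateCohomology.map_tateComplexFunctor_shortExact hS
  obtain ⟨w, rfl⟩ := (ModuleCat.epi_iff_surjective ((tateComplex S.X₃).homologyπ n)).1
    inferInstance a
  obtain ⟨hz, hw⟩ := eq_cyclesMk_iCycles (tateComplex S.X₃) (n : ℤ) ((n : ℤ) + 1) (by simp) w
  set z : (inhomogeneousCochains S.X₃).X n := ((tateComplex S.X₃).iCycles n).hom w with hzdef
  -- lift `z` to `y`
  obtain ⟨y, hy⟩ := (ModuleCat.epi_iff_surjective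
    ((cochainsMap (MonoidHom.id G) S.g).f n)).1 (have := hS.epi_g; inferInstance) z
  -- `d y` comes from `x`
  have hdz : ((inhomogeneousCochains S.X₃).d n (n + 1)).hom z = 0 := hz
  have hgy : ((cochainsMap (MonoidHom.id G) S.g).f (n + 1)).hom
      (((inhomogeneousCochains S.X₂).d n (n + 1)).hom y) = 0 := by
    have h1 := congr(($((cochainsMap (MonoidHom.id G) S.g).comm n (n + 1))).hom y)
    refine Eq.trans h1.symm ?_
    change ((inhomogeneousCochains S.X₃).d n (n + 1)).hom
      (((cochainsMap (MonoidHom.id G) S.g).f n).hom y) = 0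
    rw [hy]
    exact hdz
  obtain ⟨x, hx⟩ : ∃ x : (inhomogeneousCochains S.X₁).X (n + 1),
      ((cochainsMap (MonoidHom.id G) S.f).f (n + 1)).hom x =
        ((inhomogeneousCochains S.X₂).d n (n + 1)).hom y :=
    (ShortComplex.moduleCat_exact_iff _).1
      (groupCohomology.map_cochainsFunctor_eval_shortExact hS (n + 1)).exact _ hgy
  -- Tate side
  have hT := hS'.δ_apply (n : ℤ) ((n + 1 : ℕ) : ℤ) (by simp) z hz y hy x hx
    (((n + 1 : ℕ) : ℤ) + 1) (by simp)
  -- group cohomology side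
  have hx' : S.f.hom ∘ x = (inhomogeneousCochains S.X₂).d n (n + 1) y := hx
  have hG := groupCohomology.δ_apply hS (i := n) (j := n + 1) rfl z hdz y hy x hx'
  have e1 := isoGroupCohomology_hom_π_cyclesMk S.X₃ n z hdz hz
  have hx2 : ((tateComplex S.X₁).d ((n + 1 : ℕ) : ℤ) (((n + 1 : ℕ) : ℤ) + 1)).hom x = 0 :=
    hS'.d_eq_zero_of_f_eq_d_apply (n : ℤ) ((n + 1 : ℕ) : ℤ) y x hx _
  have hx3 : ((inhomogeneousCochains S.X₁).d (n + 1) (n + 1 + 1)).hom x = 0 := hx2
  have e2 := isoGroupCohomology_hom_π_cyclesMk S.X₁ (n + 1) x hx3 hx2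
  have hw' : ((tateComplex S.X₃).homologyπ n).hom w =
      ((tateComplex S.X₃).homologyπ n).hom
        ((tateComplex S.X₃).cyclesMk z ((n : ℤ) + 1) (by simp) hz) := congrArg _ hw
  rw [hw']
  refine ((congrArg _ hT).trans e2).trans ?_
  refine hG.symm.trans ?_
  exact congrArg _ e1.symm

end Delta

end Fermat.Agent.PT.FG.TateDelta3
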