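/-
Program F (S55, Poitou–Tate), chapter FG, block (T−2) (helper8).

`tateMinusTwo : Interface8.TateMinusTwo`: for a fundamental class `[σ]` at `p`, the Nakayama map
`g ↦ ∑ₕ σ(h, g)` induces a bijection `G^ab(p) ≅ (C^G / N C)(p)`.

Proof: `Ĥ⁻¹(G, I_G) = I_G / I_G² ≅ G^ab` (`g ↦ g - 1`), the connecting map
`Ĥ⁻¹(G, I_G) → Ĥ⁰(G, C)` of `0 → C → C(σ) → I_G → 0` sends `[g - 1]` to `[∑ₕ σ(h, g)]`, and it is
bijective on `p`-primary parts because `C(σ)` is cohomologically trivial on Sylow `p`-subgroups.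
-/
import Mathlib
import Fermat.Agent.PT.FG.Interface8
import Fermat.Agent.PT.FG.SplitModule8
import Fermat.Agent.PT.FG.SplitCoh8
import Fermat.Agent.PT.FG.TateZero8
import Fermat.Agent.PT.FG.TensorCohTriv9
import Fermat.Agent.PT.FG.TransferTate2
import Fermat.Agent.PT.FG.TateDelta3

set_option autoImplicit false

open CategoryTheory groupCohomology

namespace Fermat.Agent.PT.FG.TateMinusTwo8

open Fermat.Agent.PT.FG.Interface8 Fermat.Agent.PT.FG.SplitModule8

noncomputable section

/-! ### The augmentation ideal: norm, and the map to `G^ab` -/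

section Aug

variable {k G : Type} [CommRing k] [Group G]

/-- `∑ₕ h • z = ε(z) • ∑ₜ [t]`. -/
theorem sum_reg [Fintype G] (z : G →₀ k) :
    ∑ h : G, reg k G h z = eps k G z • ∑ t : G, (Finsupp.single t (1 : k) : G →₀ k) := by
  induction z using Finsupp.induction_linear with
  | zero => simp
  | add y₁ y₂ h₁ h₂ => simp only [map_add, Finset.sum_add_distrib, h₁, h₂, add_smul]
  | single s a =>
    simp only [reg_single, eps_single, Finset.smul_sum, Finsupp.smul_single, smul_eq_mul, mul_one]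
    exact Fintype.sum_equiv (Equiv.mulRight s) _ _ fun h => rfl

/-- The norm vanishes on `I_G`. -/
theorem norm_augRho [Fintype G] (y : AugV k G) : (augRho k G).norm y = 0 := by
  refine AugV.val_injective ?_
  rw [Representation.norm, LinearMap.sum_apply, map_sum, map_zero]
  simp only [val_augRho]
  rw [sum_reg, AugV.eps_val, zero_smul]

end Aug

section Ab

variable {G : Type} [Group G]

/-- `ℤ[G] → G^ab`, `[t] ↦ t̄`. -/
def toAb (G : Type) [Group G] : (G →₀ ℤ) →+ Additive (Abelianization G) :=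
  Finsupp.liftAddHom (fun t : G =>
    zmultiplesHom (Additive (Abelianization G)) (Additive.ofMul (Abelianization.of t)))

@[simp] theorem toAb_single (t : G) (a : ℤ) :
    toAb G (Finsupp.single t a) = a • Additive.ofMul (Abelianization.of t) := by
  simp [toAb]

theorem toAb_reg (h : G) (z : G →₀ ℤ) :
    toAb G (reg ℤ G h z) = eps ℤ G z • Additive.ofMul (Abelianization.of h) + toAb G z := by
  induction z using Finsupp.induction_linear with
  | zero => simp
  | add y₁ y₂ h₁ h₂ =>
    rw [map_add, map_add, h₁, h₂, map_add, add_smul, map_add]; abel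
  | single s a =>
    rw [reg_single, toAb_single, toAb_single, eps_single, map_mul, ofMul_mul, smul_add]

/-- `toAb` kills `I_G · I_G`. -/
theorem toAb_coinvariantsKer (y : AugV ℤ G)
    (hy : y ∈ Representation.Coinvariants.ker (augRho ℤ G)) : toAb G (AugV.val y) = 0 := by
  have hle : Representation.Coinvariants.ker (augRho ℤ G) ≤
      LinearMap.ker ((toAb G).toIntLinearMap ∘ₗ (AugV.val : AugV ℤ G →ₗ[ℤ] (G →₀ ℤ))) := by
    refine Submodule.span_le.2 ?_
    rintro _ ⟨⟨h, x⟩, rfl⟩
    show toAb G (AugV.val (augRho ℤ G h x - x)) = 0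
    rw [map_sub, val_augRho, map_sub, toAb_reg, AugV.eps_val, zero_smul, zero_add, sub_self]
  exact hle hy

theorem toAb_augGen (g : G) :
    toAb G (AugV.val (augGen ℤ g)) = Additive.ofMul (Abelianization.of g) := by
  rw [val_augGen, map_sub, toAb_single, toAb_single, map_one]
  simp

end Ab

/-! ### `Λ : G → Ĥ⁻¹(G, I_G)`, `g ↦ [g - 1]` -/

section Lambda

open TateLow3

variable {k G : Type} [CommRing k] [Group G] [Fintype G]

/-- `g - 1` as an element of `ker N`. -/
def genKer (k : Type) [CommRing k] {G : Type} [Group G] [Fintype G] (g : G) :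
    LinearMap.ker (augRep k G).ρ.norm :=
  ⟨augGen k g, norm_augRho (k := k) (augGen k g)⟩

/-- `Λ(g) = [g - 1] ∈ Ĥ⁻¹(G, I_G)`. -/
def lam (k : Type) [CommRing k] {G : Type} [Group G] [Fintype G] (g : G) :
    tateCohomology (augRep k G) (-1) := negOneπ (augRep k G) (genKer k g)

theorem lam_mul (g h : G) : lam k (g * h) = lam k g + lam k h := by
  have h0 : negOneπ (augRep k G) (genKer k (g * h) - genKer k g - genKer k h) = 0 := by
    rw [negOneπ_eq_zero_iff]
    refine Representation.Coinvariants.mem_ker_of_eq g (augGen k h) _ ?_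
    refine AugV.val_injective ?_
    show reg k G g (AugV.val (augGen k h)) - AugV.val (augGen k h) =
      AugV.val (augGen k (g * h)) - AugV.val (augGen k g) - AugV.val (augGen k h)
    simp only [val_augGen, map_sub, reg_single, mul_one]
    abel
  rw [map_sub, map_sub, sub_sub, sub_eq_zero] at h0
  exact h0

theorem lam_one : lam k (1 : G) = 0 := by
  have := lam_mul (k := k) (1 : G) 1
  rw [mul_one] at this
  exact left_eq_add.1 this

theorem lam_inv (g : G) : lam k g⁻¹ = - lam k g := by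
  have := lam_mul (k := k) g g⁻¹
  rw [mul_inv_cancel, lam_one] at this
  exact (neg_eq_of_add_eq_zero_right this.symm).symm

/-- `Λ` as a homomorphism to the (multiplicative version of the) abelian group `Ĥ⁻¹(G, I_G)`. -/
def lamHom (k : Type) [CommRing k] (G : Type) [Group G] [Fintype G] :
    G →* Multiplicative (tateCohomology (augRep k G) (-1)) where
  toFun g := Multiplicative.ofAdd (lam k g)
  map_one' := by rw [lam_one]; rfl
  map_mul' g h := by rw [lam_mul]; rfl

theorem lam_eq_zero_of_mem_commutator {g : G} (hg : g ∈ commutator G) : lam k g = 0 := by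
  have h1 : g ∈ (lamHom k G).ker := Abelianization.commutator_subset_ker (lamHom k G) hg
  exact h1

theorem lam_pow (g : G) (n : ℕ) : lam k (g ^ n) = n • lam k g := by
  induction n with
  | zero => simp [lam_one]
  | succ n ih => rw [pow_succ, lam_mul, ih, succ_nsmul]

/-- The image of `Λ`, as an additive subgroup. -/
def lamRange (k : Type) [CommRing k] (G : Type) [Group G] [Fintype G] :
    AddSubgroup (tateCohomology (augRep k G) (-1)) where
  carrier := {w | ∃ g : G, lam k g = w}
  zero_mem' := ⟨1, lam_one⟩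
  add_mem' := by
    rintro _ _ ⟨g, rfl⟩ ⟨h, rfl⟩
    exact ⟨g * h, lam_mul g h⟩
  neg_mem' := by
    rintro _ ⟨g, rfl⟩
    exact ⟨g⁻¹, lam_inv g⟩

theorem finsupp_decomp (z : G →₀ ℤ) :
    z - eps ℤ G z • (Finsupp.single (1 : G) (1 : ℤ) : G →₀ ℤ) =
      ∑ t : G, z t • ((Finsupp.single t (1 : ℤ) : G →₀ ℤ) - Finsupp.single (1 : G) (1 : ℤ)) := by
  classical
  induction z using Finsupp.induction_linear with
  | zero => simp
  | add y₁ y₂ h₁ h₂ =>
    simp only [map_add, add_smul, Finsupp.add_apply, Finset.sum_add_distrib, ← h₁, ← h₂]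
    abel
  | single s a =>
    rw [eps_single, Finset.sum_eq_single s]
    · simp [smul_sub]
    · intro t _ hts
      simp [Ne.symm hts]
    · intro hs
      exact absurd (Finset.mem_univ s) hs

/-- Every class of `Ĥ⁻¹(G, I_G)` is `Λ(g)` for some `g` (`k = ℤ`). -/
theorem lam_surjective (w : tateCohomology (augRep ℤ G) (-1)) : ∃ g : G, lam ℤ g = w := by
  obtain ⟨y, rfl⟩ := negOneπ_surjective (augRep ℤ G) w
  obtain ⟨y0, hy0⟩ : ∃ y0 : AugV ℤ G, y0 = y.1 := ⟨y.1, rfl⟩
  have h2 : y0 = ∑ t : G, (AugV.val y0) t • augGen ℤ t := by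
    refine AugV.val_injective ?_
    have h1 := finsupp_decomp (AugV.val y0)
    rw [AugV.eps_val, zero_smul, sub_zero] at h1
    rw [map_sum]
    refine h1.trans (Finset.sum_congr rfl fun t _ => ?_)
    rw [map_zsmul]
    rfl
  have hy : y = ∑ t : G, (AugV.val y0) t • genKer ℤ t := by
    apply Subtype.ext
    rw [AddSubmonoidClass.coe_finsetSum]
    simp only [AddSubgroupClass.coe_zsmul]
    rw [← hy0]
    exact h2
  have hmem : negOneπ (augRep ℤ G) y ∈ lamRange ℤ G := by
    rw [hy, map_sum]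
    refine AddSubgroup.sum_mem _ fun t _ => ?_
    rw [map_zsmul]
    exact AddSubgroup.zsmul_mem _ (show lam ℤ t ∈ lamRange ℤ G from ⟨t, rfl⟩) _
  exact hmem

/-- `Λ(g) = 0 ⇒ g ∈ [G, G]` (`k = ℤ`). -/
theorem mem_commutator_of_lam_eq_zero {g : G} (hg : lam ℤ g = 0) : g ∈ commutator G := by
  have h1 : (augGen ℤ g : AugV ℤ G) ∈ Representation.Coinvariants.ker (augRho ℤ G) :=
    (negOneπ_eq_zero_iff (augRep ℤ G) (genKer ℤ g)).1 hg
  have h2 := toAb_coinvariantsKer (augGen ℤ g) h1
  rw [toAb_augGen] at h2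
  have h3 : Abelianization.of g = 1 := by
    have := congrArg Additive.toMul h2
    simpa using this
  rw [← Abelianization.ker_of G]
  exact h3

end Lambda

/-! ### The connecting map `Ĥ⁻¹(G, I_G) → Ĥ⁰(G, C)` on `Λ(g)` -/

section Delta

open TateLow3

variable {k G : Type} [CommRing k] [Group G] [Fintype G] {C : Rep.{0} k G} (σ : cocycles₂ C)

/-- `∑ₕ (σ(h, g) - σ(h, 1))`. -/
def nak (g : G) : C.V := ∑ h : G, ((σ : G × G → C.V) (h, g) - (σ : G × G → C.V) (h, 1))

omit [Fintype G] in
theorem norm_apply' [Fintype G] (A : Rep.{0} k G) (x : A.V) : A.ρ.norm x = ∑ g : G, A.ρ g x := by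
  rw [Representation.norm, LinearMap.sum_apply]

theorem splitIncl_nak (g : G) :
    (splitIncl σ).hom (nak σ g) = (split σ).ρ.norm (SplitV.mk (C := C) 0 (augGen k g)) := by
  refine Eq.trans ?_ (norm_apply' (split σ) (SplitV.mk (C := C) 0 (augGen k g))).symm
  refine SplitV.ext (C := C) ?_ ?_
  · show nak σ g = SplitV.fst (∑ h : G,
      splitFun (σ : G × G → C.V) h (SplitV.mk (C := C) 0 (augGen k g)))
    rw [map_sum]
    refine Finset.sum_congr rfl fun h _ => ?_
    show _ = C.ρ h 0 + tau C σ h (AugV.val (augGen k g))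
    rw [val_augGen, map_sub, tau_single, tau_single, one_smul, one_smul, map_zero, zero_add]
  · show (0 : AugV k G) =
      SplitV.snd (∑ h : G, splitFun (σ : G × G → C.V) h (SplitV.mk (C := C) 0 (augGen k g)))
    rw [map_sum]
    have h1 : ∑ h : G, augRho k G h (augGen k g) = 0 := by
      have := norm_augRho (k := k) (augGen k g)
      rwa [Representation.norm, LinearMap.sum_apply] at this
    exact h1.symm

theorem nak_mem_invariants (g : G) : nak σ g ∈ C.ρ.invariants :=
  TateDelta3.mem_invariants_of_f_eq_norm (splitSeq_shortExact σ) _ _ (splitIncl_nak σ g)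

/-- `δ(Λ(g)) = [∑ₕ (σ(h, g) - σ(h, 1))]`. -/
theorem delta_lam (g : G) :
    (TateCohomology.δ (splitSeq_shortExact σ) (-1)).hom (lam k g) =
      zeroπ C ⟨nak σ g, nak_mem_invariants σ g⟩ :=
  TateDelta3.δ_negOneπ (splitSeq_shortExact σ) (genKer k g) (SplitV.mk (C := C) 0 (augGen k g)) rfl
    (nak σ g) (splitIncl_nak σ g)

/-- `∑ₕ σ(h, 1) = N σ(1, 1)`. -/
theorem sum_sigma_one :
    ∑ h : G, (σ : G × G → C.V) (h, 1) = ∑ h : G, C.ρ h ((σ : G × G → C.V) (1, 1)) := by
  refine Finset.sum_congr rfl fun h _ => ?_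
  have := rho_sigma_one σ h 1
  rw [mul_one] at this
  exact this.symm

theorem nak_eq (g : G) :
    nak σ g = ∑ h : G, (σ : G × G → C.V) (h, g) - ∑ h : G, C.ρ h ((σ : G × G → C.V) (1, 1)) := by
  rw [nak, Finset.sum_sub_distrib, sum_sigma_one]

end Delta

/-! ### Assembly -/

section Final

open TateLow3

section Gen

variable {k G : Type} [CommRing k] [Group G] [Fintype G]

theorem zeroπ_eq_zero_of_sum (M : Rep.{0} k G) (m : M.ρ.invariants) (x : M.V)
    (hx : ∑ g : G, M.ρ g x = m.1) : zeroπ M m = 0 :=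
  (zeroπ_eq_zero_iff M m).2 ⟨x, (norm_apply' M x).trans hx⟩

theorem exists_sum_of_zeroπ_eq_zero (M : Rep.{0} k G) (m : M.ρ.invariants)
    (h : zeroπ M m = 0) : ∃ x : M.V, ∑ g : G, M.ρ g x = m.1 := by
  obtain ⟨x, hx⟩ := (zeroπ_eq_zero_iff M m).1 h
  exact ⟨x, (norm_apply' M x).symm.trans hx⟩

end Gen

theorem normMap_eq {G : Type} [Group G] [Fintype G] (M : Rep ℤ G) (y : M.V) :
    normMap M y = ∑ g : G, M.ρ g y := by
  unfold normMap
  refine Finset.sum_congr ?_ fun _ _ => rfl
  ext g
  simp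

/-- `C(σ)` has no `p`-primary Tate cohomology, in any degree. -/
theorem tate_split_eq_zero {G : Type} [Group G] [Fintype G] {p : ℕ} [Fact p.Prime] {C : Rep ℤ G}
    (σ : cocycles₂ C) (h : IsFundClass p C (H2π C σ)) (n : ℤ)
    (x : tateCohomology (split σ) n) (hx : IsPPrimary p x) : x = 0 := by
  obtain ⟨P⟩ : Nonempty (Sylow p G) := inferInstance
  let _ : Fintype (P : Subgroup G) := Fintype.ofFinite _
  have h1 := SplitCoh8.isCohTrivial_res_split σ h (P : Subgroup G) P.isPGroup'
  have h2 := TensorCohTriv9.isZero_tate_of_isCohTrivial h1 n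
  exact TransferTate2.tate_eq_zero_of_isZero_sylow (split σ) P n h2 x hx

/-- **(T−2)** the Nakayama map `g ↦ ∑ₕ σ(h, g)` induces `G^ab(p) ≅ (C^G / N C)(p)`. -/
theorem tateMinusTwo : TateMinusTwo := by
  intro G _ _ p _ C σ h
  have hS := splitSeq_shortExact σ
  have acyc := tate_split_eq_zero σ h
  have hp : p.Prime := Fact.out
  constructor
  · rintro g ⟨j, hj⟩ hnorm
    apply mem_commutator_of_lam_eq_zero
    have hpw : p ^ j • lam ℤ g = 0 := by
      rw [← lam_pow]
      exact lam_eq_zero_of_mem_commutator hj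
    have hδ : (TateCohomology.δ hS (-1)).hom (lam ℤ g) = 0 := by
      rw [delta_lam]
      obtain ⟨c0, hc0⟩ := hnorm
      rw [normMap_eq] at hc0
      refine zeroπ_eq_zero_of_sum C _ (c0 - (σ : G × G → C.V) (1, 1)) ?_
      show ∑ g' : G, C.ρ g' (c0 - (σ : G × G → C.V) (1, 1)) = nak σ g
      rw [nak_eq, ← hc0]
      simp only [map_sub, Finset.sum_sub_distrib]
    let f1 : tateCohomology (split σ) (-1) →+ tateCohomology (augRep ℤ G) (-1) :=
      ((tateCohomologyFunctor (-1)).map (splitProj σ)).hom.toAddMonoidHom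
    obtain ⟨v, hv⟩ : ∃ v : tateCohomology (split σ) (-1), f1 v = lam ℤ g :=
      (ShortComplex.moduleCat_exact_iff _).1 (TateCohomology.exact₃ hS (-1)) (lam ℤ g) hδ
    have hkill : ∀ a : tateCohomology (split σ) (-1), Nat.card G • a = 0 :=
      fun a => TransferTate2.tate_card_nsmul_eq_zero (split σ) (-1) a
    obtain ⟨v', hv'p, hv'⟩ := TateZero8.exists_primary_lift f1 (Nat.card G) Nat.card_pos.ne'
      hkill p hp (lam ℤ g) ⟨j, hpw⟩ v hv
    rw [← hv', acyc (-1) v' hv'p]
    exact map_zero _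
  · intro c hc hpc
    obtain ⟨j, x', hx'⟩ := hpc
    rw [normMap_eq] at hx'
    set z : tateCohomology C 0 := zeroπ C ⟨c, hc⟩ with hz
    have hzp : p ^ j • z = 0 := by
      rw [hz, ← map_nsmul]
      refine zeroπ_eq_zero_of_sum C _ x' ?_
      rw [hx']
      rfl
    have hz0 : ((tateCohomologyFunctor 0).map (splitIncl σ)).hom z = 0 := by
      apply acyc 0
      exact ⟨j, by rw [← map_nsmul, hzp, map_zero]⟩
    have key := (ShortComplex.moduleCat_exact_iff _).1 (TateCohomology.exact₁ hS (-1))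
    obtain ⟨w, hw⟩ : ∃ w : tateCohomology (augRep ℤ G) (-1),
        (TateCohomology.δ hS (-1)).hom w = z :=
      key (show tateCohomology (splitSeq σ).X₁ (-1 + 1) from z) hz0
    obtain ⟨g0, rfl⟩ := lam_surjective w
    refine ⟨g0, ?_⟩
    rw [delta_lam] at hw
    have h0 : zeroπ C (⟨c, hc⟩ - ⟨nak σ g0, nak_mem_invariants σ g0⟩) = 0 := by
      rw [map_sub, ← hz, ← hw, sub_self]
    obtain ⟨x, hx⟩ := exists_sum_of_zeroπ_eq_zero C _ h0
    have hx2 : ∑ g : G, C.ρ g x = c - nak σ g0 := hx
    refine ⟨x - (σ : G × G → C.V) (1, 1), ?_⟩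
    rw [normMap_eq]
    simp only [map_sub, Finset.sum_sub_distrib]
    rw [hx2, nak_eq]
    abel

end Final

end

end Fermat.Agent.PT.FG.TateMinusTwo8
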