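/-
PROGRAM F (S55), chapter FG.  helper9.
**(CT2)** (Serre, Local Fields IX Thm 9) in the shape of `Interface8.TensorCohTrivial`:
`M` `p`-cohomologically trivial, `X` `ℤ`-free (finitely generated for `Hom`) ⇒ `X ⊗ M` and
`Hom(X, M)` are `p`-cohomologically trivial.  Sylow forms: it suffices that `M` is cohomologically
trivial (`CohTriv9.IsCohTrivial`) on ONE Sylow `p`-subgroup.

* generic (`{k G : Type u}`): `isZero_tate_of_pPrimary_eq_zero`, `isCohTrivial_res_of_pPrimary_eq_zero`,
  `isCohTrivial_res_tensor`, `eq_zero_of_pPrimary_tensor`, `tate_eq_zero_of_pPrimary_tensor`,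
  `groupCohomology_eq_zero_of_pPrimary_tensor`, `dualRep`, `dualTensorIsoIhom : X^∨ ⊗ M ≅ Hom(X, M)`,
  `PPrimaryTrivial`, `PPrimaryTrivial.of_iso`, `pPrimaryTrivial_ihom`;
* `k = ℤ`, `Interface8` shapes: `isPCohTrivial_iff`, `isPCohTrivial_tensor_of_sylow`,
  `isCohTrivial_res_of_isPCohTrivial`, `isPCohTrivial_tensor`, `isPCohTrivial_ihom_of_sylow`,
  `tensorCohTrivial : Interface8.TensorCohTrivial`, and the (I2) forms
  `groupCohomology_tensor_eq_zero_int`, `groupCohomology_ihom_eq_zero_int`.
-/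
import Mathlib
import Fermat.Agent.PT.FG.TensorCohTriv9
import Fermat.Agent.PT.FG.NakayamaTate9
import Fermat.Agent.PT.FG.NakayamaTateFinal2
import Fermat.Agent.PT.FG.Interface8

set_option autoImplicit false
set_option linter.unusedSectionVars false
set_option linter.style.haveILetI false

namespace Fermat.Agent.PT.FG.TensorPCohTriv9

open Function CategoryTheory Representation CategoryTheory.Limits MonoidalCategory
open Fermat.Agent.PT.FG.PGroupMod9 Fermat.Agent.PT.FG.PGroupFree9 Fermat.Agent.PT.FG.CohTriv9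
open Fermat.Agent.PT.FG.IndAcyclic9 Fermat.Agent.PT.FG.TateTransport9
open Fermat.Agent.PT.FG.TensorCohTriv9 Fermat.Agent.PT.FG.NakayamaTate9
open Fermat.Agent.PT.FG

universe u
variable {k G : Type u} [CommRing k] [Group G]


section Generic

variable {p : ℕ} [Fact p.Prime]

/-- A Tate group of a `p`-group without `p`-primary elements vanishes. -/
theorem isZero_tate_of_pPrimary_eq_zero [Fintype G] (hG : IsPGroup p G) (M : Rep.{u} k G) (n : ℤ)
    (h : ∀ x : tateCohomology M n, (∃ m : ℕ, p ^ m • x = 0) → x = 0) :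
    IsZero (tateCohomology M n) := by
  obtain ⟨a, ha⟩ := hG.exists_card_eq
  rw [Nat.card_eq_fintype_card] at ha
  refine @ModuleCat.isZero_of_subsingleton _ _ _ ⟨fun x y => ?_⟩
  rw [h x ⟨a, by rw [← ha]; exact card_nsmul_tate' M n x⟩,
    h y ⟨a, by rw [← ha]; exact card_nsmul_tate' M n y⟩]

/-- If all Tate groups of all subgroups of `G` have trivial `p`-primary part, then the restriction
of `M` to any `p`-subgroup is cohomologically trivial. -/
theorem isCohTrivial_res_of_pPrimary_eq_zero [Finite G] (M : Rep.{u} k G)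
    (h : ∀ (H : Subgroup G) [Fintype H] (n : ℤ) (x : tateCohomology (Rep.res H.subtype M) n),
      (∃ m : ℕ, p ^ m • x = 0) → x = 0)
    (P : Subgroup G) (hP : IsPGroup p P) : IsCohTrivial (Rep.res P.subtype M) := by
  intro H' _ n
  let Q : Subgroup G := H'.map P.subtype
  haveI : Fintype Q := Fintype.ofFinite _
  have hQ : IsPGroup p Q := (hP.to_subgroup H').map P.subtype
  let e : H' ≃* Q := Subgroup.equivMapOfInjective H' P.subtype P.subtype_injective
  have h0 : IsZero (tateCohomology (Rep.res Q.subtype M) n) :=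
    isZero_tate_of_pPrimary_eq_zero hQ _ n (h Q n)
  refine isZero_tate_of_equiv e (Rep.res Q.subtype M)
    (Rep.res H'.subtype (Rep.res P.subtype M)) (LinearEquiv.refl k M.V) ?_ n h0
  intro y
  rfl

/-- `X ⊗ -` preserves cohomological triviality on `p`-subgroups (`X` flat over `k`). -/
theorem isCohTrivial_res_tensor (hk : SplitsModP k p) (hkp : ∀ x : k, p • x = 0 → x = 0)
    (P : Subgroup G) [Fintype P] (hP : IsPGroup p P) (M X : Rep.{u} k G) [Module.Flat k X.V]
    (h : IsCohTrivial (Rep.res P.subtype M)) : IsCohTrivial (Rep.res P.subtype (X ⊗ M)) := by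
  haveI : Module.Flat k (Rep.res P.subtype X).V := inferInstanceAs (Module.Flat k X.V)
  exact isCohTrivial_tensor hk hkp hP (Rep.res P.subtype M) (Rep.res P.subtype X) h

/-- **(CT2), tensor part, Sylow form**: if `M` is cohomologically trivial on a Sylow `p`-subgroup
and `X` is `k`-flat, then all Tate groups of all subgroups with coefficients in `X ⊗ M` have
trivial `p`-primary part. -/
theorem eq_zero_of_pPrimary_tensor [Finite G] (hk : SplitsModP k p)
    (hkp : ∀ x : k, p • x = 0 → x = 0) (M X : Rep.{u} k G) [Module.Flat k X.V] (P : Sylow p G)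
    (hM : IsCohTrivial (Rep.res (P : Subgroup G).subtype M))
    (H : Subgroup G) [Fintype H] (n : ℤ) (x : tateCohomology (Rep.res H.subtype (X ⊗ M)) n)
    (hx : ∃ m : ℕ, p ^ m • x = 0) : x = 0 := by
  haveI : Fintype (P : Subgroup G) := Fintype.ofFinite _
  have hP := isCohTrivial_res_tensor hk hkp (P : Subgroup G) P.isPGroup' M X hM
  exact eq_zero_of_pPrimary (NakayamaTateFinal2.sylowTate k) (X ⊗ M)
    (fun Q _ hQ j => isZero_tate_of_isPGroup (X ⊗ M) P hP Q hQ j) H n x hx

end Generic

section Int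

variable {G : Type} [Group G] [Finite G] {p : ℕ} [Fact p.Prime]

theorem int_noPTorsion (p : ℕ) [Fact p.Prime] : ∀ x : ℤ, p • x = 0 → x = 0 := by
  intro x hx
  rcases (smul_eq_zero.1 hx) with h | h
  · exact absurd h (Fact.out : p.Prime).ne_zero
  · exact h

theorem flat_of_free_int (X : Rep.{0} ℤ G) (hX : Module.Free ℤ X.V) :
    @Module.Flat ℤ X.V _ _ X.hV2 := by
  have e : (AddCommGroup.toIntModule _ : Module ℤ X.V) = X.hV2 := Subsingleton.elim _ _
  rw [← e]
  infer_instance

/-- `Interface8.IsPCohTrivial` in terms of arbitrary `Fintype` instances. -/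
theorem isPCohTrivial_iff (M : Rep.{0} ℤ G) :
    Interface8.IsPCohTrivial p M ↔
      ∀ (H : Subgroup G) [Fintype H] (n : ℤ) (x : tateCohomology (Rep.res H.subtype M) n),
        (∃ m : ℕ, p ^ m • x = 0) → x = 0 := by
  constructor
  · intro h H inst n x hx
    have : inst = Fintype.ofFinite H := Subsingleton.elim _ _
    subst this
    exact h H n x hx
  · intro h H n x hx
    exact @h H (Fintype.ofFinite H) n x hx

/-- **(CT2), tensor part, Sylow form, `Interface8` shape.** -/
theorem isPCohTrivial_tensor_of_sylow (M X : Rep.{0} ℤ G) (hX : Module.Free ℤ X.V)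
    (P : Sylow p G) (hM : IsCohTrivial (Rep.res (P : Subgroup G).subtype M)) :
    Interface8.IsPCohTrivial p (X ⊗ M) := by
  haveI := flat_of_free_int X hX
  rw [isPCohTrivial_iff]
  intro H _ n x hx
  exact eq_zero_of_pPrimary_tensor (splitsModP_int p) (int_noPTorsion p) M X P hM H n x hx

/-- A `p`-cohomologically trivial module is cohomologically trivial on every `p`-subgroup. -/
theorem isCohTrivial_res_of_isPCohTrivial (M : Rep.{0} ℤ G) (h : Interface8.IsPCohTrivial p M)
    (P : Subgroup G) (hP : IsPGroup p P) : IsCohTrivial (Rep.res P.subtype M) :=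
  isCohTrivial_res_of_pPrimary_eq_zero M ((isPCohTrivial_iff M).1 h) P hP

/-- **(CT2), tensor part.** -/
theorem isPCohTrivial_tensor (M X : Rep.{0} ℤ G) (hX : Module.Free ℤ X.V)
    (hM : Interface8.IsPCohTrivial p M) : Interface8.IsPCohTrivial p (X ⊗ M) := by
  let P : Sylow p G := default
  exact isPCohTrivial_tensor_of_sylow M X hX P
    (isCohTrivial_res_of_isPCohTrivial M hM (P : Subgroup G) P.isPGroup')

end Int

section GroupCoh

variable {p : ℕ} [Fact p.Prime]

/-- **(CT2), tensor part, for the whole group, Tate form.** -/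
theorem tate_eq_zero_of_pPrimary_tensor [Fintype G] (hk : SplitsModP k p)
    (hkp : ∀ x : k, p • x = 0 → x = 0) (M X : Rep.{u} k G) [Module.Flat k X.V] (P : Sylow p G)
    (hM : IsCohTrivial (Rep.res (P : Subgroup G).subtype M))
    (n : ℤ) (x : tateCohomology (X ⊗ M) n) (hx : ∃ m : ℕ, p ^ m • x = 0) : x = 0 := by
  haveI : Fintype (P : Subgroup G) := Fintype.ofFinite _
  have hP := isCohTrivial_res_tensor hk hkp (P : Subgroup G) P.isPGroup' M X hM
  exact NakayamaTateFinal2.sylowTate k G p (X ⊗ M) P n (isZero_tate_of_isCohTrivial hP n) x hx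

/-- **(CT2), tensor part, for the whole group, ordinary cohomology in degrees `≥ 1`.** -/
theorem groupCohomology_eq_zero_of_pPrimary_tensor [Finite G] (hk : SplitsModP k p)
    (hkp : ∀ x : k, p • x = 0 → x = 0) (M X : Rep.{u} k G) [Module.Flat k X.V] (P : Sylow p G)
    (hM : IsCohTrivial (Rep.res (P : Subgroup G).subtype M))
    (n : ℕ) (x : groupCohomology (X ⊗ M) (n + 1)) (hx : ∃ m : ℕ, p ^ m • x = 0) : x = 0 := by
  haveI : Fintype G := Fintype.ofFinite _
  let e : tateCohomology (X ⊗ M) ((n + 1 : ℕ) : ℤ) ≅ groupCohomology (X ⊗ M) (n + 1) :=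
    (TateCohomology.isoGroupCohomology (R := k) (G := G) (n + 1)).app (X ⊗ M)
  obtain ⟨m, hm⟩ := hx
  have h1 : e.inv.hom x = 0 := by
    refine tate_eq_zero_of_pPrimary_tensor hk hkp M X P hM _ _ ⟨m, ?_⟩
    rw [← map_nsmul, hm, map_zero]
  have h2 : e.hom.hom (e.inv.hom x) = x := by
    rw [← LinearMap.comp_apply, ← ModuleCat.hom_comp, e.inv_hom_id]
    rfl
  rw [← h2, h1, map_zero]

end GroupCoh

section Hom

/-- The dual representation `X^∨ = Hom_k(X, k)`. -/
noncomputable abbrev dualRep (X : Rep.{u} k G) : Rep.{u} k G := Rep.of X.ρ.dual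

/-- `X^∨ ⊗ M ≅ Hom(X, M)` for `X` finitely generated projective over `k`. -/
noncomputable def dualTensorIsoIhom (X M : Rep.{u} k G) [Module.Finite k X.V]
    [Module.Projective k X.V] : dualRep X ⊗ M ≅ (Rep.ihom X).obj M :=
  Rep.mkIso (Representation.Equiv.mk (dualTensorHomEquiv k X.V M.V)
    (fun g => Representation.dualTensorHom_comm X.ρ M.ρ g))

variable {p : ℕ} [Fact p.Prime]

/-- all Tate groups of all subgroups have trivial `p`-primary part -/
def PPrimaryTrivial (p : ℕ) (M : Rep.{u} k G) : Prop :=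
  ∀ (H : Subgroup G) [Fintype H] (n : ℤ) (x : tateCohomology (Rep.res H.subtype M) n),
    (∃ m : ℕ, p ^ m • x = 0) → x = 0

omit [Fact p.Prime] in
theorem PPrimaryTrivial.of_iso {M N : Rep.{u} k G} (e : M ≅ N) (h : PPrimaryTrivial p M) :
    PPrimaryTrivial p N := by
  intro H _ n x hx
  let e' : tateCohomology (Rep.res H.subtype M) n ≅ tateCohomology (Rep.res H.subtype N) n :=
    (tateCohomologyFunctor n).mapIso ((Rep.resFunctor H.subtype).mapIso e)
  obtain ⟨m, hm⟩ := hx
  have h1 : e'.inv.hom x = 0 := by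
    refine h H n _ ⟨m, ?_⟩
    rw [← map_nsmul, hm, map_zero]
  have h2 : e'.hom.hom (e'.inv.hom x) = x := by
    rw [← LinearMap.comp_apply, ← ModuleCat.hom_comp, e'.inv_hom_id]
    rfl
  rw [← h2, h1, map_zero]

/-- **(CT2), Hom part, Sylow form.** -/
theorem pPrimaryTrivial_ihom [Finite G] (hk : SplitsModP k p)
    (hkp : ∀ x : k, p • x = 0 → x = 0) (M X : Rep.{u} k G) [Module.Finite k X.V]
    [Module.Projective k X.V] (P : Sylow p G)
    (hM : IsCohTrivial (Rep.res (P : Subgroup G).subtype M)) :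
    PPrimaryTrivial p ((Rep.ihom X).obj M) := by
  haveI : Module.Flat k (dualRep X).V := inferInstanceAs (Module.Flat k (Module.Dual k X.V))
  refine PPrimaryTrivial.of_iso (dualTensorIsoIhom X M) ?_
  intro H _ n x hx
  exact eq_zero_of_pPrimary_tensor hk hkp M (dualRep X) P hM H n x hx

/-- **(CT2), Hom part, for the whole group, ordinary cohomology in degrees `≥ 1`.** -/
theorem groupCohomology_eq_zero_of_pPrimary_ihom [Finite G] (hk : SplitsModP k p)
    (hkp : ∀ x : k, p • x = 0 → x = 0) (M X : Rep.{u} k G) [Module.Finite k X.V]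
    [Module.Projective k X.V] (P : Sylow p G)
    (hM : IsCohTrivial (Rep.res (P : Subgroup G).subtype M)) (n : ℕ)
    (x : groupCohomology ((Rep.ihom X).obj M) (n + 1)) (hx : ∃ m : ℕ, p ^ m • x = 0) :
    x = 0 := by
  haveI : Module.Flat k (dualRep X).V := inferInstanceAs (Module.Flat k (Module.Dual k X.V))
  let e : groupCohomology (dualRep X ⊗ M) (n + 1) ≅ groupCohomology ((Rep.ihom X).obj M) (n + 1) :=
    (groupCohomology.functor k G (n + 1)).mapIso (dualTensorIsoIhom X M)
  obtain ⟨m, hm⟩ := hx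
  have h3 : e.inv.hom x = 0 := by
    refine groupCohomology_eq_zero_of_pPrimary_tensor hk hkp M (dualRep X) P hM n _ ⟨m, ?_⟩
    rw [← map_nsmul, hm, map_zero]
  have h4 : e.hom.hom (e.inv.hom x) = x := by
    rw [← LinearMap.comp_apply, ← ModuleCat.hom_comp, e.inv_hom_id]
    rfl
  rw [← h4, h3, map_zero]

end Hom

section Final

variable {G : Type} [Group G] [Finite G] {p : ℕ} [Fact p.Prime]

theorem finite_projective_of_int (X : Rep.{0} ℤ G) (hX : Module.Free ℤ X.V)
    (hX' : Module.Finite ℤ X.V) :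
    @Module.Finite ℤ X.V _ _ X.hV2 ∧ @Module.Projective ℤ _ X.V _ X.hV2 := by
  have e : (AddCommGroup.toIntModule _ : Module ℤ X.V) = X.hV2 := Subsingleton.elim _ _
  rw [← e]
  exact ⟨hX', inferInstance⟩

/-- **(CT2), Hom part, Sylow form, `Interface8` shape.** -/
theorem isPCohTrivial_ihom_of_sylow (M X : Rep.{0} ℤ G) (hX : Module.Free ℤ X.V)
    (hX' : Module.Finite ℤ X.V) (P : Sylow p G)
    (hM : IsCohTrivial (Rep.res (P : Subgroup G).subtype M)) :
    Interface8.IsPCohTrivial p ((Rep.ihom X).obj M) := by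
  obtain ⟨h1, h2⟩ := finite_projective_of_int X hX hX'
  rw [isPCohTrivial_iff]
  exact pPrimaryTrivial_ihom (splitsModP_int p) (int_noPTorsion p) M X P hM

/-- **(CT2)** (Serre, Local Fields IX Thm 9) in the shape of `Interface8`. -/
theorem tensorCohTrivial : Interface8.TensorCohTrivial := by
  intro G _ _ p _ M X hX hX' hM
  let P : Sylow p G := default
  have hP := isCohTrivial_res_of_isPCohTrivial M hM (P : Subgroup G) P.isPGroup'
  exact ⟨isPCohTrivial_tensor_of_sylow M X hX P hP, isPCohTrivial_ihom_of_sylow M X hX hX' P hP⟩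

/-- **(I2)**: if `M` is cohomologically trivial on a Sylow `p`-subgroup and `X` is `ℤ`-free, then
`Hⁿ(G, X ⊗ M)` has trivial `p`-primary part for all `n ≥ 1`. -/
theorem groupCohomology_tensor_eq_zero_int (M X : Rep.{0} ℤ G) (hX : Module.Free ℤ X.V)
    (P : Sylow p G) (hM : IsCohTrivial (Rep.res (P : Subgroup G).subtype M)) (n : ℕ)
    (x : groupCohomology (X ⊗ M) (n + 1)) (hx : Interface8.IsPPrimary p x) : x = 0 := by
  haveI := flat_of_free_int X hX
  exact groupCohomology_eq_zero_of_pPrimary_tensor (splitsModP_int p) (int_noPTorsion p) M X P hM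
    n x hx

/-- **(I2)** for `Hom(X, M)`, `X` finitely generated free. -/
theorem groupCohomology_ihom_eq_zero_int (M X : Rep.{0} ℤ G) (hX : Module.Free ℤ X.V)
    (hX' : Module.Finite ℤ X.V)
    (P : Sylow p G) (hM : IsCohTrivial (Rep.res (P : Subgroup G).subtype M)) (n : ℕ)
    (x : groupCohomology ((Rep.ihom X).obj M) (n + 1)) (hx : Interface8.IsPPrimary p x) :
    x = 0 := by
  obtain ⟨h1, h2⟩ := finite_projective_of_int X hX hX'
  exact groupCohomology_eq_zero_of_pPrimary_ihom (splitsModP_int p) (int_noPTorsion p) M X P hM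
    n x hx

end Final

end Fermat.Agent.PT.FG.TensorPCohTriv9
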